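import Fermat.Agent.S58.Reduction
import Fermat.Agent.EC.ResRep
import Fermat.Prelude.Def_WeierstrassCurve_Mlc1RowStatement

/-!
# S59: the top level assembly

`stmt59_of`: S59 follows from S35, S36, the existence of auxiliary primes, three level lowering
statements (for semistable curves only) and the climb (R = T in characteristic zero).
-/

set_option autoImplicit false
set_option linter.unusedVariables false

noncomputable section

open WeierstrassCurve ModularFormClass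
open scoped WeierstrassCurve.Affine

namespace Fermat.Agent.S59aux

open Fermat.Agent.Tate Fermat.Agent.S58aux Fermat.Agent.ECFrob

/-- The mod `p` representation of `W` is unramified at `q`. -/
def UnrAt (W : WeierstrassCurve ℤ) (p q : ℕ) : Prop :=
  ∀ A : ValuationSubring (AlgebraicClosure ℚ), A.LiesOverPrime q →
    ∀ σ ∈ A.inertiaSubgroupIn ℚ,
      WeierstrassCurve.Affine.Point.galoisRepModuleEnd (K := AlgebraicClosure ℚ) ℚ
        (W.map (Int.castRingHom ℚ)) p σ = 1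

theorem unrAt_of_good {W : WeierstrassCurve ℤ} {p q : ℕ} (hp : p.Prime) (hq : q.Prime)
    (hqp : q ≠ p) (hgood : W.IsGoodPrimeFor q) : UnrAt W p q := by
  haveI : Fact q.Prime := ⟨hq⟩
  intro A hA σ hσ
  exact rho_inertia hgood hA hσ (fun h => hqp ((Nat.prime_dvd_prime_iff_eq hq hp).mp h))

/-- An auxiliary prime: good, different from `p`, `≡ 11 mod 12` (so no elliptic elements),
`≢ 1 mod p`, and at which no level raising is possible. -/
structure AuxPrime (W : WeierstrassCurve ℤ) (p r : ℕ) : Prop where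
  prime : r.Prime
  ne : r ≠ p
  good : W.IsGoodPrimeFor r
  mod_twelve : r % 12 = 11
  not_one : r % p ≠ 1
  not_raising : ¬ (p : ℤ) ∣ (W.apOfModel r) ^ 2 - ((r : ℤ) + 1) ^ 2

/-- Existence of auxiliary primes. -/
def AuxExists : Prop :=
  ∀ (p : ℕ) (_ : p = 3 ∨ p = 5) (W : WeierstrassCurve ℤ) (_ : W.Δ ≠ 0)
    (_ : W.IsSemistableModel) (_ : W.ModRepIsIrreducible p) (S : Finset ℕ),
    ∃ r, r ∉ S ∧ AuxPrime W p r

/-- (E0) Level lowering from `q²` to `q`. -/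
def LowerSq : Prop :=
  ∀ (p : ℕ) (_ : p = 3 ∨ p = 5) (W : WeierstrassCurve ℤ) (_ : W.Δ ≠ 0)
    (_ : W.IsSemistableModel) (_ : W.ModRepIsIrreducible p)
    (r M q : ℕ) (_ : AuxPrime W p r) (_ : 0 < M) (_ : r ∣ M) (_ : ¬ r ^ 2 ∣ M)
    (_ : ¬ p ^ 2 ∣ M) (_ : ∀ q' : ℕ, q'.Prime → q' ≠ p → ¬ q' ^ 3 ∣ M)
    (_ : q.Prime) (_ : q ≠ p) (_ : q ^ 2 ∣ M)
    (_ : W.IsResiduallyModularOfLevel p M),
    W.IsResiduallyModularOfLevel p (M / q)

/-- (E1) Level lowering at `q ‖ M`, `q ≠ p`, `E[p]` unramified at `q`. -/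
def LowerUnr : Prop :=
  ∀ (p : ℕ) (_ : p = 3 ∨ p = 5) (W : WeierstrassCurve ℤ) (_ : W.Δ ≠ 0)
    (_ : W.IsSemistableModel) (_ : W.ModRepIsIrreducible p)
    (r M q : ℕ) (_ : AuxPrime W p r) (_ : Squarefree M) (_ : r ∣ M)
    (_ : q.Prime) (_ : q ≠ p) (_ : q ≠ r) (_ : q ∣ M) (_ : UnrAt W p q)
    (_ : W.IsResiduallyModularOfLevel p M),
    W.IsResiduallyModularOfLevel p (M / q)

/-- (E2) Level lowering at `p`, `W` good at `p`. -/
def LowerAtP : Prop :=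
  ∀ (p : ℕ) (_ : p = 3 ∨ p = 5) (W : WeierstrassCurve ℤ) (_ : W.Δ ≠ 0)
    (_ : W.IsSemistableModel) (_ : W.ModRepIsIrreducible p)
    (r M : ℕ) (_ : AuxPrime W p r) (_ : Squarefree M) (_ : r ∣ M) (_ : p ∣ M)
    (_ : W.IsGoodPrimeFor p)
    (_ : W.IsResiduallyModularOfLevel p M),
    W.IsResiduallyModularOfLevel p (M / p)

theorem AuxPrime.mod_three {W : WeierstrassCurve ℤ} {p r : ℕ} (h : AuxPrime W p r) : r % 3 = 2 := by
  have := h.mod_twelve
  omega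

/-- The climb: from a residually modular minimal level to modularity. -/
def Climb : Prop :=
  ∀ (p : ℕ) (_ : p = 3 ∨ p = 5) (W : WeierstrassCurve ℤ) (_ : W.Δ ≠ 0)
    (_ : W.IsSemistableModel) (_ : W.ModRepIsIrreducible p)
    (r N₀ : ℕ) (_ : AuxPrime W p r) (_ : Squarefree N₀) (_ : r ∣ N₀)
    (_ : N₀ ∣ r * W.conductorLevel)
    (_ : ∀ q : ℕ, q.Prime → q ∣ N₀ → q = r ∨ q = p ∨ ¬ UnrAt W p q)
    (_ : W.IsResiduallyModularOfLevel p N₀),
    W.IsModularModelOfLevel (r * W.conductorLevel)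

/-- Raising the level of a residual modularity statement. -/
theorem resMod_raise {W : WeierstrassCurve ℤ} {p M N : ℕ} (hN : 0 < N) (hMN : M ∣ N)
    (h : W.IsResiduallyModularOfLevel p M) : W.IsResiduallyModularOfLevel p N := by
  haveI : NeZero N := ⟨hN.ne'⟩
  obtain ⟨f, 𝔪, hf, hmax, hp, hcong⟩ := h
  obtain ⟨g, hg, hgf⟩ := Fermat.Agent.Oldforms.exists_eigenform_raise hMN f hf
  refine ⟨g, 𝔪, hg, hmax, hp, fun ℓ hℓ hgood hℓN hℓp => ?_⟩
  obtain ⟨a, ha, ha2⟩ := hcong ℓ hℓ hgood (fun h => hℓN (h.trans hMN)) hℓp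
  exact ⟨a, by rw [ha, hgf ℓ hℓ (fun h => absurd h hℓN)], ha2⟩

theorem dvd_div_of {M q r : ℕ} (hq : q.Prime) (hr : r.Prime) (hqr : q ≠ r) (hqM : q ∣ M)
    (hrM : r ∣ M) : r ∣ M / q := by
  obtain ⟨t, rfl⟩ := hqM
  rw [Nat.mul_div_cancel_left _ hq.pos]
  exact (hr.dvd_mul.mp hrM).resolve_left
    (fun h => hqr ((Nat.prime_dvd_prime_iff_eq hr hq).mp h).symm)

/-- Stage 1: removing the squares. -/
theorem stage1 (h0 : LowerSq) {p : ℕ} (hp : p = 3 ∨ p = 5) {W : WeierstrassCurve ℤ}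
    (hΔ : W.Δ ≠ 0) (hW : W.IsSemistableModel) (hirr : W.ModRepIsIrreducible p) {r : ℕ}
    (hr : AuxPrime W p r) (n : ℕ) : ∀ M : ℕ, M ≤ n → 0 < M → r ∣ M → ¬ r ^ 2 ∣ M →
    ¬ p ^ 2 ∣ M → (∀ q : ℕ, q.Prime → q ≠ p → ¬ q ^ 3 ∣ M) →
    W.IsResiduallyModularOfLevel p M →
    ∃ M', M' ∣ M ∧ Squarefree M' ∧ r ∣ M' ∧ W.IsResiduallyModularOfLevel p M' := by
  have hpp : p.Prime := by rcases hp with rfl | rfl <;> norm_num
  induction n with
  | zero => intro M hM h0; omega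
  | succ n ih =>
    intro M hMn hM0 hrM hr2 hp2 hcube hres
    by_cases hsq : Squarefree M
    · exact ⟨M, dvd_rfl, hsq, hrM, hres⟩
    · rw [Nat.squarefree_iff_prime_squarefree] at hsq
      push Not at hsq
      obtain ⟨q, hq, hqM⟩ := hsq
      have hq2 : q ^ 2 ∣ M := by rwa [sq]
      have hqp : q ≠ p := by rintro rfl; exact hp2 hq2
      have hqr : q ≠ r := by rintro rfl; exact hr2 hq2
      have hqd : q ∣ M := (dvd_pow_self q two_ne_zero).trans hq2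
      have hres' := h0 p hp W hΔ hW hirr r M q hr hM0 hrM hr2 hp2 hcube hq hqp hq2 hres
      have hdiv : M / q ∣ M := Nat.div_dvd_of_dvd hqd
      have hlt : M / q < M := Nat.div_lt_self hM0 hq.one_lt
      have hpos : 0 < M / q := Nat.div_pos (Nat.le_of_dvd hM0 hqd) hq.pos
      obtain ⟨M', h1, h2, h3, h4⟩ := ih (M / q) (by omega) hpos
        (dvd_div_of hq hr.prime hqr hqd hrM) (fun h => hr2 (h.trans hdiv))
        (fun h => hp2 (h.trans hdiv)) (fun q' hq' hq'p h => hcube q' hq' hq'p (h.trans hdiv)) hres'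
      exact ⟨M', h1.trans hdiv, h2, h3, h4⟩

/-- Stage 2: removing the unramified primes. -/
theorem stage2 (h1 : LowerUnr) {p : ℕ} (hp : p = 3 ∨ p = 5) {W : WeierstrassCurve ℤ}
    (hΔ : W.Δ ≠ 0) (hW : W.IsSemistableModel) (hirr : W.ModRepIsIrreducible p) {r : ℕ}
    (hr : AuxPrime W p r) (n : ℕ) : ∀ M : ℕ, M ≤ n → Squarefree M → r ∣ M →
    W.IsResiduallyModularOfLevel p M →
    ∃ M', M' ∣ M ∧ Squarefree M' ∧ r ∣ M' ∧ W.IsResiduallyModularOfLevel p M' ∧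
      ∀ q : ℕ, q.Prime → q ∣ M' → q = r ∨ q = p ∨ ¬ UnrAt W p q := by
  induction n with
  | zero =>
    intro M hM h0
    exact absurd (Nat.le_zero.mp hM) h0.ne_zero
  | succ n ih =>
    intro M hMn hsq hrM hres
    have hM0 : 0 < M := Nat.pos_of_ne_zero hsq.ne_zero
    by_cases hall : ∀ q : ℕ, q.Prime → q ∣ M → q = r ∨ q = p ∨ ¬ UnrAt W p q
    · exact ⟨M, dvd_rfl, hsq, hrM, hres, hall⟩
    · push Not at hall
      obtain ⟨q, hq, hqd, hqr, hqp, hunr⟩ := hall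
      have hres' := h1 p hp W hΔ hW hirr r M q hr hsq hrM hq hqp hqr hqd hunr hres
      have hdiv : M / q ∣ M := Nat.div_dvd_of_dvd hqd
      have hlt : M / q < M := Nat.div_lt_self hM0 hq.one_lt
      obtain ⟨M', h1, h2, h3, h4, h5⟩ := ih (M / q) (by omega) (hsq.squarefree_of_dvd hdiv)
        (dvd_div_of hq hr.prime hqr hqd hrM) hres'
      exact ⟨M', h1.trans hdiv, h2, h3, h4, h5⟩

/-- Stages 2 and 3: the minimal level. -/
theorem exists_minimal_level (h1 : LowerUnr) (h2 : LowerAtP) {p : ℕ}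
    (hp : p = 3 ∨ p = 5) {W : WeierstrassCurve ℤ}
    (hΔ : W.Δ ≠ 0) (hW : W.IsSemistableModel) (hirr : W.ModRepIsIrreducible p) {r : ℕ}
    (hr : AuxPrime W p r) {M₁ : ℕ} (hsq₁ : Squarefree M₁) (hrM₁ : r ∣ M₁)
    (hres₁ : W.IsResiduallyModularOfLevel p M₁) :
    ∃ N₀, Squarefree N₀ ∧ r ∣ N₀ ∧ N₀ ∣ r * W.conductorLevel ∧
      (∀ q : ℕ, q.Prime → q ∣ N₀ → q = r ∨ q = p ∨ ¬ UnrAt W p q) ∧
      W.IsResiduallyModularOfLevel p N₀ := by
  have hpp : p.Prime := by rcases hp with rfl | rfl <;> norm_num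
  obtain ⟨M₂, -, hsq₂, hrM₂, hres₂, hram₂⟩ :=
    stage2 h1 hp hΔ hW hirr hr M₁ M₁ le_rfl hsq₁ hrM₁ hres₁
  -- stage 3
  obtain ⟨N₀, hN₀, hsq, hrN, hres', hpgood⟩ : ∃ N₀, N₀ ∣ M₂ ∧ Squarefree N₀ ∧ r ∣ N₀ ∧
      W.IsResiduallyModularOfLevel p N₀ ∧ (p ∣ N₀ → ¬ W.IsGoodPrimeFor p) := by
    by_cases h : p ∣ M₂ ∧ W.IsGoodPrimeFor p
    · have hdiv : M₂ / p ∣ M₂ := Nat.div_dvd_of_dvd h.1
      refine ⟨M₂ / p, hdiv, hsq₂.squarefree_of_dvd hdiv,
        dvd_div_of hpp hr.prime (Ne.symm hr.ne) h.1 hrM₂,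
        h2 p hp W hΔ hW hirr r M₂ hr hsq₂ hrM₂ h.1 h.2 hres₂, ?_⟩
      intro h3
      exfalso
      obtain ⟨t, ht⟩ := h3
      obtain ⟨s, hs⟩ := h.1
      rw [hs, Nat.mul_div_cancel_left _ hpp.pos] at ht
      have h4 : p * p ∣ M₂ := ⟨t, by rw [hs, ht, mul_assoc]⟩
      exact hpp.one_lt.ne' (Nat.isUnit_iff.mp (hsq₂ p h4))
    · exact ⟨M₂, dvd_rfl, hsq₂, hrM₂, hres₂, fun h3 h4 => h ⟨h3, h4⟩⟩
  have hram : ∀ q : ℕ, q.Prime → q ∣ N₀ → q = r ∨ q = p ∨ ¬ UnrAt W p q :=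
    fun q hq hqN => hram₂ q hq (hqN.trans hN₀)
  refine ⟨N₀, hsq, hrN, ?_, hram, hres'⟩
  rw [← Nat.prod_primeFactors_of_squarefree hsq]
  refine Finset.prod_primes_dvd _ (fun q hq => (Nat.prime_of_mem_primeFactors hq).prime) ?_
  intro q hq
  have hq1 := Nat.prime_of_mem_primeFactors hq
  have hq2 := Nat.dvd_of_mem_primeFactors hq
  by_cases hqr : q = r
  · rw [hqr]; exact dvd_mul_right _ _
  refine dvd_mul_of_dvd_right ?_ _
  rw [WeierstrassCurve.prime_dvd_conductorLevel_iff W hΔ hq1]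
  by_contra hgood
  rcases hram q hq1 hq2 with h | h | h
  · exact hqr h
  · subst h; exact hpgood hq2 hgood
  · by_cases hqp : q = p
    · subst hqp; exact hpgood hq2 hgood
    · exact h (unrAt_of_good hpp hq1 hqp hgood)

/-- From a squarefree level divisible by an auxiliary prime. -/
theorem core (h35 : Stmt35) (h36 : Stmt36) (h1 : LowerUnr) (h2 : LowerAtP) (hclimb : Climb)
    {p : ℕ} (hp : p = 3 ∨ p = 5)
    {W : WeierstrassCurve ℤ} (hΔ : W.Δ ≠ 0) (hW : W.IsSemistableModel)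
    (hirr : W.ModRepIsIrreducible p) {r : ℕ} (hr : AuxPrime W p r)
    {M₁ : ℕ} (hsq₁ : Squarefree M₁) (hrM₁ : r ∣ M₁) (hres₁ : W.IsResiduallyModularOfLevel p M₁) :
    Mlc1IsModularModelOfExactConductorLevel W := by
  have hpp : p.Prime := by rcases hp with rfl | rfl <;> norm_num
  haveI : Fact p.Prime := ⟨hpp⟩
  have hp2 : p ≠ 2 := by rcases hp with rfl | rfl <;> norm_num
  obtain ⟨N₀, hsq, hrN, hN₀, hram, hres⟩ :=
    exists_minimal_level h1 h2 hp hΔ hW hirr hr hsq₁ hrM₁ hres₁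
  have hmod := hclimb p hp W hΔ hW hirr r N₀ hr hsq hrN hN₀ hram hres
  -- the level `r * conductorLevel` is squarefree
  have hrc : ¬ r ∣ W.conductorLevel := fun h =>
    hr.good ((WeierstrassCurve.prime_dvd_conductorLevel_iff W hΔ hr.prime).mp h)
  have hsqN : Squarefree (r * W.conductorLevel) := by
    rw [Nat.squarefree_mul ((Nat.Prime.coprime_iff_not_dvd hr.prime).mpr hrc)]
    exact ⟨hr.prime.squarefree, W.squarefree_conductorLevel⟩
  have hno : ∀ q : ℕ, q.Prime → ¬ q ^ 2 ∣ r * W.conductorLevel := by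
    intro q hq h
    rw [sq] at h
    exact hq.one_lt.ne' (Nat.isUnit_iff.mp (hsqN q h))
  have hfin : W.IsModularModelOfLevel W.conductorLevel :=
    stmt58_of h35 h36 W (r * W.conductorLevel) p hp2
      (fun hΔ => tateRep_residual_isAbsolutelyIrreducible _ p hp2 hirr)
      (fun hΔ => tateRep_residual_isOdd _ p hp2)
      (fun hΔ q hq hqp => tateRep_unipotent_of_semistable _ p hW hp2 hq hqp)
      (hno p hpp) hmod
      (fun ℓ hℓ h => dvd_mul_of_dvd_right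
        ((WeierstrassCurve.prime_dvd_conductorLevel_iff W hΔ hℓ).mpr h) _)
      (fun q hq h => hno q hq ((pow_dvd_pow q (by norm_num)).trans h))
  exact ⟨W.conductorLevel, W.conductorLevel_pos, W.squarefree_conductorLevel,
    fun q hq => WeierstrassCurve.prime_dvd_conductorLevel_iff W hΔ hq, hfin⟩

/-- **Modularity lifting from a squarefree level** (no (E0)). -/
theorem liftSf_of (h35 : Stmt35) (h36 : Stmt36) (haux : AuxExists) (h1 : LowerUnr)
    (h2 : LowerAtP) (hclimb : Climb)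
    (p : ℕ) (hp : p = 3 ∨ p = 5)
    (W : WeierstrassCurve ℤ) (hΔ : W.Δ ≠ 0) (hW : W.IsSemistableModel)
    (hirr : W.ModRepIsIrreducible p)
    (M₀ : ℕ) (hsq : Squarefree M₀) (hres₀ : W.IsResiduallyModularOfLevel p M₀) :
    Mlc1IsModularModelOfExactConductorLevel W := by
  have hM0 : M₀ ≠ 0 := hsq.ne_zero
  obtain ⟨r, hrS, hr⟩ := haux p hp W hΔ hW hirr M₀.primeFactors
  have hrM₀ : ¬ r ∣ M₀ := fun h => hrS (Nat.mem_primeFactors.mpr ⟨hr.prime, h, hM0⟩)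
  refine core h35 h36 h1 h2 hclimb hp hΔ hW hirr hr (M₁ := M₀ * r) ?_ (dvd_mul_left _ _)
    (resMod_raise (Nat.mul_pos (Nat.pos_of_ne_zero hM0) hr.prime.pos) (dvd_mul_right _ _) hres₀)
  rw [mul_comm, Nat.squarefree_mul ((Nat.Prime.coprime_iff_not_dvd hr.prime).mpr hrM₀)]
  exact ⟨hr.prime.squarefree, hsq⟩

/-- **S59** from its inputs. -/
theorem stmt59_of (h35 : Stmt35) (h36 : Stmt36) (haux : AuxExists) (h0 : LowerSq)
    (h1 : LowerUnr) (h2 : LowerAtP) (hclimb : Climb)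
    (p : ℕ) (hp : p = 3 ∨ p = 5)
    (W : WeierstrassCurve ℤ) (hΔ : W.Δ ≠ 0) (hW : W.IsSemistableModel)
    (hirr : W.ModRepIsIrreducible p)
    (M₀ : ℕ) [NeZero M₀] (hres₀ : W.IsResiduallyModularOfLevel p M₀)
    (hM₀ : ¬ p ^ 2 ∣ M₀)
    (hM₀3 : ∀ q : ℕ, q.Prime → q ≠ p → ¬ q ^ 3 ∣ M₀) :
    Mlc1IsModularModelOfExactConductorLevel W := by
  have hpp : p.Prime := by rcases hp with rfl | rfl <;> norm_num
  have hM0 : 0 < M₀ := Nat.pos_of_ne_zero (NeZero.ne M₀)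
  obtain ⟨r, hrS, hr⟩ := haux p hp W hΔ hW hirr M₀.primeFactors
  have hrM₀ : ¬ r ∣ M₀ := fun h => hrS (Nat.mem_primeFactors.mpr ⟨hr.prime, h, hM0.ne'⟩)
  have hcop : ∀ n : ℕ, ∀ q : ℕ, q.Prime → q ≠ r → q ^ n ∣ M₀ * r → q ^ n ∣ M₀ := by
    intro n q hq hqr h
    exact (Nat.Coprime.pow_left n ((Nat.coprime_primes hq hr.prime).mpr hqr)).dvd_of_dvd_mul_right h
  have hr2 : ¬ r ^ 2 ∣ M₀ * r := by
    rintro ⟨t, ht⟩
    have h3 : M₀ = r * t := by
      have : r * M₀ = r * (r * t) := by rw [mul_comm r M₀, ht]; ring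
      exact Nat.eq_of_mul_eq_mul_left hr.prime.pos this
    exact hrM₀ ⟨t, h3⟩
  obtain ⟨M₁, -, hsq₁, hrM₁, hres₁⟩ :=
    stage1 h0 hp hΔ hW hirr hr (M₀ * r) (M₀ * r) le_rfl (Nat.mul_pos hM0 hr.prime.pos)
      (dvd_mul_left _ _) hr2
      (fun h => hM₀ (hcop 2 p hpp (Ne.symm hr.ne) h))
      (fun q hq hqp h => by
        by_cases hqr : q = r
        · subst hqr
          exact hr2 ((pow_dvd_pow q (by norm_num)).trans h)
        · exact hM₀3 q hq hqp (hcop 3 q hq hqr h))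
      (resMod_raise (Nat.mul_pos hM0 hr.prime.pos) (dvd_mul_right _ _) hres₀)
  exact core h35 h36 h1 h2 hclimb hp hΔ hW hirr hr hsq₁ hrM₁ hres₁

end Fermat.Agent.S59aux

end
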