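import Fermat.Agent.S59.NonTriv
import Fermat.Agent.Cofaith.Span
import Fermat.Agent.S41.HmEig

/-!
# The end of the climb: from a point killing the annihilator to `Occurs`
-/

set_option autoImplicit false

noncomputable section

open CongruenceSubgroup ModularCurve ModularCurve.Period IsLocalRing

namespace Fermat.Agent.S59aux

open Fermat.Agent.TwExact Fermat.Agent.TwHecke Fermat.Agent.HeckePar Fermat.Agent.GalRep
  Fermat.Agent.RTE

section Kill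

variable {N : ℕ} [NeZero N] {R : Type} [CommRing R] [IsLocalRing R] [IsNoetherianRing R]
  [IsAdicComplete (maximalIdeal R) R] [IsAddTorsionFree R] {ε : (ZMod N)ˣ →* Rˣ} {S : Set ℕ}
  {θ : PIdx S → ResidueField R}

/-- Hecke polynomials which vanish on cusp forms kill the localised `H¹`. -/
theorem cev_toPoly_eq_zero (hε : ε = 1) {ℓ₀ : PIdx S} (h1 : (((ℓ₀.1 : ℕ) : ℕ) : ZMod N) = 1)
    (hodd : Odd (ℓ₀.1 : ℕ)) (hu : IsUnit (((ℓ₀.1 : ℕ) : ℕ) : R))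
    (hθ : θ ℓ₀ ≠ (((ℓ₀.1 : ℕ) : ℕ) : ResidueField R) + 1) (t : HeckeAlgS S)
    (ht : evS N S t = 0) {x : HM N ε R} (hx : x ∈ Hm N ε R S θ) :
    cev (hop N ε R S) (hop_commute N ε R S) (toPoly R t) x = 0 := by
  obtain ⟨e, he⟩ := exists_isIdem_Hm (M := N) (S := S) R ε θ
  refine he.eq_zero (cev_mem_mpart _ _ hx) (s := toPoly R (eisPoly ℓ₀)) ?_ ?_
  · rw [eisPoly, map_sub, toPoly_X, toPoly_C, map_sub, evk_X, evk_C]
    intro h0
    apply hθ
    rw [sub_eq_zero] at h0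
    rw [h0]
    push_cast
    rfl
  · rw [← cev_mul_apply, mul_comm, cev_mul_apply]
    exact cev_eq_zero_of_parZ hε t (fun y hy => Fermat.Agent.Cofaith.parEval_eq_zero N S t ht hy)
      (cev_eisPoly_mem_par h1 hodd hu x)

end Kill

/-- An auxiliary prime from the strong non-Eisenstein condition. -/
theorem exists_aux_prime {k : Type*} [Field k] {S : Set ℕ} {θ : PIdx S → k}
    (hne : S41hm.StrongNonEis S θ) (M : ℕ) [NeZero M] : ∃ ℓ₀ : PIdx S,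
      (((ℓ₀.1 : ℕ) : ℕ) : ZMod M) = 1 ∧ Odd (ℓ₀.1 : ℕ) ∧ θ ℓ₀ ≠ (((ℓ₀.1 : ℕ) : ℕ) : k) + 1 := by
  obtain ⟨ℓ₀, h1, h2⟩ := hne.one (2 * M) (Nat.mul_pos two_pos (NeZero.pos M))
  have h3 : (M : ℤ) ∣ ((ℓ₀.1 : ℕ) : ℤ) - 1 :=
    dvd_trans (by rw [Nat.cast_mul]; exact Dvd.intro_left _ rfl) h1
  have h4 : (2 : ℤ) ∣ ((ℓ₀.1 : ℕ) : ℤ) - 1 :=
    dvd_trans (by rw [Nat.cast_mul]; exact Dvd.intro _ rfl) h1
  refine ⟨ℓ₀, ?_, ?_, h2⟩
  · have h5 := (ZMod.intCast_zmod_eq_zero_iff_dvd (((ℓ₀.1 : ℕ) : ℤ) - 1) M).mpr h3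
    push_cast at h5
    exact sub_eq_zero.mp h5
  · have := ℓ₀.1.2.two_le
    rw [Nat.odd_iff]; omega

section Local

variable {𝒪 : Type} [CommRing 𝒪] [IsLocalRing 𝒪]

/-- Primes different from the residue characteristic are units. -/
theorem isUnit_natCast_of_ne {p : ℕ} (hp : p.Prime) (hp𝒪 : (p : 𝒪) ∈ maximalIdeal 𝒪) {v : ℕ}
    (hv : v.Prime) (hvp : v ≠ p) : IsUnit (v : 𝒪) := by
  by_contra h
  have h1 : (v : 𝒪) ∈ maximalIdeal 𝒪 := h
  have h2 : IsCoprime (v : ℤ) (p : ℤ) :=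
    Nat.isCoprime_iff_coprime.mpr ((Nat.coprime_primes hv hp).mpr hvp)
  obtain ⟨x, y, hxy⟩ := h2
  have h3 := congrArg (fun z : ℤ => (z : 𝒪)) hxy
  push_cast at h3
  have h4 : (1 : 𝒪) ∈ maximalIdeal 𝒪 := by
    rw [← h3]
    exact Ideal.add_mem _ (Ideal.mul_mem_left _ _ h1) (Ideal.mul_mem_left _ _ hp𝒪)
  exact (Ideal.ne_top_iff_one _).mp (maximalIdeal.isMaximal 𝒪).ne_top h4

end Local

section Occurs

variable {𝒪 : Type} [CommRing 𝒪] [IsLocalRing 𝒪] [IsNoetherianRing 𝒪]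
  [IsAdicComplete (maximalIdeal 𝒪) 𝒪] [IsAddTorsionFree 𝒪]

/-- The residual system of `a`. -/
abbrev resSys (S : Set ℕ) (a : ℕ → 𝒪) : PIdx S → ResidueField 𝒪 :=
  fun ℓ => residue 𝒪 (a (ℓ.1 : ℕ))

/-- **The end of the climb.** `R₀` acts on `P`, a module which embeds in copies of
`H¹(Γ₀(M), 𝒪)_𝔪`, the elements `tr ℓ ∈ R₀` acting as the Hecke operators; if the point `x₀` of `R₀`
with `x₀ (tr ℓ) = a ℓ` kills all elements acting as zero, the system `a` occurs at level `M`. -/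
theorem occurs_of_annihilator {p : ℕ} (hp : p.Prime) (hp𝒪 : (p : 𝒪) ∈ maximalIdeal 𝒪) {M : ℕ}
    [NeZero M] {S : Finset ℕ} (hpS : p ∈ S) {a : ℕ → 𝒪}
    (hne : S41hm.StrongNonEis (↑S : Set ℕ) (resSys (↑S : Set ℕ) a))
    {ε : (ZMod M)ˣ →* 𝒪ˣ} (hε : ε = 1) {R₀ : Type*} [CommRing R₀] (tr : PIdx (↑S : Set ℕ) → R₀)
    (x₀ : R₀ →+* 𝒪) (hx₀ : ∀ ℓ, x₀ (tr ℓ) = a (ℓ.1 : ℕ)) {P : Type*} [AddCommGroup P]
    (act : R₀ →+* AddMonoid.End P) {J : Type*} (e : J → P →+ HM M ε 𝒪)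
    (hinj : ∀ y, (∀ j, e j y = 0) → y = 0)
    (hmem : ∀ j y, e j y ∈ Hm M ε 𝒪 (↑S : Set ℕ) (resSys (↑S : Set ℕ) a))
    (he : ∀ j ℓ y, e j (act (tr ℓ) y) = heckeP M ε 𝒪 ℓ.1 (e j y))
    (hann : ∀ f, (∀ y, act f y = 0) → x₀ f = 0) : Occurs M S a := by
  obtain ⟨ℓ₀, h1, h2, h3⟩ := exists_aux_prime hne M
  have hu : IsUnit (((ℓ₀.1 : ℕ) : ℕ) : 𝒪) := isUnit_natCast_of_ne hp hp𝒪 ℓ₀.1.2
    (fun h => ℓ₀.2 (h ▸ Finset.mem_coe.mpr hpS))
  intro t ht
  set F : HeckeAlgS (↑S : Set ℕ) →+* R₀ := MvPolynomial.eval₂Hom (Int.castRingHom R₀) tr with hF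
  have hFX : ∀ ℓ, F (MvPolynomial.X ℓ) = tr ℓ := fun ℓ => by rw [hF, MvPolynomial.eval₂Hom_X']
  have hFC : ∀ n : ℤ, F (MvPolynomial.C n) = (n : R₀) := fun n => by
    rw [hF, MvPolynomial.eval₂Hom_C]; rfl
  have key : ∀ (s : HeckeAlgS (↑S : Set ℕ)) j y, e j (act (F s) y) =
      cev (hop M ε 𝒪 (↑S : Set ℕ)) (hop_commute M ε 𝒪 (↑S : Set ℕ)) (toPoly 𝒪 s) (e j y) := by
    intro s
    induction s using MvPolynomial.induction_on with
    | C n =>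
      intro j y
      rw [hFC, map_intCast, toPoly_C, cev_C, Module.algebraMap_end_apply]
      have h4 : ((n : AddMonoid.End P) y) = n • y := AddMonoid.End.intCast_apply n y
      rw [h4, map_zsmul, Int.cast_smul_eq_zsmul]
    | add s s' hs hs' =>
      intro j y
      have h5 : act (F (s + s')) y = act (F s) y + act (F s') y := by
        rw [map_add, map_add]; rfl
      rw [h5, map_add, map_add, map_add, LinearMap.add_apply, ← hs, ← hs']
    | mul_X s i hs =>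
      intro j y
      have h5 : act (F (s * MvPolynomial.X i)) y = act (F s) (act (tr i) y) := by
        rw [map_mul, hFX, map_mul]; rfl
      rw [h5, hs, he, map_mul, toPoly_X, map_mul, cev_X, Module.End.mul_apply]
      rfl
  have h6 : x₀ (F t) = 0 := by
    refine hann _ fun y => hinj _ fun j => ?_
    rw [key]
    exact cev_toPoly_eq_zero hε h1 h2 hu h3 t ht (hmem j y)
  have h7 : ∀ s, x₀ (F s) = evalA (↑S : Set ℕ) a s := by
    intro s
    induction s using MvPolynomial.induction_on with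
    | C n =>
      rw [hFC, map_intCast, evalA, MvPolynomial.coe_eval₂Hom, MvPolynomial.eval₂_C]; rfl
    | add s s' hs hs' => rw [map_add, map_add, map_add, hs, hs']
    | mul_X s i hs => rw [map_mul, map_mul, map_mul, hs, hFX, hx₀, evalA_X]
  rw [← h7]
  exact h6

end Occurs

end Fermat.Agent.S59aux

end
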