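import Fermat.Agent.HSide.NewP
import Fermat.Agent.HSide.OfClimb
import Fermat.Agent.S59.Conclude

/-!
# The top of the climb: levels and embeddings of the bottom modules

* `prod_pr`, `NS_univ_baseOf`, `NS_univ_mulP` : the level of the bottom modules of level `T`.
* `exists_emb` : the maps `e` of `GalAct.occurs`, for a submodule of copies of `B.M0 univ`.
-/

set_option autoImplicit false
set_option linter.style.haveILetI false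

noncomputable section

open IsLocalRing

namespace Fermat.Agent.HSide

open TwHecke HeckePar TwExact HeckeRep RTE RTD GalRep S59aux

section Levels

/-- The product of the primes to be added. -/
theorem prod_pr {𝒪 : Type} [CommRing 𝒪] [IsDomain 𝒪] [IsDiscreteValuationRing 𝒪] {p : ℕ}
    (𝓢 : Setup 𝒪 p) : ∏ v : {v // v ∈ 𝓢.T₀} ⊕ {v // v ∈ 𝓢.V}, 𝓢.pr v =
      ∏ v ∈ 𝓢.T₀ ∪ 𝓢.V, v := by
  rw [Fintype.prod_sum_type, Finset.prod_union 𝓢.disj']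
  congr 1
  · exact Finset.prod_coe_sort 𝓢.T₀ (fun v => v)
  · exact Finset.prod_coe_sort 𝓢.V (fun v => v)

variable {p : ℕ} [hp : Fact p.Prime] {𝒪 : Type} [CommRing 𝒪] [IsDomain 𝒪]
  [IsDiscreteValuationRing 𝒪] [IsAdicComplete (maximalIdeal 𝒪) 𝒪] [Finite (ResidueField 𝒪)]
  {x : GaloisRepAdic 𝒪} {r N : ℕ} {T S : Finset ℕ} {a : ℕ → 𝒪}
  (hx : ClimbData p x r N T S a) (hp2 : p ≠ 2) (hp𝒪 : (p : 𝒪) ∈ maximalIdeal 𝒪)
  (𝓢 : Setup 𝒪 p) (hT : 𝓢.T₀ ∪ 𝓢.V = T)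

omit [IsAdicComplete (maximalIdeal 𝒪) 𝒪] [Finite (ResidueField 𝒪)] in
/-- The level of the bottom module of level `T`. -/
theorem NS_univ_baseOf (N₁ : ℕ) (hN₁ : N₁ ≠ 0) (h₁ : N₁ = N ∨ N₁ = N * p) :
    (baseOf hx hp2 hp𝒪 𝓢 hT N₁ hN₁ h₁).NS Finset.univ = N₁ * ∏ v ∈ T, v := by
  rw [Base.NS, prod_pr, hT]
  rfl

omit [IsAdicComplete (maximalIdeal 𝒪) 𝒪] [Finite (ResidueField 𝒪)] in
/-- The level of the bottom module of level `T`, base level `N p`. -/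
theorem NS_univ_mulP (hN : N ≠ 0) (hqp : ∀ v, 𝓢.pr v ≠ p) :
    ((baseOf hx hp2 hp𝒪 𝓢 hT N hN (Or.inl rfl)).mulP hqp).NS Finset.univ =
      N * p * ∏ v ∈ T, v := by
  rw [← Base.NS_mulP, NS_univ_baseOf]
  ring

end Levels

section Emb

variable {𝒪 : Type} [CommRing 𝒪] [IsLocalRing 𝒪] [IsNoetherianRing 𝒪]
  [IsAdicComplete (maximalIdeal 𝒪) 𝒪] {p : ℕ} {ι : Type} {qT : ι → ℕ} {S : Finset ℕ}

/-- The Hecke operators on the bottom modules. -/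
theorem Base.coe_T0 (B : Base 𝒪 p qT S) (s : Finset ι) (ℓ : PIdx (↑S : Set ℕ)) (y : B.M0 s) :
    ((B.T0 s (ℓ.1 : ℕ) y : B.M0 s) : HM (B.NS s) ((1 : (ZMod (B.NS s))ˣ →* 𝒪ˣ) ^ 2) 𝒪) =
      heckeP (B.NS s) (1 ^ 2) 𝒪 ℓ.1 (y : HM (B.NS s) ((1 : (ZMod (B.NS s))ˣ →* 𝒪ˣ) ^ 2) 𝒪) := by
  rw [Base.T0, tvo_hT, coe_hT, MonoidHom.one_apply, Units.val_one, one_smul]

/-- **The embeddings of the bottom modules**: `X` is embedded in copies of the bottom module of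
level `s`. -/
theorem exists_emb (B : Base 𝒪 p qT S) {s : Finset ι} {M : ℕ} (hM : B.NS s = M)
    {a : ℕ → 𝒪} (ha : ∀ ℓ, B.a ℓ = residue 𝒪 (a ℓ)) {K X : Type} [AddCommGroup X] [Module 𝒪 X]
    (i : X →ₗ[𝒪] (K → B.M0 s)) (hi : Function.Injective i) (TX : ℕ → Module.End 𝒪 X)
    (hTX : ∀ ℓ : ℕ, ℓ.Prime → ℓ ∉ S → ∀ y J, i (TX ℓ y) J = B.T0 s ℓ (i y J)) :
    ∃ (ε : (ZMod M)ˣ →* 𝒪ˣ) (_ : ε = 1) (e : K → X →+ HM M ε 𝒪),
      (∀ y, (∀ j, e j y = 0) → y = 0) ∧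
      (∀ j y, e j y ∈ Hm M ε 𝒪 (↑S : Set ℕ) (S59aux.resSys (↑S : Set ℕ) a)) ∧
      ∀ j (ℓ : PIdx (↑S : Set ℕ)) y, e j (TX (ℓ.1 : ℕ) y) = heckeP M ε 𝒪 ℓ.1 (e j y) := by
  subst hM
  have hth : thOf B.a (↑S : Set ℕ) = S59aux.resSys (↑S : Set ℕ) a := funext fun ℓ => ha _
  refine ⟨1 ^ 2, one_sq_eq, fun j =>
    { toFun := fun y => ((i y j : B.M0 s) :
        HM (B.NS s) ((1 : (ZMod (B.NS s))ˣ →* 𝒪ˣ) ^ 2) 𝒪)
      map_zero' := by rw [map_zero, Pi.zero_apply, Submodule.coe_zero]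
      map_add' := fun y z => by rw [map_add, Pi.add_apply, Submodule.coe_add] }, ?_, ?_, ?_⟩
  · intro y hy
    apply hi
    rw [map_zero]
    exact funext fun j => Subtype.ext (hy j)
  · intro j y
    have h1 : ((i y j : B.M0 s) : HM (B.NS s) ((1 : (ZMod (B.NS s))ˣ →* 𝒪ˣ) ^ 2) 𝒪) ∈
        Hm (B.NS s) ((1 : (ZMod (B.NS s))ˣ →* 𝒪ˣ) ^ 2) 𝒪 (↑S : Set ℕ)
          (thOf B.a (↑S : Set ℕ)) := (i y j).2
    rw [hth] at h1
    exact h1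
  · intro j ℓ y
    have h1 := hTX (ℓ.1 : ℕ) ℓ.1.2 (fun h => ℓ.2 (Finset.mem_coe.mpr h)) y j
    exact (congrArg Subtype.val h1).trans (B.coe_T0 s ℓ (i y j))

end Emb

end Fermat.Agent.HSide

end
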