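import Fermat.Agent.RTD.Exist
import Fermat.Agent.GalRep.Input
import Fermat.Agent.TW.Defs

/-!
# `R = T` in characteristic zero: the statements

`ClimbData` collects the hypotheses on a lift `x` of a residual representation; `ClimbFlat` and
`ClimbStrict` are the two modularity lifting statements (flat at `p`, level prime to `p`; strictly
ordinary at `p`, level exactly divisible by `p`).
-/

set_option autoImplicit false

noncomputable section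

open Polynomial IsLocalRing Fermat.Agent.GalRep Fermat.Agent.RTD

namespace Fermat.Agent.S59aux

/-- The value at the system `a` of a polynomial in the `T_ℓ`. -/
def evalA {𝒪 : Type} [CommRing 𝒪] (S : Set ℕ) (a : ℕ → 𝒪) : HeckeAlgS S →+* 𝒪 :=
  MvPolynomial.eval₂Hom (Int.castRingHom 𝒪) (fun ℓ => a (ℓ.1 : ℕ))

@[simp] theorem evalA_X {𝒪 : Type} [CommRing 𝒪] (S : Set ℕ) (a : ℕ → 𝒪)
    (ℓ : {ℓ : Nat.Primes // (ℓ : ℕ) ∉ S}) : evalA S a (MvPolynomial.X ℓ) = a (ℓ.1 : ℕ) := by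
  rw [evalA, MvPolynomial.coe_eval₂Hom, MvPolynomial.eval₂_X]

/-- The data of the climb: `x` is a lift of an (absolutely) irreducible odd representation; `N` is
the minimal level (prime to `p`), `r` the auxiliary prime, `T` the set of primes which are to be
added, `S = {p} ∪ {primes of N} ∪ T`, `a ℓ` the trace of `x (Frob_ℓ)`. -/
structure ClimbData (p : ℕ) {𝒪 : Type} [CommRing 𝒪] [IsLocalRing 𝒪] (x : GaloisRepAdic 𝒪)
    (r N : ℕ) (T S : Finset ℕ) (a : ℕ → 𝒪) : Prop where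
  abs : x.residual.IsAbsolutelyIrreducible
  odd : x.residual.IsOdd
  split : ∀ σ : AlgebraicClosure ℚ ≃ₐ[ℚ] AlgebraicClosure ℚ,
    ∃ α β : ResidueField 𝒪, LinearMap.charpoly (x.residual.ρ σ) = (X - C α) * (X - C β)
  tw : ∀ r : S53norm.GQ →* S53norm.M2 (ResidueField 𝒪),
    S53norm.HasMat (x.residual.ρ : S53norm.GQ → _) r → TW.NoLine r
  sqf : Squarefree N
  not_dvd : ¬ p ∣ N
  mem_T : ∀ v ∈ T, v.Prime ∧ v ≠ p ∧ ¬ v ∣ N
  mem_S : ∀ q : ℕ, q ∈ S ↔ q.Prime ∧ (q = p ∨ q ∣ N ∨ q ∈ T)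
  r_prime : r.Prime
  r_dvd : r ∣ N
  r_mod : r % 12 = 11
  r_not_one : r % p ≠ 1
  r_unr : x.residual.IsUnramifiedAt r
  r_frob : ∀ A : ValuationSubring (AlgebraicClosure ℚ), A.LiesOverPrime r →
    ∀ σ : AlgebraicClosure ℚ ≃ₐ[ℚ] AlgebraicClosure ℚ, A.IsFrobeniusAt σ r →
      LinearMap.trace _ _ (x.residual.ρ σ) ^ 2 ≠ ((r : ResidueField 𝒪) + 1) ^ 2
  ram : ∀ q : ℕ, q.Prime → q ∣ N → q ≠ r → ¬ x.residual.IsUnramifiedAt q
  T_unr : ∀ v ∈ T, x.residual.IsUnramifiedAt v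
  T_frob : ∀ v ∈ T, ∀ A : ValuationSubring (AlgebraicClosure ℚ), A.LiesOverPrime v →
    ∀ σ : AlgebraicClosure ℚ ≃ₐ[ℚ] AlgebraicClosure ℚ, A.IsFrobeniusAt σ v →
      ∃ ε : 𝒪, ε ^ 2 = 1 ∧ LinearMap.charpoly (x.residual.ρ σ) =
        (X - C (residue 𝒪 ε)) * (X - C (residue 𝒪 (ε * (v : 𝒪))))
  frob : ∀ ℓ : ℕ, ℓ.Prime → ℓ ∉ S → ∀ A : ValuationSubring (AlgebraicClosure ℚ),
    A.LiesOverPrime ℓ → ∀ σ : AlgebraicClosure ℚ ≃ₐ[ℚ] AlgebraicClosure ℚ, A.IsFrobeniusAt σ ℓ →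
      LinearMap.charpoly (x.ρ σ) = X ^ 2 - C (a ℓ) * X + C (ℓ : 𝒪)

/-- The residual system occurs at level `M`. -/
def OccursRes {𝒪 : Type} [CommRing 𝒪] [IsLocalRing 𝒪] (M : ℕ) [NeZero M] (S : Finset ℕ)
    (a : ℕ → 𝒪) : Prop :=
  ∀ t : HeckeAlgS (↑S : Set ℕ), evS M (↑S : Set ℕ) t = 0 →
    residue 𝒪 (evalA (↑S : Set ℕ) a t) = 0

/-- The system occurs at level `M` in characteristic zero. -/
def Occurs {𝒪 : Type} [CommRing 𝒪] (M : ℕ) [NeZero M] (S : Finset ℕ) (a : ℕ → 𝒪) : Prop :=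
  ∀ t : HeckeAlgS (↑S : Set ℕ), evS M (↑S : Set ℕ) t = 0 → evalA (↑S : Set ℕ) a t = 0

/-- **Modularity lifting, flat case.** -/
def ClimbFlat : Prop :=
  ∀ (p : ℕ) [Fact p.Prime] (𝒪 : Type) [CommRing 𝒪] [IsDomain 𝒪] [IsDiscreteValuationRing 𝒪]
    [IsAdicComplete (maximalIdeal 𝒪) 𝒪] [Finite (ResidueField 𝒪)] [CharZero 𝒪]
    (x : GaloisRepAdic 𝒪) (r N : ℕ) (T S : Finset ℕ) (a : ℕ → 𝒪) (M : ℕ) [NeZero N] [NeZero M],
    p ≠ 2 → (p : 𝒪) ∈ maximalIdeal 𝒪 → ClimbData p x r N T S a → condFlat 𝒪 p S S x →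
    M = N * ∏ v ∈ T, v → OccursRes N S a → Occurs M S a

/-- **Modularity lifting, strictly ordinary case.** -/
def ClimbStrict : Prop :=
  ∀ (p : ℕ) [Fact p.Prime] (𝒪 : Type) [CommRing 𝒪] [IsDomain 𝒪] [IsDiscreteValuationRing 𝒪]
    [IsAdicComplete (maximalIdeal 𝒪) 𝒪] [Finite (ResidueField 𝒪)] [CharZero 𝒪]
    (x : GaloisRepAdic 𝒪) (r N : ℕ) (T S : Finset ℕ) (a : ℕ → 𝒪) (M : ℕ) [NeZero N] [NeZero M]
    [NeZero (N * p)],
    p ≠ 2 → (p : 𝒪) ∈ maximalIdeal 𝒪 → ClimbData p x r N T S a → condOrd 𝒪 p S S x →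
    M = N * p * ∏ v ∈ T, v → OccursRes (N * p) S a → Occurs M S a

end Fermat.Agent.S59aux
end
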