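import Fermat.Agent.HSide.Top
import Fermat.Agent.HSide.OfClimb
import Fermat.Agent.HeckeRep.CondFlat

/-!
# From the data of the climb to the inputs of the two sides
-/

set_option autoImplicit false
set_option linter.unusedSectionVars false

noncomputable section

namespace Fermat.Agent.Sides

open IsLocalRing GaloisRep
open Fermat.Agent.RTD Fermat.Agent.TW Fermat.Agent.HSide
open Fermat.Agent.TwExact Fermat.Agent.TwHecke Fermat.Agent.RTE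
open Fermat.Agent.S59aux (ClimbData OccursRes)
open Fermat.Agent.HeckeRep (Occ)

section Setup

variable {𝒪 : Type} [CommRing 𝒪] [IsDomain 𝒪] [IsDiscreteValuationRing 𝒪]
  [IsAdicComplete (maximalIdeal 𝒪) 𝒪] {p : ℕ}

/-- the product of the primes to be added. -/
theorem prod_pr (𝓢 : Setup 𝒪 p) {T : Finset ℕ} (hT : 𝓢.T₀ ∪ 𝓢.V = T) :
    ∏ v, 𝓢.pr v = ∏ v ∈ T, v := by
  rw [Fintype.prod_sum_type, ← hT, Finset.prod_union 𝓢.disj']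
  congr 1
  · exact Finset.prod_coe_sort 𝓢.T₀ fun v => v
  · exact Finset.prod_coe_sort 𝓢.V fun v => v

theorem pr_ne (𝓢 : Setup 𝒪 p) (v : {v // v ∈ 𝓢.T₀} ⊕ {v // v ∈ 𝓢.V}) : 𝓢.pr v ≠ p :=
  𝓢.ne_p (𝓢.pr_mem v)

/-- `x` is a point of the deformation ring of the base level. -/
theorem type_of_cond (𝓢 : Setup 𝒪 p) {S : Finset ℕ} (hSg : 𝓢.Sg = S) {L : PCond}
    {x : GaloisRepAdic 𝒪} (h : condL L 𝒪 p S S x) : 𝓢.type L ∅ x := by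
  subst hSg
  show condL L 𝒪 p (𝓢.Sg ∪ ∅) 𝓢.Sg x
  rw [Finset.union_empty]
  exact h

omit [IsAdicComplete (maximalIdeal 𝒪) 𝒪] in
/-- the residual representation is strictly ordinary. -/
theorem residual_isStrictOrdinaryAt [IsAdicComplete (maximalIdeal 𝒪) 𝒪] {x : GaloisRepAdic 𝒪}
    (h : x.IsStrictOrdinaryAt p) :
    (GaloisRepAdic.ofResidualGaloisRep x.residual).IsStrictOrdinaryAt p :=
  TW.isStrictOrdinaryAt_of_isEquiv (isEquiv_ofResidual x)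
    (TW.isStrictOrdinaryAt_baseChange _ inferInstance h)

theorem ord_of_cond {S : Finset ℕ} {x : GaloisRepAdic 𝒪} (h : condOrd 𝒪 p S S x) :
    (GaloisRepAdic.ofResidualGaloisRep x.residual).IsStrictOrdinaryAt p :=
  residual_isStrictOrdinaryAt h.1.2.1

end Setup

section Level

variable {p : ℕ} [hp : Fact p.Prime] {𝒪 : Type} [CommRing 𝒪] [IsDomain 𝒪]
  [IsDiscreteValuationRing 𝒪] [IsAdicComplete (maximalIdeal 𝒪) 𝒪] [Finite (ResidueField 𝒪)]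
  {x : GaloisRepAdic 𝒪} {r N : ℕ} {T S : Finset ℕ} {a : ℕ → 𝒪}

/-- the top level. -/
theorem NS_univ_baseOf (hx : ClimbData p x r N T S a) (hp2 : p ≠ 2)
    (hp𝒪 : (p : 𝒪) ∈ maximalIdeal 𝒪) (𝓢 : Setup 𝒪 p) (hT : 𝓢.T₀ ∪ 𝓢.V = T) (N₁ : ℕ)
    (hN₁ : N₁ ≠ 0) (h₁ : N₁ = N ∨ N₁ = N * p) :
    (baseOf hx hp2 hp𝒪 𝓢 hT N₁ hN₁ h₁).NS Finset.univ = N₁ * ∏ v ∈ T, v := by
  rw [← prod_pr 𝓢 hT]
  rfl

/-- the residual system occurs at the base level. -/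
theorem occ_baseOf (hx : ClimbData p x r N T S a) (hp2 : p ≠ 2)
    (hp𝒪 : (p : 𝒪) ∈ maximalIdeal 𝒪) (𝓢 : Setup 𝒪 p) (hT : 𝓢.T₀ ∪ 𝓢.V = T) (N₁ : ℕ)
    [NeZero N₁] (hN₁ : N₁ ≠ 0) (h₁ : N₁ = N ∨ N₁ = N * p) {M : ℕ} [NeZero M]
    (h : OccursRes M S a) :
    Occ M (↑S : Set ℕ) (thOf (baseOf hx hp2 hp𝒪 𝓢 hT N₁ hN₁ h₁).a (↑S : Set ℕ)) :=
  HeckeRep.occ_of_occursRes h

end Level

section Coord

variable {𝒪 : Type} [CommRing 𝒪] [IsLocalRing 𝒪]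
  {p : ℕ} {ι : Type} [DecidableEq ι] {qT : ι → ℕ} {S : Finset ℕ} (B : Base 𝒪 p qT S)
  (s : Finset ι) {κ : Type}

/-- the coordinates on the powers of the bottom modules. -/
def coordHM (j : κ) :
    (κ → B.M0 s) →+ HM (B.NS s) ((1 : (ZMod (B.NS s))ˣ →* 𝒪ˣ) ^ 2) 𝒪 where
  toFun := fun y => (y j : HM (B.NS s) ((1 : (ZMod (B.NS s))ˣ →* 𝒪ˣ) ^ 2) 𝒪)
  map_zero' := rfl
  map_add' := fun _ _ => rfl

theorem coordHM_mem (j : κ) (y : κ → B.M0 s) : coordHM B s j y ∈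
    Hm (B.NS s) ((1 : (ZMod (B.NS s))ˣ →* 𝒪ˣ) ^ 2) 𝒪 (↑S : Set ℕ) (thOf B.a (↑S : Set ℕ)) :=
  (y j).2

theorem eq_zero_of_coordHM (y : κ → B.M0 s) (h : ∀ j, coordHM B s j y = 0) : y = 0 :=
  funext fun j => Subtype.ext (h j)

theorem coe_T0 (ℓ : Nat.Primes) (y : B.M0 s) :
    ((B.T0 s (ℓ : ℕ) y : B.M0 s) : HM (B.NS s) ((1 : (ZMod (B.NS s))ˣ →* 𝒪ˣ) ^ 2) 𝒪) =
      heckeP (B.NS s) ((1 : (ZMod (B.NS s))ˣ →* 𝒪ˣ) ^ 2) 𝒪 ℓ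
        (y : HM (B.NS s) ((1 : (ZMod (B.NS s))ˣ →* 𝒪ˣ) ^ 2) 𝒪) := by
  have : Fact (ℓ : ℕ).Prime := ⟨ℓ.2⟩
  rw [Base.T0, tvo_eq, coe_tvm, MonoidHom.one_apply, Units.val_one, one_smul]
  rfl

end Coord

end Fermat.Agent.Sides

end
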