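import Fermat.Agent.HeckeRep.CondFlat
import Fermat.Agent.HeckeRep.Univ
import Fermat.Agent.HSide.Base
import Fermat.Agent.RTD.GalLemmas

/-!
# The action of the deformation rings on the modules of the Hecke side, flat case

* `exists_act_lev`, `exists_act_bot`: localised Hecke algebras act on `B.MM qv s` and on `B.M0 s`;
* `exists_level_act`, `exists_bottom_act`: the action of the deformation rings.
-/

set_option autoImplicit false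
set_option linter.style.haveILetI false
set_option linter.unusedVariables false
set_option linter.unusedSectionVars false
set_option synthInstance.maxHeartbeats 400000
set_option maxHeartbeats 1000000

noncomputable section

namespace Fermat.Agent.S59aux

open IsLocalRing GaloisRep Polynomial CuspForm
open Fermat.Agent.GalRep (genS evS)
open Fermat.Agent.TwHecke Fermat.Agent.TwExact Fermat.Agent.HeckeRep Fermat.Agent.HSide
open Fermat.Agent.RTE Fermat.Agent.RTD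

section Act

variable {𝒪 : Type} [CommRing 𝒪] [IsDomain 𝒪] [IsDiscreteValuationRing 𝒪]
  [IsAdicComplete (maximalIdeal 𝒪) 𝒪] [Finite (ResidueField 𝒪)] [CharZero 𝒪]
  {p : ℕ} [hp : Fact p.Prime]

/-- The localised Hecke algebra acts on the twisted modules, for any character which factors
through `(ℤ/Q₀)ˣ`. -/
theorem exists_act_of_eq {Δ : Type} [CommGroup Δ] [Finite Δ] [IsLocalRing (MonoidAlgebra 𝒪 Δ)]
    [IsLocalHom (algebraMap 𝒪 (MonoidAlgebra 𝒪 Δ))]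
    {M Q₀ L : ℕ} [NeZero M] [NeZero Q₀] [NeZero L] [Fact (HasIntegralStructure L 2)]
    (hQM : Q₀ ∣ M) (hL : M * Q₀ ∣ L) {S : Set ℕ}
    (hS : ∀ ℓ : ℕ, ℓ.Prime → ℓ ∣ L → ℓ ∈ S) (τ₀ : (ZMod Q₀)ˣ →* Δ)
    {η : (ZMod M)ˣ →* (MonoidAlgebra 𝒪 Δ)ˣ} (heq : η = taut 𝒪 (τ₀.comp (ZMod.unitsMap hQM)))
    {θ₀ : PIdx S → ResidueField 𝒪} (h : Occ L S θ₀) (hne : S41hm.StrongNonEis S θ₀)
    (hη : ∀ u, residue (MonoidAlgebra 𝒪 Δ) (η u : MonoidAlgebra 𝒪 Δ) = 1)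
    (hG : Good M (η ^ 2) S (thMap (MonoidAlgebra 𝒪 Δ) θ₀)) :
    ∃ act : heckeLocal L S 𝒪 (sysHom h) →+*
        Module.End (MonoidAlgebra 𝒪 Δ) (Hm M (η ^ 2)
          (MonoidAlgebra 𝒪 Δ) S (thMap (MonoidAlgebra 𝒪 Δ) θ₀)),
      (∀ a, act (algebraMap 𝒪 _ a) =
        algebraMap (MonoidAlgebra 𝒪 Δ) _ (algebraMap 𝒪 (MonoidAlgebra 𝒪 Δ) a)) ∧
      ∀ ℓ, act (heckeLocal.π L S 𝒪 (sysHom h) (genS L S ℓ)) =
        hT η (η ^ 2) S (thMap (MonoidAlgebra 𝒪 Δ) θ₀) ℓ := by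
  subst heq
  exact exists_act hQM hL hS τ₀ h hne hη hG

variable {ι : Type} {qT : ι → ℕ} {S : Finset ℕ} (B : Base 𝒪 p qT S) {m : ℕ} {qv : Fin m → ℕ}

include hp in
/-- **The localised Hecke algebra acts on the modules of the Hecke side.** -/
theorem exists_act_lev (A : Auxs B qv) [IsLocalRing (Lam 𝒪 p qv)] (s : Finset ι)
    {L : ℕ} [NeZero L] (hL : B.lev qv s * ∏ i, qv i ∣ L)
    (hLS : ∀ ℓ : ℕ, ℓ.Prime → ℓ ∣ L → ℓ ∈ B.Sn qv)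
    (h : Occ L (↑(B.Sn qv) : Set ℕ) (thOf B.a (↑(B.Sn qv) : Set ℕ))) :
    ∃ act : heckeLocal L (↑(B.Sn qv) : Set ℕ) 𝒪 (sysHom h) →+*
        Module.End (Lam 𝒪 p qv) (B.MM qv s),
      (∀ c, act (algebraMap 𝒪 _ c) =
        algebraMap (Lam 𝒪 p qv) _ (algebraMap 𝒪 (Lam 𝒪 p qv) c)) ∧
      ∀ ℓ, act (heckeLocal.π L (↑(B.Sn qv) : Set ℕ) 𝒪 (sysHom h)
        (genS L (↑(B.Sn qv) : Set ℕ) ℓ)) =
          hT (B.eta qv s) (B.eta qv s ^ 2) (↑(B.Sn qv) : Set ℕ) (B.th qv) ℓ := by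
  have hp0 : NeZero p := ⟨hp.out.ne_zero⟩
  have hM0 : NeZero (B.lev qv s) := ⟨B.lev_ne A s⟩
  have hQ0 : NeZero (∏ i, qv i) := ⟨Finset.prod_ne_zero_iff.mpr fun i _ => (A.prime i).ne_zero⟩
  have hloc : IsLocalHom (algebraMap 𝒪 (Lam 𝒪 p qv)) := HeckeRep.isLocalHom_groupRing
  have hdvd : ∀ i, qv i ∣ ∏ i, qv i := fun i => Finset.dvd_prod_of_mem qv (Finset.mem_univ i)
  have hQM : (∏ i, qv i) ∣ B.lev qv s := Dvd.intro_left _ rfl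
  refine exists_act_of_eq hQM hL (fun ℓ hℓ hd => hLS ℓ hℓ hd) (tauM p qv _ hdvd) ?_ h
    (B.ne _ B.S_sub) (B.residue_eta s) (B.good_lev A s)
  rw [Base.eta, tauM_comp hdvd (B.qv_dvd s) hQM]

include hp in
/-- **The localised Hecke algebra acts on the bottom modules.** -/
theorem exists_act_bot (s : Finset ι) {L : ℕ} [NeZero L] (hL : B.NS s ∣ L)
    (hLS : ∀ ℓ : ℕ, ℓ.Prime → ℓ ∣ L → ℓ ∈ S)
    (h : Occ L (↑S : Set ℕ) (thOf B.a (↑S : Set ℕ))) :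
    ∃ act : heckeLocal L (↑S : Set ℕ) 𝒪 (sysHom h) →+* Module.End 𝒪 (B.M0 s),
      (∀ c, act (algebraMap 𝒪 _ c) = algebraMap 𝒪 _ c) ∧
      ∀ ℓ, act (heckeLocal.π L (↑S : Set ℕ) 𝒪 (sysHom h) (genS L (↑S : Set ℕ) ℓ)) =
        hT 1 ((1 : (ZMod (B.NS s))ˣ →* 𝒪ˣ) ^ 2) (↑S : Set ℕ) (thOf B.a (↑S : Set ℕ)) ℓ :=
  exists_act_triv hL (fun ℓ hℓ hd => hLS ℓ hℓ hd) one_sq_eq h (B.ne _ subset_rfl) (B.good_M0 s)

end Act

section Cond

variable {𝒪 : Type} [CommRing 𝒪] [IsDomain 𝒪] [IsDiscreteValuationRing 𝒪]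
  [IsAdicComplete (maximalIdeal 𝒪) 𝒪] [Finite (ResidueField 𝒪)] [CharZero 𝒪]
  {p : ℕ} [hp : Fact p.Prime]

/-- the representation over the localised Hecke algebra of level prime to `p` is of flat type. -/
theorem type_flat_heckeDatum (𝓢 : Setup 𝒪 p) {L : ℕ} [NeZero L] {Q S : Finset ℕ}
    (hpL : ¬ p ∣ L) (hL : ∀ q : ℕ, q.Prime → q ∣ L → q ∈ 𝓢.Sg ∪ Q)
    (hsq : ∀ q ∈ 𝓢.Sg, q ≠ p → ¬ q ^ 2 ∣ L)
    {θ₀ : PIdx (↑S : Set ℕ) → ResidueField 𝒪} (ctx : HCtx p 𝓢.ρbar S θ₀)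
    (hLS : ∀ q : ℕ, q.Prime → q ∣ L → q ∈ S) (h : Occ L (↑S : Set ℕ) θ₀) :
    𝓢.type (Lflat p) Q (heckeDatum ctx hLS h).ρ :=
  type_flat_of_datum 𝓢 hpL ctx.mem_S hLS hL hsq (heckeDatum ctx hLS h)
    (fun q hq hqL hqp => heckeDatum_unramified ctx hLS h hq hqL hqp) (heckeDatum_det ctx hLS h)

/-- push-forwards of the representation over the localised Hecke algebra of level prime to `p` are
of flat type. -/
theorem type_flat_heckeDatum_baseChange (𝓢 : Setup 𝒪 p) {L : ℕ} [NeZero L] {Q S : Finset ℕ}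
    (hpL : ¬ p ∣ L) (hL : ∀ q : ℕ, q.Prime → q ∣ L → q ∈ 𝓢.Sg ∪ Q)
    (hsq : ∀ q ∈ 𝓢.Sg, q ≠ p → ¬ q ^ 2 ∣ L)
    {θ₀ : PIdx (↑S : Set ℕ) → ResidueField 𝒪} (ctx : HCtx p 𝓢.ρbar S θ₀)
    (hLS : ∀ q : ℕ, q.Prime → q ∣ L → q ∈ S) (h : Occ L (↑S : Set ℕ) θ₀)
    {B : Type} [CommRing B] [IsLocalRing B] [Algebra 𝒪 B]
    (f : heckeLocal L (↑S : Set ℕ) 𝒪 (sysHom h) →+* B) (hf : IsLocalHom f)
    (hB : Finite (ResidueField B)) :
    𝓢.type (Lflat p) Q ((heckeDatum ctx hLS h).ρ.baseChangeAlong f hf) :=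
  type_flat_baseChange 𝓢 (type_flat_heckeDatum 𝓢 hpL hL hsq ctx hLS h) f hf hB

end Cond

section Level

variable {𝒪 : Type} [CommRing 𝒪] [IsDomain 𝒪] [IsDiscreteValuationRing 𝒪]
  [IsAdicComplete (maximalIdeal 𝒪) 𝒪] [Finite (ResidueField 𝒪)] [CharZero 𝒪]
  {p : ℕ} [hp : Fact p.Prime]
  {x : GaloisRepAdic 𝒪} {r N : ℕ} {T S : Finset ℕ} {a : ℕ → 𝒪}

/-- the residual context of the climb, for any larger set of omitted primes. -/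
theorem hctx_of_climb (hp2 : p ≠ 2) (hp𝒪 : (p : 𝒪) ∈ maximalIdeal 𝒪)
    (hx : ClimbData p x r N T S a) {ρbar : ResidualGaloisRep (ResidueField 𝒪)}
    (hρ : ρbar = x.residual) {S' : Finset ℕ} (hS : S ⊆ S') {b : ℕ → ResidueField 𝒪}
    (hb : b = fun ℓ => residue 𝒪 (a ℓ)) : HCtx p ρbar S' (thOf b (↑S' : Set ℕ)) where
  two := hp2
  mem := hp𝒪
  mem_S := hS ((hx.mem_S p).mpr ⟨hp.out, Or.inl rfl⟩)
  abs := by rw [hρ]; exact hx.abs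
  frob := fun ℓ A hA σ hσ => by
    subst hb
    rw [hρ]
    exact S41hm.frobAt_residual (T := (↑S : Set ℕ)) (fun ℓ hℓ hℓS => hx.frob ℓ hℓ hℓS)
      (ℓ.1 : ℕ) ℓ.1.2 (fun h2 => ℓ.2 (hS h2)) A hA σ hσ

variable (𝓢 : Setup 𝒪 p) (B : Base 𝒪 p 𝓢.pr S) {m : ℕ} {qv : Fin m → ℕ}

/-- primes dividing `N ∏ pr v` -/
theorem squarefree_NS (hx : ClimbData p x r N T S a) (hBN : B.N = N)
    (s : Finset ({v // v ∈ 𝓢.T₀} ⊕ {v // v ∈ 𝓢.V})) : Squarefree (B.NS s) := by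
  rw [Base.NS, hBN]
  have h1 : Squarefree (∏ v ∈ s, 𝓢.pr v) := by
    refine Finset.squarefree_prod_of_pairwise_isCoprime (fun v hv w hw hvw => ?_)
      fun v hv => (B.qT_prime v).prime.squarefree
    rw [Function.onFun, ← Nat.coprime_iff_isRelPrime]
    exact (Nat.coprime_primes (B.qT_prime v) (B.qT_prime w)).mpr fun h => hvw (B.qT_inj h)
  refine (Nat.squarefree_mul ?_).mpr ⟨hx.sqf, h1⟩
  refine Nat.Coprime.prod_right fun v hv => ?_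
  have h2 := B.qT_N v
  rw [hBN] at h2
  exact ((B.qT_prime v).coprime_iff_not_dvd.mpr h2).symm

theorem not_dvd_NS (hx : ClimbData p x r N T S a) (hBN : B.N = N)
    (s : Finset ({v // v ∈ 𝓢.T₀} ⊕ {v // v ∈ 𝓢.V})) : ¬ p ∣ B.NS s := by
  intro h
  rw [Base.NS, hBN] at h
  rcases hp.out.dvd_mul.mp h with h | h
  · exact hx.not_dvd h
  · obtain ⟨v, -, hv⟩ := hp.out.prime.exists_mem_finset_dvd h
    exact 𝓢.ne_p (𝓢.pr_mem v) ((Nat.prime_dvd_prime_iff_eq hp.out (B.qT_prime v)).mp hv).symm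

/-- **The action of the deformation rings on the modules of the Hecke side.** -/
theorem exists_level_act (hx : ClimbData p x r N T S a) (hρ : 𝓢.ρbar = x.residual)
    (hSg : 𝓢.Sg = S) (hBN : B.N = N) (hBa : B.a = fun ℓ => residue 𝒪 (a ℓ)) [NeZero N]
    (hocc : OccursRes N S a) (A : Auxs B qv) [IsLocalRing (Lam 𝒪 p qv)]
    (s : Finset ({v // v ∈ 𝓢.T₀} ⊕ {v // v ∈ 𝓢.V}))
    (D : DeformationRingData 𝒪 𝓢.ρbar (𝓢.type (Lflat p) (Finset.univ.image qv))) :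
    ∃ (T : Type) (_ : CommRing T) (_ : IsLocalRing T) (_ : Algebra 𝒪 T) (φ : D.R →ₐ[𝒪] T)
      (hφ : IsLocalHom (φ : D.R →+* T)) (actT : T →+* Module.End (Lam 𝒪 p qv) (B.MM qv s)),
      (∀ c, actT (φ (algebraMap 𝒪 D.R c)) =
        algebraMap (Lam 𝒪 p qv) _ (algebraMap 𝒪 (Lam 𝒪 p qv) c)) ∧
      (∀ ℓ : PIdx (↑(B.Sn qv) : Set ℕ), ∀ P : ValuationSubring (AlgebraicClosure ℚ),
        P.LiesOverPrime (ℓ.1 : ℕ) → ∀ σ : AlgebraicClosure ℚ ≃ₐ[ℚ] AlgebraicClosure ℚ,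
          P.IsFrobeniusAt σ (ℓ.1 : ℕ) → actT (φ (D.ρ.trace σ)) =
            hT (B.eta qv s) (B.eta qv s ^ 2) (↑(B.Sn qv) : Set ℕ) (B.th qv) ℓ) ∧
      ∀ q : ℕ, q.Prime → ¬ q ∣ B.lev qv s → q ≠ p →
        (D.ρ.baseChangeAlong (φ : D.R →+* T) hφ).IsUnramifiedAt q := by
  have hp𝒪 := 𝓢.hp𝒪
  set L : ℕ := B.lev qv s * ∏ i, qv i with hL
  have hL0 : NeZero L := ⟨mul_ne_zero (B.lev_ne A s)
    (Finset.prod_ne_zero_iff.mpr fun i _ => (A.prime i).ne_zero)⟩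
  have hQdvd : (∏ i, qv i) ∣ B.lev qv s := Dvd.intro_left _ rfl
  have hpr : ∀ q : ℕ, q.Prime → q ∣ L → q ∣ B.lev qv s := by
    intro q hq hqL
    rcases hq.dvd_mul.mp hqL with h | h
    · exact h
    · exact h.trans hQdvd
  have hpr' : ∀ q : ℕ, q.Prime → q ∣ L → q ∣ B.NS s ∨ ∃ i, q = qv i := fun q hq hqL =>
    prime_dvd_level rfl A.prime hL hq hqL
  have hLS : ∀ q : ℕ, q.Prime → q ∣ L → q ∈ B.Sn qv := fun q hq hqL =>
    B.lev_mem A s q hq (hpr q hq hqL)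
  have hNL : N ∣ L := by
    have h1 : B.N ∣ L := (B.N_dvd_NS s).trans ((B.NS_dvd_lev s).trans (Dvd.intro _ rfl))
    rwa [hBN] at h1
  have hoc : Occ L (↑(B.Sn qv) : Set ℕ) (thOf B.a (↑(B.Sn qv) : Set ℕ)) := by
    rw [hBa]
    exact occ_up hocc B.S_sub hNL hLS
  have ctx : HCtx p 𝓢.ρbar (B.Sn qv) (thOf B.a (↑(B.Sn qv) : Set ℕ)) :=
    hctx_of_climb 𝓢.hp2 hp𝒪 hx hρ B.S_sub hBa
  have hpS : p ∈ S := (hx.mem_S p).mpr ⟨hp.out, Or.inl rfl⟩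
  have htype : 𝓢.type (Lflat p) (Finset.univ.image qv) (heckeDatum ctx hLS hoc).ρ := by
    refine type_flat_heckeDatum 𝓢 ?_ ?_ ?_ ctx hLS hoc
    · intro h
      rcases hpr' p hp.out h with h1 | ⟨i, hi⟩
      · exact not_dvd_NS 𝓢 B hx hBN s h1
      · exact A.notMem i (hi ▸ hpS)
    · intro q hq hqL
      rw [hSg]
      exact hLS q hq hqL
    · intro q hqS hqp
      rw [hSg] at hqS
      exact not_sq_dvd_level rfl A.prime hL (squarefree_NS 𝓢 B hx hBN s)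
        ((hx.mem_S q).mp hqS).1 fun i hi => A.notMem i (hi ▸ hqS)
  obtain ⟨φ, -, htr, hφ, he⟩ := exists_phi_self ctx hLS hoc D htype
  obtain ⟨actT, h1, h2⟩ := exists_act_lev B A s dvd_rfl hLS hoc
  refine ⟨heckeLocal L (↑(B.Sn qv) : Set ℕ) 𝒪 (sysHom hoc), inferInstance, inferInstance,
    inferInstance, φ, hφ, actT, fun c => ?_, fun ℓ P hP σ hσ => ?_, fun q hq hqL hqp => ?_⟩
  · exact (congrArg actT (AlgHom.commutes φ c)).trans (h1 c)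
  · exact (congrArg actT ((htr σ).trans (heckeDatum_trace ctx hLS hoc ℓ hP hσ))).trans (h2 ℓ)
  · obtain ⟨e⟩ := he
    exact isUnramifiedAt_of_isEquiv ⟨e.symm⟩
      (heckeDatum_unramified ctx hLS hoc hq (fun h => hqL (hpr q hq h)) hqp)

/-- **The action of the deformation ring on the bottom modules.** -/
theorem exists_bottom_act (hx : ClimbData p x r N T S a) (hρ : 𝓢.ρbar = x.residual)
    (hSg : 𝓢.Sg = S) (hBN : B.N = N) (hBa : B.a = fun ℓ => residue 𝒪 (a ℓ)) [NeZero N]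
    (hocc : OccursRes N S a) (s : Finset ({v // v ∈ 𝓢.T₀} ⊕ {v // v ∈ 𝓢.V}))
    (D : DeformationRingData 𝒪 𝓢.ρbar (𝓢.type (Lflat p) ∅)) :
    ∃ act : D.R →ₐ[𝒪] Module.End 𝒪 (B.M0 s), ∀ ℓ : PIdx (↑S : Set ℕ),
      ∀ P : ValuationSubring (AlgebraicClosure ℚ), P.LiesOverPrime (ℓ.1 : ℕ) →
        ∀ σ : AlgebraicClosure ℚ ≃ₐ[ℚ] AlgebraicClosure ℚ, P.IsFrobeniusAt σ (ℓ.1 : ℕ) →
          act (D.ρ.trace σ) =
            hT 1 ((1 : (ZMod (B.NS s))ˣ →* 𝒪ˣ) ^ 2) (↑S : Set ℕ) (thOf B.a (↑S : Set ℕ)) ℓ := by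
  have hp𝒪 := 𝓢.hp𝒪
  have hLS : ∀ q : ℕ, q.Prime → q ∣ B.NS s → q ∈ S := B.NS_mem s
  have hNL : N ∣ B.NS s := by
    have h1 := B.N_dvd_NS s
    rwa [hBN] at h1
  have hoc : Occ (B.NS s) (↑S : Set ℕ) (thOf B.a (↑S : Set ℕ)) := by
    rw [hBa]
    exact occ_up hocc subset_rfl hNL hLS
  have ctx : HCtx p 𝓢.ρbar S (thOf B.a (↑S : Set ℕ)) :=
    hctx_of_climb 𝓢.hp2 hp𝒪 hx hρ subset_rfl hBa
  have htype : 𝓢.type (Lflat p) ∅ (heckeDatum ctx hLS hoc).ρ := by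
    refine type_flat_heckeDatum 𝓢 (not_dvd_NS 𝓢 B hx hBN s) ?_ ?_ ctx hLS hoc
    · intro q hq hqL
      rw [hSg]
      exact Finset.mem_union_left _ (hLS q hq hqL)
    · intro q hqS hqp h
      rw [hSg] at hqS
      rw [pow_two] at h
      exact ((hx.mem_S q).mp hqS).1.one_lt.ne'
        (Nat.isUnit_iff.mp (squarefree_NS 𝓢 B hx hBN s q h))
  obtain ⟨φ, -, htr, hφ, he⟩ := exists_phi_self ctx hLS hoc D htype
  obtain ⟨actT, h1, h2⟩ := exists_act_bot B s dvd_rfl hLS hoc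
  refine ⟨{ actT.comp (φ : D.R →+* _) with
    commutes' := fun c => ?_ }, fun ℓ P hP σ hσ => ?_⟩
  · exact (congrArg actT (AlgHom.commutes φ c)).trans (h1 c)
  · exact (congrArg actT ((htr σ).trans (heckeDatum_trace ctx hLS hoc ℓ hP hσ))).trans (h2 ℓ)

end Level

end Fermat.Agent.S59aux

end
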