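import Fermat.Agent.S59.TDataInst
import Fermat.Agent.S59.ActLevel

/-!
# The flat type of the Hecke representations of level prime to `p`
-/

set_option autoImplicit false
set_option linter.unusedSectionVars false
set_option synthInstance.maxHeartbeats 400000
set_option maxHeartbeats 1000000

noncomputable section

namespace Fermat.Agent.Sides

open IsLocalRing Fermat.Agent.TwHecke Fermat.Agent.TwExact Fermat.Agent.HeckeRep
  Fermat.Agent.RTE Fermat.Agent.RTD Fermat.Agent.GalRep Fermat.Agent.HSide CuspForm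

section Levels

variable {𝒪 : Type} [CommRing 𝒪] [IsLocalRing 𝒪] {p : ℕ} [hp : Fact p.Prime] {ι : Type}
  {qT : ι → ℕ} {S : Finset ℕ} (B : Base 𝒪 p qT S)

theorem sqf_NS (hN : Squarefree B.N) (s : Finset ι) : Squarefree (B.NS s) := by
  have h := squarefree_mul_prod hN (s.map ⟨qT, B.qT_inj⟩) (by
    intro v hv
    obtain ⟨w, -, rfl⟩ := Finset.mem_map.mp hv
    exact ⟨B.qT_prime w, B.qT_N w⟩)
  rwa [Finset.prod_map] at h

theorem p_not_dvd_NS (hqp : ∀ v, qT v ≠ p) (hpN : ¬ p ∣ B.N) (s : Finset ι) : ¬ p ∣ B.NS s := by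
  intro h
  rw [Base.NS] at h
  rcases hp.out.dvd_mul.mp h with h | h
  · exact hpN h
  · obtain ⟨v, -, hv⟩ := hp.out.prime.exists_mem_finset_dvd h
    exact hqp v ((Nat.prime_dvd_prime_iff_eq hp.out (B.qT_prime v)).mp hv).symm

theorem p_not_dvd_lev2 {m : ℕ} {qv : Fin m → ℕ} (A : Auxs B qv) (hqp : ∀ v, qT v ≠ p)
    (hpN : ¬ p ∣ B.N) (s : Finset ι) : ¬ p ∣ B.lev2 qv s := by
  refine B.not_dvd_lev2 hp.out fun h => ?_
  rw [Base.lev] at h
  rcases hp.out.dvd_mul.mp h with h | h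
  · exact p_not_dvd_NS B hqp hpN s h
  · exact B.not_dvd_prod A hp.out B.pS h

end Levels

section Types

variable {𝒪 : Type} [CommRing 𝒪] [IsDomain 𝒪] [IsDiscreteValuationRing 𝒪]
  [IsAdicComplete (maximalIdeal 𝒪) 𝒪] [Finite (ResidueField 𝒪)] [CharZero 𝒪]
  {p : ℕ} [Fact p.Prime]

/-- Surjective images of `T` have a finite residue field. -/
theorem finite_res_of_surj {ρbar : ResidualGaloisRep (ResidueField 𝒪)} {Λ : Type} [CommRing Λ]
    [Algebra 𝒪 Λ] {M : Type} [AddCommGroup M] [Module Λ M] {B : Set ℕ}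
    {Tl : ℕ → Module.End Λ M} (W : TLev ρbar Λ M B Tl) {B' : Type} [CommRing B'] [IsLocalRing B']
    (f : W.T →+* B') (hf : IsLocalHom f) (hs : Function.Surjective f) :
    Finite (ResidueField B') := by
  have h1 : Function.Surjective (residue B' ∘ f ∘ algebraMap 𝒪 W.T) := by
    intro z
    obtain ⟨b, rfl⟩ := IsLocalRing.residue_surjective z
    obtain ⟨t, rfl⟩ := hs b
    obtain ⟨c, hc⟩ := W.res_surj (residue _ t)
    refine ⟨c, ?_⟩
    have h2 := congrArg (ResidueField.map f) hc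
    rw [Function.comp_apply, ResidueField.map_residue, ResidueField.map_residue] at h2
    exact h2
  have h2 : ∀ c d : 𝒪, residue 𝒪 c = residue 𝒪 d →
      (residue B' ∘ f ∘ algebraMap 𝒪 W.T) c = (residue B' ∘ f ∘ algebraMap 𝒪 W.T) d := by
    intro c d h
    rw [← sub_eq_zero, ← map_sub, residue_eq_zero_iff] at h
    rw [← sub_eq_zero]
    show residue B' (f (algebraMap 𝒪 W.T c)) - residue B' (f (algebraMap 𝒪 W.T d)) = 0
    rw [← map_sub, ← map_sub, ← map_sub, residue_eq_zero_iff]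
    have h3 : algebraMap 𝒪 W.T (c - d) ∈ maximalIdeal W.T :=
      map_nonunit (algebraMap 𝒪 W.T) (c - d) h
    exact map_nonunit f _ h3
  refine Finite.of_surjective
    (fun k : ResidueField 𝒪 => (residue B' ∘ f ∘ algebraMap 𝒪 W.T)
      (Function.surjInv IsLocalRing.residue_surjective k)) fun z => ?_
  obtain ⟨c, hc⟩ := h1 z
  refine ⟨residue 𝒪 c, ?_⟩
  rw [← hc]
  exact h2 _ _ (Function.surjInv_eq IsLocalRing.residue_surjective _)

variable {ι : Type} {qT : ι → ℕ} {S : Finset ℕ} (B : Base 𝒪 p qT S)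
  (hqp : ∀ v, qT v ≠ p) (hpN : ¬ p ∣ B.N) (hNsq : Squarefree B.N)
  (hSp : ∀ q ∈ S, q.Prime) (𝓢 : Setup 𝒪 p) (hSg : 𝓢.Sg = S) (s : Finset ι)

include hqp hpN hNsq hSp hSg

/-- **The flat type, top levels.** -/
theorem typeMod_flat_top {m : ℕ} {qv : Fin m → ℕ} (A : Auxs B qv) [IsLocalRing (Lam 𝒪 p qv)]
    [NeZero (B.lev2 qv s)]
    (h : Occ (B.lev2 qv s) (↑(B.Sn qv) : Set ℕ) (thOf B.a (↑(B.Sn qv) : Set ℕ)))
    (ctx : HCtx p 𝓢.ρbar (B.Sn qv) (thOf B.a (↑(B.Sn qv) : Set ℕ)))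
    {X : Type} [AddCommGroup X] [Module (Lam 𝒪 p qv) X] (j : X →ₗ[Lam 𝒪 p qv] B.MM qv s) :
    (TLev.top B A s h ctx).TypeMod j (𝓢.type (Lflat p) (Finset.univ.image qv)) := by
  intro B' _ _ _ _ _ f hf hs _
  refine S59aux.type_flat_heckeDatum_baseChange 𝓢 (p_not_dvd_lev2 B A hqp hpN s) ?_ ?_ ctx
    (B.lev2_mem A s) h (f : (TLev.top B A s h ctx).T →+* B') hf
    (finite_res_of_surj (TLev.top B A s h ctx) (f : (TLev.top B A s h ctx).T →+* B') hf hs)
  · intro q hq hqL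
    rw [hSg]
    exact B.lev2_mem A s q hq hqL
  · intro q hqS hqp
    rw [hSg] at hqS
    exact not_sq_dvd_level rfl A.prime (B.lev2_eq s) (sqf_NS B hNsq s) (hSp q hqS)
      fun i hi => A.notMem i (hi ▸ hqS)

/-- **The flat type, bottom levels.** -/
theorem typeMod_flat_bot (h : Occ (B.NS s) (↑S : Set ℕ) (thOf B.a (↑S : Set ℕ)))
    (ctx : HCtx p 𝓢.ρbar S (thOf B.a (↑S : Set ℕ))) (κ : Type)
    {X : Type} [AddCommGroup X] [Module 𝒪 X] (j : X →ₗ[𝒪] (κ → B.M0 s)) :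
    (TLev.bot B s h ctx κ).TypeMod j (𝓢.type (Lflat p) ∅) := by
  intro B' _ _ _ _ _ f hf hs _
  refine S59aux.type_flat_heckeDatum_baseChange 𝓢 (p_not_dvd_NS B hqp hpN s) ?_ ?_ ctx
    (B.NS_mem s) h (f : (TLev.bot B s h ctx κ).T →+* B') hf
    (finite_res_of_surj (TLev.bot B s h ctx κ) (f : (TLev.bot B s h ctx κ).T →+* B') hf hs)
  · intro q hq hqL
    rw [hSg]
    exact Finset.mem_union_left _ (B.NS_mem s q hq hqL)
  · intro q hqS hqp h2
    rw [hSg] at hqS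
    rw [pow_two] at h2
    exact (hSp q hqS).one_lt.ne' (Nat.isUnit_iff.mp (sqf_NS B hNsq s q h2))

end Types

end Fermat.Agent.Sides

end
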