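import Fermat.Agent.S59.ClimbDef
import Fermat.Agent.RTE.Bridge

/-!
# A system occurring in the cusp forms gives a nonzero localised `H¹`
-/

set_option autoImplicit false

noncomputable section

open CongruenceSubgroup ModularCurve ModularCurve.Period IsLocalRing

namespace Fermat.Agent.S59aux

open Fermat.Agent.TwExact Fermat.Agent.TwHecke Fermat.Agent.HeckePar Fermat.Agent.GalRep
  Fermat.Agent.RTE Fermat.Agent.S21per

/-- A polynomial over a torsion-free ring is a combination of integral ones with linearly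
independent coefficients. -/
theorem exists_poly_decomp {ι : Type*} {R : Type*} [CommRing R] [IsAddTorsionFree R]
    (e : MvPolynomial ι R) :
    ∃ (n : ℕ) (c : Fin n → R) (t : Fin n → MvPolynomial ι ℤ), LinearIndependent ℤ c ∧
      e = ∑ i, MvPolynomial.C (c i) * MvPolynomial.map (Int.castRingHom R) (t i) := by
  classical
  let P : Submodule ℤ R := Submodule.span ℤ
    ((Finset.image (fun m => e.coeff m) e.support : Finset R) : Set R)
  have hfin : Module.Finite ℤ P := Module.Finite.span_finset ℤ _
  have htf : IsAddTorsionFree P :=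
    Function.Injective.isAddTorsionFree P.subtype.toAddMonoidHom Subtype.val_injective
  have hfree : Module.Free ℤ P := inferInstance
  let b := Module.finBasis ℤ P
  have hmem : ∀ m, e.coeff m ∈ P := by
    intro m
    by_cases hm : m ∈ e.support
    · exact Submodule.subset_span (Finset.mem_coe.mpr (Finset.mem_image_of_mem _ hm))
    · rw [MvPolynomial.notMem_support_iff.mp hm]
      exact P.zero_mem
  refine ⟨_, fun i => (b i : R), fun i => ∑ m ∈ e.support,
    MvPolynomial.monomial m (b.repr ⟨e.coeff m, hmem m⟩ i), ?_, ?_⟩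
  · exact b.linearIndependent.map' P.subtype (LinearMap.ker_eq_bot.mpr Subtype.val_injective)
  · conv_lhs => rw [← MvPolynomial.support_sum_monomial_coeff e]
    simp only [map_sum, MvPolynomial.map_monomial, Finset.mul_sum, MvPolynomial.C_mul_monomial]
    rw [Finset.sum_comm]
    refine Finset.sum_congr rfl fun m _ => ?_
    rw [← map_sum]
    congr 1
    have h1 := b.sum_repr ⟨e.coeff m, hmem m⟩
    have h2 := congrArg (fun y : P => (y : R)) h1
    simp only [Submodule.coe_sum, Submodule.coe_smul] at h2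
    refine h2.symm.trans (Finset.sum_congr rfl fun i _ => ?_)
    rw [zsmul_eq_mul, mul_comm]
    rfl

/-- A Hecke polynomial which kills the integral parabolic homomorphisms kills the cusp forms. -/
theorem evS_eq_zero_of_parEval {N : ℕ} [NeZero N] {S : Set ℕ} (t : HeckeAlgS S)
    (h : ∀ φ : Additive (Gamma0 N) →+ ℤ, IsParabolicHom (Gamma0 N) φ → parEval N S ℤ t φ = 0) :
    evS N S t = 0 := by
  apply Subtype.ext
  refine LinearMap.ext fun f => ?_
  apply periodLin_injective (N := N)
  rw [periodLin_evS, parEval_eq_zero_of_int (NeZero.ne N) _ h _ (isParabolicHom_periodLin f)]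
  exact (map_zero (periodLin N)).symm

/-- **Non-vanishing.** If the residual system `θ` occurs in the Hecke algebra of level `N`, then the
`θ`-part of `H¹(Γ₀(N), R)` is nonzero, for every torsion-free coefficient ring. -/
theorem nontrivial_Hm_of_occ {N : ℕ} [NeZero N] {R : Type} [CommRing R] [IsLocalRing R]
    [IsNoetherianRing R] [IsAdicComplete (maximalIdeal R) R] [IsAddTorsionFree R]
    {ε : (ZMod N)ˣ →* Rˣ} (hε : ε = 1) {S : Set ℕ} {θ : PIdx S → ResidueField R}
    (h : ∀ t : HeckeAlgS S, evS N S t = 0 → evk θ (toPoly R t) = 0) :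
    Nontrivial (Hm N ε R S θ) := by
  by_contra hnt
  rw [not_nontrivial_iff_subsingleton] at hnt
  obtain ⟨e, he⟩ := exists_isIdem_Hm (M := N) (S := S) R ε θ
  have h0 : ∀ x : HM N ε R, cev (hop N ε R S) (hop_commute N ε R S) e x = 0 := by
    intro x
    have h1 : (⟨_, he.apply_mem x⟩ : Hm N ε R S θ) = 0 := Subsingleton.elim _ _
    exact congrArg Subtype.val h1
  obtain ⟨n, c, t, hc, hect⟩ := exists_poly_decomp e
  have hc1 : ∀ i, evS N S (t i) = 0 := by
    intro i
    refine evS_eq_zero_of_parEval (t i) fun y _ => ?_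
    refine eq_zero_of_sum_scal (Γ := Gamma0 N) hc (l := fun j => parEval N S ℤ (t j) y) ?_ i
    have h2 := congrArg (HM.equivHom (A := R) hε)
      (h0 ((HM.equivHom (A := R) hε).symm (scal (1 : R) y)))
    rw [map_zero, hect, map_sum, LinearMap.sum_apply, map_sum] at h2
    rw [← h2]
    refine Finset.sum_congr rfl fun j _ => ?_
    rw [map_mul, cev_C, Module.End.mul_apply, Module.algebraMap_end_apply, map_smul]
    have h3 := equivHom_cev (A := R) hε (t j) ((HM.equivHom (A := R) hε).symm (scal (1 : R) y))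
    rw [toPoly] at h3
    rw [h3, LinearEquiv.apply_symm_apply, parEval_scal]
    refine AddMonoidHom.ext fun g => ?_
    rw [scal_apply]
    show _ = c j • ((parEval N S ℤ (t j) y) g • (1 : R))
    rw [smul_comm, smul_eq_mul, mul_one]
  have h4 : evk θ e = 0 := by
    rw [hect, map_sum]
    refine Finset.sum_eq_zero fun j _ => ?_
    rw [map_mul]
    have h5 : evk θ (toPoly R (t j)) = 0 := h (t j) (hc1 j)
    rw [toPoly] at h5
    rw [h5, mul_zero]
  rw [he.evk_eq] at h4
  exact one_ne_zero h4

/-- The evaluation of integral Hecke polynomials at a residual system. -/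
theorem evk_toPoly_eq {R : Type} [CommRing R] [IsLocalRing R] {S : Set ℕ}
    (θ : PIdx S → ResidueField R) (t : HeckeAlgS S) :
    evk θ (toPoly R t) = MvPolynomial.eval₂ (Int.castRingHom (ResidueField R)) θ t := by
  induction t using MvPolynomial.induction_on with
  | C n => rw [toPoly_C, evk_C, MvPolynomial.eval₂_C, map_intCast, eq_intCast]
  | add p q hp hq => rw [map_add, map_add, hp, hq, MvPolynomial.eval₂_add]
  | mul_X p i hp => rw [map_mul, map_mul, hp, toPoly_X, evk_X, MvPolynomial.eval₂_mul,
      MvPolynomial.eval₂_X]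

/-- **Non-vanishing**, general form: no condition on the residue characteristic, on `S` or on
elliptic points. -/
theorem nontrivial_Hm_of_evS {N : ℕ} [NeZero N] {R : Type} [CommRing R] [IsLocalRing R]
    [IsNoetherianRing R] [IsAdicComplete (maximalIdeal R) R] [IsAddTorsionFree R]
    {ε : (ZMod N)ˣ →* Rˣ} (hε : ε = 1) {S : Set ℕ} (θ : PIdx S → ResidueField R)
    (h : ∀ t : HeckeAlgS S, evS N S t = 0 →
      MvPolynomial.eval₂ (Int.castRingHom (ResidueField R)) θ t = 0) :
    Nontrivial (Hm N ε R S θ) :=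
  nontrivial_Hm_of_occ hε fun t ht => by rw [evk_toPoly_eq]; exact h t ht

section Climb

variable {𝒪 : Type} [CommRing 𝒪] [IsLocalRing 𝒪]

/-- The residual evaluation of Hecke polynomials. -/
theorem evk_toPoly_residue (S : Set ℕ) (a : ℕ → 𝒪) (t : HeckeAlgS S) :
    evk (R := 𝒪) (fun ℓ : PIdx S => residue 𝒪 (a (ℓ.1 : ℕ))) (toPoly 𝒪 t) =
      residue 𝒪 (evalA S a t) := by
  induction t using MvPolynomial.induction_on with
  | C n => rw [toPoly_C, evk_C, evalA, MvPolynomial.coe_eval₂Hom, MvPolynomial.eval₂_C]; rfl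
  | add p q hp hq => rw [map_add, map_add, map_add, map_add, hp, hq]
  | mul_X p i hp => rw [map_mul, map_mul, map_mul, map_mul, hp, toPoly_X, evk_X, evalA_X]

/-- **The bottom module is nonzero.** -/
theorem nontrivial_Hm_of_occursRes [IsNoetherianRing 𝒪] [IsAdicComplete (maximalIdeal 𝒪) 𝒪]
    [IsAddTorsionFree 𝒪] {N : ℕ} [NeZero N] {S : Finset ℕ} {a : ℕ → 𝒪} (h : OccursRes N S a)
    {ε : (ZMod N)ˣ →* 𝒪ˣ} (hε : ε = 1) :
    Nontrivial (Hm N ε 𝒪 (↑S : Set ℕ)
      (fun ℓ : PIdx (↑S : Set ℕ) => residue 𝒪 (a (ℓ.1 : ℕ)))) := by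
  refine nontrivial_Hm_of_occ hε fun t ht => ?_
  rw [evk_toPoly_residue]
  exact h t ht

end Climb

end Fermat.Agent.S59aux

end
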