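import Fermat.Agent.RTD.GalLemmas
import Fermat.Agent.RTD.Theta
import Fermat.Agent.Patch.RelDim

set_option autoImplicit false

/-!
# The interface between the Galois side and the Hecke side

* `HeckeSide` : the modules and the maps (no Galois representation).
* `GalAct` : the action of the deformation rings on the modules.
-/

noncomputable section

namespace Fermat.Agent.Sides

open IsLocalRing GaloisRep
open Fermat.Agent.RT (gr aug nOp nrm TM toTM)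
open Fermat.Agent.RTD
open Fermat.Agent.S53norm (GQ M2 HasMat)
open Fermat.Agent.LocRing (LocData LamT Ka IT trT SgT locK)

/-- The Hecke side: `M s n` = cohomology of level `N ∏_{v ∈ s} qT v ∏_i qv n i` with coefficients in
`𝒪[Δ_n]`, `M₀ s` = cohomology of level `N ∏_{v ∈ s} qT v` with coefficients in `𝒪` (`2 ^ m`
copies). `T s n ℓ` = normalised Hecke operator `T'_ℓ`, for the primes `ℓ` which do not divide the
level (arbitrary otherwise). -/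
structure HeckeSide (𝒪 : Type) [CommRing 𝒪] (p : ℕ) {m : ℕ} (qv : ℕ → Fin m → ℕ)
    {ι : Type} [DecidableEq ι] (qT : ι → ℕ) (S : Finset ℕ) where
  M : Finset ι → ℕ → Type
  [acg : ∀ s n, AddCommGroup (M s n)]
  [mod : ∀ s n, Module (MonoidAlgebra 𝒪 (Dia p (qv n))) (M s n)]
  d : Finset ι → ℕ
  b : ∀ s n, Nonempty (Module.Basis (Fin (d s)) (MonoidAlgebra 𝒪 (Dia p (qv n))) (M s n))
  /-- normalised Hecke operators -/
  T : ∀ s n, ℕ → Module.End (MonoidAlgebra 𝒪 (Dia p (qv n))) (M s n)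
  i1 : ∀ (s : Finset ι) (v : ι), v ∉ s → ∀ n,
    M s n →ₗ[MonoidAlgebra 𝒪 (Dia p (qv n))] M (insert v s) n
  i2 : ∀ (s : Finset ι) (v : ι), v ∉ s → ∀ n,
    M s n →ₗ[MonoidAlgebra 𝒪 (Dia p (qv n))] M (insert v s) n
  j1 : ∀ (s : Finset ι) (v : ι), v ∉ s → ∀ n,
    M (insert v s) n →ₗ[MonoidAlgebra 𝒪 (Dia p (qv n))] M s n
  j2 : ∀ (s : Finset ι) (v : ι), v ∉ s → ∀ n,
    M (insert v s) n →ₗ[MonoidAlgebra 𝒪 (Dia p (qv n))] M s n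
  i1_T : ∀ s v hv n (ℓ : ℕ), ℓ.Prime → ℓ ∉ S → (∀ i, ℓ ≠ qv n i) → ∀ x,
    i1 s v hv n (T s n ℓ x) = T (insert v s) n ℓ (i1 s v hv n x)
  i2_T : ∀ s v hv n (ℓ : ℕ), ℓ.Prime → ℓ ∉ S → (∀ i, ℓ ≠ qv n i) → ∀ x,
    i2 s v hv n (T s n ℓ x) = T (insert v s) n ℓ (i2 s v hv n x)
  j1_T : ∀ s v hv n (ℓ : ℕ), ℓ.Prime → ℓ ∉ S → (∀ i, ℓ ≠ qv n i) → ∀ x,
    j1 s v hv n (T (insert v s) n ℓ x) = T s n ℓ (j1 s v hv n x)
  j2_T : ∀ s v hv n (ℓ : ℕ), ℓ.Prime → ℓ ∉ S → (∀ i, ℓ ≠ qv n i) → ∀ x,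
    j2 s v hv n (T (insert v s) n ℓ x) = T s n ℓ (j2 s v hv n x)
  j1_i1 : ∀ s v hv n x, j1 s v hv n (i1 s v hv n x) = (qT v + 1) • x
  j1_i2 : ∀ s v hv n x, j1 s v hv n (i2 s v hv n x) = T s n (qT v) x
  j2_i1 : ∀ s v hv n x, j2 s v hv n (i1 s v hv n x) = T s n (qT v) x
  j2_i2 : ∀ s v hv n x, j2 s v hv n (i2 s v hv n x) = (qT v + 1) • x
  /-- the bottom level -/
  M₀ : Finset ι → Type
  [acg₀ : ∀ s, AddCommGroup (M₀ s)]
  [mod₀ : ∀ s, Module 𝒪 (M₀ s)]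
  T₀ : ∀ s, ℕ → Module.End 𝒪 (M₀ s)
  π : ∀ s n, M s n →+ M₀ s
  π_smul : ∀ s n (l : MonoidAlgebra 𝒪 (Dia p (qv n))) (x : M s n),
    π s n (l • x) = aug 𝒪 (Dia p (qv n)) l • π s n x
  π_T : ∀ s n (ℓ : ℕ), ℓ.Prime → ℓ ∉ S → (∀ i, ℓ ≠ qv n i) → ∀ x,
    π s n (T s n ℓ x) = T₀ s ℓ (π s n x)
  π_surjective : ∀ s n, Function.Surjective (π s n)
  π_ker : ∀ s n (x : M s n), π s n x = 0 →
    x ∈ (RingHom.ker (aug 𝒪 (Dia p (qv n))) • ⊤ :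
      Submodule (MonoidAlgebra 𝒪 (Dia p (qv n))) (M s n))
  I1 : ∀ (s : Finset ι) (v : ι), v ∉ s → M₀ s →ₗ[𝒪] M₀ (insert v s)
  I2 : ∀ (s : Finset ι) (v : ι), v ∉ s → M₀ s →ₗ[𝒪] M₀ (insert v s)
  π_i1 : ∀ s v hv n x, π (insert v s) n (i1 s v hv n x) = I1 s v hv (π s n x)
  π_i2 : ∀ s v hv n x, π (insert v s) n (i2 s v hv n x) = I2 s v hv (π s n x)
  /-- Ihara's lemma at the bottom level -/
  ihara : ∀ (ϖ : 𝒪), Irreducible ϖ → ∀ s v hv x y z,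
    I1 s v hv x + I2 s v hv y = ϖ • z → (∃ x', x = ϖ • x') ∧ ∃ y', y = ϖ • y'

attribute [instance] HeckeSide.acg HeckeSide.mod HeckeSide.acg₀ HeckeSide.mod₀

section GalAct

variable {𝒪 : Type} [CommRing 𝒪] [IsDomain 𝒪] [IsDiscreteValuationRing 𝒪]
  [IsAdicComplete (maximalIdeal 𝒪) 𝒪] {p : ℕ} {𝓢 : Setup 𝒪 p} {L : PCond} {S : Finset ℕ}

/-- The units `θ_i ∈ R_n`. -/
def θ (G : 𝓢.GalSide L S) (n : ℕ) (i : Fin G.m) : ((G.Lv n).D.R)ˣ := ((G.Lv n).tw i).θ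

lemma θ_pow (G : 𝓢.GalSide L S) (n : ℕ) (i : Fin G.m) : θ G n i ^ pPart p (G.qv n i) = 1 :=
  ((G.Lv n).tw i).θ_pow

/-- The trace of the universal representation of level `n`. -/
def tr (G : 𝓢.GalSide L S) (n : ℕ) (σ : GQ) : (G.Lv n).D.R :=
  LinearMap.trace _ _ ((G.Lv n).D.ρ.ρ σ)

/-- The trace of the universal representation of the bottom level. -/
def tr₀ (G : 𝓢.GalSide L S) (σ : GQ) : G.D₀.R := LinearMap.trace _ _ (G.D₀.ρ.ρ σ)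

/-- The action of the deformation rings on the Hecke side. -/
structure GalAct (G : 𝓢.GalSide L S) (H : HeckeSide 𝒪 p G.qv 𝓢.pr S) where
  act : ∀ s n, (G.Lv n).D.R →+* Module.End (MonoidAlgebra 𝒪 (Dia p (G.qv n))) (H.M s n)
  act_C : ∀ s n (c : 𝒪) x, act s n (algebraMap 𝒪 (G.Lv n).D.R c) x =
    algebraMap 𝒪 (MonoidAlgebra 𝒪 (Dia p (G.qv n))) c • x
  act_frob : ∀ s n (ℓ : ℕ), ℓ.Prime → ℓ ∉ S → (∀ i, ℓ ≠ G.qv n i) →
    ∀ A : ValuationSubring (AlgebraicClosure ℚ), A.LiesOverPrime ℓ → ∀ σ : GQ,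
      A.IsFrobeniusAt σ ℓ → act s n (tr G n σ) = H.T s n ℓ
  /-- [g1] -/
  act_v : ∀ s n v, v ∉ s → act s n (tr G n (𝓢.φ (𝓢.pr v))) = H.T s n (𝓢.pr v)
  i1_act : ∀ s v hv n f x, H.i1 s v hv n (act s n f x) = act (insert v s) n f (H.i1 s v hv n x)
  i2_act : ∀ s v hv n f x, H.i2 s v hv n (act s n f x) = act (insert v s) n f (H.i2 s v hv n x)
  j1_act : ∀ s v hv n f x, H.j1 s v hv n (act (insert v s) n f x) = act s n f (H.j1 s v hv n x)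
  j2_act : ∀ s v hv n f x, H.j2 s v hv n (act (insert v s) n f x) = act s n f (H.j2 s v hv n x)
  /-- the norm elements of inertia and of the diamond operators agree -/
  norm : ∀ s n i x, act s n (nOp (pPart p (G.qv n i)) (θ G n i : (G.Lv n).D.R)) x =
    nOp (pPart p (G.qv n i)) (gr 𝒪 (Dia p (G.qv n)) (gen p (G.qv n) i)) • x
  /-- unramified at the primes which do not divide the level -/
  unram : ∀ s n v, v ∉ s → ∀ i j x,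
    act s n ((G.Lv n).γ ((SgT 𝒪 (Fin (G.m - 𝓢.δ)) v - 1) i j)) x = 0
  /-- [g2] -/
  new : ∀ s v hv n z, H.j1 s v hv n z = 0 → H.j2 s v hv n z = 0 →
    ∃ k : ℕ, act (insert v s) n ((tr G n (𝓢.φ (𝓢.pr v)) ^ 2 -
      ((𝓢.pr v + 1 : ℕ) : (G.Lv n).D.R) ^ 2) ^ k) z = 0
  act₀ : ∀ s, G.D₀.R →+* Module.End 𝒪 (H.M₀ s)
  act₀_C : ∀ s (c : 𝒪) x, act₀ s (algebraMap 𝒪 G.D₀.R c) x = c • x
  π_act : ∀ s n f x, H.π s n (act s n f x) = act₀ s (G.ψ n f) (H.π s n x)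

end GalAct

end Fermat.Agent.Sides

end
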