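import Fermat.Agent.S59.SidesMain

set_option autoImplicit false

/-!
# Nontriviality of the modules of a Hecke side
-/

noncomputable section

namespace Fermat.Agent.Sides

open IsLocalRing
open Fermat.Agent.RTD

variable {𝒪 : Type} [CommRing 𝒪] [IsDomain 𝒪] [IsDiscreteValuationRing 𝒪] {p m : ℕ}
  {qv : ℕ → Fin m → ℕ} {ι : Type} [DecidableEq ι] {qT : ι → ℕ} {S : Finset ℕ}
  (H : HeckeSide 𝒪 p qv qT S)

/-- If the first bottom module is nontrivial, all of them are. -/
theorem HeckeSide.nontrivial_M₀ [h0 : Nontrivial (H.M₀ ∅)] (s : Finset ι) :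
    Nontrivial (H.M₀ s) := by
  classical
  obtain ⟨ϖ, hϖ⟩ := IsDiscreteValuationRing.exists_irreducible 𝒪
  induction s using Finset.induction_on with
  | empty => exact h0
  | insert v s hv ih =>
    by_contra hcon
    rw [not_nontrivial_iff_subsingleton] at hcon
    have hfin := H.finite_M₀ s
    have h1 : (⊤ : Submodule 𝒪 (H.M₀ s)) ≤ (Ideal.span {ϖ} : Ideal 𝒪) • ⊤ := by
      rintro x -
      obtain ⟨⟨x', hx'⟩, -⟩ := H.ihara ϖ hϖ s v hv x 0 0 (Subsingleton.elim _ _)
      rw [hx']
      exact Submodule.smul_mem_smul (Ideal.mem_span_singleton_self ϖ) trivial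
    have h2 : (⊤ : Submodule 𝒪 (H.M₀ s)) = ⊥ :=
      Submodule.eq_bot_of_le_smul_of_le_jacobson_bot (Ideal.span {ϖ}) ⊤ Module.Finite.fg_top h1
        (by
          rw [IsLocalRing.jacobson_eq_maximalIdeal ⊥ bot_ne_top, Ideal.span_singleton_le_iff_mem]
          exact hϖ.not_isUnit)
    have h3 : Subsingleton (H.M₀ s) := (Submodule.subsingleton_iff 𝒪).mp
      (subsingleton_of_bot_eq_top h2.symm)
    exact not_nontrivial (H.M₀ s) ih

/-- If the first bottom module is nontrivial, all the modules are. -/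
theorem HeckeSide.nontrivial_M [h0 : Nontrivial (H.M₀ ∅)] (s : Finset ι) (n : ℕ) :
    Nontrivial (H.M s n) :=
  have := H.nontrivial_M₀ s
  (H.π_surjective s n).nontrivial

end Fermat.Agent.Sides

end
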