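import Fermat.Agent.S59.SidesMain
import Fermat.Agent.S59.Conclude
import Fermat.Agent.S41.HmRes

set_option autoImplicit false

/-!
# From the main theorem on the two sides to `Occurs`
-/

noncomputable section

namespace Fermat.Agent.Sides

open IsLocalRing GaloisRep
open Fermat.Agent.RTD Fermat.Agent.TW
open Fermat.Agent.S53norm (GQ M2 HasMat exists_hasMat_adic)
open Fermat.Agent.TwExact Fermat.Agent.TwHecke

/-- The trace is compatible with base change and equivalence. -/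
theorem trace_of_isEquiv {R B : Type} [CommRing R] [IsLocalRing R] [CommRing B] [IsLocalRing B]
    {ρ : GaloisRepAdic R} {x : GaloisRepAdic B} (f : R →+* B) (hf : IsLocalHom f)
    (he : (ρ.baseChangeAlong f hf).IsEquiv x) (σ : GQ) :
    f (LinearMap.trace _ _ (ρ.ρ σ)) = LinearMap.trace _ _ (x.ρ σ) := by
  obtain ⟨r, hr⟩ := exists_hasMat_adic ρ
  have h1 := (hr.baseChangeAlong f hf).of_isEquiv he
  rw [trace_of_hasMat hr, trace_of_hasMat h1]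
  simp [Matrix.trace_fin_two]

theorem trace_of_charpoly {𝒪 : Type} [CommRing 𝒪] [IsLocalRing 𝒪] {x : GaloisRepAdic 𝒪} {σ : GQ}
    {a d : 𝒪} (h : LinearMap.charpoly (x.ρ σ) =
      Polynomial.X ^ 2 - Polynomial.C a * Polynomial.X + Polynomial.C d) :
    LinearMap.trace _ _ (x.ρ σ) = a := by
  obtain ⟨r, hr⟩ := exists_hasMat_adic x
  rw [trace_of_hasMat hr]
  have h1 : (r σ).charpoly = Polynomial.X ^ 2 - Polynomial.C a * Polynomial.X +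
      Polynomial.C d := by
    obtain ⟨e, he⟩ := hr
    have h0 : e.conj (x.ρ σ) = Matrix.toLin' (r σ) := by
      refine LinearMap.ext fun v => ?_
      rw [LinearEquiv.conj_apply_apply, he, LinearEquiv.apply_symm_apply, Matrix.toLin'_apply]
    rw [← Matrix.charpoly_toLin', ← h0, LinearEquiv.charpoly_conj e]
    exact h
  rw [Matrix.charpoly_fin_two] at h1
  have h2 := congrArg (fun q => Polynomial.coeff q 1) h1
  simp [Polynomial.coeff_X, Polynomial.coeff_C] at h2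
  exact h2

variable {𝒪 : Type} [CommRing 𝒪] [IsDomain 𝒪] [IsDiscreteValuationRing 𝒪]
  [IsAdicComplete (maximalIdeal 𝒪) 𝒪] {p : ℕ} {𝓢 : Setup 𝒪 p} {L : PCond} {S : Finset ℕ}
  {G : 𝓢.GalSide L S} {H : HeckeSide 𝒪 p G.qv 𝓢.pr S}

/-- Every prime outside `S` is outside the set of Taylor-Wiles primes of some level. -/
theorem exists_level_ne (G : 𝓢.GalSide L S) (ℓ : ℕ) (hℓ : 0 < ℓ) : ∃ n, ∀ i, ℓ ≠ G.qv n i := by
  refine ⟨ℓ, fun i h => ?_⟩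
  have h1 := ((G.good ℓ).tw i).dvd
  have h2 := ((G.good ℓ).tw i).prime
  rw [← h] at h1 h2
  have h3 : p ^ (ℓ + 1) ≤ ℓ - 1 := Nat.le_of_dvd (Nat.sub_pos_of_lt h2.one_lt) h1
  have h4 : ℓ + 1 < p ^ (ℓ + 1) := Nat.lt_pow_self 𝓢.hp.one_lt
  omega

/-- The action of the Frobenius traces at the bottom level. -/
theorem GalAct.act₀_frob (A : GalAct G H) (s : Finset ({v // v ∈ 𝓢.T₀} ⊕ {v // v ∈ 𝓢.V})) {ℓ : ℕ}
    (hℓ : ℓ.Prime) (hℓS : ℓ ∉ S) {B : ValuationSubring (AlgebraicClosure ℚ)}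
    (hB : B.LiesOverPrime ℓ) {σ : GQ} (hσ : B.IsFrobeniusAt σ ℓ) (y : H.M₀ s) :
    A.act₀ s (tr₀ G σ) y = H.T₀ s ℓ y := by
  obtain ⟨n, hn⟩ := exists_level_ne G ℓ hℓ.pos
  obtain ⟨x, rfl⟩ := H.π_surjective s n y
  have h1 : (G.ψ n : (G.Lv n).D.R →+* G.D₀.R) (tr G n σ) = tr₀ G σ :=
    trace_of_isEquiv _ (G.ψ_local n) (G.ψ_equiv n) σ
  have h2 := A.π_act s n (tr G n σ) x
  rw [A.act_frob s n ℓ hℓ hℓS hn B hB σ hσ, H.π_T s n ℓ hℓ hℓS hn] at h2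
  rw [h2, ← h1]
  rfl

/-- **The system of `x` occurs at level `M`.** -/
theorem GalAct.occurs [CharZero 𝒪] (A : GalAct G H) {x : GaloisRepAdic 𝒪} {r N : ℕ} {T : Finset ℕ}
    {a : ℕ → 𝒪} (hx : S59aux.ClimbData p x r N T S a) {M : ℕ} [NeZero M]
    (x₀ : G.D₀.R →ₐ[𝒪] 𝒪) (hloc : IsLocalHom (x₀ : G.D₀.R →+* 𝒪))
    (hx₀ : (G.D₀.ρ.baseChangeAlong (x₀ : G.D₀.R →+* 𝒪) hloc).IsEquiv x)
    {ε : (ZMod M)ˣ →* 𝒪ˣ} (hε : ε = 1) {J : Type*} (e : J → H.M₀ Finset.univ →+ HM M ε 𝒪)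
    (hinj : ∀ y, (∀ j, e j y = 0) → y = 0)
    (hmem : ∀ j y, e j y ∈ Hm M ε 𝒪 (↑S : Set ℕ) (S59aux.resSys (↑S : Set ℕ) a))
    (he : ∀ j (ℓ : PIdx (↑S : Set ℕ)) y,
      e j (H.T₀ Finset.univ (ℓ.1 : ℕ) y) = heckeP M ε 𝒪 ℓ.1 (e j y))
    (hann : ∀ f, (∀ y : H.M₀ Finset.univ, A.act₀ _ f y = 0) → x₀ f = 0) :
    S59aux.Occurs M S a := by
  have hne : S41hm.StrongNonEis (↑S : Set ℕ) (S59aux.resSys (↑S : Set ℕ) a) :=
    S41hm.strongNonEis_of_adic 𝓢.hp2 𝓢.hp 𝓢.hp𝒪 hx.abs hx.odd (T := (↑S : Set ℕ))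
      (Finset.finite_toSet S) (a := a)
      (fun ℓ hℓ hℓS B hB σ hσ => hx.frob ℓ hℓ (fun h => hℓS (Finset.mem_coe.mpr h)) B hB σ hσ)
      (RingHom.id (ResidueField 𝒪)) (Finset.finite_toSet S) (fun ℓ _ => rfl)
  have hpS : p ∈ S := (hx.mem_S p).mpr ⟨𝓢.hp, Or.inl rfl⟩
  have hex : ∀ ℓ : PIdx (↑S : Set ℕ), ∃ (B : ValuationSubring (AlgebraicClosure ℚ)) (σ : GQ),
      B.LiesOverPrime (ℓ.1 : ℕ) ∧ B.IsFrobeniusAt σ (ℓ.1 : ℕ) := by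
    intro ℓ
    obtain ⟨B, hB⟩ := Frob.exists_liesOverPrime (ℓ.1 : ℕ) ℓ.1.2
    obtain ⟨σ, hσ⟩ := Frob.exists_isFrobeniusAt ℓ.1.2 hB
    exact ⟨B, σ, hB, hσ⟩
  choose B σ hB hσ using hex
  let act : G.D₀.R →+* AddMonoid.End (H.M₀ Finset.univ) :=
    { toFun := fun f => (A.act₀ Finset.univ f).toAddMonoidHom
      map_one' := by rw [map_one]; rfl
      map_mul' := fun f g => by rw [map_mul]; rfl
      map_zero' := by rw [map_zero]; rfl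
      map_add' := fun f g => by rw [map_add]; rfl }
  have hact : ∀ f y, act f y = A.act₀ Finset.univ f y := fun _ _ => rfl
  refine S59aux.occurs_of_annihilator 𝓢.hp 𝓢.hp𝒪 hpS hne hε (fun ℓ => tr₀ G (σ ℓ))
    (x₀ : G.D₀.R →+* 𝒪) (fun ℓ => ?_) act e hinj hmem (fun j ℓ y => ?_) hann
  · have h1 := trace_of_isEquiv (x₀ : G.D₀.R →+* 𝒪) hloc hx₀ (σ ℓ)
    rw [tr₀, h1]
    exact trace_of_charpoly (hx.frob _ ℓ.1.2 (fun h => ℓ.2 (Finset.mem_coe.mpr h)) (B ℓ) (hB ℓ)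
      (σ ℓ) (hσ ℓ))
  · rw [hact, A.act₀_frob Finset.univ ℓ.1.2 (fun h => ℓ.2 (Finset.mem_coe.mpr h)) (hB ℓ) (hσ ℓ),
      he]

end Fermat.Agent.Sides

end
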