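import Fermat.Agent.S59.HY
import Fermat.Agent.S59.NTSide
import Fermat.Agent.S59.SidesOccurs

set_option autoImplicit false

/-!
# The strictly ordinary case, in terms of the two sides
-/

noncomputable section

namespace Fermat.Agent.Sides

open IsLocalRing GaloisRep
open Fermat.Agent.RT (gr aug nOp nrm TM toTM)
open Fermat.Agent.RTD
open Fermat.Agent.S53norm (GQ M2 HasMat)
open Fermat.Agent.LocRing (LocData LamT Ka IT trT SgT locK)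
open Fermat.Agent.TwExact Fermat.Agent.TwHecke

variable {𝒪 : Type} [CommRing 𝒪] [IsDomain 𝒪] [IsDiscreteValuationRing 𝒪]
  [IsAdicComplete (maximalIdeal 𝒪) 𝒪] [Finite (ResidueField 𝒪)] {p : ℕ} {𝓢 : Setup 𝒪 p}
  {S : Finset ℕ}

/-- The norm elements agree, for every action on `X` with the right values at Frobenius
elements. -/
def NormHyp {L : PCond} (G : 𝓢.GalSide L S) (X : HeckeSide 𝒪 p G.qv 𝓢.pr S) : Prop :=
  ∀ s n (act : (G.Lv n).D.R →+* Module.End (MonoidAlgebra 𝒪 (Dia p (G.qv n))) (X.M s n)),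
    (∀ (c : 𝒪) x, act (algebraMap 𝒪 (G.Lv n).D.R c) x =
      algebraMap 𝒪 (MonoidAlgebra 𝒪 (Dia p (G.qv n))) c • x) →
    (∀ ℓ : ℕ, ℓ.Prime → ℓ ∉ S → (∀ i, ℓ ≠ G.qv n i) →
      ∀ A : ValuationSubring (AlgebraicClosure ℚ), A.LiesOverPrime ℓ → ∀ σ : GQ,
        A.IsFrobeniusAt σ ℓ → act (tr G n σ) = X.T s n ℓ) →
    ∀ i x, act (nOp (pPart p (G.qv n i)) (θ G n i : (G.Lv n).D.R)) x =
      nOp (pPart p (G.qv n i)) (gr 𝒪 (Dia p (G.qv n)) (gen p (G.qv n) i)) • x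

section Act

variable {L : PCond} {G : 𝓢.GalSide L S} {X H : HeckeSide 𝒪 p G.qv 𝓢.pr S}

/-- **Existence of the action on a sub-side.** -/
theorem exists_galAct (E : TData 𝓢 H) (J : SubSide (𝓢 := 𝓢) X H) [h0 : Nontrivial (X.M₀ ∅)]
    (hL : GoodCond L (ResidueField 𝒪)) (hodd : 𝓢.ρbar.IsOdd)
    (hty : ∀ s n, (E.W s n).TypeMod (J.ι s n) (𝓢.type L (Finset.univ.image (G.qv n))))
    (hty₀ : ∀ s, (E.W₀ s).TypeMod (J.ι₀ s) (𝓢.type L ∅)) (hnorm : NormHyp G X) :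
    ∃ (Γ : SubAct (G := G) E J) (A : GalAct G X), ∀ s n, A.act s n = (Γ.gal s n).act := by
  obtain ⟨Γ⟩ := nonempty_subAct (G := G) E J (fun s n => X.nontrivial_M s n)
    (fun s => X.nontrivial_M₀ s) hty hty₀
  have hn := fun s n => hnorm s n (Γ.gal s n).act (fun c x => (Γ.gal s n).act_C (J.inj s n) c x)
    (fun ℓ hℓ hℓS hi A hA σ hσ => LinearMap.ext fun x => J.inj s n (by
      have h1 := (Γ.gal s n).act_trace σ x
      rw [(E.W s n).act_frob ℓ hℓ (mem_badSet.mpr ⟨hℓS, hi⟩) A hA σ hσ] at h1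
      exact h1.trans (J.T s n ℓ hℓ hℓS hi x).symm))
  exact ⟨Γ, (Γ.frobAct hn).toGalAct hL hodd, fun s n => rfl⟩

end Act

section Strict

variable {G : 𝓢.GalSide (Lord p) S} {Hp H : HeckeSide 𝒪 p G.qv 𝓢.pr S}

/-- **The strictly ordinary case.** -/
theorem occurs_strict [hpf : Fact p.Prime] [CharZero 𝒪] (P : NewPair Hp H)
    (hp𝒪 : (p : 𝒪) ∈ maximalIdeal 𝒪) (E : TData 𝓢 Hp) [h0 : Nontrivial ((P.K hp𝒪).M₀ ∅)]
    (h1 : ∀ ℓ : ℕ, ℓ.Prime → ∃ n, ∀ i, ℓ ≠ G.qv n i)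
    (hodd : 𝓢.ρbar.IsOdd)
    (hty : ∀ s n, (E.W s n).TypeMod (P.incl hp𝒪 s n)
      (𝓢.type (Lord p) (Finset.univ.image (G.qv n))))
    (hty₀ : ∀ s, (E.W₀ s).TypeMod (P.incl₀ hp𝒪 s) (𝓢.type (Lord p) ∅))
    (hnorm : NormHyp G (P.K hp𝒪))
    (hs : ∀ s v hv n x y, ∃ z, Hp.j1 s v hv n z = x ∧ Hp.j2 s v hv n z = y)
    (hflat : ∀ s n (f : (E.W s n).T →+* DualNumber (ResidueField 𝒪)) (hf : IsLocalHom f),
      (∀ t, (∀ z, P.t1 s n ((E.W s n).act t z) = 0 ∧ P.t2 s n ((E.W s n).act t z) = 0) →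
        f t = 0) → ((E.W s n).ρ.baseChangeAlong f hf).IsFlatAt p)
    {x : GaloisRepAdic 𝒪} {r N : ℕ} {T : Finset ℕ} {a : ℕ → 𝒪}
    (hx : S59aux.ClimbData p x r N T S a) (hxρ : 𝓢.ρbar = x.residual)
    (hxt : 𝓢.type (Lord p) ∅ x) {M : ℕ} [NeZero M]
    {ε : (ZMod M)ˣ →* 𝒪ˣ} (hε : ε = 1) {I : Type*}
    (e : I → (P.K hp𝒪).M₀ Finset.univ →+ HM M ε 𝒪)
    (hinj : ∀ y, (∀ j, e j y = 0) → y = 0)
    (hmem : ∀ j y, e j y ∈ Hm M ε 𝒪 (↑S : Set ℕ) (S59aux.resSys (↑S : Set ℕ) a))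
    (he : ∀ j (ℓ : PIdx (↑S : Set ℕ)) y,
      e j ((P.K hp𝒪).T₀ Finset.univ (ℓ.1 : ℕ) y) = heckeP M ε 𝒪 ℓ.1 (e j y)) :
    S59aux.Occurs M S a := by
  obtain ⟨Γ, A, hA⟩ := exists_galAct (G := G) E (P.subSide hp𝒪 h1) (goodCond_ord p _) hodd hty hty₀
    hnorm
  obtain ⟨x₀, hloc, hx₀⟩ := G.exists_point (x := x) (by
    rw [hxρ]
    exact ⟨ResidualGaloisRep.Equiv.refl _⟩) hxt
  exact A.occurs hx x₀ hloc hx₀ hε e hinj hmem he fun f hf =>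
    main_strict P hp𝒪 Γ A hA hs hflat x₀ hf

end Strict

end Fermat.Agent.Sides

end
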