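import Fermat.Agent.S59.NormInst
import Fermat.Agent.S59.StrictCore
import Fermat.Agent.HSide.Main

/-!
# The norm elements agree: sub-sides of the Hecke side of a base
-/

set_option autoImplicit false
set_option synthInstance.maxHeartbeats 400000
set_option maxHeartbeats 1000000

namespace Fermat.Agent.Sides

open IsLocalRing GaloisRep
open Fermat.Agent.RTD Fermat.Agent.HSide

variable {𝒪 : Type} [CommRing 𝒪] [IsDomain 𝒪] [IsDiscreteValuationRing 𝒪]
  [IsAdicComplete (maximalIdeal 𝒪) 𝒪] {p : ℕ} {𝓢 : Setup 𝒪 p} {L : PCond}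
  [Finite (ResidueField 𝒪)] [CharZero 𝒪] [Fact p.Prime] {S : Finset ℕ}

/-- **The norm elements agree**, for every sub-side of the Hecke side of a base. -/
theorem normHyp_side (G : 𝓢.GalSide L S) (hodd : 𝓢.ρbar.IsOdd) (B : Base 𝒪 p 𝓢.pr S)
    (A : ∀ n, Auxs B (G.qv n)) [∀ n, IsLocalRing (Lam 𝒪 p (G.qv n))]
    {X : HeckeSide 𝒪 p G.qv 𝓢.pr S} (J : SubSide (𝓢 := 𝓢) X (B.side A)) : NormHyp G X :=
  fun s n act hC hF i x => norm_level G hodd B n (A n) s (J.ι s n) (J.inj s n) (X.T s n)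
    (fun ℓ h1 h2 h3 y => J.T s n ℓ h1 h2 h3 y) act hC hF i x

end Fermat.Agent.Sides
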