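import Fermat.Agent.S59.TDataInst
import Fermat.Agent.HSide.Main

/-!
# The record `TData` of the Hecke side attached to a base
-/

set_option autoImplicit false
set_option linter.style.haveILetI false
set_option linter.unusedVariables false
set_option synthInstance.maxHeartbeats 400000
set_option maxHeartbeats 1000000

noncomputable section

namespace Fermat.Agent.Sides

open IsLocalRing Fermat.Agent.TwHecke Fermat.Agent.TwExact Fermat.Agent.HeckeRep
  Fermat.Agent.RTE Fermat.Agent.RTD Fermat.Agent.GalRep Fermat.Agent.HSide CuspForm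

variable {𝒪 : Type} [CommRing 𝒪] [IsDomain 𝒪] [IsDiscreteValuationRing 𝒪]
  [IsAdicComplete (maximalIdeal 𝒪) 𝒪] [Finite (ResidueField 𝒪)] [CharZero 𝒪]
  {p : ℕ} [Fact p.Prime] {𝓢 : Setup 𝒪 p} {S : Finset ℕ} (B : Base 𝒪 p 𝓢.pr S)
  (hρ : B.ρb = 𝓢.ρbar) (hocc : Occ B.N (↑S : Set ℕ) (thOf B.a (↑S : Set ℕ)))
  {m : ℕ} {qv : ℕ → Fin m → ℕ} [∀ n, IsLocalRing (Lam 𝒪 p (qv n))] (A : ∀ n, Auxs B (qv n))

/-- **The Hecke algebras of the Hecke side of a base.** -/
def tdata : TData 𝓢 (B.side A) where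
  W := fun s n => topN B hρ hocc A s n
  act_v := fun s n v hv => topN_act_v B hρ hocc A s n hv
  new := fun s v hv n z h1 h2 =>
    (topN_new B hρ hocc A s n hv).imp fun k hk => hk z h1 h2
  unr := fun s n v hv => topN_unr B hρ hocc A s n hv
  W₀ := fun s => (botN B hρ hocc m s).congrTl fun ℓ _ _ => rfl

end Fermat.Agent.Sides
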