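import Fermat.Agent.S59.FlatCore
import Fermat.Agent.S59.FlatTypes
import Fermat.Agent.S59.FlatSetup
import Fermat.Agent.S59.TDataSide
import Fermat.Agent.S59.NormHyp
import Fermat.Agent.S59.BotEmb
import Fermat.Agent.S59.ClimbGlue
import Fermat.Agent.S59.NonTriv
import Fermat.Agent.HSide.OfClimb
import Fermat.Agent.HSide.Surj

set_option autoImplicit false
set_option linter.style.haveILetI false
set_option synthInstance.maxHeartbeats 400000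
set_option maxHeartbeats 1000000

/-!
# Modularity lifting in the flat case
-/

noncomputable section

open IsLocalRing GaloisRep
open Fermat.Agent.RTD Fermat.Agent.HSide Fermat.Agent.HeckeRep
open Fermat.Agent.TwExact Fermat.Agent.TwHecke Fermat.Agent.Patch
open Fermat.Agent.S59aux (ClimbData ClimbFlat Occurs OccursRes)
open Fermat.Agent.RTE (thOf)

namespace Fermat.Agent.Sides

section Flat

variable {p : ℕ} [hpf : Fact p.Prime] {𝒪 : Type} [CommRing 𝒪] [IsDomain 𝒪]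
  [IsDiscreteValuationRing 𝒪] [IsAdicComplete (maximalIdeal 𝒪) 𝒪] [Finite (ResidueField 𝒪)]
  [CharZero 𝒪] {𝓢 : Setup 𝒪 p} {S : Finset ℕ}

/-- **The flat case, for the Hecke side of a base** of level prime to `p`. -/
theorem occurs_base_flat {x : GaloisRepAdic 𝒪} {r N : ℕ} {T : Finset ℕ} {a : ℕ → 𝒪} {M : ℕ}
    [NeZero M] (hp𝒪 : (p : 𝒪) ∈ maximalIdeal 𝒪) (hx : ClimbData p x r N T S a)
    (hρ : 𝓢.ρbar = x.residual) (hSg : 𝓢.Sg = S) (hxt : 𝓢.type (Lflat p) ∅ x)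
    (G : 𝓢.GalSide (Lflat p) S) (B : Base 𝒪 p 𝓢.pr S) (A : ∀ n, Auxs B (G.qv n))
    (ha : ∀ ℓ, B.a ℓ = residue 𝒪 (a ℓ)) (hB : B.ρb = 𝓢.ρbar)
    (hqp : ∀ v, 𝓢.pr v ≠ p) (hpN : ¬ p ∣ B.N) (hNsq : Squarefree B.N)
    (hocc : Occ B.N (↑S : Set ℕ) (thOf B.a (↑S : Set ℕ)))
    (hnt : Nontrivial (B.M0 (∅ : Finset _)))
    (hM : B.NS Finset.univ = M) : Occurs M S a := by
  haveI hloc : ∀ n, IsLocalRing (Lam 𝒪 p (G.qv n)) := fun n => isLocalRing_Lam 𝒪 p (G.qv n) hp𝒪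
  have hodd : 𝓢.ρbar.IsOdd := hρ ▸ hx.odd
  have hSp : ∀ q ∈ S, q.Prime := fun q hq => ((hx.mem_S q).mp hq).1
  let E : TData 𝓢 (B.side A) := tdata B hB hocc A
  haveI : Nontrivial ((B.side A).M₀ ∅) :=
    inferInstanceAs (Nontrivial (Finset (Fin G.m) → B.M0 (∅ : Finset _)))
  obtain ⟨ε, hε, e, hinj, hmem, he⟩ := exists_emb B hM ha
    (LinearMap.id : (Finset (Fin G.m) → B.M0 (Finset.univ : Finset _)) →ₗ[𝒪] _)
    Function.injective_id ((B.side A).T₀ Finset.univ) (fun ℓ _ _ y J => rfl)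
  have hty : ∀ s n, (E.W s n).TypeMod LinearMap.id
      (𝓢.type (Lflat p) (Finset.univ.image (G.qv n))) := fun s n =>
    haveI : NeZero (B.lev2 (G.qv n) s) := B.neZero_lev2 (A n) s
    typeMod_flat_top B hqp hpN hNsq hSp 𝓢 hSg s (A n) (B.occ_lev2 (A n) s hocc)
      (hctx_setup 𝓢 B hB B.S_sub) LinearMap.id
  have hty₀ : ∀ s, (E.W₀ s).TypeMod LinearMap.id (𝓢.type (Lflat p) ∅) := fun s =>
    typeMod_flat_bot B hqp hpN hNsq hSp 𝓢 hSg s (B.occ_NS s hocc)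
      (hctx_setup 𝓢 B hB subset_rfl) (Finset (Fin G.m)) LinearMap.id
  exact occurs_flat E hodd hty hty₀ (normHyp_side G hodd B A (SubSide.refl (B.side A)))
    (fun s v hv n x y => B.mj_surj (A n) hv x y) hx hρ hxt hε e hinj hmem he

end Flat

end Fermat.Agent.Sides

namespace Fermat.Agent.S59aux

open Fermat.Agent.Sides

/-- The bottom module is not zero. -/
theorem nontrivial_M0_of_occursRes {p : ℕ} [hpf : Fact p.Prime] {𝒪 : Type} [CommRing 𝒪]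
    [IsDomain 𝒪] [IsDiscreteValuationRing 𝒪] [IsAdicComplete (maximalIdeal 𝒪) 𝒪] [CharZero 𝒪]
    {ι : Type} {qT : ι → ℕ} {S : Finset ℕ} {a : ℕ → 𝒪} (B : Base 𝒪 p qT S) {N : ℕ} [NeZero N]
    (hN : B.N = N) (ha : ∀ ℓ, B.a ℓ = residue 𝒪 (a ℓ)) (h : OccursRes N S a) :
    Nontrivial (B.M0 (∅ : Finset ι)) := by
  have h1 : B.NS ∅ = N := by rw [Base.NS, Finset.prod_empty, mul_one, hN]
  have h2 : B.a = fun ℓ => residue 𝒪 (a ℓ) := funext ha
  have key : ∀ M : ℕ, M = N → ∀ b : ℕ → ResidueField 𝒪, b = (fun ℓ => residue 𝒪 (a ℓ)) →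
      Nontrivial (Hm M ((1 : (ZMod M)ˣ →* 𝒪ˣ) ^ 2) 𝒪 (↑S : Set ℕ) (thOf b (↑S : Set ℕ))) := by
    rintro M rfl b rfl
    exact nontrivial_Hm_of_occursRes h one_sq_eq
  exact key _ h1 _ h2

/-- **Modularity lifting, flat case.** -/
theorem climbFlat : ClimbFlat := by
  intro p hpf 𝒪 _ _ _ _ _ _ x r N T S a M hN0 hM0 hp2 hp𝒪 hx hcond hM hocc
  obtain ⟨𝓢, hρ, hT, hSg, hxt, hbar, ⟨G⟩⟩ :=
    exists_flat_setup hp2 hp𝒪 (NeZero.ne N) hx hcond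
  exact occurs_base_flat hp𝒪 hx hρ hSg hxt G
    (baseOf hx hp2 hp𝒪 𝓢 hT N (NeZero.ne N) (Or.inl rfl))
    (fun n => auxs_of_goodQ hx hp2 hp𝒪 𝓢 hρ hT N (NeZero.ne N) (Or.inl rfl)
      (Nat.succ_ne_zero n) (G.good n))
    (fun _ => rfl) hρ.symm (pr_ne 𝓢) hx.not_dvd hx.sqf (occ_of_occursRes hocc)
    (nontrivial_M0_of_occursRes _ rfl (fun _ => rfl) hocc)
    ((HSide.NS_univ_baseOf hx hp2 hp𝒪 𝓢 hT N (NeZero.ne N) (Or.inl rfl)).trans hM.symm)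

end Fermat.Agent.S59aux

end
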