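import Mathlib

/-!
# Group theory for the auxiliary prime: lines stable under a subgroup of index at most two
-/

set_option autoImplicit false

namespace Fermat.Agent.S59aux.Grp

open Matrix

variable {K : Type*} [Field K] {G : Type*} [Group G]

local notation "M2K" => Matrix (Fin 2) (Fin 2) K

/-- the determinant of two vectors -/
def dd (x y : Fin 2 → K) : K := x 0 * y 1 - x 1 * y 0

lemma exists_smul_of_dd {u x : Fin 2 → K} (hu : u ≠ 0) (h : dd u x = 0) : ∃ c : K, x = c • u := by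
  unfold dd at h
  by_cases h0 : u 0 = 0
  · have h1 : u 1 ≠ 0 := by
      intro h1
      apply hu
      funext i
      fin_cases i
      · exact h0
      · exact h1
    refine ⟨x 1 / u 1, ?_⟩
    have h2 : x 0 = 0 := by
      rw [h0, zero_mul, zero_sub, neg_eq_zero] at h
      exact (mul_eq_zero.mp h).resolve_left h1
    funext i
    fin_cases i
    · simp [h0, h2]
    · simp [h1]
  · refine ⟨x 0 / u 0, ?_⟩
    funext i
    fin_cases i
    · simp [h0]
    · simp only [Fin.mk_one, Pi.smul_apply, smul_eq_mul]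
      field_simp
      linear_combination h

lemma dd_smul_self (u : Fin 2 → K) (c : K) : dd u (c • u) = 0 := by
  simp only [dd, Pi.smul_apply, smul_eq_mul]
  ring

lemma dd_trace (X : M2K) (a b : Fin 2 → K) :
    dd (X *ᵥ a) b + dd a (X *ᵥ b) = X.trace * dd a b := by
  simp only [dd, Matrix.mulVec, dotProduct, Fin.sum_univ_two, Matrix.trace_fin_two]
  ring

lemma dd_smul_left (c : K) (a b : Fin 2 → K) : dd (c • a) b = c * dd a b := by
  simp only [dd, Pi.smul_apply, smul_eq_mul]; ring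

lemma dd_smul_right (c : K) (a b : Fin 2 → K) : dd a (c • b) = c * dd a b := by
  simp only [dd, Pi.smul_apply, smul_eq_mul]; ring

lemma dd_ne {X : M2K} {α β : K} (hαβ : α ≠ β) {u₁ u₂ : Fin 2 → K} (hu₁ : u₁ ≠ 0) (hu₂ : u₂ ≠ 0)
    (h1 : X *ᵥ u₁ = α • u₁) (h2 : X *ᵥ u₂ = β • u₂) : dd u₁ u₂ ≠ 0 := by
  intro h
  obtain ⟨c, hc⟩ := exists_smul_of_dd hu₁ h
  have hc0 : c ≠ 0 := by rintro rfl; exact hu₂ (by rw [hc, zero_smul])
  have h3 : X *ᵥ u₂ = α • u₂ := by rw [hc, Matrix.mulVec_smul, h1, smul_comm]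
  have h4 : (α - β) • u₂ = 0 := by rw [sub_smul, ← h3, h2, sub_self]
  rcases smul_eq_zero.mp h4 with h5 | h5
  · exact hαβ (sub_eq_zero.mp h5)
  · exact hu₂ h5

/-- a matrix with two distinct eigenvalues has just two eigenlines -/
lemma eig_mem {X : M2K} {α β : K} (hαβ : α ≠ β) {u₁ u₂ : Fin 2 → K} (hu₁ : u₁ ≠ 0) (hu₂ : u₂ ≠ 0)
    (h1 : X *ᵥ u₁ = α • u₁) (h2 : X *ᵥ u₂ = β • u₂) {x : Fin 2 → K} {μ : K}
    (hx : X *ᵥ x = μ • x) : (∃ a : K, x = a • u₁) ∨ (∃ a : K, x = a • u₂) := by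
  have hD := dd_ne hαβ hu₁ hu₂ h1 h2
  have ht : X.trace = α + β := by
    have h3 := dd_trace X u₁ u₂
    rw [h1, h2, dd_smul_left, dd_smul_right, ← add_mul] at h3
    exact (mul_right_cancel₀ hD h3).symm
  by_cases h3 : dd u₁ x = 0
  · exact Or.inl (exists_smul_of_dd hu₁ h3)
  · right
    apply exists_smul_of_dd hu₂
    have h4 := dd_trace X u₁ x
    rw [h1, hx, dd_smul_left, dd_smul_right, ← add_mul, ht] at h4
    have h5 := mul_right_cancel₀ h3 h4
    have h6 : μ = β := by linear_combination h5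
    have h7 := dd_trace X u₂ x
    rw [h2, hx, dd_smul_left, dd_smul_right, ← add_mul, ht, h6] at h7
    have h8 : (β - α) * dd u₂ x = 0 := by linear_combination h7
    exact (mul_eq_zero.mp h8).resolve_left (sub_ne_zero.mpr (Ne.symm hαβ))

/-- the conclusion: a line stable under a subgroup of index at most two -/
def HasLine (ρ : G →* M2K) : Prop :=
  ∃ G1 : Subgroup G, (G1.index = 1 ∨ G1.index = 2) ∧ ∃ v : Fin 2 → K, v ≠ 0 ∧
    ∀ σ ∈ G1, ∃ a : K, ρ σ *ᵥ v = a • v

lemma inv_mulVec (ρ : G →* M2K) (g : G) (v : Fin 2 → K) : ρ g⁻¹ *ᵥ (ρ g *ᵥ v) = v := by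
  rw [Matrix.mulVec_mulVec, ← map_mul, inv_mul_cancel, map_one, Matrix.one_mulVec]

lemma mulVec_ne (ρ : G →* M2K) (g : G) {v : Fin 2 → K} (hv : v ≠ 0) : ρ g *ᵥ v ≠ 0 := by
  intro h
  apply hv
  rw [← inv_mulVec ρ g v, h, Matrix.mulVec_zero]

/-- the stabiliser of a line -/
def stab (ρ : G →* M2K) {v : Fin 2 → K} (hv : v ≠ 0) : Subgroup G where
  carrier := {g | ∃ a : K, ρ g *ᵥ v = a • v}
  one_mem' := ⟨1, by rw [map_one, Matrix.one_mulVec, one_smul]⟩
  mul_mem' := by
    rintro a b ⟨x, hx⟩ ⟨y, hy⟩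
    refine ⟨y * x, ?_⟩
    rw [map_mul, ← Matrix.mulVec_mulVec, hy, Matrix.mulVec_smul, hx, smul_smul]
  inv_mem' := by
    rintro g ⟨x, hx⟩
    have hx0 : x ≠ 0 := by
      rintro rfl
      exact mulVec_ne ρ g hv (by rw [hx, zero_smul])
    refine ⟨x⁻¹, ?_⟩
    have h1 := inv_mulVec ρ g v
    rw [hx, Matrix.mulVec_smul] at h1
    rw [eq_comm, inv_smul_eq_iff₀ hx0]
    exact h1.symm

lemma mem_stab {ρ : G →* M2K} {v : Fin 2 → K} {hv : v ≠ 0} {g : G} :
    g ∈ stab ρ hv ↔ ∃ a : K, ρ g *ᵥ v = a • v := Iff.rfl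

lemma hasLine_of_perm (ρ : G →* M2K) {v : Fin 2 → K} (v' : Fin 2 → K) (hv : v ≠ 0)
    (h : ∀ g, (∃ a : K, ρ g *ᵥ v = a • v) ∨ (∃ a : K, ρ g *ᵥ v = a • v')) : HasLine ρ := by
  refine ⟨stab ρ hv, ?_, v, hv, fun σ hσ => hσ⟩
  by_cases htop : stab ρ hv = ⊤
  · left; rw [htop, Subgroup.index_top]
  · right
    obtain ⟨w, hw⟩ : ∃ w, w ∉ stab ρ hv := by
      by_contra hcon
      push Not at hcon
      exact htop (eq_top_iff.mpr fun x _ => hcon x)
    have key : ∀ g g' : G, g ∉ stab ρ hv → g' ∉ stab ρ hv → g'⁻¹ * g ∈ stab ρ hv := by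
      intro g g' hg hg'
      obtain ⟨a, ha⟩ := (h g).resolve_left hg
      obtain ⟨a', ha'⟩ := (h g').resolve_left hg'
      have ha0 : a' ≠ 0 := by
        rintro rfl
        exact mulVec_ne ρ g' hv (by rw [ha', zero_smul])
      refine ⟨a * a'⁻¹, ?_⟩
      have h1 : ρ g *ᵥ v = (a * a'⁻¹) • (ρ g' *ᵥ v) := by
        rw [ha, ha', smul_smul, mul_assoc, inv_mul_cancel₀ ha0, mul_one]
      rw [map_mul, ← Matrix.mulVec_mulVec, h1, Matrix.mulVec_smul, inv_mulVec]
    rw [Subgroup.index_eq_two_iff]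
    refine ⟨w, fun b => ?_⟩
    by_cases hb : b ∈ stab ρ hv
    · right
      exact ⟨hb, fun h1 => hw ((Subgroup.mul_mem_cancel_left _ hb).mp h1)⟩
    · left
      refine ⟨?_, hb⟩
      have := key w b⁻¹ hw (fun h1 => hb (by simpa using (stab ρ hv).inv_mem h1))
      rwa [inv_inv] at this

/-- From a line stable under a normal subgroup (containing all commutators) to a line stable under
a subgroup of index at most two. -/
theorem hasLine_of_normal (ρ : G →* M2K) (H : Subgroup G)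
    (hH : ∀ a b : G, a * b * a⁻¹ * b⁻¹ ∈ H) (c : G) {α β : K} (hαβ : α ≠ β) {u₁ u₂ : Fin 2 → K}
    (hu₁ : u₁ ≠ 0) (hu₂ : u₂ ≠ 0) (h1 : ρ c *ᵥ u₁ = α • u₁) (h2 : ρ c *ᵥ u₂ = β • u₂)
    {v : Fin 2 → K} (hv : v ≠ 0) (hvH : ∀ h ∈ H, ∃ a : K, ρ h *ᵥ v = a • v) : HasLine ρ := by
  have hconj : ∀ g : G, ∀ h ∈ H, g * h * g⁻¹ ∈ H := by
    intro g h hh
    have : g * h * g⁻¹ = (g * h * g⁻¹ * h⁻¹) * h := by group
    rw [this]
    exact H.mul_mem (hH g h) hh
  by_cases hs : ∀ h ∈ H, ∃ a : K, ρ h = a • (1 : M2K)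
  · -- scalar case
    refine hasLine_of_perm ρ u₂ hu₁ fun g => ?_
    obtain ⟨a, ha⟩ := hs _ (hH c g)
    have h3 : ρ c *ᵥ (ρ g *ᵥ u₁) = (a * α) • (ρ g *ᵥ u₁) := by
      have h4 : c * g = (c * g * c⁻¹ * g⁻¹) * (g * c) := by group
      rw [Matrix.mulVec_mulVec, ← map_mul, h4, map_mul, ha, smul_mul_assoc, one_mul, map_mul,
        Matrix.smul_mulVec, ← Matrix.mulVec_mulVec, h1, Matrix.mulVec_smul, smul_smul]
    exact eig_mem hαβ hu₁ hu₂ h1 h2 h3
  · push Not at hs
    obtain ⟨h₀, hh₀, hns⟩ := hs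
    obtain ⟨a, ha⟩ := hvH h₀ hh₀
    have hg : ∀ g : G, ∃ b : K, ρ h₀ *ᵥ (ρ g *ᵥ v) = b • (ρ g *ᵥ v) := by
      intro g
      have h3 : g⁻¹ * h₀ * g ∈ H := by simpa using hconj g⁻¹ h₀ hh₀
      obtain ⟨b, hb⟩ := hvH _ h3
      refine ⟨b, ?_⟩
      have h4 : h₀ * g = g * (g⁻¹ * h₀ * g) := by group
      rw [Matrix.mulVec_mulVec, ← map_mul, h4, map_mul, ← Matrix.mulVec_mulVec, hb,
        Matrix.mulVec_smul]
    by_cases hall : ∀ g : G, ∃ b : K, ρ g *ᵥ v = b • v
    · exact hasLine_of_perm ρ v hv fun g => Or.inl (hall g)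
    · push Not at hall
      obtain ⟨w, hw⟩ := hall
      obtain ⟨a', ha'⟩ := hg w
      have hne : a ≠ a' := by
        rintro rfl
        apply hns a
        have hD : dd v (ρ w *ᵥ v) ≠ 0 := fun h0 => by
          obtain ⟨c, hc⟩ := exists_smul_of_dd hv h0
          exact hw c hc
        -- `ρ h₀ - a` kills a basis
        have h5 : ∀ i, (ρ h₀ *ᵥ v) i = a * v i := fun i => by rw [ha]; rfl
        have h6 : ∀ i, (ρ h₀ *ᵥ (ρ w *ᵥ v)) i = a * (ρ w *ᵥ v) i := fun i => by rw [ha']; rfl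
        set y := ρ w *ᵥ v with hy
        have key : ∀ i : Fin 2, ρ h₀ i 0 * v 0 + ρ h₀ i 1 * v 1 = a * v i := fun i => by
          rw [← h5 i, Matrix.mulVec, dotProduct, Fin.sum_univ_two]
        have key' : ∀ i : Fin 2, ρ h₀ i 0 * y 0 + ρ h₀ i 1 * y 1 = a * y i := fun i => by
          rw [← h6 i, Matrix.mulVec, dotProduct, Fin.sum_univ_two]
        unfold dd at hD
        ext i j
        fin_cases i <;> fin_cases j <;>
          simp only [Fin.zero_eta, Fin.mk_one, Matrix.smul_apply, Matrix.one_apply_eq,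
            smul_eq_mul, mul_one, Fin.isValue, ne_eq, one_ne_zero, zero_ne_one, not_false_eq_true,
            Matrix.one_apply_ne, mul_zero] <;> apply mul_right_cancel₀ hD
        · linear_combination y 1 * key 0 - v 1 * key' 0
        · linear_combination (- y 0) * key 0 + v 0 * key' 0
        · linear_combination y 1 * key 1 - v 1 * key' 1
        · linear_combination (- y 0) * key 1 + v 0 * key' 1
      exact hasLine_of_perm ρ (ρ w *ᵥ v) hv fun g => by
        obtain ⟨b, hb⟩ := hg g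
        exact eig_mem hne hv (mulVec_ne ρ w hv) ha ha' hb

/-- eigenvectors from trace and determinant -/
lemma exists_eigenvector {X : M2K} {α β : K} (ht : X.trace = α + β) (hd : X.det = α * β) :
    ∃ u : Fin 2 → K, u ≠ 0 ∧ X *ᵥ u = α • u := by
  have h1 : (X - α • (1 : M2K)).det = 0 := by
    rw [Matrix.trace_fin_two] at ht
    rw [Matrix.det_fin_two] at hd
    rw [Matrix.det_fin_two]
    simp only [Matrix.sub_apply, Matrix.smul_apply, Matrix.one_apply_eq, smul_eq_mul, mul_one,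
      ne_eq, zero_ne_one, not_false_eq_true, Matrix.one_apply_ne, mul_zero, sub_zero, one_ne_zero]
    linear_combination hd - α * ht
  obtain ⟨u, hu, h2⟩ := Matrix.exists_mulVec_eq_zero_iff.mpr h1
  refine ⟨u, hu, ?_⟩
  rw [Matrix.sub_mulVec, Matrix.smul_mulVec, Matrix.one_mulVec, sub_eq_zero] at h2
  exact h2

/-- conjugating a representation -/
def conjRep (ρ : G →* M2K) (P : M2Kˣ) : G →* M2K where
  toFun g := P⁻¹.val * ρ g * P.val
  map_one' := by rw [map_one, mul_one, Units.inv_mul]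
  map_mul' a b := by
    rw [map_mul]
    have : P.val * P⁻¹.val = 1 := Units.mul_inv P
    calc P⁻¹.val * (ρ a * ρ b) * P.val = P⁻¹.val * ρ a * 1 * ρ b * P.val := by
          simp only [mul_assoc, mul_one]
      _ = _ := by rw [← this]; simp only [mul_assoc]

lemma hasLine_conj (ρ : G →* M2K) (P : M2Kˣ) (h : HasLine (conjRep ρ P)) : HasLine ρ := by
  obtain ⟨G1, hG, v, hv, h1⟩ := h
  refine ⟨G1, hG, P.val *ᵥ v, fun h0 => hv ?_, fun σ hσ => ?_⟩
  · have := congrArg (fun w => P⁻¹.val *ᵥ w) h0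
    simpa only [Matrix.mulVec_mulVec, Units.inv_mul, Matrix.one_mulVec, Matrix.mulVec_zero] using this
  · obtain ⟨a, ha⟩ := h1 σ hσ
    refine ⟨a, ?_⟩
    have h2 : ρ σ * P.val = P.val * (P⁻¹.val * ρ σ * P.val) := by
      rw [← mul_assoc, ← mul_assoc, Units.mul_inv, one_mul]
    have h3 : (P⁻¹.val * ρ σ * P.val) *ᵥ v = a • v := ha
    rw [Matrix.mulVec_mulVec, h2, ← Matrix.mulVec_mulVec, h3, Matrix.mulVec_smul]

/-- diagonalising an element -/
lemma exists_diag' {X : M2K} {α β : K} (hαβ : α ≠ β) (ht : X.trace = α + β) (hd : X.det = α * β) :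
    ∃ P : M2Kˣ, P⁻¹.val * X * P.val = !![α, 0; 0, β] := by
  obtain ⟨u₁, hu₁, h1⟩ := exists_eigenvector ht hd
  obtain ⟨u₂, hu₂, h2⟩ := exists_eigenvector (X := X) (α := β) (β := α) (by rw [ht, add_comm])
    (by rw [hd, mul_comm])
  have hD := dd_ne hαβ hu₁ hu₂ h1 h2
  set P : M2K := !![u₁ 0, u₂ 0; u₁ 1, u₂ 1] with hP
  have hdet : P.det ≠ 0 := by
    rw [hP, Matrix.det_fin_two_of]
    unfold dd at hD
    intro h0
    apply hD
    linear_combination h0
  have hunit : IsUnit P := (Matrix.isUnit_iff_isUnit_det P).mpr (isUnit_iff_ne_zero.mpr hdet)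
  obtain ⟨U, hU⟩ := hunit
  refine ⟨U, ?_⟩
  have h3 : X * U.val = U.val * !![α, 0; 0, β] := by
    rw [hU, hP]
    have k1 : ∀ i, X i 0 * u₁ 0 + X i 1 * u₁ 1 = α * u₁ i := fun i => by
      have := congrFun h1 i
      rw [Matrix.mulVec, dotProduct, Fin.sum_univ_two] at this
      exact this
    have k2 : ∀ i, X i 0 * u₂ 0 + X i 1 * u₂ 1 = β * u₂ i := fun i => by
      have := congrFun h2 i
      rw [Matrix.mulVec, dotProduct, Fin.sum_univ_two] at this
      exact this
    ext i j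
    fin_cases i <;> fin_cases j <;> simp [Matrix.mul_apply, Fin.sum_univ_two]
    · rw [k1 0]; ring
    · rw [k2 0]; ring
    · rw [k1 1]; ring
    · rw [k2 1]; ring
  rw [mul_assoc, h3, ← mul_assoc, Units.inv_mul, one_mul]

lemma conjRep_trace (ρ : G →* M2K) (P : M2Kˣ) (g : G) : (conjRep ρ P g).trace = (ρ g).trace := by
  change (P⁻¹.val * ρ g * P.val).trace = _
  rw [Matrix.trace_mul_comm, ← mul_assoc, Units.mul_inv, one_mul]

lemma conjRep_det (ρ : G →* M2K) (P : M2Kˣ) (g : G) : (conjRep ρ P g).det = (ρ g).det := by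
  change (P⁻¹.val * ρ g * P.val).det = _
  rw [Matrix.det_mul, Matrix.det_mul, mul_comm, ← mul_assoc, ← Matrix.det_mul, Units.mul_inv,
    Matrix.det_one, one_mul]

/-- **`p = 3`** -/
theorem hasLine_three [IsAlgClosed K] (h2 : (2 : K) ≠ 0) (ρ : G →* M2K) (H : Subgroup G)
    (hH : ∀ a b : G, a * b * a⁻¹ * b⁻¹ ∈ H) (c : G) (hc : (ρ c).trace = 0)
    (hd : (ρ c).det = -1) (ht : ∀ h ∈ H, (ρ (c * h)).trace = 0) : HasLine ρ := by
  have hne : (1 : K) ≠ -1 := by
    intro h
    apply h2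
    linear_combination h
  obtain ⟨P, hP⟩ := exists_diag' (X := ρ c) hne (by rw [hc]; ring) (by rw [hd]; ring)
  apply hasLine_conj ρ P
  set r := conjRep ρ P with hr
  have hrc : r c = !![1, 0; 0, -1] := hP
  have ht' : ∀ h ∈ H, r h 0 0 = r h 1 1 := by
    intro h hh
    have h3 := ht h hh
    rw [← conjRep_trace ρ P, ← hr, map_mul, hrc, Matrix.trace_fin_two, Matrix.mul_apply,
      Matrix.mul_apply] at h3
    simp [Fin.sum_univ_two] at h3
    linear_combination h3
  have hcomm : ∀ h ∈ H, ∀ h' ∈ H, r h 0 1 * r h' 1 0 = r h 1 0 * r h' 0 1 := by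
    intro h hh h' hh'
    have h3 := ht' _ (H.mul_mem hh hh')
    rw [map_mul, Matrix.mul_apply, Matrix.mul_apply, Fin.sum_univ_two, Fin.sum_univ_two,
      ht' h hh, ht' h' hh'] at h3
    linear_combination h3
  -- a common eigenvector
  obtain ⟨v, hv, hvH⟩ : ∃ v : Fin 2 → K, v ≠ 0 ∧ ∀ h ∈ H, ∃ a : K, r h *ᵥ v = a • v := by
    by_cases hs : ∀ h ∈ H, r h 0 1 = 0
    · refine ⟨![0, 1], fun h0 => one_ne_zero (congrFun h0 1), fun h hh => ⟨r h 1 1, ?_⟩⟩
      funext i
      fin_cases i <;> simp [Matrix.mulVec, dotProduct, Fin.sum_univ_two, hs h hh]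
    · push Not at hs
      obtain ⟨h₀, hh₀, hb⟩ := hs
      -- eigenvector of `!![0, b; c, 0]`
      obtain ⟨s, hs⟩ := IsAlgClosed.exists_pow_nat_eq (r h₀ 1 0 / r h₀ 0 1) (n := 2) two_pos
      refine ⟨![1, s], fun h0 => one_ne_zero (congrFun h0 0), fun h hh => ?_⟩
      refine ⟨r h 1 1 + s * r h 0 1, ?_⟩
      have h3 : r h 1 0 = s ^ 2 * r h 0 1 := by
        rw [hs]
        have := hcomm h hh h₀ hh₀
        field_simp
        linear_combination -this
      funext i
      fin_cases i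
      · simp [Matrix.mulVec, dotProduct, Fin.sum_univ_two, ht' h hh]
        ring
      · simp [Matrix.mulVec, dotProduct, Fin.sum_univ_two, h3]
        ring
  refine hasLine_of_normal r H hH c hne (u₁ := ![1, 0]) (u₂ := ![0, 1])
    (fun h0 => one_ne_zero (congrFun h0 0)) (fun h0 => one_ne_zero (congrFun h0 1)) ?_ ?_ hv hvH
  · rw [hrc]
    funext i
    fin_cases i <;> simp [Matrix.mulVec, dotProduct, Fin.sum_univ_two]
  · rw [hrc]
    funext i
    fin_cases i <;> simp [Matrix.mulVec, dotProduct, Fin.sum_univ_two]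

/-- **`p = 5`** -/
theorem hasLine_five (h5 : (5 : K) = 0) (ρ : G →* M2K) (H : Subgroup G)
    (hH : ∀ a b : G, a * b * a⁻¹ * b⁻¹ ∈ H) (g₀ : G) (hd0 : (ρ g₀).det = 2)
    (hdH : ∀ h ∈ H, (ρ h).det = 1)
    (ht1 : ∀ h ∈ H, (ρ (g₀ * h)).trace ^ 2 = 9) (ht3 : ∀ h ∈ H, (ρ (g₀ ^ 3 * h)).trace ^ 2 = 16) :
    HasLine ρ := by
  -- the eigenvalues of `g₀`
  obtain ⟨e, he, hte⟩ : ∃ e : K, e * e = 1 ∧ (ρ g₀).trace = 3 * e := by
    have h1 := ht1 1 H.one_mem
    rw [mul_one] at h1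
    have h2 : ((ρ g₀).trace - 3) * ((ρ g₀).trace + 3) = 0 := by linear_combination h1
    rcases mul_eq_zero.mp h2 with h3 | h3
    · exact ⟨1, by ring, by linear_combination h3⟩
    · exact ⟨-1, by ring, by linear_combination h3⟩
  have he0 : e ≠ 0 := by rintro rfl; simp at he
  have hne : e ≠ 2 * e := by
    intro h
    apply he0
    linear_combination -h
  obtain ⟨P, hP⟩ := exists_diag' (X := ρ g₀) hne (by rw [hte]; ring) (by
    rw [hd0]; linear_combination (-2) * he)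
  apply hasLine_conj ρ P
  set r := conjRep ρ P with hr
  have hrc : r g₀ = !![e, 0; 0, 2 * e] := hP
  have hrc3 : r (g₀ ^ 3) = !![e, 0; 0, 8 * e] := by
    have he3 : e * e * e = e := by rw [he, one_mul]
    rw [map_pow, hrc, pow_succ, pow_two, Matrix.mul_fin_two, Matrix.mul_fin_two]
    ext i j
    fin_cases i <;> fin_cases j <;> simp
    · linear_combination he3
    · linear_combination 8 * he3
  have had : ∀ h ∈ H, r h 0 1 * r h 1 0 = 0 := by
    intro h hh
    have h1 := ht1 h hh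
    rw [← conjRep_trace ρ P, ← hr, map_mul, hrc, Matrix.trace_fin_two, Matrix.mul_apply,
      Matrix.mul_apply] at h1
    simp [Fin.sum_univ_two] at h1
    have h3 := ht3 h hh
    rw [← conjRep_trace ρ P, ← hr, map_mul, hrc3, Matrix.trace_fin_two, Matrix.mul_apply,
      Matrix.mul_apply] at h3
    simp [Fin.sum_univ_two] at h3
    have hdet := hdH h hh
    rw [← conjRep_det ρ P, ← hr, Matrix.det_fin_two] at hdet
    set a := r h 0 0
    set d := r h 1 1
    have k1 : (a + 2 * d - 2) * (a + 2 * d + 2) = 0 := by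
      linear_combination h1 - (a + 2 * d) ^ 2 * he + h5
    have k3 : (a + 3 * d - 1) * (a + 3 * d + 1) = 0 := by
      linear_combination h3 - (a + 8 * d) ^ 2 * he + (3 - 2 * a * d - 11 * d ^ 2) * h5
    have k : a * d = 1 := by
      rcases mul_eq_zero.mp k1 with m1 | m1 <;> rcases mul_eq_zero.mp k3 with m3 | m3
      · have hd : d = -1 := by linear_combination m3 - m1
        have ha : a = 4 := by linear_combination 3 * m1 - 2 * m3
        rw [hd, ha]; linear_combination -h5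
      · have hd : d = -3 := by linear_combination m3 - m1
        have ha : a = 8 := by linear_combination 3 * m1 - 2 * m3
        rw [hd, ha]; linear_combination (-5) * h5
      · have hd : d = 3 := by linear_combination m3 - m1
        have ha : a = -8 := by linear_combination 3 * m1 - 2 * m3
        rw [hd, ha]; linear_combination (-5) * h5
      · have hd : d = 1 := by linear_combination m3 - m1
        have ha : a = -4 := by linear_combination 3 * m1 - 2 * m3
        rw [hd, ha]; linear_combination -h5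
    linear_combination k - hdet
  have hdiag : ∀ h ∈ H, r h 0 0 * r h 1 1 = 1 := by
    intro h hh
    have hdet := hdH h hh
    rw [← conjRep_det ρ P, ← hr, Matrix.det_fin_two] at hdet
    linear_combination hdet + had h hh
  obtain ⟨v, hv, hvH⟩ : ∃ v : Fin 2 → K, v ≠ 0 ∧ ∀ h ∈ H, ∃ a : K, r h *ᵥ v = a • v := by
    by_cases hs : ∀ h ∈ H, r h 0 1 = 0
    · refine ⟨![0, 1], fun h0 => one_ne_zero (congrFun h0 1), fun h hh => ⟨r h 1 1, ?_⟩⟩
      funext i
      fin_cases i <;> simp [Matrix.mulVec, dotProduct, Fin.sum_univ_two, hs h hh]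
    · push Not at hs
      obtain ⟨h₀, hh₀, hb⟩ := hs
      have hc0 : r h₀ 1 0 = 0 := (mul_eq_zero.mp (had h₀ hh₀)).resolve_left hb
      refine ⟨![1, 0], fun h0 => one_ne_zero (congrFun h0 0), fun h hh => ⟨r h 0 0, ?_⟩⟩
      have hc : r h 1 0 = 0 := by
        by_contra hcne
        have hb' : r h 0 1 = 0 := (mul_eq_zero.mp (had h hh)).resolve_right hcne
        have h3 := had _ (H.mul_mem hh hh₀)
        rw [map_mul, Matrix.mul_apply, Matrix.mul_apply, Fin.sum_univ_two, Fin.sum_univ_two, hb',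
          hc0] at h3
        have hA := hdiag h hh
        have hA0 := hdiag h₀ hh₀
        have e1 : r h 0 0 ≠ 0 := left_ne_zero_of_mul_eq_one hA
        have e2 : r h₀ 0 0 ≠ 0 := left_ne_zero_of_mul_eq_one hA0
        simp only [zero_mul, add_zero, mul_zero] at h3
        rcases mul_eq_zero.mp h3 with h4 | h4
        · exact (mul_ne_zero e1 hb) h4
        · exact (mul_ne_zero hcne e2) h4
      funext i
      fin_cases i <;> simp [Matrix.mulVec, dotProduct, Fin.sum_univ_two, hc]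
  refine hasLine_of_normal r H hH g₀ hne (u₁ := ![1, 0]) (u₂ := ![0, 1])
    (fun h0 => one_ne_zero (congrFun h0 0)) (fun h0 => one_ne_zero (congrFun h0 1)) ?_ ?_ hv hvH
  · rw [hrc]
    funext i
    fin_cases i <;> simp [Matrix.mulVec, dotProduct, Fin.sum_univ_two]
  · rw [hrc]
    funext i
    fin_cases i <;> simp [Matrix.mulVec, dotProduct, Fin.sum_univ_two]

end Fermat.Agent.S59aux.Grp
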