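import Fermat.Agent.S59.Top
import Fermat.Agent.S59.AuxGrp
import Fermat.Agent.GalW.Final
import Fermat.Agent.LTF.DeepCheb

/-!
# Existence of auxiliary primes
-/

set_option autoImplicit false
set_option linter.style.haveILetI false

noncomputable section

open WeierstrassCurve
open scoped Matrix

namespace Fermat.Agent.S59aux

open Fermat.Agent.ECFrob Fermat.Agent.Torsion Fermat.Agent.S41neh
open Fermat.Agent.S53norm (GQ M2)
open Fermat.Agent.TW Fermat.Agent.GalW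

variable {W : WeierstrassCurve ℤ} {p : ℕ} [hp : Fact p.Prime]

/-- Chebotarev for `E[p]` and the `n`-th roots of unity. -/
lemma cheb (hΔ : W.Δ ≠ 0) {n : ℕ} (hn : n ≠ 0) (S : Finset ℕ) (σ : GQ) :
    ∃ ℓ : ℕ, ℓ.Prime ∧ ℓ ∉ S ∧ W.IsGoodPrimeFor ℓ ∧ ℓ ≠ p ∧
      (mrep (p := p) hΔ σ).trace = ((W.apOfModel ℓ : ℤ) : ZMod p) ∧
      (mrep (p := p) hΔ σ).det = (ℓ : ZMod p) ∧
      (∀ x : AlgebraicClosure ℚ, x ^ n = 1 → σ x = x ^ ℓ) := by
  haveI : NeZero n := ⟨hn⟩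
  obtain ⟨L₁, hL₁, h₁⟩ := galoisRep_factors (map_Δ_ne_zero hΔ) hp.out.ne_zero
  haveI : NeZero ((n : ℕ) : AlgebraicClosure ℚ) := ⟨by exact_mod_cast NeZero.ne n⟩
  obtain ⟨ζ, hζ⟩ := HasEnoughRootsOfUnity.exists_primitiveRoot (AlgebraicClosure ℚ) n
  haveI := hL₁
  haveI : FiniteDimensional ℚ (IntermediateField.adjoin ℚ {ζ}) :=
    IntermediateField.adjoin.finiteDimensional
      ((AlgebraicClosure.isAlgebraic ℚ).isAlgebraic ζ).isIntegral
  haveI : FiniteDimensional ℚ (L₁ ⊔ IntermediateField.adjoin ℚ {ζ} : IntermediateField ℚ _) :=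
    IntermediateField.finiteDimensional_sup _ _
  obtain ⟨ℓ, hℓ, hℓS, A, hA, -, φ, hφ, hk⟩ := LTF.Deep.exists_frob_eq_on
    (L₁ ⊔ IntermediateField.adjoin ℚ {ζ}) σ
    (S ∪ (W.Δ.natAbs.divisors ∪ ({p} ∪ n.divisors)))
  simp only [Finset.mem_union, Finset.mem_singleton, Nat.mem_divisors, not_or, not_and_or,
    not_not] at hℓS
  obtain ⟨hS, hgood, hne, hndvd⟩ := hℓS
  have hgood : W.IsGoodPrimeFor ℓ := by
    intro h
    rcases hgood with h1 | h1
    · exact h1 (Int.natCast_dvd.mp h)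
    · exact hΔ (Int.natAbs_eq_zero.mp h1)
  have hndvd : ¬ ℓ ∣ n := hndvd.resolve_right hn
  haveI : Fact ℓ.Prime := ⟨hℓ⟩
  have h3 : mrep (p := p) hΔ σ = mrep (p := p) hΔ φ := by
    have h2 : rho W p (φ⁻¹ * σ) = 1 := by
      apply h₁
      intro x hx
      show φ.symm (σ x) = x
      rw [← hk x (le_sup_left (a := L₁) hx), AlgEquiv.symm_apply_apply]
    have h3 : rho W p σ = rho W p φ := by
      rw [_root_.map_mul] at h2
      have h4 : rho W p φ * rho W p φ⁻¹ = 1 := by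
        rw [← _root_.map_mul, mul_inv_cancel, _root_.map_one]
      calc rho W p σ = (rho W p φ * rho W p φ⁻¹) * rho W p σ := by rw [h4, one_mul]
        _ = rho W p φ := by rw [mul_assoc, h2, mul_one]
    simp only [mrep, MonoidHom.comp_apply, h3]
  refine ⟨ℓ, hℓ, hS, hgood, hne, ?_, ?_, ?_⟩
  · rw [h3, trace_mrep]; exact trace_rho_frobenius hgood hA hφ hne
  · rw [h3, det_mrep]; exact det_rho_frobenius hgood hA hφ hne
  · intro x hx
    obtain ⟨i, -, rfl⟩ := hζ.eq_pow_of_pow_eq_one hx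
    have hmem : ζ ^ i ∈ L₁ ⊔ IntermediateField.adjoin ℚ {ζ} :=
      le_sup_right (a := L₁) (pow_mem (IntermediateField.mem_adjoin_simple_self ℚ ζ) i)
    rw [← hk _ hmem]
    exact GalRep.frobenius_rootOfUnity hA
      ((Nat.Prime.coprime_iff_not_dvd hℓ).mpr hndvd) hn hφ hx

lemma modEq_of_pow {n a b : ℕ} (hn : n ≠ 0)
    (h : ∀ x : AlgebraicClosure ℚ, x ^ n = 1 → x ^ a = x ^ b) : a ≡ b [MOD n] := by
  haveI : NeZero n := ⟨hn⟩
  haveI : NeZero ((n : ℕ) : AlgebraicClosure ℚ) := ⟨by exact_mod_cast NeZero.ne n⟩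
  obtain ⟨ζ, hζ⟩ := HasEnoughRootsOfUnity.exists_primitiveRoot (AlgebraicClosure ℚ) n
  have h1 := h ζ hζ.pow_eq_one
  obtain ⟨u, hu⟩ := hζ.isUnit hn
  have h2 : u ^ a = u ^ b := by
    apply Units.ext
    rw [Units.val_pow_eq_pow_val, Units.val_pow_eq_pow_val, hu, h1]
  rw [hζ.eq_orderOf, ← hu, orderOf_units]
  exact pow_eq_pow_iff_modEq.mp h2

/-- The determinant is the cyclotomic character. -/
lemma det_of_root (hΔ : W.Δ ≠ 0) {n : ℕ} (hn : n ≠ 0) (hpn : p ∣ n) {σ : GQ} {a : ℕ}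
    (hσ : ∀ x : AlgebraicClosure ℚ, x ^ n = 1 → σ x = x ^ a) :
    (mrep (p := p) hΔ σ).det = (a : ZMod p) := by
  obtain ⟨ℓ, hℓ, -, hgood, hne, -, h2, h3⟩ := cheb (p := p) hΔ hn ∅ σ
  rw [h2]
  have h4 : ℓ ≡ a [MOD n] := modEq_of_pow hn fun x hx => by rw [← h3 x hx, hσ x hx]
  exact (ZMod.natCast_eq_natCast_iff _ _ _).mpr (h4.of_dvd hpn)

/-- If there is no auxiliary prime outside `S`: the trace is determined up to sign. -/
lemma key_of_not (hΔ : W.Δ ≠ 0) (S : Finset ℕ) (hno : ¬ ∃ r, r ∉ S ∧ AuxPrime W p r) {σ : GQ}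
    (hσ : ∀ x : AlgebraicClosure ℚ, x ^ 12 = 1 → σ x = x ^ 11)
    (hdet : (mrep (p := p) hΔ σ).det ≠ 1) :
    (mrep (p := p) hΔ σ).trace ^ 2 = (1 + (mrep (p := p) hΔ σ).det) ^ 2 := by
  by_contra hcon
  apply hno
  obtain ⟨ℓ, hℓ, hS, hgood, hne, h1, h2, h3⟩ := cheb (p := p) hΔ (n := 12) (by norm_num) S σ
  refine ⟨ℓ, hS, hℓ, hne, hgood, ?_, ?_, ?_⟩
  · have h4 : ℓ ≡ 11 [MOD 12] := modEq_of_pow (by norm_num) fun x hx => by
      rw [← h3 x hx, hσ x hx]
    exact h4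
  · intro h4
    apply hdet
    rw [h2]
    have h5 : ℓ ≡ 1 [MOD p] := by
      rw [Nat.ModEq, h4, Nat.mod_eq_of_lt hp.out.one_lt]
    exact_mod_cast (ZMod.natCast_eq_natCast_iff _ _ _).mpr h5
  · intro h4
    apply hcon
    rw [h1, h2]
    rw [← ZMod.intCast_zmod_eq_zero_iff_dvd] at h4
    push_cast at h4
    linear_combination h4

lemma mem_cycSub {n : ℕ} {σ : GQ} :
    σ ∈ cycSub n ↔ ∀ x : AlgebraicClosure ℚ, x ^ n = 1 → σ x = x := Iff.rfl

lemma hasLine_noLine {r : GQ →* M2 (ZMod p)} (h : NoLine r) :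
    ¬ Grp.HasLine (ext (AlgebraicClosure (ZMod p)) r) := by
  rintro ⟨G1, hG, v, hv, h1⟩
  exact h G1 hG v hv fun σ hσ => h1 σ hσ

lemma z11 : ((11 : ℕ) : ZMod 3) = -1 := by decide
lemma z1 : (-1 : ZMod 3) ≠ 1 := by decide
lemma z2 : (2 : ZMod 3) ≠ 0 := by decide
lemma z47 : ((47 : ℕ) : ZMod 5) = 2 := by decide
lemma z47' : ((47 : ℕ) : ZMod 5) ≠ 1 := by decide
lemma z9 : (1 + ((47 : ℕ) : ZMod 5)) ^ 2 = 9 := by decide
lemma z473 : ((47 ^ 3 : ℕ) : ZMod 5) = 3 := by rw [Nat.cast_pow, z47]; decide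
lemma z473' : ((47 ^ 3 : ℕ) : ZMod 5) ≠ 1 := by rw [z473]; decide
lemma z16 : (1 + ((47 ^ 3 : ℕ) : ZMod 5)) ^ 2 = 16 := by rw [z473]; decide

/-- **Auxiliary primes exist.** -/
theorem auxExists : AuxExists := by
  rintro p hp35 W hΔ hW hirr S
  by_contra hno
  rcases hp35 with rfl | rfl
  · -- p = 3
    haveI : Fact (Nat.Prime 3) := ⟨Nat.prime_three⟩
    have hnl := noLine_mr hΔ 3 hW hirr (by norm_num)
    apply hasLine_noLine hnl
    haveI : NeZero 12 := ⟨by norm_num⟩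
    set r := mrep (p := 3) hΔ with hr
    have hc12 : ∀ x : AlgebraicClosure ℚ, x ^ 12 = 1 → complexConjugation x = x ^ 11 :=
      fun x hx => LTF.Deep.complexConjugation_root (by norm_num) hx
    have htr : ∀ σ : GQ, (∀ x : AlgebraicClosure ℚ, x ^ 12 = 1 → σ x = x ^ 11) →
        (r σ).det = -1 ∧ (r σ).trace = 0 := by
      intro σ hσ
      have h1 : (r σ).det = ((11 : ℕ) : ZMod 3) :=
        det_of_root (p := 3) hΔ (n := 12) (by norm_num) (by norm_num) hσ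
      have h2 : (r σ).det = -1 := h1.trans z11
      have h3 := key_of_not (p := 3) hΔ S hno hσ (by
        change (r σ).det ≠ 1
        rw [h2]; exact z1)
      refine ⟨h2, ?_⟩
      change (r σ).trace ^ 2 = (1 + (r σ).det) ^ 2 at h3
      rw [h2] at h3
      have h4 : (r σ).trace ^ 2 = 0 := by rw [h3]; ring
      exact pow_eq_zero_iff (two_ne_zero) |>.mp h4
    have hmap : ∀ σ : GQ, (ext (AlgebraicClosure (ZMod 3)) r σ) =
      (r σ).map (algebraMap (ZMod 3) (AlgebraicClosure (ZMod 3))) := fun σ => rfl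
    have hmt : ∀ X : M2 (ZMod 3), (X.map (algebraMap (ZMod 3) (AlgebraicClosure (ZMod 3)))).trace =
      algebraMap _ _ X.trace := fun X => by simp [Matrix.trace_fin_two]
    have hmd : ∀ X : M2 (ZMod 3), (X.map (algebraMap (ZMod 3) (AlgebraicClosure (ZMod 3)))).det =
      algebraMap _ _ X.det := fun X => by simp [Matrix.det_fin_two]
    have hch : CharP (AlgebraicClosure (ZMod 3)) 3 :=
      charP_of_injective_algebraMap (algebraMap (ZMod 3) (AlgebraicClosure (ZMod 3))).injective 3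
    have h2K : (2 : AlgebraicClosure (ZMod 3)) ≠ 0 := by
      have h3 : algebraMap (ZMod 3) (AlgebraicClosure (ZMod 3)) 2 ≠ 0 :=
        (map_ne_zero _).mpr z2
      rwa [map_ofNat] at h3
    refine Grp.hasLine_three h2K _ (cycSub 12) commutator_mem_cycSub complexConjugation ?_ ?_ ?_
    · rw [hmap, hmt, (htr _ hc12).2, map_zero]
    · rw [hmap, hmd, (htr _ hc12).1, map_neg, map_one]
    · intro h hh
      have h3 := htr (complexConjugation * h) fun x hx => by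
        rw [AlgEquiv.mul_apply, mem_cycSub.mp hh x hx, hc12 x hx]
      rw [hmap, hmt, h3.2, map_zero]
  · -- p = 5
    haveI : Fact (Nat.Prime 5) := ⟨Nat.prime_five⟩
    have hnl := noLine_mr hΔ 5 hW hirr (by norm_num)
    apply hasLine_noLine hnl
    haveI : NeZero 60 := ⟨by norm_num⟩
    set r := mrep (p := 5) hΔ with hr
    -- a Frobenius at 47
    obtain ⟨A, hA, g₀, hg₀⟩ := Frob.exists_frobenius 47 (by norm_num)
    have hg60 : ∀ x : AlgebraicClosure ℚ, x ^ 60 = 1 → g₀ x = x ^ 47 := fun x hx =>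
      GalRep.frobenius_rootOfUnity hA (by norm_num) (by norm_num) hg₀ hx
    have hdet : ∀ σ : GQ, ∀ a : ℕ, (∀ x : AlgebraicClosure ℚ, x ^ 60 = 1 → σ x = x ^ a) →
        (r σ).det = (a : ZMod 5) := fun σ a hσ =>
      det_of_root (p := 5) hΔ (n := 60) (by norm_num) (by norm_num) hσ
    have htr : ∀ σ : GQ, ∀ a : ℕ, (∀ x : AlgebraicClosure ℚ, x ^ 60 = 1 → σ x = x ^ a) →
        a % 12 = 11 → (a : ZMod 5) ≠ 1 → (r σ).trace ^ 2 = (1 + (a : ZMod 5)) ^ 2 := by
      intro σ a hσ ha ha1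
      have h3 := key_of_not (p := 5) hΔ S hno (σ := σ) (fun x hx => by
        rw [hσ x (by rw [show 60 = 12 * 5 from rfl, pow_mul, hx, one_pow]),
          ← Nat.div_add_mod a 12, pow_add, pow_mul, hx, one_pow, one_mul, ha]) (by
        change (r σ).det ≠ 1
        rw [hdet σ a hσ]; exact ha1)
      change (r σ).trace ^ 2 = (1 + (r σ).det) ^ 2 at h3
      rwa [hdet σ a hσ] at h3
    have hmap : ∀ σ : GQ, (ext (AlgebraicClosure (ZMod 5)) r σ) =
      (r σ).map (algebraMap (ZMod 5) (AlgebraicClosure (ZMod 5))) := fun σ => rfl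
    have hmt : ∀ X : M2 (ZMod 5), (X.map (algebraMap (ZMod 5) (AlgebraicClosure (ZMod 5)))).trace =
      algebraMap _ _ X.trace := fun X => by simp [Matrix.trace_fin_two]
    have hmd : ∀ X : M2 (ZMod 5), (X.map (algebraMap (ZMod 5) (AlgebraicClosure (ZMod 5)))).det =
      algebraMap _ _ X.det := fun X => by simp [Matrix.det_fin_two]
    have hch : CharP (AlgebraicClosure (ZMod 5)) 5 :=
      charP_of_injective_algebraMap (algebraMap (ZMod 5) (AlgebraicClosure (ZMod 5))).injective 5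
    have h5 : (5 : AlgebraicClosure (ZMod 5)) = 0 := by
      exact_mod_cast CharP.cast_eq_zero (AlgebraicClosure (ZMod 5)) 5
    refine Grp.hasLine_five h5 _ (cycSub 60) commutator_mem_cycSub g₀ ?_ ?_ ?_ ?_
    · rw [hmap, hmd, hdet g₀ 47 hg60]
      rw [z47, map_ofNat]
    · intro h hh
      rw [hmap, hmd, hdet h 1 (fun x hx => by rw [pow_one]; exact mem_cycSub.mp hh x hx),
        Nat.cast_one, map_one]
    · intro h hh
      have h3 := htr (g₀ * h) 47 (fun x hx => by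
        rw [AlgEquiv.mul_apply, mem_cycSub.mp hh x hx, hg60 x hx]) (by norm_num) z47'
      rw [hmap, hmt, ← map_pow, h3, z9, map_ofNat]
    · intro h hh
      have h3 := htr (g₀ ^ 3 * h) (47 ^ 3) (fun x hx => by
        have e1 : ∀ y : AlgebraicClosure ℚ, y ^ 60 = 1 → (y ^ 47) ^ 60 = 1 := fun y hy => by
          rw [← pow_mul, mul_comm, pow_mul, hy, one_pow]
        rw [AlgEquiv.mul_apply, mem_cycSub.mp hh x hx, pow_succ, pow_two, AlgEquiv.mul_apply,
          AlgEquiv.mul_apply, hg60 x hx, hg60 _ (e1 x hx), hg60 _ (e1 _ (e1 x hx)), ← pow_mul,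
          ← pow_mul]
        norm_num) (by norm_num) z473'
      rw [hmap, hmt, ← map_pow, h3, z16, map_ofNat]

end Fermat.Agent.S59aux

end
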