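import Fermat.Agent.S59.Shell
import Fermat.Agent.S59.AuxEx
import Fermat.Agent.EC.MultFrob
import Fermat.Agent.S35
import Fermat.Agent.S36

/-!
# The inputs of S59 which are already available
-/

set_option autoImplicit false

noncomputable section

open WeierstrassCurve

namespace Fermat.Agent.S59aux

theorem frobMult : FrobMult :=
  fun p _ _ hΔ _ hp2 hW hne _ hA _ hσ =>
    Fermat.Agent.Tate.charpoly_tateRep_frobenius_mult hΔ p hW hne hp2 hA hσ

/-- **The climb** from the two modularity lifting theorems. -/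
theorem climb (hF : ClimbFlat) (hS : ClimbStrict) : Climb :=
  climb_of Fermat.Agent.S35.result frobMult hF hS

/-- Modularity lifting from a squarefree level: what is left. -/
theorem liftSf_of_open (h1 : LowerUnr) (h2 : LowerAtP) (hF : ClimbFlat) (hS : ClimbStrict)
    (p : ℕ) (hp : p = 3 ∨ p = 5)
    (W : WeierstrassCurve ℤ) (hΔ : W.Δ ≠ 0) (hW : W.IsSemistableModel)
    (hirr : W.ModRepIsIrreducible p)
    (M₀ : ℕ) (hsq : Squarefree M₀) (hres₀ : W.IsResiduallyModularOfLevel p M₀) :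
    Mlc1IsModularModelOfExactConductorLevel W :=
  liftSf_of Fermat.Agent.S35.result Fermat.Agent.S36.result auxExists h1 h2 (climb hF hS)
    p hp W hΔ hW hirr M₀ hsq hres₀

/-- S59: what is left. -/
theorem stmt59_of_open (h0 : LowerSq) (h1 : LowerUnr) (h2 : LowerAtP) (hF : ClimbFlat)
    (hS : ClimbStrict) (p : ℕ) (hp : p = 3 ∨ p = 5)
    (W : WeierstrassCurve ℤ) (hΔ : W.Δ ≠ 0) (hW : W.IsSemistableModel)
    (hirr : W.ModRepIsIrreducible p)
    (M₀ : ℕ) [NeZero M₀] (hres₀ : W.IsResiduallyModularOfLevel p M₀)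
    (hM₀ : ¬ p ^ 2 ∣ M₀)
    (hM₀3 : ∀ q : ℕ, q.Prime → q ≠ p → ¬ q ^ 3 ∣ M₀) :
    Mlc1IsModularModelOfExactConductorLevel W :=
  stmt59_of Fermat.Agent.S35.result Fermat.Agent.S36.result auxExists h0 h1 h2 (climb hF hS)
    p hp W hΔ hW hirr M₀ hres₀ hM₀ hM₀3

end Fermat.Agent.S59aux
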