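import Fermat.Agent.S59.LowP
import Fermat.Agent.Dlog3.G2

/-!
# (E2): level lowering at `p`, unconditional
-/

set_option autoImplicit false

noncomputable section

namespace Fermat.Agent.LowP

/-- **(E2)** Level lowering at `p` when `W` has good reduction at `p`. -/
theorem lowerAtP : S59aux.LowerAtP :=
  lowerAtP_of fun _ _ hm _ hA => Dlog3.g2 Nat.prime_three hA hm

end Fermat.Agent.LowP

end
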