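import Fermat.Agent.S59.Sides
import Fermat.Agent.Patch.PNew

set_option autoImplicit false

/-!
# The Hecke side for the `p`-new kernels

`Hp` is the Hecke side of base level `N * p`, `H` the Hecke side of base level `N`, and
`t = (t1, t2) : Hp.M s n → H.M s n × H.M s n` the two trace maps at `p`. The kernels of `t` form
again a Hecke side `NewPair.K`.
-/

noncomputable section

namespace Fermat.Agent.Sides

open IsLocalRing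
open Fermat.Agent.RT (gr aug isLocalRing_groupRing)
open Fermat.Agent.RTD
open Fermat.Agent.Patch

section ResEnd

variable {R M : Type*} [CommRing R] [AddCommGroup M] [Module R M]

open Classical in
/-- The restriction of an endomorphism to a submodule (`0` if the submodule is not stable). -/
def resEnd (K : Submodule R M) (f : Module.End R M) : Module.End R K :=
  if h : ∀ x ∈ K, f x ∈ K then LinearMap.restrict f h else 0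

theorem coe_resEnd {K : Submodule R M} {f : Module.End R M} (h : ∀ x ∈ K, f x ∈ K) (x : K) :
    (resEnd K f x : M) = f x := by
  rw [resEnd, dif_pos h]
  rfl

end ResEnd

section Basis

variable {R M : Type*} [CommRing R] [AddCommGroup M] [Module R M] {ι : Type*} [Fintype ι]

theorem mem_smul_top_iff_basis (b : Module.Basis ι R M) (I : Ideal R) (x : M) :
    x ∈ (I • ⊤ : Submodule R M) ↔ ∀ i, b.repr x i ∈ I := by
  constructor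
  · intro h i
    refine Submodule.smul_induction_on h (fun r hr y _ => ?_) (fun y z hy hz => ?_)
    · rw [map_smul, Finsupp.smul_apply, smul_eq_mul]
      exact Ideal.mul_mem_right _ _ hr
    · rw [map_add, Finsupp.add_apply]
      exact Ideal.add_mem _ hy hz
  · intro h
    rw [← b.sum_repr x]
    exact Submodule.sum_mem _ fun i _ => Submodule.smul_mem_smul (h i) trivial

end Basis

variable {𝒪 : Type} [CommRing 𝒪] {p : ℕ} {m : ℕ} {qv : ℕ → Fin m → ℕ} {ι : Type} [DecidableEq ι]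
  {qT : ι → ℕ} {S : Finset ℕ}

namespace HeckeSide

/-- `π` kills the augmentation submodule. -/
theorem π_eq_zero (H : HeckeSide 𝒪 p qv qT S) (s : Finset ι) (n : ℕ) (x : H.M s n)
    (hx : x ∈ (RingHom.ker (aug 𝒪 (Dia p (qv n))) • ⊤ :
      Submodule (MonoidAlgebra 𝒪 (Dia p (qv n))) (H.M s n))) : H.π s n x = 0 := by
  refine Submodule.smul_induction_on hx (fun r hr y _ => ?_) (fun y z hy hz => ?_)
  · rw [H.π_smul, (RingHom.mem_ker).1 hr, zero_smul]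
  · rw [map_add, hy, hz, add_zero]

/-- `π` is linear over `𝒪`. -/
theorem π_algebraMap_smul (H : HeckeSide 𝒪 p qv qT S) (s : Finset ι) (n : ℕ) (c : 𝒪)
    (x : H.M s n) :
    H.π s n (algebraMap 𝒪 (MonoidAlgebra 𝒪 (Dia p (qv n))) c • x) = c • H.π s n x := by
  rw [H.π_smul]
  congr 1
  exact (aug 𝒪 (Dia p (qv n))).commutes c

/-- The bottom modules are torsion free. -/
theorem M₀_torsionFree [IsDomain 𝒪] (H : HeckeSide 𝒪 p qv qT S) (s : Finset ι) {c : 𝒪}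
    (hc : c ≠ 0) (a : H.M₀ s) (ha : c • a = 0) : a = 0 := by
  obtain ⟨x, rfl⟩ := H.π_surjective s 0 a
  obtain ⟨b⟩ := H.b s 0
  rw [← H.π_algebraMap_smul] at ha
  have h1 := (mem_smul_top_iff_basis b _ _).1 (H.π_ker s 0 _ ha)
  refine H.π_eq_zero s 0 x ((mem_smul_top_iff_basis b _ _).2 fun i => ?_)
  have h2 := h1 i
  rw [map_smul, Finsupp.smul_apply, smul_eq_mul, RingHom.mem_ker, map_mul] at h2
  rw [RingHom.mem_ker]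
  refine (mul_eq_zero.1 h2).resolve_left ?_
  intro h3
  apply hc
  rw [← h3]
  exact ((aug 𝒪 (Dia p (qv 0))).commutes c).symm

end HeckeSide

/-- A pair of Hecke sides (`Hp` of base level `N * p`, `H` of base level `N`) with the two trace
maps at `p`. -/
structure NewPair (Hp H : HeckeSide 𝒪 p qv qT S) where
  t1 : ∀ s n, Hp.M s n →ₗ[MonoidAlgebra 𝒪 (Dia p (qv n))] H.M s n
  t2 : ∀ s n, Hp.M s n →ₗ[MonoidAlgebra 𝒪 (Dia p (qv n))] H.M s n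
  t_surj : ∀ s n x y, ∃ z, t1 s n z = x ∧ t2 s n z = y
  t1_T : ∀ s n (ℓ : ℕ), ℓ.Prime → ℓ ∉ S → (∀ i, ℓ ≠ qv n i) → ∀ x,
    t1 s n (Hp.T s n ℓ x) = H.T s n ℓ (t1 s n x)
  t2_T : ∀ s n (ℓ : ℕ), ℓ.Prime → ℓ ∉ S → (∀ i, ℓ ≠ qv n i) → ∀ x,
    t2 s n (Hp.T s n ℓ x) = H.T s n ℓ (t2 s n x)
  t1_Tv : ∀ s v, v ∉ s → ∀ n x, t1 s n (Hp.T s n (qT v) x) = H.T s n (qT v) (t1 s n x)
  t2_Tv : ∀ s v, v ∉ s → ∀ n x, t2 s n (Hp.T s n (qT v) x) = H.T s n (qT v) (t2 s n x)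
  t1_i1 : ∀ s v hv n x, t1 (insert v s) n (Hp.i1 s v hv n x) = H.i1 s v hv n (t1 s n x)
  t1_i2 : ∀ s v hv n x, t1 (insert v s) n (Hp.i2 s v hv n x) = H.i2 s v hv n (t1 s n x)
  t2_i1 : ∀ s v hv n x, t2 (insert v s) n (Hp.i1 s v hv n x) = H.i1 s v hv n (t2 s n x)
  t2_i2 : ∀ s v hv n x, t2 (insert v s) n (Hp.i2 s v hv n x) = H.i2 s v hv n (t2 s n x)
  t1_j1 : ∀ s v hv n x, t1 s n (Hp.j1 s v hv n x) = H.j1 s v hv n (t1 (insert v s) n x)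
  t1_j2 : ∀ s v hv n x, t1 s n (Hp.j2 s v hv n x) = H.j2 s v hv n (t1 (insert v s) n x)
  t2_j1 : ∀ s v hv n x, t2 s n (Hp.j1 s v hv n x) = H.j1 s v hv n (t2 (insert v s) n x)
  t2_j2 : ∀ s v hv n x, t2 s n (Hp.j2 s v hv n x) = H.j2 s v hv n (t2 (insert v s) n x)
  t1₀ : ∀ s, Hp.M₀ s →ₗ[𝒪] H.M₀ s
  t2₀ : ∀ s, Hp.M₀ s →ₗ[𝒪] H.M₀ s
  π_t1 : ∀ s n x, H.π s n (t1 s n x) = t1₀ s (Hp.π s n x)
  π_t2 : ∀ s n x, H.π s n (t2 s n x) = t2₀ s (Hp.π s n x)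

namespace NewPair

variable {Hp H : HeckeSide 𝒪 p qv qT S} (P : NewPair Hp H)

/-- The `p`-new kernel. -/
abbrev ker (s : Finset ι) (n : ℕ) : Submodule (MonoidAlgebra 𝒪 (Dia p (qv n))) (Hp.M s n) :=
  newKer (P.t1 s n) (P.t2 s n)

/-- The `p`-new kernel at the bottom level. -/
abbrev ker₀ (s : Finset ι) : Submodule 𝒪 (Hp.M₀ s) := newKer (P.t1₀ s) (P.t2₀ s)

theorem T_mem (s : Finset ι) (n ℓ : ℕ) (h1 : ℓ.Prime) (h2 : ℓ ∉ S) (h3 : ∀ i, ℓ ≠ qv n i)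
    (x : Hp.M s n) (hx : x ∈ P.ker s n) : Hp.T s n ℓ x ∈ P.ker s n := by
  rw [mem_newKer] at hx ⊢
  rw [P.t1_T s n ℓ h1 h2 h3, P.t2_T s n ℓ h1 h2 h3, hx.1, hx.2, map_zero]
  exact ⟨rfl, rfl⟩

theorem Tv_mem (s : Finset ι) (v : ι) (hv : v ∉ s) (n : ℕ)
    (x : Hp.M s n) (hx : x ∈ P.ker s n) : Hp.T s n (qT v) x ∈ P.ker s n := by
  rw [mem_newKer] at hx ⊢
  rw [P.t1_Tv s v hv, P.t2_Tv s v hv, hx.1, hx.2, map_zero]
  exact ⟨rfl, rfl⟩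

theorem i1_mem (s : Finset ι) (v : ι) (hv : v ∉ s) (n : ℕ) (x : Hp.M s n) (hx : x ∈ P.ker s n) :
    Hp.i1 s v hv n x ∈ P.ker (insert v s) n := by
  rw [mem_newKer] at hx ⊢
  rw [P.t1_i1, P.t2_i1, hx.1, hx.2, map_zero]
  exact ⟨rfl, rfl⟩

theorem i2_mem (s : Finset ι) (v : ι) (hv : v ∉ s) (n : ℕ) (x : Hp.M s n) (hx : x ∈ P.ker s n) :
    Hp.i2 s v hv n x ∈ P.ker (insert v s) n := by
  rw [mem_newKer] at hx ⊢
  rw [P.t1_i2, P.t2_i2, hx.1, hx.2, map_zero]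
  exact ⟨rfl, rfl⟩

theorem j1_mem (s : Finset ι) (v : ι) (hv : v ∉ s) (n : ℕ) (x : Hp.M (insert v s) n)
    (hx : x ∈ P.ker (insert v s) n) : Hp.j1 s v hv n x ∈ P.ker s n := by
  rw [mem_newKer] at hx ⊢
  rw [P.t1_j1, P.t2_j1, hx.1, hx.2, map_zero]
  exact ⟨rfl, rfl⟩

theorem j2_mem (s : Finset ι) (v : ι) (hv : v ∉ s) (n : ℕ) (x : Hp.M (insert v s) n)
    (hx : x ∈ P.ker (insert v s) n) : Hp.j2 s v hv n x ∈ P.ker s n := by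
  rw [mem_newKer] at hx ⊢
  rw [P.t1_j2, P.t2_j2, hx.1, hx.2, map_zero]
  exact ⟨rfl, rfl⟩

theorem π_mem (s : Finset ι) (n : ℕ) (x : Hp.M s n) (hx : x ∈ P.ker s n) :
    Hp.π s n x ∈ P.ker₀ s := by
  rw [mem_newKer] at hx ⊢
  rw [← P.π_t1 s n, ← P.π_t2 s n, hx.1, hx.2, map_zero]
  exact ⟨rfl, rfl⟩

/-- the elements of the bottom kernel lift -/
theorem exists_π_eq (s : Finset ι) (n : ℕ) (x₀ : Hp.M₀ s) (hx : x₀ ∈ P.ker₀ s) :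
    ∃ x ∈ P.ker s n, Hp.π s n x = x₀ := by
  rw [mem_newKer] at hx
  exact exists_mem_newKer_of_bottom (P.t_surj s n) (RingHom.ker (aug 𝒪 (Dia p (qv n))))
    (πp := Hp.π s n) (π := H.π s n) (Hp.π_eq_zero s n) (H.π_ker s n)
    (J1 := P.t1₀ s) (J2 := P.t2₀ s) (P.π_t1 s n) (P.π_t2 s n) (Hp.π_surjective s n x₀) hx.1 hx.2

theorem t1₀_I1 (s : Finset ι) (v : ι) (hv : v ∉ s) (x : Hp.M₀ s) :
    P.t1₀ (insert v s) (Hp.I1 s v hv x) = H.I1 s v hv (P.t1₀ s x) := by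
  obtain ⟨x, rfl⟩ := Hp.π_surjective s 0 x
  rw [← Hp.π_i1, ← P.π_t1, P.t1_i1, H.π_i1, P.π_t1]

theorem t2₀_I1 (s : Finset ι) (v : ι) (hv : v ∉ s) (x : Hp.M₀ s) :
    P.t2₀ (insert v s) (Hp.I1 s v hv x) = H.I1 s v hv (P.t2₀ s x) := by
  obtain ⟨x, rfl⟩ := Hp.π_surjective s 0 x
  rw [← Hp.π_i1, ← P.π_t2, P.t2_i1, H.π_i1, P.π_t2]

theorem t1₀_I2 (s : Finset ι) (v : ι) (hv : v ∉ s) (x : Hp.M₀ s) :
    P.t1₀ (insert v s) (Hp.I2 s v hv x) = H.I2 s v hv (P.t1₀ s x) := by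
  obtain ⟨x, rfl⟩ := Hp.π_surjective s 0 x
  rw [← Hp.π_i2, ← P.π_t1, P.t1_i2, H.π_i2, P.π_t1]

theorem t2₀_I2 (s : Finset ι) (v : ι) (hv : v ∉ s) (x : Hp.M₀ s) :
    P.t2₀ (insert v s) (Hp.I2 s v hv x) = H.I2 s v hv (P.t2₀ s x) := by
  obtain ⟨x, rfl⟩ := Hp.π_surjective s 0 x
  rw [← Hp.π_i2, ← P.π_t2, P.t2_i2, H.π_i2, P.π_t2]

theorem I1_mem (s : Finset ι) (v : ι) (hv : v ∉ s) (x : Hp.M₀ s) (hx : x ∈ P.ker₀ s) :
    Hp.I1 s v hv x ∈ P.ker₀ (insert v s) := by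
  rw [mem_newKer] at hx ⊢
  rw [P.t1₀_I1, P.t2₀_I1, hx.1, hx.2, map_zero]
  exact ⟨rfl, rfl⟩

theorem I2_mem (s : Finset ι) (v : ι) (hv : v ∉ s) (x : Hp.M₀ s) (hx : x ∈ P.ker₀ s) :
    Hp.I2 s v hv x ∈ P.ker₀ (insert v s) := by
  rw [mem_newKer] at hx ⊢
  rw [P.t1₀_I2, P.t2₀_I2, hx.1, hx.2, map_zero]
  exact ⟨rfl, rfl⟩

theorem T₀_mem (s : Finset ι) (n ℓ : ℕ) (h1 : ℓ.Prime) (h2 : ℓ ∉ S) (h3 : ∀ i, ℓ ≠ qv n i)
    (x : Hp.M₀ s) (hx : x ∈ P.ker₀ s) : Hp.T₀ s ℓ x ∈ P.ker₀ s := by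
  obtain ⟨y, hy, rfl⟩ := P.exists_π_eq s n x hx
  rw [← Hp.π_T s n ℓ h1 h2 h3]
  exact P.π_mem s n _ (P.T_mem s n ℓ h1 h2 h3 y hy)

/-- a basis of the kernel -/
theorem nonempty_basis [IsLocalRing 𝒪] [hpf : Fact p.Prime] (hp𝒪 : (p : 𝒪) ∈ maximalIdeal 𝒪)
    (s : Finset ι) (n : ℕ) :
    Nonempty (Module.Basis (Fin (Hp.d s - 2 * H.d s)) (MonoidAlgebra 𝒪 (Dia p (qv n)))
      (P.ker s n)) := by
  have hloc := isLocalRing_groupRing (p := p) hp𝒪 (isPGroup_Dia p (qv n))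
  obtain ⟨b⟩ := H.b s n
  obtain ⟨bp⟩ := Hp.b s n
  haveI := Module.Free.of_basis b
  haveI := Module.Free.of_basis bp
  haveI := Module.Finite.of_basis b
  haveI := Module.Finite.of_basis bp
  refine exists_basis_newKer (P.t_surj s n) ?_
  rw [Module.finrank_eq_card_basis b, Module.finrank_eq_card_basis bp, Fintype.card_fin,
    Fintype.card_fin]

/-- `π` on the kernels. -/
def kπ (s : Finset ι) (n : ℕ) : P.ker s n →+ P.ker₀ s where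
  toFun x := ⟨Hp.π s n x, P.π_mem s n x x.2⟩
  map_zero' := Subtype.ext (map_zero _)
  map_add' x y := Subtype.ext (map_add (Hp.π s n) x.1 y.1)

@[simp] theorem coe_kπ (s : Finset ι) (n : ℕ) (x : P.ker s n) :
    (P.kπ s n x : Hp.M₀ s) = Hp.π s n x := rfl

/-- **The Hecke side of the `p`-new kernels.** -/
def K [IsDomain 𝒪] [IsLocalRing 𝒪] [hpf : Fact p.Prime] (hp𝒪 : (p : 𝒪) ∈ maximalIdeal 𝒪) :
    HeckeSide 𝒪 p qv qT S where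
  M s n := P.ker s n
  d s := Hp.d s - 2 * H.d s
  b s n := P.nonempty_basis hp𝒪 s n
  T s n ℓ := resEnd (P.ker s n) (Hp.T s n ℓ)
  i1 s v hv n := LinearMap.restrict (Hp.i1 s v hv n) (P.i1_mem s v hv n)
  i2 s v hv n := LinearMap.restrict (Hp.i2 s v hv n) (P.i2_mem s v hv n)
  j1 s v hv n := LinearMap.restrict (Hp.j1 s v hv n) (P.j1_mem s v hv n)
  j2 s v hv n := LinearMap.restrict (Hp.j2 s v hv n) (P.j2_mem s v hv n)
  i1_T s v hv n ℓ h1 h2 h3 x := Subtype.ext <| by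
    rw [coe_resEnd (P.T_mem (insert v s) n ℓ h1 h2 h3)]
    change Hp.i1 s v hv n ((resEnd (P.ker s n) (Hp.T s n ℓ) x : P.ker s n) : Hp.M s n) =
      Hp.T (insert v s) n ℓ (Hp.i1 s v hv n x)
    rw [coe_resEnd (P.T_mem s n ℓ h1 h2 h3), Hp.i1_T s v hv n ℓ h1 h2 h3]
  i2_T s v hv n ℓ h1 h2 h3 x := Subtype.ext <| by
    rw [coe_resEnd (P.T_mem (insert v s) n ℓ h1 h2 h3)]
    change Hp.i2 s v hv n ((resEnd (P.ker s n) (Hp.T s n ℓ) x : P.ker s n) : Hp.M s n) =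
      Hp.T (insert v s) n ℓ (Hp.i2 s v hv n x)
    rw [coe_resEnd (P.T_mem s n ℓ h1 h2 h3), Hp.i2_T s v hv n ℓ h1 h2 h3]
  j1_T s v hv n ℓ h1 h2 h3 x := Subtype.ext <| by
    rw [coe_resEnd (P.T_mem s n ℓ h1 h2 h3)]
    change Hp.j1 s v hv n ((resEnd (P.ker (insert v s) n) (Hp.T (insert v s) n ℓ) x :
      P.ker (insert v s) n) : Hp.M (insert v s) n) = Hp.T s n ℓ (Hp.j1 s v hv n x)
    rw [coe_resEnd (P.T_mem (insert v s) n ℓ h1 h2 h3), Hp.j1_T s v hv n ℓ h1 h2 h3]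
  j2_T s v hv n ℓ h1 h2 h3 x := Subtype.ext <| by
    rw [coe_resEnd (P.T_mem s n ℓ h1 h2 h3)]
    change Hp.j2 s v hv n ((resEnd (P.ker (insert v s) n) (Hp.T (insert v s) n ℓ) x :
      P.ker (insert v s) n) : Hp.M (insert v s) n) = Hp.T s n ℓ (Hp.j2 s v hv n x)
    rw [coe_resEnd (P.T_mem (insert v s) n ℓ h1 h2 h3), Hp.j2_T s v hv n ℓ h1 h2 h3]
  j1_i1 s v hv n x := Subtype.ext (Hp.j1_i1 s v hv n x)
  j1_i2 s v hv n x := Subtype.ext <| by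
    rw [coe_resEnd (P.Tv_mem s v hv n)]
    exact Hp.j1_i2 s v hv n x
  j2_i1 s v hv n x := Subtype.ext <| by
    rw [coe_resEnd (P.Tv_mem s v hv n)]
    exact Hp.j2_i1 s v hv n x
  j2_i2 s v hv n x := Subtype.ext (Hp.j2_i2 s v hv n x)
  M₀ s := P.ker₀ s
  T₀ s ℓ := resEnd (P.ker₀ s) (Hp.T₀ s ℓ)
  π := P.kπ
  π_smul s n l x := Subtype.ext (Hp.π_smul s n l x)
  π_T s n ℓ h1 h2 h3 x := Subtype.ext <| by
    rw [coe_resEnd (P.T₀_mem s n ℓ h1 h2 h3), coe_kπ, coe_resEnd (P.T_mem s n ℓ h1 h2 h3), coe_kπ,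
      Hp.π_T s n ℓ h1 h2 h3]
  π_surjective s n := by
    rintro ⟨x₀, hx₀⟩
    obtain ⟨x, hx, h⟩ := P.exists_π_eq s n x₀ hx₀
    exact ⟨⟨x, hx⟩, Subtype.ext h⟩
  π_ker s n x hx := by
    have hloc := isLocalRing_groupRing (p := p) hp𝒪 (isPGroup_Dia p (qv n))
    obtain ⟨b⟩ := H.b s n
    haveI := Module.Free.of_basis b
    exact mem_smul_top_newKer (P.t_surj s n) _ (Hp.π_ker s n x (congrArg Subtype.val hx))
  I1 s v hv := LinearMap.restrict (Hp.I1 s v hv) (P.I1_mem s v hv)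
  I2 s v hv := LinearMap.restrict (Hp.I2 s v hv) (P.I2_mem s v hv)
  π_i1 s v hv n x := Subtype.ext (Hp.π_i1 s v hv n x)
  π_i2 s v hv n x := Subtype.ext (Hp.π_i2 s v hv n x)
  ihara ϖ hϖ s v hv x y z h := by
    obtain ⟨⟨x', hx', h1⟩, y', hy', h2⟩ := ihara_newKer (i1 := Hp.I1 s v hv) (i2 := Hp.I2 s v hv)
      (j1 := P.t1₀ s) (j2 := P.t2₀ s) (ϖ := ϖ) (H.M₀_torsionFree s hϖ.ne_zero)
      (Hp.ihara ϖ hϖ s v hv) x.2 y.2 (congrArg Subtype.val h)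
    exact ⟨⟨⟨x', hx'⟩, Subtype.ext h1⟩, ⟨y', hy'⟩, Subtype.ext h2⟩

section Lemmas

variable [IsDomain 𝒪] [IsLocalRing 𝒪] [hpf : Fact p.Prime] (hp𝒪 : (p : 𝒪) ∈ maximalIdeal 𝒪)

/-- The inclusion of the `p`-new kernels. -/
def incl (s : Finset ι) (n : ℕ) :
    (P.K hp𝒪).M s n →ₗ[MonoidAlgebra 𝒪 (Dia p (qv n))] Hp.M s n := (P.ker s n).subtype

/-- The inclusion of the `p`-new kernels at the bottom level. -/
def incl₀ (s : Finset ι) : (P.K hp𝒪).M₀ s →ₗ[𝒪] Hp.M₀ s := (P.ker₀ s).subtype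

theorem incl_injective (s : Finset ι) (n : ℕ) : Function.Injective (P.incl hp𝒪 s n) :=
  Subtype.val_injective

theorem incl₀_injective (s : Finset ι) : Function.Injective (P.incl₀ hp𝒪 s) :=
  Subtype.val_injective

theorem range_incl (s : Finset ι) (n : ℕ) : LinearMap.range (P.incl hp𝒪 s n) = P.ker s n :=
  Submodule.range_subtype _

theorem range_incl₀ (s : Finset ι) : LinearMap.range (P.incl₀ hp𝒪 s) = P.ker₀ s :=
  Submodule.range_subtype _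

theorem t1_incl (s : Finset ι) (n : ℕ) (x : (P.K hp𝒪).M s n) : P.t1 s n (P.incl hp𝒪 s n x) = 0 :=
  (mem_newKer.1 x.2).1

theorem t2_incl (s : Finset ι) (n : ℕ) (x : (P.K hp𝒪).M s n) : P.t2 s n (P.incl hp𝒪 s n x) = 0 :=
  (mem_newKer.1 x.2).2

theorem exists_incl_eq (s : Finset ι) (n : ℕ) (x : Hp.M s n) (h1 : P.t1 s n x = 0)
    (h2 : P.t2 s n x = 0) : ∃ y, P.incl hp𝒪 s n y = x := ⟨⟨x, mem_newKer.2 ⟨h1, h2⟩⟩, rfl⟩

theorem incl_T (s : Finset ι) (n ℓ : ℕ) (h1 : ℓ.Prime) (h2 : ℓ ∉ S) (h3 : ∀ i, ℓ ≠ qv n i)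
    (x : (P.K hp𝒪).M s n) :
    P.incl hp𝒪 s n ((P.K hp𝒪).T s n ℓ x) = Hp.T s n ℓ (P.incl hp𝒪 s n x) :=
  coe_resEnd (P.T_mem s n ℓ h1 h2 h3) x

theorem incl_Tv (s : Finset ι) (v : ι) (hv : v ∉ s) (n : ℕ) (x : (P.K hp𝒪).M s n) :
    P.incl hp𝒪 s n ((P.K hp𝒪).T s n (qT v) x) = Hp.T s n (qT v) (P.incl hp𝒪 s n x) :=
  coe_resEnd (P.Tv_mem s v hv n) x

theorem incl_i1 (s : Finset ι) (v : ι) (hv : v ∉ s) (n : ℕ) (x : (P.K hp𝒪).M s n) :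
    P.incl hp𝒪 (insert v s) n ((P.K hp𝒪).i1 s v hv n x) = Hp.i1 s v hv n (P.incl hp𝒪 s n x) := rfl

theorem incl_i2 (s : Finset ι) (v : ι) (hv : v ∉ s) (n : ℕ) (x : (P.K hp𝒪).M s n) :
    P.incl hp𝒪 (insert v s) n ((P.K hp𝒪).i2 s v hv n x) = Hp.i2 s v hv n (P.incl hp𝒪 s n x) := rfl

theorem incl_j1 (s : Finset ι) (v : ι) (hv : v ∉ s) (n : ℕ) (x : (P.K hp𝒪).M (insert v s) n) :
    P.incl hp𝒪 s n ((P.K hp𝒪).j1 s v hv n x) = Hp.j1 s v hv n (P.incl hp𝒪 (insert v s) n x) := rfl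

theorem incl_j2 (s : Finset ι) (v : ι) (hv : v ∉ s) (n : ℕ) (x : (P.K hp𝒪).M (insert v s) n) :
    P.incl hp𝒪 s n ((P.K hp𝒪).j2 s v hv n x) = Hp.j2 s v hv n (P.incl hp𝒪 (insert v s) n x) := rfl

theorem incl₀_π (s : Finset ι) (n : ℕ) (x : (P.K hp𝒪).M s n) :
    P.incl₀ hp𝒪 s ((P.K hp𝒪).π s n x) = Hp.π s n (P.incl hp𝒪 s n x) := rfl

theorem incl₀_T₀ (s : Finset ι) (n ℓ : ℕ) (h1 : ℓ.Prime) (h2 : ℓ ∉ S) (h3 : ∀ i, ℓ ≠ qv n i)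
    (x : (P.K hp𝒪).M₀ s) :
    P.incl₀ hp𝒪 s ((P.K hp𝒪).T₀ s ℓ x) = Hp.T₀ s ℓ (P.incl₀ hp𝒪 s x) :=
  coe_resEnd (P.T₀_mem s n ℓ h1 h2 h3) x

/-- `incl₀_T₀`, when the trace maps commute with `T₀ ℓ`. -/
theorem incl₀_T₀' (s : Finset ι) (ℓ : ℕ)
    (h1 : ∀ x, P.t1₀ s x = 0 → P.t2₀ s x = 0 → P.t1₀ s (Hp.T₀ s ℓ x) = 0 ∧
      P.t2₀ s (Hp.T₀ s ℓ x) = 0)
    (x : (P.K hp𝒪).M₀ s) :
    P.incl₀ hp𝒪 s ((P.K hp𝒪).T₀ s ℓ x) = Hp.T₀ s ℓ (P.incl₀ hp𝒪 s x) := by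
  refine coe_resEnd (K := P.ker₀ s) (fun x hx => ?_) x
  rw [mem_newKer] at hx ⊢
  exact h1 x hx.1 hx.2

theorem incl₀_I1 (s : Finset ι) (v : ι) (hv : v ∉ s) (x : (P.K hp𝒪).M₀ s) :
    P.incl₀ hp𝒪 (insert v s) ((P.K hp𝒪).I1 s v hv x) = Hp.I1 s v hv (P.incl₀ hp𝒪 s x) := rfl

theorem incl₀_I2 (s : Finset ι) (v : ι) (hv : v ∉ s) (x : (P.K hp𝒪).M₀ s) :
    P.incl₀ hp𝒪 (insert v s) ((P.K hp𝒪).I2 s v hv x) = Hp.I2 s v hv (P.incl₀ hp𝒪 s x) := rfl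

theorem K_d (s : Finset ι) : (P.K hp𝒪).d s = Hp.d s - 2 * H.d s := rfl

/-- **The recipe for the cokernel of the traces on the `p`-new kernels**: an operator (`tsv` on
`Hp.M (insert v s)`, `ts` on `Hp.M s`, `tH` on `H.M (insert v s)`) which vanishes on
`H.M (insert v s)` maps pairs of `p`-new elements into the image of the traces. -/
theorem exists_of_kills {s : Finset ι} {v : ι} (hv : v ∉ s) {n : ℕ}
    (hs : ∀ x y, ∃ z, Hp.j1 s v hv n z = x ∧ Hp.j2 s v hv n z = y)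
    {tsv : Hp.M (insert v s) n → Hp.M (insert v s) n} {ts : Hp.M s n → Hp.M s n}
    {tH : H.M (insert v s) n → H.M (insert v s) n}
    (hj1 : ∀ z, Hp.j1 s v hv n (tsv z) = ts (Hp.j1 s v hv n z))
    (hj2 : ∀ z, Hp.j2 s v hv n (tsv z) = ts (Hp.j2 s v hv n z))
    (ht1 : ∀ z, P.t1 (insert v s) n (tsv z) = tH (P.t1 (insert v s) n z))
    (ht2 : ∀ z, P.t2 (insert v s) n (tsv z) = tH (P.t2 (insert v s) n z))
    (h0 : ∀ y, tH y = 0) {a : (P.K hp𝒪).M s n → (P.K hp𝒪).M s n}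
    (ha : ∀ x, P.incl hp𝒪 s n (a x) = ts (P.incl hp𝒪 s n x)) (x y : (P.K hp𝒪).M s n) :
    ∃ z, (P.K hp𝒪).j1 s v hv n z = a x ∧ (P.K hp𝒪).j2 s v hv n z = a y := by
  obtain ⟨z, h1, h2⟩ := hs (P.incl hp𝒪 s n x) (P.incl hp𝒪 s n y)
  obtain ⟨w, hw⟩ := P.exists_incl_eq hp𝒪 (insert v s) n (tsv z) (by rw [ht1, h0]) (by rw [ht2, h0])
  refine ⟨w, P.incl_injective hp𝒪 s n ?_, P.incl_injective hp𝒪 s n ?_⟩
  · rw [P.incl_j1, hw, hj1, h1, ha]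
  · rw [P.incl_j2, hw, hj2, h2, ha]

end Lemmas

end NewPair

section Ideal

variable [IsDomain 𝒪] [IsDiscreteValuationRing 𝒪] [IsAdicComplete (maximalIdeal 𝒪) 𝒪]
  {𝓢 : Setup 𝒪 p} {L : PCond} {G : 𝓢.GalSide L S} {X : HeckeSide 𝒪 p G.qv 𝓢.pr S}

/-- The elements of `R_n` which kill the cokernel of the traces `(j1, j2)`. -/
def GalAct.cokerAnn (A : GalAct G X)
    (s : Finset ({v // v ∈ 𝓢.T₀} ⊕ {v // v ∈ 𝓢.V})) (v : {v // v ∈ 𝓢.T₀} ⊕ {v // v ∈ 𝓢.V})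
    (hv : v ∉ s) (n : ℕ) : Ideal (G.Lv n).D.R where
  carrier := {a | ∀ x y, ∃ z, X.j1 s v hv n z = A.act s n a x ∧ X.j2 s v hv n z = A.act s n a y}
  zero_mem' := fun x y => ⟨0, by rw [map_zero, map_zero]; rfl, by rw [map_zero, map_zero]; rfl⟩
  add_mem' := fun {a b} ha hb x y => by
    obtain ⟨z, h1, h2⟩ := ha x y
    obtain ⟨w, h3, h4⟩ := hb x y
    refine ⟨z + w, ?_, ?_⟩
    · rw [map_add, h1, h3, map_add]
      rfl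
    · rw [map_add, h2, h4, map_add]
      rfl
  smul_mem' := fun c a ha x y => by
    obtain ⟨z, h1, h2⟩ := ha x y
    refine ⟨A.act (insert v s) n c z, ?_, ?_⟩
    · rw [A.j1_act, h1, smul_eq_mul, map_mul]
      rfl
    · rw [A.j2_act, h2, smul_eq_mul, map_mul]
      rfl

theorem GalAct.mem_cokerAnn (A : GalAct G X) {s : Finset ({v // v ∈ 𝓢.T₀} ⊕ {v // v ∈ 𝓢.V})}
    {v : {v // v ∈ 𝓢.T₀} ⊕ {v // v ∈ 𝓢.V}} {hv : v ∉ s} {n : ℕ} {a : (G.Lv n).D.R} :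
    a ∈ A.cokerAnn s v hv n ↔
      ∀ x y, ∃ z, X.j1 s v hv n z = A.act s n a x ∧ X.j2 s v hv n z = A.act s n a y := Iff.rfl

/-- `cokerAnn` contains the annihilators. -/
theorem GalAct.mem_cokerAnn_of_act_eq_zero (A : GalAct G X)
    {s : Finset ({v // v ∈ 𝓢.T₀} ⊕ {v // v ∈ 𝓢.V})}
    {v : {v // v ∈ 𝓢.T₀} ⊕ {v // v ∈ 𝓢.V}} {hv : v ∉ s} {n : ℕ} {a : (G.Lv n).D.R}
    (ha : ∀ x, A.act s n a x = 0) : a ∈ A.cokerAnn s v hv n := fun x y =>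
  ⟨0, by rw [map_zero, ha], by rw [map_zero, ha]⟩

end Ideal

end Fermat.Agent.Sides

end
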