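import Fermat.Agent.HSide.Main
import Fermat.Agent.HSide.NewPi
import Fermat.Agent.S59.KSide

/-!
# The Hecke sides of base levels `N p` and `N` form a `NewPair`
-/

set_option autoImplicit false
set_option linter.unusedSectionVars false
set_option linter.unusedVariables false
set_option linter.style.haveILetI false

noncomputable section

open IsLocalRing

namespace Fermat.Agent.HSide

open TwHecke HeckePar TwExact HeckeRep RTE RTD GalRep Sides

variable {𝒪 : Type} [CommRing 𝒪] [IsLocalRing 𝒪] [IsNoetherianRing 𝒪]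
  [IsAdicComplete (maximalIdeal 𝒪) 𝒪] [IsAddTorsionFree 𝒪] {p : ℕ} [hp : Fact p.Prime]
  {ι : Type} [DecidableEq ι] {qT : ι → ℕ} {S : Finset ℕ} (B : Base 𝒪 p qT S)
  (hqp : ∀ v, qT v ≠ p) (hpN : ¬ p ∣ B.N) {m : ℕ}

section Aux

variable {qv : Fin m → ℕ} (A : Auxs B qv) [IsLocalRing (Lam 𝒪 p qv)]

/-- the trace at `p` on the bottom modules of the Hecke side -/
abbrev Base.b1' (m : ℕ) (s : Finset ι) : (B.mulP hqp).M00 m s →ₗ[𝒪] B.M00 m s :=
  LinearMap.pi fun J => B.b1 hqp hpN s ∘ₗ LinearMap.proj J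

/-- the second trace at `p` on the bottom modules of the Hecke side -/
abbrev Base.b2' (m : ℕ) (s : Finset ι) : (B.mulP hqp).M00 m s →ₗ[𝒪] B.M00 m s :=
  LinearMap.pi fun J => B.b2 hqp hpN s ∘ₗ LinearMap.proj J

theorem Base.pi'_t1 (s : Finset ι) (x : (B.mulP hqp).MM qv s) :
    B.pi' A s (B.t1 hqp hpN A s x) =
      B.b1' hqp hpN m s ((B.mulP hqp).pi' (B.auxs_mulP hqp A) s x) :=
  funext fun J => B.pi_t1 S30.result stmt35 hqp hpN A s x J

theorem Base.pi'_t2 (s : Finset ι) (x : (B.mulP hqp).MM qv s) :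
    B.pi' A s (B.t2 hqp hpN A s x) =
      B.b2' hqp hpN m s ((B.mulP hqp).pi' (B.auxs_mulP hqp A) s x) :=
  funext fun J => B.pi_t2 S30.result stmt35 hqp hpN A s x J

end Aux

include B in
theorem ne_p_of_notMem_S {ℓ : ℕ} (hℓ : ℓ ∉ S) : ℓ ≠ p := fun h => hℓ (h ▸ B.pS)

variable {qv : ℕ → Fin m → ℕ} [∀ n, IsLocalRing (Lam 𝒪 p (qv n))] (A : ∀ n, Auxs B (qv n))

set_option maxHeartbeats 2000000 in
/-- **The `p`-new pair.** -/
def Base.newPair : NewPair ((B.mulP hqp).side fun n => B.auxs_mulP hqp (A n)) (B.side A) where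
  t1 s n := B.t1 hqp hpN (A n) s
  t2 s n := B.t2 hqp hpN (A n) s
  t_surj s n x y := B.t_surj (qv := qv n) hqp hpN (A n) s x y
  t1_T s n ℓ _ hS _ x := B.t1_T (qv := qv n) hqp hpN (A n) s (ne_p_of_notMem_S B hS) x
  t2_T s n ℓ _ hS _ x := B.t2_T (qv := qv n) hqp hpN (A n) s (ne_p_of_notMem_S B hS) x
  t1_Tv s v _ n x := B.t1_T (qv := qv n) hqp hpN (A n) s (hqp v) x
  t2_Tv s v _ n x := B.t2_T (qv := qv n) hqp hpN (A n) s (hqp v) x
  t1_i1 s v hv n x := B.t1_i1 (qv := qv n) hqp hpN (A n) hv x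
  t1_i2 s v hv n x := B.t1_i2 (qv := qv n) hqp hpN (A n) hv x
  t2_i1 s v hv n x := B.t2_i1 (qv := qv n) hqp hpN (A n) hv x
  t2_i2 s v hv n x := B.t2_i2 (qv := qv n) hqp hpN (A n) hv x
  t1_j1 s v hv n x := B.t1_j1 (qv := qv n) hqp hpN (A n) hv x
  t1_j2 s v hv n x := B.t1_j2 (qv := qv n) hqp hpN (A n) hv x
  t2_j1 s v hv n x := B.t2_j1 (qv := qv n) hqp hpN (A n) hv x
  t2_j2 s v hv n x := B.t2_j2 (qv := qv n) hqp hpN (A n) hv x
  t1₀ s := LinearMap.pi fun J => B.b1 hqp hpN s ∘ₗ LinearMap.proj J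
  t2₀ s := LinearMap.pi fun J => B.b2 hqp hpN s ∘ₗ LinearMap.proj J
  π_t1 s n x := B.pi'_t1 (qv := qv n) hqp hpN (A n) s x
  π_t2 s n x := B.pi'_t2 (qv := qv n) hqp hpN (A n) s x

end Fermat.Agent.HSide
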