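import Fermat.Agent.S59.TInst
import Fermat.Agent.HSide.FlatNew

/-!
# The strictly ordinary type, modulo the annihilators of the `p`-new kernels, and flatness
-/

set_option autoImplicit false
set_option linter.unusedSectionVars false
set_option synthInstance.maxHeartbeats 400000
set_option maxHeartbeats 1000000

noncomputable section

namespace Fermat.Agent.Sides

open IsLocalRing Fermat.Agent.TwHecke Fermat.Agent.TwExact Fermat.Agent.HeckeRep
  Fermat.Agent.RTE Fermat.Agent.RTD Fermat.Agent.GalRep Fermat.Agent.HSide CuspForm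

section Top

variable {𝒪 : Type} [CommRing 𝒪] [IsDomain 𝒪] [IsDiscreteValuationRing 𝒪]
  [IsAdicComplete (maximalIdeal 𝒪) 𝒪] [Finite (ResidueField 𝒪)] [CharZero 𝒪]
  {p : ℕ} [Fact p.Prime] {ι : Type} {qT : ι → ℕ} {S : Finset ℕ} (B : Base 𝒪 p qT S)
  {m : ℕ} {qv : Fin m → ℕ} (A : Auxs B qv) [IsLocalRing (Lam 𝒪 p qv)]
  (hqp : ∀ v, qT v ≠ p) (hpN : ¬ p ∣ B.N) (s : Finset ι)
  [NeZero ((B.mulP hqp).lev2 qv s)]
  (h : Occ ((B.mulP hqp).lev2 qv s) (↑((B.mulP hqp).Sn qv) : Set ℕ)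
    (thOf (B.mulP hqp).a (↑((B.mulP hqp).Sn qv) : Set ℕ)))
  (𝓢 : Setup 𝒪 p)
  (ctx : HCtx p 𝓢.ρbar ((B.mulP hqp).Sn qv) (thOf (B.mulP hqp).a
    (↑((B.mulP hqp).Sn qv) : Set ℕ)))

/-- **`hty`**: the type, modulo the annihilator of a module killed by the traces at `p`. -/
theorem typeMod_top (hNsq : Squarefree B.N) (hSg : 𝓢.Sg = S)
    (hord : (GaloisRepAdic.ofResidualGaloisRep 𝓢.ρbar).IsStrictOrdinaryAt p)
    {X : Type} [AddCommGroup X] [Module (Lam 𝒪 p qv) X]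
    (j : X →ₗ[Lam 𝒪 p qv] (B.mulP hqp).MM qv s)
    (hj : ∀ x, B.t1 hqp hpN A s (j x) = 0 ∧ B.t2 hqp hpN A s (j x) = 0) :
    (TLev.top (B.mulP hqp) (B.auxs_mulP hqp A) s h ctx).TypeMod j
      (𝓢.type (Lord p) (Finset.univ.image qv)) := by
  intro B' _ _ _ _ _ f hf _ hker
  exact B.type_strict_MM A hqp hpN hNsq 𝓢 hSg rfl ctx hord s
    ((B.mulP hqp).lev2_mem (B.auxs_mulP hqp A) s) h
    (actTop (B.mulP hqp) (B.auxs_mulP hqp A) s h)
    (actTop_hT (B.mulP hqp) (B.auxs_mulP hqp A) s h) f hf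
    fun t ht => hker t fun x => ht (j x) (hj x).1 (hj x).2

/-- **`hflat`**: flatness modulo the operators with values killed by the traces at `p`. -/
theorem flat_top {B' : Type} [CommRing B'] [IsLocalRing B'] [IsNoetherianRing B']
    [Finite (ResidueField B')]
    (f : (TLev.top (B.mulP hqp) (B.auxs_mulP hqp A) s h ctx).T →+* B') (hf : IsLocalHom f)
    (hfK : ∀ t, (∀ z, B.t1 hqp hpN A s
        ((TLev.top (B.mulP hqp) (B.auxs_mulP hqp A) s h ctx).act t z) = 0 ∧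
      B.t2 hqp hpN A s
        ((TLev.top (B.mulP hqp) (B.auxs_mulP hqp A) s h ctx).act t z) = 0) → f t = 0) :
    ((TLev.top (B.mulP hqp) (B.auxs_mulP hqp A) s h ctx).ρ.baseChangeAlong f hf).IsFlatAt p :=
  B.flat_MM A hqp hpN ctx s ((B.mulP hqp).lev2_mem (B.auxs_mulP hqp A) s) h
    (actTop (B.mulP hqp) (B.auxs_mulP hqp A) s h)
    (actTop_hT (B.mulP hqp) (B.auxs_mulP hqp A) s h) f hf hfK

/-- `flat_top` for the dual numbers. -/
theorem flat_top_dual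
    (f : (TLev.top (B.mulP hqp) (B.auxs_mulP hqp A) s h ctx).T →+*
      DualNumber (ResidueField 𝒪)) (hf : IsLocalHom f)
    (hfK : ∀ t, (∀ z, B.t1 hqp hpN A s
        ((TLev.top (B.mulP hqp) (B.auxs_mulP hqp A) s h ctx).act t z) = 0 ∧
      B.t2 hqp hpN A s
        ((TLev.top (B.mulP hqp) (B.auxs_mulP hqp A) s h ctx).act t z) = 0) → f t = 0) :
    ((TLev.top (B.mulP hqp) (B.auxs_mulP hqp A) s h ctx).ρ.baseChangeAlong f hf).IsFlatAt p := by
  have h1 : Finite (DualNumber (ResidueField 𝒪)) :=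
    inferInstanceAs (Finite (ResidueField 𝒪 × ResidueField 𝒪))
  have h2 : IsNoetherianRing (DualNumber (ResidueField 𝒪)) := inferInstance
  have h3 : Finite (ResidueField (DualNumber (ResidueField 𝒪))) :=
    Finite.of_surjective _ (residue_surjective (R := DualNumber (ResidueField 𝒪)))
  exact flat_top B A hqp hpN s h 𝓢 ctx f hf hfK

end Top

section Bot

variable {𝒪 : Type} [CommRing 𝒪] [IsDomain 𝒪] [IsDiscreteValuationRing 𝒪]
  [IsAdicComplete (maximalIdeal 𝒪) 𝒪] [Finite (ResidueField 𝒪)] [CharZero 𝒪]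
  {p : ℕ} [Fact p.Prime] {ι : Type} {qT : ι → ℕ} {S : Finset ℕ} (B : Base 𝒪 p qT S)
  (hqp : ∀ v, qT v ≠ p) (hpN : ¬ p ∣ B.N) (s : Finset ι)
  (h : Occ ((B.mulP hqp).NS s) (↑S : Set ℕ) (thOf (B.mulP hqp).a (↑S : Set ℕ)))
  (𝓢 : Setup 𝒪 p) (ctx : HCtx p 𝓢.ρbar S (thOf (B.mulP hqp).a (↑S : Set ℕ)))
  (κ : Type) [Nonempty κ]

/-- **`hty₀`**: the type, modulo the annihilator of a module killed by the traces at `p`, bottom
levels. -/
theorem typeMod_bot (hNsq : Squarefree B.N) (hSg : 𝓢.Sg = S)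
    (hord : (GaloisRepAdic.ofResidualGaloisRep 𝓢.ρbar).IsStrictOrdinaryAt p)
    {X : Type} [AddCommGroup X] [Module 𝒪 X]
    (j : X →ₗ[𝒪] (κ → (B.mulP hqp).M0 s))
    (hj : ∀ x J, B.b1 hqp hpN s (j x J) = 0 ∧ B.b2 hqp hpN s (j x J) = 0) :
    (TLev.bot (B.mulP hqp) s h ctx κ).TypeMod j (𝓢.type (Lord p) ∅) := by
  intro B' _ _ _ _ _ f hf _ hker
  exact B.type_strict_M0_pi hqp hpN hNsq 𝓢 hSg rfl ctx hord s ((B.mulP hqp).NS_mem s) h
    (actBot (B.mulP hqp) s h)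
    (fun ℓ => (actBot_genS (B.mulP hqp) s h ℓ).trans (tvo_hT _ _ _ ℓ)) κ f hf
    fun t ht => hker t fun x => funext fun J =>
      ht (j x) (fun J => (hj x J).1) (fun J => (hj x J).2) J

end Bot

end Fermat.Agent.Sides

end
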