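import Fermat.Agent.RTD.GalSide
import Fermat.Agent.GW.GWcocFinal

set_option autoImplicit false

/-!
# The setup and the Galois side in the strictly ordinary case
-/

noncomputable section

namespace Fermat.Agent.Sides

open IsLocalRing GaloisRep
open Fermat.Agent.RTD
open Fermat.Agent.TW

variable {𝒪 : Type} [CommRing 𝒪] [IsDomain 𝒪] [IsDiscreteValuationRing 𝒪]
  [IsAdicComplete (maximalIdeal 𝒪) 𝒪] [Finite (ResidueField 𝒪)] {p : ℕ}

/-- **The Galois side of the strictly ordinary case.** -/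
theorem exists_strict_setup [hpf : Fact p.Prime] (hp2 : p ≠ 2) (hp𝒪 : (p : 𝒪) ∈ maximalIdeal 𝒪)
    {x : GaloisRepAdic 𝒪} {r N : ℕ} {T S : Finset ℕ} {a : ℕ → 𝒪} (hN : N ≠ 0)
    (hx : S59aux.ClimbData p x r N T S a) (hcond : condOrd 𝒪 p S S x) :
    ∃ 𝓢 : Setup 𝒪 p, 𝓢.ρbar = x.residual ∧ 𝓢.T₀ ∪ 𝓢.V = T ∧ 𝓢.Sg = S ∧
      𝓢.type (Lord p) ∅ x ∧
      𝓢.type (Lord p) ∅ (GaloisRepAdic.ofResidualGaloisRep 𝓢.ρbar) ∧
      Nonempty (𝓢.GalSide (Lord p) S) := by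
  obtain ⟨⟨h1, h2, h3⟩, h4⟩ := hcond
  obtain ⟨𝓢, hρ, -, hT, hSg⟩ := exists_setup hx hpf.out hp2 hp𝒪 h1 h3 hN
  have hxt : 𝓢.type (Lord p) ∅ x := by
    refine ⟨⟨h1, h2, fun q hq hqS => h3 q hq fun h => hqS ?_⟩, fun q hq => h4 q ?_⟩
    · rw [hSg]
      exact Finset.mem_union_left _ h
    · rwa [← hSg]
  have he := isEquiv_ofResidual x
  have hbar : 𝓢.type (Lord p) ∅ (GaloisRepAdic.ofResidualGaloisRep 𝓢.ρbar) := by
    rw [hρ]
    obtain ⟨⟨-, -, t3⟩, t4⟩ := hxt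
    exact ⟨⟨detIsCyclotomic_of_isEquiv he (detIsCyclotomic_baseChange _ inferInstance h1),
      isStrictOrdinaryAt_of_isEquiv he (isStrictOrdinaryAt_baseChange _ inferInstance h2),
      fun q hq hqS => isUnramifiedAt_of_isEquiv he
        (isUnramifiedAt_baseChange _ inferInstance (t3 q hq hqS))⟩,
      fun q hq h5 h6 => isUnipotentOnInertiaAt_of_isEquiv he
        (isUnipotentOnInertiaAt_baseChange _ inferInstance (t4 q hq h5 h6))⟩
  exact ⟨𝓢, hρ, hT, hSg, hxt, hbar, 𝓢.nonempty_galSide_ord (GW.gwcoc hp2) hbar hSg.le⟩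

end Fermat.Agent.Sides

end
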