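import Fermat.Agent.S59.StrictCore
import Fermat.Agent.S59.StrictSetup
import Fermat.Agent.S59.NewPairInst
import Fermat.Agent.S59.TDataSide
import Fermat.Agent.S59.StrictHyp
import Fermat.Agent.S59.NormHyp
import Fermat.Agent.S59.BotEmb
import Fermat.Agent.S59.ClimbGlue
import Fermat.Agent.HSide.OfClimb
import Fermat.Agent.HSide.Surj
import Fermat.Agent.LRp.Main

set_option autoImplicit false
set_option linter.style.haveILetI false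
set_option synthInstance.maxHeartbeats 400000
set_option maxHeartbeats 1000000

/-!
# Modularity lifting in the strictly ordinary case
-/

noncomputable section

open IsLocalRing GaloisRep
open Fermat.Agent.RTD Fermat.Agent.HSide Fermat.Agent.HeckeRep
open Fermat.Agent.TwExact Fermat.Agent.TwHecke Fermat.Agent.Patch
open Fermat.Agent.S59aux (ClimbData ClimbStrict Occurs)
open Fermat.Agent.RTE (thOf)

namespace Fermat.Agent.Sides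

section Strict

variable {p : ℕ} [hpf : Fact p.Prime] {𝒪 : Type} [CommRing 𝒪] [IsDomain 𝒪]
  [IsDiscreteValuationRing 𝒪] [IsAdicComplete (maximalIdeal 𝒪) 𝒪] [Finite (ResidueField 𝒪)]
  [CharZero 𝒪] {𝓢 : Setup 𝒪 p} {S : Finset ℕ}

/-- **The strictly ordinary case, for the Hecke side of a base** of level prime to `p`. -/
theorem occurs_base {x : GaloisRepAdic 𝒪} {r N : ℕ} {T : Finset ℕ} {a : ℕ → 𝒪} {M : ℕ} [NeZero M]
    (hp𝒪 : (p : 𝒪) ∈ maximalIdeal 𝒪) (hx : ClimbData p x r N T S a)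
    (hρ : 𝓢.ρbar = x.residual) (hSg : 𝓢.Sg = S) (hxt : 𝓢.type (Lord p) ∅ x)
    (hord : (GaloisRepAdic.ofResidualGaloisRep 𝓢.ρbar).IsStrictOrdinaryAt p)
    (G : 𝓢.GalSide (Lord p) S) (B : Base 𝒪 p 𝓢.pr S) (A : ∀ n, Auxs B (G.qv n))
    (ha : ∀ ℓ, B.a ℓ = residue 𝒪 (a ℓ)) (hB : B.ρb = 𝓢.ρbar)
    (hqp : ∀ v, 𝓢.pr v ≠ p) (hpN : ¬ p ∣ B.N) (hNsq : Squarefree B.N)
    (hocc : Occ (B.mulP hqp).N (↑S : Set ℕ) (thOf (B.mulP hqp).a (↑S : Set ℕ)))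
    (hnew : ∃ z : (B.mulP hqp).M0 (∅ : Finset _), z ≠ 0 ∧ B.b1 hqp hpN ∅ z = 0 ∧
      B.b2 hqp hpN ∅ z = 0)
    (hM : (B.mulP hqp).NS Finset.univ = M) : Occurs M S a := by
  haveI hloc : ∀ n, IsLocalRing (Lam 𝒪 p (G.qv n)) := fun n => isLocalRing_Lam 𝒪 p (G.qv n) hp𝒪
  have hodd : 𝓢.ρbar.IsOdd := hρ ▸ hx.odd
  have Ap : ∀ n, Auxs (B.mulP hqp) (G.qv n) := fun n => B.auxs_mulP hqp (A n)
  have hBp : (B.mulP hqp).ρb = 𝓢.ρbar := hB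
  let P : NewPair ((B.mulP hqp).side Ap) (B.side A) := B.newPair hqp hpN A
  let E : TData 𝓢 ((B.mulP hqp).side Ap) := tdata (B.mulP hqp) hBp hocc Ap
  have h1 : ∀ ℓ : ℕ, ℓ.Prime → ∃ n, ∀ i, ℓ ≠ G.qv n i := fun ℓ hℓ => exists_level_ne G ℓ hℓ.pos
  haveI : Nontrivial ((P.K hp𝒪).M₀ ∅) := by
    obtain ⟨z, hz, h1, h2⟩ := hnew
    obtain ⟨y, hy⟩ : ∃ y : (P.K hp𝒪).M₀ ∅, P.incl₀ hp𝒪 ∅ y = fun _ => z :=
      ⟨⟨fun _ => z, mem_newKer.2 ⟨funext fun _ => h1, funext fun _ => h2⟩⟩, rfl⟩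
    refine ⟨⟨y, 0, fun h => hz ?_⟩⟩
    rw [h, map_zero] at hy
    exact (congrFun hy ∅).symm
  obtain ⟨ε, hε, e, hinj, hmem, he⟩ := exists_emb (B.mulP hqp) hM ha
    (P.incl₀ hp𝒪 Finset.univ) (P.incl₀_injective hp𝒪 Finset.univ)
    ((P.K hp𝒪).T₀ Finset.univ) (fun ℓ hℓ hℓS y J => by
      obtain ⟨n, hn⟩ := h1 ℓ hℓ
      exact congrFun (P.incl₀_T₀ hp𝒪 Finset.univ n ℓ hℓ hℓS hn y) J)
  have hty : ∀ s n, (E.W s n).TypeMod (P.incl hp𝒪 s n)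
      (𝓢.type (Lord p) (Finset.univ.image (G.qv n))) := fun s n =>
    haveI : NeZero ((B.mulP hqp).lev2 (G.qv n) s) := (B.mulP hqp).neZero_lev2 (Ap n) s
    typeMod_top B (A n) hqp hpN s ((B.mulP hqp).occ_lev2 (Ap n) s hocc) 𝓢
      (hctx_setup 𝓢 (B.mulP hqp) hBp (B.mulP hqp).S_sub) hNsq hSg hord (P.incl hp𝒪 s n)
      fun x => ⟨P.t1_incl hp𝒪 s n x, P.t2_incl hp𝒪 s n x⟩
  have hty₀ : ∀ s, (E.W₀ s).TypeMod (P.incl₀ hp𝒪 s) (𝓢.type (Lord p) ∅) := fun s =>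
    typeMod_bot B hqp hpN s ((B.mulP hqp).occ_NS s hocc) 𝓢
      (hctx_setup 𝓢 (B.mulP hqp) hBp subset_rfl) (Finset (Fin G.m)) hNsq hSg hord
      (P.incl₀ hp𝒪 s)
      fun x J => ⟨congrFun (mem_newKer.1 x.2).1 J, congrFun (mem_newKer.1 x.2).2 J⟩
  exact occurs_strict P hp𝒪 E h1 hodd hty hty₀
    (normHyp_side G hodd (B.mulP hqp) Ap (P.subSide hp𝒪 h1))
    (fun s v hv n x y => (B.mulP hqp).mj_surj (Ap n) hv x y)
    (fun s n f hf hfK =>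
      haveI : NeZero ((B.mulP hqp).lev2 (G.qv n) s) := (B.mulP hqp).neZero_lev2 (Ap n) s
      flat_top_dual B (A n) hqp hpN s ((B.mulP hqp).occ_lev2 (Ap n) s hocc) 𝓢
        (hctx_setup 𝓢 (B.mulP hqp) hBp (B.mulP hqp).S_sub) f hf hfK)
    hx hρ hxt hε e hinj hmem he

end Strict

end Fermat.Agent.Sides

namespace Fermat.Agent.S59aux

open Fermat.Agent.Sides

/-- **Modularity lifting, strictly ordinary case.** -/
theorem climbStrict : ClimbStrict := by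
  intro p hpf 𝒪 _ _ _ _ _ _ x r N T S a M hN0 hM0 hNp0 hp2 hp𝒪 hx hcond hM hocc
  obtain ⟨𝓢, hρ, hT, hSg, hxt, hbar, ⟨G⟩⟩ :=
    exists_strict_setup hp2 hp𝒪 (NeZero.ne N) hx hcond
  exact occurs_base hp𝒪 hx hρ hSg hxt hbar.1.2.1 G
    (baseOf hx hp2 hp𝒪 𝓢 hT N (NeZero.ne N) (Or.inl rfl))
    (fun n => auxs_of_goodQ hx hp2 hp𝒪 𝓢 hρ hT N (NeZero.ne N) (Or.inl rfl)
      (Nat.succ_ne_zero n) (G.good n))
    (fun _ => rfl) hρ.symm (pr_ne 𝓢) hx.not_dvd hx.sqf (occ_of_occursRes hocc)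
    (LRp.exists_new_bot hx hcond hocc hp2 hp𝒪 𝓢 hT (pr_ne 𝓢) hx.not_dvd)
    ((NS_univ_mulP hx hp2 hp𝒪 𝓢 hT (NeZero.ne N) (pr_ne 𝓢)).trans hM.symm)

end Fermat.Agent.S59aux

end
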