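import Fermat.Agent.RT.Ramified
import Fermat.Agent.RTD.Functor
import Fermat.Agent.EC.TateDatum
import Fermat.Agent.Patch.Package

/-!
# Adic Galois representations are determined by Frobenius elements: equivalence

and universal deformation rings are topologically generated by the traces of Frobenius elements.
-/

set_option autoImplicit false
set_option linter.style.haveILetI false
set_option linter.unusedSectionVars false

open Polynomial IsLocalRing

namespace Fermat.Agent.S59aux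

open Fermat.Agent.HeckeRep Fermat.Agent.S30aux Fermat.Agent.RT Fermat.Agent.RTD
open Fermat.Agent.S53norm (dualAlg)
open GaloisRep Fermat.Agent.TW

/-- the absolute Galois group -/
local notation "GQ'" => (AlgebraicClosure ℚ ≃ₐ[ℚ] AlgebraicClosure ℚ)

section Res

variable {k k' : Type} [Field k] [Field k']

/-- equivalent residual representations have the same characteristic polynomials -/
theorem charpoly_of_isEquiv_res {ρ ρ' : ResidualGaloisRep k} (h : ρ.IsEquiv ρ') (g : GQ') :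
    (ρ.ρ g).charpoly = (ρ'.ρ g).charpoly := by
  obtain ⟨e⟩ := h
  rw [← LinearEquiv.charpoly_conj e.toLinearEquiv (ρ.ρ g)]
  congr 1
  refine LinearMap.ext fun x => ?_
  rw [LinearEquiv.conj_apply_apply, e.map_apply, LinearEquiv.apply_symm_apply]

/-- absolute irreducibility and oddness of base changes -/
theorem absIrr_odd_of_isEquiv {κ : k} (hκ : 2 * κ = 1) (f : k →+* k') {ρ : ResidualGaloisRep k}
    {ρ' : ResidualGaloisRep k'} (h : ρ'.IsEquiv (ρ.baseChangeAlong f))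
    (habs : ρ.IsAbsolutelyIrreducible) (hodd : ρ.IsOdd) :
    ρ'.IsAbsolutelyIrreducible ∧ ρ'.IsOdd := by
  have hc := complexConjugation_mul_self
  have hc1 : complexConjugation ≠ 1 := RT.complexConjugation_ne_one
  have hκ' : 2 * f κ = 1 := by rw [← map_ofNat f 2, ← map_mul, hκ, map_one]
  have hodd1 : (ρ.baseChangeAlong f).IsOdd := by
    intro c hc hc1
    letI : Algebra k k' := f.toAlgebra
    show LinearMap.det ((ρ.ρ c).baseChange k') = -1
    rw [LinearMap.det_baseChange, hodd c hc hc1, map_neg, map_one]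
  have key := charpoly_of_isEquiv_res h
  have hodd' : ρ'.IsOdd := by
    intro c hc hc1
    rw [(charpoly_eq_iff ρ'.finrank_eq (ρ.baseChangeAlong f).finrank_eq (key c)).2]
    exact hodd1 c hc hc1
  refine ⟨?_, hodd'⟩
  refine isAbsolutelyIrreducible_of_rtr hc hκ' (hodd1 _ hc hc1) (hodd' _ hc hc1) ?_
    ((isAbsolutelyIrreducible_baseChangeAlong_iff hc hκ ρ (hodd _ hc hc1) _).mpr habs)
  ext g
  exact (charpoly_eq_iff ρ'.finrank_eq (ρ.baseChangeAlong f).finrank_eq (key g)).1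

end Res

section Equiv

variable {T : Type} [CommRing T] [IsLocalRing T]

/-- complex conjugation has determinant `-1`. -/
theorem det_complexConjugation {κ : T} (hκ : 2 * κ = 1) {ρ : GaloisRepAdic T}
    (hodd : ρ.residual.IsOdd) : LinearMap.det (ρ.ρ complexConjugation) = -1 := by
  have h1 := hodd _ complexConjugation_mul_self RT.complexConjugation_ne_one
  rw [Tate.det_residual'] at h1
  set d := LinearMap.det (ρ.ρ complexConjugation) with hd
  have h2 : d * d = 1 := by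
    rw [hd, ← map_mul, ← map_mul, complexConjugation_mul_self, map_one, map_one]
  have h3 : IsUnit (d - 1) := by
    rw [← residue_ne_zero_iff_isUnit, map_sub, map_one, h1]
    intro h0
    have h4 : residue T 2 = 0 := by
      rw [map_ofNat]
      linear_combination -h0
    have h5 : residue T (2 * κ) = 0 := by rw [map_mul, h4, zero_mul]
    rw [hκ, map_one] at h5
    exact one_ne_zero h5
  have h6 : (d - 1) * (d + 1) = 0 := by linear_combination h2
  have h7 := (h3.mul_right_eq_zero).1 h6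
  linear_combination h7

/-- Two representations with the same traces are equivalent. -/
theorem isEquiv_of_trace {κ : T} (hκ : 2 * κ = 1) {ρ ρ' : GaloisRepAdic T}
    (habs : ρ.residual.IsAbsolutelyIrreducible) (hodd : ρ.residual.IsOdd)
    (h : ∀ g, ρ'.trace g = ρ.trace g) : ρ.IsEquiv ρ' := by
  have hdc := det_complexConjugation hκ hodd
  obtain ⟨r, s, hrs⟩ := exists_isUnit_xx (isPseudo_adic ρ) complexConjugation_mul_self hdc hκ
    ρ.residual habs (fun g => Tate.rtr_residual ρ g)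
  obtain ⟨e, he⟩ := exists_equiv_of_trace ρ.finrank_eq ρ'.finrank_eq ρ.ρ ρ'.ρ (isPseudo_adic ρ)
    (fun _ => rfl) h complexConjugation_mul_self hdc hκ hrs
  exact ⟨⟨e, he⟩⟩

/-- Two representations with the same traces of Frobenius elements are equivalent. -/
theorem isEquiv_of_frobenius [IsHausdorff (maximalIdeal T) T] {κ : T} (hκ : 2 * κ = 1)
    {ρ ρ' : GaloisRepAdic T}
    (habs : ρ.residual.IsAbsolutelyIrreducible) (hodd : ρ.residual.IsOdd)
    (S : Set ℕ) (hS : S.Finite)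
    (hF : ∀ ℓ : ℕ, ℓ.Prime → ℓ ∉ S → ∀ A : ValuationSubring (AlgebraicClosure ℚ),
      A.LiesOverPrime ℓ → ∀ φ : GQ', A.IsFrobeniusAt φ ℓ →
        (ρ.ρ φ).charpoly = (ρ'.ρ φ).charpoly) : ρ.IsEquiv ρ' :=
  isEquiv_of_trace hκ habs hodd fun g => (trace_eq_of_frobenius S hS hF g).symm

end Equiv

section TraceGen

/-- The subalgebra generated by the traces of the Frobenius elements outside `S`. -/
def trAlg (𝒪 : Type) [CommRing 𝒪] {R : Type} [CommRing R] [IsLocalRing R] [Algebra 𝒪 R]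
    (ρ : GaloisRepAdic R) (S : Set ℕ) : Subalgebra 𝒪 R :=
  Algebra.adjoin 𝒪 {a | ∃ ℓ : ℕ, ℓ.Prime ∧ ℓ ∉ S ∧ ∃ A : ValuationSubring (AlgebraicClosure ℚ),
    A.LiesOverPrime ℓ ∧ ∃ σ : GQ', A.IsFrobeniusAt σ ℓ ∧ a = ρ.trace σ}

variable {𝒪 : Type} [CommRing 𝒪] [IsDomain 𝒪] [IsDiscreteValuationRing 𝒪]
  [IsAdicComplete (maximalIdeal 𝒪) 𝒪] [Finite (ResidueField 𝒪)]
  {ρbar : ResidualGaloisRep (ResidueField 𝒪)}
  {𝒟 : ∀ ⦃A : Type⦄ [CommRing A] [IsLocalRing A] [Algebra 𝒪 A], GaloisRepAdic A → Prop}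

/-- Tangent vectors of a deformation ring are determined by the values at the traces. -/
theorem tangent_ext (D : DeformationRingData 𝒪 ρbar 𝒟) {κ : 𝒪} (hκ : 2 * κ = 1)
    (hodd : ρbar.IsOdd) (hdet : ∀ g, LinearMap.det (D.ρ.ρ g) ∈ Set.range (algebraMap 𝒪 D.R))
    (hstab : letI := dualAlg 𝒪
      ∀ (φ : D.R →ₐ[𝒪] DualNumber (ResidueField 𝒪))
        (hφ : IsLocalHom (φ : D.R →+* DualNumber (ResidueField 𝒪))),
        𝒟 (D.ρ.baseChangeAlong (φ : D.R →+* DualNumber (ResidueField 𝒪)) hφ))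
    (S : Set ℕ) (hS : S.Finite)
    (f g : D.R →+* DualNumber (ResidueField 𝒪))
    (hf : f.comp (algebraMap 𝒪 D.R) =
      (algebraMap (ResidueField 𝒪) (DualNumber (ResidueField 𝒪))).comp (residue 𝒪))
    (hg : g.comp (algebraMap 𝒪 D.R) =
      (algebraMap (ResidueField 𝒪) (DualNumber (ResidueField 𝒪))).comp (residue 𝒪))
    (h : ∀ t ∈ trAlg 𝒪 D.ρ S, f t = g t) : f = g := by
  letI := dualAlg 𝒪
  have hfl := isLocalHom_dual f hf
  have hgl := isLocalHom_dual g hg
  let fa : D.R →ₐ[𝒪] DualNumber (ResidueField 𝒪) :=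
    { f with commutes' := fun z => RingHom.congr_fun hf z }
  let ga : D.R →ₐ[𝒪] DualNumber (ResidueField 𝒪) :=
    { g with commutes' := fun z => RingHom.congr_fun hg z }
  have hA := Fermat.Agent.S53norm.dual_isArtinianTestAlgebra (𝒪 := 𝒪)
  haveI := hA.isLocalHom
  haveI := hA.isArtinian
  haveI := isAdicComplete_dual (𝒪 := 𝒪)
  suffices this : fa = ga from congrArg (fun φ : D.R →ₐ[𝒪] DualNumber (ResidueField 𝒪) =>
      (φ : D.R →+* DualNumber (ResidueField 𝒪))) this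
  refine algHom_ext_of_isEquiv D hA.residue_surjective fa ga hfl hgl (hstab fa hfl) ?_
  have hκ' : 2 * (algebraMap 𝒪 (DualNumber (ResidueField 𝒪)) κ) = 1 := by
    rw [← map_ofNat (algebraMap 𝒪 (DualNumber (ResidueField 𝒪))) 2, ← map_mul, hκ, map_one]
  have hκb : 2 * residue 𝒪 κ = 1 := by
    rw [← map_ofNat (residue 𝒪) 2, ← map_mul, hκ, map_one]
  -- the residual representation
  have key : ∀ (φ : D.R →ₐ[𝒪] DualNumber (ResidueField 𝒪))
      (hφ : IsLocalHom (φ : D.R →+* DualNumber (ResidueField 𝒪))),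
      (D.ρ.baseChangeAlong (φ : D.R →+* DualNumber (ResidueField 𝒪)) hφ).residual.IsAbsolutelyIrreducible
      ∧ (D.ρ.baseChangeAlong (φ : D.R →+* DualNumber (ResidueField 𝒪)) hφ).residual.IsOdd := by
    intro φ hφ
    exact absIrr_odd_of_isEquiv hκb _ (residual_baseChangeAlong_isEquiv D.residual_isEquiv φ hφ)
      D.absIrr hodd
  obtain ⟨habs, hodd'⟩ := key ga hgl
  refine isEquiv_of_frobenius hκ' habs hodd' S hS ?_
  intro ℓ hℓ hℓS A hA σ hσ
  obtain ⟨c, hc⟩ := hdet σ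
  have e1 := charpoly_baseChangeAlong_adic (ga : D.R →+* DualNumber (ResidueField 𝒪)) hgl D.ρ σ
  have e2 := charpoly_baseChangeAlong_adic (fa : D.R →+* DualNumber (ResidueField 𝒪)) hfl D.ρ σ
  refine e1.trans (Eq.trans ?_ e2.symm)
  rw [charpoly_eq_trace_det D.ρ.finrank_eq, ← hc]
  simp only [Polynomial.map_add, Polynomial.map_sub, Polynomial.map_mul, Polynomial.map_pow,
    Polynomial.map_X, Polynomial.map_C]
  have h1 : (ga : D.R →+* DualNumber (ResidueField 𝒪)) (algebraMap 𝒪 D.R c) =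
      (fa : D.R →+* DualNumber (ResidueField 𝒪)) (algebraMap 𝒪 D.R c) :=
    (ga.commutes c).trans (fa.commutes c).symm
  have h2 : (ga : D.R →+* DualNumber (ResidueField 𝒪)) (LinearMap.trace _ _ (D.ρ.ρ σ)) =
      (fa : D.R →+* DualNumber (ResidueField 𝒪)) (LinearMap.trace _ _ (D.ρ.ρ σ)) :=
    (h _ (Algebra.subset_adjoin ⟨ℓ, hℓ, hℓS, A, hA, σ, hσ, rfl⟩)).symm
  rw [h1, h2]

/-- Approximation by elements of a subalgebra generating the maximal ideal. -/
theorem exists_approx {R : Type*} [CommRing R] [IsLocalRing R] [Algebra 𝒪 R]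
    (hres : Function.Surjective (residue R ∘ algebraMap 𝒪 R)) (T : Subalgebra 𝒪 R)
    (hT : maximalIdeal R ≤ Ideal.span {x | x ∈ T ∧ x ∈ maximalIdeal R}) (n : ℕ) (f : R) :
    ∃ t ∈ T, f - t ∈ maximalIdeal R ^ n := by
  induction n generalizing f with
  | zero => exact ⟨0, T.zero_mem, by simp⟩
  | succ n ih =>
    have key : ∀ x ∈ Ideal.span {x | x ∈ T ∧ x ∈ maximalIdeal R},
        ∃ t ∈ T, t ∈ maximalIdeal R ∧ x - t ∈ maximalIdeal R ^ (n + 1) := by
      intro x hx
      induction hx using Submodule.span_induction with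
      | mem x hx => exact ⟨x, hx.1, hx.2, by simp⟩
      | zero => exact ⟨0, T.zero_mem, Ideal.zero_mem _, by simp⟩
      | add x y _ _ hx hy =>
        obtain ⟨t, h1, h2, h3⟩ := hx
        obtain ⟨u, h4, h5, h6⟩ := hy
        refine ⟨t + u, T.add_mem h1 h4, Ideal.add_mem _ h2 h5, ?_⟩
        have := Ideal.add_mem _ h3 h6
        rwa [sub_add_sub_comm] at this
      | smul a x _ hx =>
        obtain ⟨t, h1, h2, h3⟩ := hx
        obtain ⟨u, h4, h5⟩ := ih a
        refine ⟨u * t, T.mul_mem h4 h1, Ideal.mul_mem_left _ _ h2, ?_⟩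
        have h6 : a • x - u * t = a * (x - t) + (a - u) * t := by
          rw [smul_eq_mul]; ring
        rw [h6]
        refine Ideal.add_mem _ (Ideal.mul_mem_left _ _ h3) ?_
        rw [pow_succ]
        exact Ideal.mul_mem_mul h5 h2
    obtain ⟨c, hc⟩ := hres (residue R f)
    have h1 : f - algebraMap 𝒪 R c ∈ maximalIdeal R := by
      rw [← residue_eq_zero_iff, map_sub, sub_eq_zero]
      exact hc.symm
    obtain ⟨t, h2, -, h3⟩ := key _ (hT h1)
    refine ⟨algebraMap 𝒪 R c + t, T.add_mem (T.algebraMap_mem c) h2, ?_⟩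
    rwa [← sub_sub]

/-- **Universal deformation rings are topologically generated by traces of Frobenius elements.** -/
theorem exists_traceGen (D : DeformationRingData 𝒪 ρbar 𝒟) {κ : 𝒪} (hκ : 2 * κ = 1)
    (hodd : ρbar.IsOdd) (hdet : ∀ g, LinearMap.det (D.ρ.ρ g) ∈ Set.range (algebraMap 𝒪 D.R))
    (hstab : letI := dualAlg 𝒪
      ∀ (φ : D.R →ₐ[𝒪] DualNumber (ResidueField 𝒪))
        (hφ : IsLocalHom (φ : D.R →+* DualNumber (ResidueField 𝒪))),
        𝒟 (D.ρ.baseChangeAlong (φ : D.R →+* DualNumber (ResidueField 𝒪)) hφ))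
    (S : Set ℕ) (hS : S.Finite) (f : D.R) (n : ℕ) :
    ∃ t ∈ trAlg 𝒪 D.ρ S, f - t ∈ maximalIdeal D.R ^ n := by
  classical
  set T := trAlg 𝒪 D.ρ S with hT
  -- finitely many generators
  set I : Ideal D.R := Ideal.span {x | x ∈ T ∧ x ∈ maximalIdeal D.R} with hI
  obtain ⟨s, hs, hsI⟩ := Submodule.fg_span_iff_fg_span_finset_subset _ |>.1
    (IsNoetherian.noetherian I : I.FG)
  let z : s → D.R := fun i => i.1
  have hz : ∀ i, z i ∈ T ∧ z i ∈ maximalIdeal D.R := fun i => hs i.2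
  have hcard : Nat.card {f : D.R →+* DualNumber (ResidueField 𝒪) //
        f.comp (algebraMap 𝒪 D.R) =
          (algebraMap (ResidueField 𝒪) (DualNumber (ResidueField 𝒪))).comp (residue 𝒪) ∧
        ∀ i, f (z i) = 0} ≤ Nat.card (ResidueField 𝒪) ^ 0 := by
    rw [pow_zero]
    suffices hsub : Subsingleton {f : D.R →+* DualNumber (ResidueField 𝒪) //
        f.comp (algebraMap 𝒪 D.R) =
          (algebraMap (ResidueField 𝒪) (DualNumber (ResidueField 𝒪))).comp (residue 𝒪) ∧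
        ∀ i, f (z i) = 0} by
      have hfin := Finite.of_subsingleton (α := {f : D.R →+* DualNumber (ResidueField 𝒪) //
        f.comp (algebraMap 𝒪 D.R) =
          (algebraMap (ResidueField 𝒪) (DualNumber (ResidueField 𝒪))).comp (residue 𝒪) ∧
        ∀ i, f (z i) = 0})
      exact Finite.card_le_one_iff_subsingleton.mpr hsub
    refine ⟨?_⟩
    rintro ⟨f, hf1, hf2⟩ ⟨g, hg1, hg2⟩
    apply Subtype.ext
    show f = g
    refine tangent_ext D hκ hodd hdet hstab S hS f g hf1 hg1 fun t ht => ?_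
    obtain ⟨c, hc⟩ := D.residue_surjective (residue D.R t)
    have h1 : t - algebraMap 𝒪 D.R c ∈ I := by
      refine Ideal.subset_span ⟨T.sub_mem ht (T.algebraMap_mem c), ?_⟩
      rw [← residue_eq_zero_iff, map_sub, sub_eq_zero]
      exact hc.symm
    have hkill : ∀ (f : D.R →+* DualNumber (ResidueField 𝒪)), (∀ i, f (z i) = 0) →
        ∀ x ∈ I, f x = 0 := by
      intro f hf x hx
      have h1 : I ≤ RingHom.ker f := by
        have h2 : I = Ideal.span (s : Set D.R) := hsI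
        rw [h2, Ideal.span_le]
        intro y hy
        exact hf ⟨y, hy⟩
      exact h1 hx
    have h2 := hkill f hf2 _ h1
    have h3 := hkill g hg2 _ h1
    rw [map_sub, sub_eq_zero] at h2 h3
    rw [h2, h3]
    exact (RingHom.congr_fun hf1 c).trans (RingHom.congr_fun hg1 c).symm
  obtain ⟨γ, hγ, hX⟩ := exists_surjective_of_card_rel (𝒪 := 𝒪) D.residue_surjective z
    (fun i => (hz i).2) 0 hcard
  refine exists_approx D.residue_surjective T (fun x hx => ?_) n f
  obtain ⟨F, rfl⟩ := hγ x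
  have hγl : IsLocalHom (γ : MvPowerSeries (s ⊕ Fin 0) 𝒪 →+* D.R) := IsLocalHom.of_surjective _ hγ
  have hF : F ∈ maximalIdeal (MvPowerSeries (s ⊕ Fin 0) 𝒪) := by
    rw [mem_maximalIdeal]
    intro hu
    exact hx (hu.map γ)
  rw [Patch.maximalIdeal_mvPowerSeries_eq] at hF
  have hle : (maximalIdeal 𝒪).map (MvPowerSeries.C : 𝒪 →+* MvPowerSeries (s ⊕ Fin 0) 𝒪) ⊔
      Ideal.span (Set.range (MvPowerSeries.X : s ⊕ Fin 0 → MvPowerSeries (s ⊕ Fin 0) 𝒪)) ≤
      I.comap (γ : MvPowerSeries (s ⊕ Fin 0) 𝒪 →+* D.R) := by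
    rw [sup_le_iff, Ideal.map_le_iff_le_comap, Ideal.span_le]
    constructor
    · intro c hc
      have h1 : γ (MvPowerSeries.C c) = algebraMap 𝒪 D.R c := γ.commutes c
      change γ (MvPowerSeries.C c) ∈ I
      rw [h1]
      refine Ideal.subset_span ⟨T.algebraMap_mem c, ?_⟩
      intro hu
      exact hc (IsLocalHom.map_nonunit (f := algebraMap 𝒪 D.R) c hu)
    · rintro _ ⟨i | i, rfl⟩
      · change γ (MvPowerSeries.X (Sum.inl i)) ∈ I
        rw [hX]
        exact Ideal.subset_span (hz i)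
      · exact i.elim0
  exact hle hF


end TraceGen

section Module

variable {𝒪 : Type*} [CommRing 𝒪] [IsNoetherianRing 𝒪] [IsLocalRing 𝒪]
  [Finite (ResidueField 𝒪)]
  {R : Type*} [CommRing R] [IsLocalRing R] [Algebra 𝒪 R]

/-- `𝔪_R ^ k M ⊆ 𝔪_𝒪 ^ j M` for `k` large. -/
theorem exists_pow_smul_mem {M : Type*} [AddCommGroup M] [Module 𝒪 M] [Module R M]
    [IsScalarTower 𝒪 R M] [Module.Finite 𝒪 M] (j : ℕ) :
    ∃ k : ℕ, ∀ a ∈ maximalIdeal R ^ k, ∀ x : M,
      a • x ∈ ((maximalIdeal 𝒪) ^ j • ⊤ : Submodule 𝒪 M) := by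
  set N : Submodule R M := ((maximalIdeal 𝒪) ^ j).map (algebraMap 𝒪 R) • ⊤ with hN
  have hNr : N.restrictScalars 𝒪 = (maximalIdeal 𝒪) ^ j • ⊤ :=
    Ideal.smul_restrictScalars _ _
  have hfin : Finite (M ⧸ N) := by
    have := Patch.finite_quotient_pow_smul_top 𝒪 M j
    have e : (M ⧸ N) ≃ (M ⧸ ((maximalIdeal 𝒪) ^ j • ⊤ : Submodule 𝒪 M)) :=
      Quotient.congr (_root_.Equiv.refl _) fun a b => by
        rw [Submodule.quotientRel_def, Submodule.quotientRel_def, ← hNr]
        rfl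
    exact Finite.of_equiv _ e.symm
  have hart : IsArtinian R (M ⧸ N) := inferInstance
  let W : ℕ →o (Submodule R (M ⧸ N))ᵒᵈ :=
    ⟨fun k => OrderDual.toDual (maximalIdeal R ^ k • ⊤), fun a b hab =>
      Submodule.smul_mono_left (Ideal.pow_le_pow_right hab)⟩
  obtain ⟨k, hk⟩ := IsArtinian.monotone_stabilizes W
  have h1 : (maximalIdeal R ^ k • ⊤ : Submodule R (M ⧸ N)) =
      (maximalIdeal R ^ (k + 1) • ⊤ : Submodule R (M ⧸ N)) := hk (k + 1) (by omega)
  have h2 : (maximalIdeal R ^ k • ⊤ : Submodule R (M ⧸ N)) = ⊥ := by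
    refine Submodule.eq_bot_of_le_smul_of_le_jacobson_bot (maximalIdeal R) _ ?_ ?_
      (IsLocalRing.maximalIdeal_le_jacobson _)
    · exact IsNoetherian.noetherian _
    · rw [← Submodule.mul_smul, ← pow_succ', ← h1]
  refine ⟨k, fun a ha x => ?_⟩
  have h3 : a • (Submodule.Quotient.mk x : M ⧸ N) ∈
      (maximalIdeal R ^ k • ⊤ : Submodule R (M ⧸ N)) := Submodule.smul_mem_smul ha trivial
  rw [h2, Submodule.mem_bot, ← Submodule.Quotient.mk_smul, Submodule.Quotient.mk_eq_zero] at h3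
  rw [← hNr]
  exact h3

/-- a semilinear map commuting with a dense subalgebra is semilinear -/
theorem map_smul_of_dense {R' : Type*} [CommRing R'] [IsLocalRing R'] [Algebra 𝒪 R']
    {M M' : Type*} [AddCommGroup M] [Module 𝒪 M] [Module R M] [IsScalarTower 𝒪 R M]
    [Module.Finite 𝒪 M] [AddCommGroup M'] [Module 𝒪 M'] [Module R' M'] [IsScalarTower 𝒪 R' M']
    [Module.Finite 𝒪 M'] (ψ : R →+* R') [IsLocalHom ψ] (T : Subring R)
    (hT : ∀ f n, ∃ t ∈ T, f - t ∈ maximalIdeal R ^ n)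
    (i : M →ₗ[𝒪] M') (hi : ∀ t ∈ T, ∀ x, i (t • x) = ψ t • i x) (f : R) (x : M) :
    i (f • x) = ψ f • i x := by
  rw [← sub_eq_zero]
  have hH : IsHausdorff (maximalIdeal 𝒪) M' :=
    IsHausdorff.of_le_jacobson _ _ (IsLocalRing.maximalIdeal_le_jacobson _)
  refine hH.haus _ fun j => ?_
  rw [SModEq.zero]
  obtain ⟨k, hk⟩ := exists_pow_smul_mem (𝒪 := 𝒪) (R := R) (M := M) j
  obtain ⟨k', hk'⟩ := exists_pow_smul_mem (𝒪 := 𝒪) (R := R') (M := M') j
  obtain ⟨t, ht, hft⟩ := hT f (k + k')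
  have h1 : i (f • x) - ψ f • i x = i ((f - t) • x) - ψ (f - t) • i x := by
    rw [sub_smul, map_sub, hi t ht, map_sub, sub_smul]
    abel
  rw [h1]
  refine Submodule.sub_mem _ ?_ ?_
  · have h2 := hk (f - t) (Ideal.pow_le_pow_right (by omega) hft) x
    have h3 : ((maximalIdeal 𝒪) ^ j • ⊤ : Submodule 𝒪 M).map i ≤ (maximalIdeal 𝒪) ^ j • ⊤ := by
      rw [Submodule.map_smul'']
      exact Submodule.smul_mono le_rfl le_top
    exact h3 (Submodule.mem_map_of_mem h2)
  · refine hk' _ ?_ _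
    have h4 : (maximalIdeal R ^ (k + k')).map ψ ≤ maximalIdeal R' ^ k' := by
      rw [Ideal.map_pow]
      refine (Ideal.pow_right_mono ?_ _).trans (Ideal.pow_le_pow_right (by omega))
      exact ((IsLocalRing.local_hom_TFAE ψ).out 0 2).1 ‹_›
    exact h4 (Ideal.mem_map_of_mem ψ hft)

end Module

section Act

variable {𝒪 : Type} [CommRing 𝒪] [IsDomain 𝒪] [IsDiscreteValuationRing 𝒪]
  [IsAdicComplete (maximalIdeal 𝒪) 𝒪] [Finite (ResidueField 𝒪)]
  {ρbar : ResidualGaloisRep (ResidueField 𝒪)}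
  {𝒟 : ∀ ⦃A : Type⦄ [CommRing A] [IsLocalRing A] [Algebra 𝒪 A], GaloisRepAdic A → Prop}

omit [Finite (ResidueField 𝒪)] [IsAdicComplete (maximalIdeal 𝒪) 𝒪] in
/-- **Uniqueness of actions**: an `𝒪`-linear map which commutes with the traces of the Frobenius
elements commutes with all elements of the deformation ring. -/
theorem act_comm [Finite (ResidueField 𝒪)] [IsAdicComplete (maximalIdeal 𝒪) 𝒪]
    (D : DeformationRingData 𝒪 ρbar 𝒟) {κ : 𝒪} (hκ : 2 * κ = 1)
    (hodd : ρbar.IsOdd) (hdet : ∀ g, LinearMap.det (D.ρ.ρ g) ∈ Set.range (algebraMap 𝒪 D.R))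
    (hstab : letI := dualAlg 𝒪
      ∀ (φ : D.R →ₐ[𝒪] DualNumber (ResidueField 𝒪))
        (hφ : IsLocalHom (φ : D.R →+* DualNumber (ResidueField 𝒪))),
        𝒟 (D.ρ.baseChangeAlong (φ : D.R →+* DualNumber (ResidueField 𝒪)) hφ))
    (S : Set ℕ) (hS : S.Finite)
    {R' : Type*} [CommRing R'] [IsLocalRing R'] [Algebra 𝒪 R']
    (ψ : D.R →ₐ[𝒪] R') (hψ : IsLocalHom (ψ : D.R →+* R'))
    {M M' : Type*} [AddCommGroup M] [Module 𝒪 M] [Module.Finite 𝒪 M]
    [AddCommGroup M'] [Module 𝒪 M'] [Module.Finite 𝒪 M']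
    (act : D.R →ₐ[𝒪] Module.End 𝒪 M) (act' : R' →ₐ[𝒪] Module.End 𝒪 M') (i : M →ₗ[𝒪] M')
    (hi : ∀ ℓ : ℕ, ℓ.Prime → ℓ ∉ S → ∀ A : ValuationSubring (AlgebraicClosure ℚ),
      A.LiesOverPrime ℓ → ∀ σ : GQ', A.IsFrobeniusAt σ ℓ →
        ∀ x, i (act (D.ρ.trace σ) x) = act' (ψ (D.ρ.trace σ)) (i x)) (f : D.R) (x : M) :
    i (act f x) = act' (ψ f) (i x) := by
  letI m1 : Module D.R M := Module.compHom M (act : D.R →+* Module.End 𝒪 M)
  letI m2 : Module R' M' := Module.compHom M' (act' : R' →+* Module.End 𝒪 M')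
  haveI s1 : IsScalarTower 𝒪 D.R M := ⟨fun a b x => by
    change act (a • b) x = a • act b x
    rw [map_smul, LinearMap.smul_apply]⟩
  haveI s2 : IsScalarTower 𝒪 R' M' := ⟨fun a b x => by
    change act' (a • b) x = a • act' b x
    rw [map_smul, LinearMap.smul_apply]⟩
  haveI := hψ
  refine map_smul_of_dense (𝒪 := 𝒪) (ψ : D.R →+* R') (trAlg 𝒪 D.ρ S).toSubring
    (fun f n => exists_traceGen D hκ hodd hdet hstab S hS f n) i ?_ f x
  intro t ht
  change ∀ x, i (act t x) = act' (ψ t) (i x)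
  have ht' : t ∈ Algebra.adjoin 𝒪 {a | ∃ ℓ : ℕ, ℓ.Prime ∧ ℓ ∉ S ∧
    ∃ A : ValuationSubring (AlgebraicClosure ℚ),
    A.LiesOverPrime ℓ ∧ ∃ σ : GQ', A.IsFrobeniusAt σ ℓ ∧ a = D.ρ.trace σ} := ht
  clear ht
  induction ht' using Algebra.adjoin_induction with
  | mem t ht1 =>
    obtain ⟨ℓ, hℓ, hℓS, A, hA, σ, hσ, rfl⟩ := ht1
    exact hi ℓ hℓ hℓS A hA σ hσ
  | algebraMap c =>
    intro x
    rw [AlgHom.commutes, AlgHom.commutes, AlgHom.commutes, Module.algebraMap_end_apply,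
      Module.algebraMap_end_apply, map_smul]
  | add s t hs ht h1 h2 =>
    intro x
    rw [map_add, map_add, map_add, LinearMap.add_apply, LinearMap.add_apply, map_add, h1, h2]
  | mul s t hs ht h1 h2 =>
    intro x
    rw [map_mul, map_mul, map_mul, Module.End.mul_apply, Module.End.mul_apply, h1, h2]

end Act

end Fermat.Agent.S59aux
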