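import Fermat.Agent.Star.LocalInst
import Fermat.Agent.Star.InstTame
import Fermat.Agent.FlatP.EllGood
import Fermat.Agent.ECFrob.DetCyc

/-!
# The local input of level lowering at `p`: from `E[p]` to a wild or tame subgroup of inertia
-/

set_option autoImplicit false
set_option linter.unusedSectionVars false
set_option linter.style.haveILetI false

noncomputable section

open ModularCurve HahnSeries AlgebraicCurve Module
open Fermat.Agent.GaussVal Fermat.Agent.TwoGauss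
open WeierstrassCurve WeierstrassCurve.Affine WeierstrassCurve.Affine.Point
open Fermat.Agent.ECFrob Fermat.Agent.ECRed FermatAgent.ECVal
open scoped Fermat.Agent.GaussVal

namespace Fermat.Agent.LowP

local notation "𝕂" => AlgebraicClosure ℚ

section

variable {W : WeierstrassCurve ℤ} {p : ℕ} [hpf : Fact p.Prime]

/-- the conclusion of the ordinary (or peu ramifiée) local analysis at `p` -/
def LineAt (W : WeierstrassCurve ℤ) (p : ℕ) [Fact p.Prime] (A : ValuationSubring 𝕂) (ζ : 𝕂) :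
    Prop :=
  ∃ L : Submodule (ZMod p)
      (Submodule.torsionBy ℤ ((W.map (Int.castRingHom ℚ))⁄(AlgebraicClosure ℚ)).Point p),
    Module.finrank (ZMod p) L = 1 ∧
    (∀ σ ∈ A.inertiaSubgroupIn ℚ,
      ∀ x : Submodule.torsionBy ℤ ((W.map (Int.castRingHom ℚ))⁄(AlgebraicClosure ℚ)).Point p,
        σ • x - x ∈ L) ∧
    (∀ σ ∈ A.inertiaSubgroupIn ℚ, ∀ z ∈ L, σ • z = ECFrob.cycMod p σ • z) ∧
    (∀ z ∈ L, z ≠ 0 → ∀ x : Submodule.torsionBy ℤ
        ((W.map (Int.castRingHom ℚ))⁄(AlgebraicClosure ℚ)).Point p,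
      ∃ ρ : 𝕂, A.valuation ρ = 1 ∧ ρ ≠ 0 ∧
        (∀ σ ∈ A.inertiaSubgroupIn ℚ, σ (ρ ^ p) = ρ ^ p) ∧
        ∀ σ ∈ A.inertiaSubgroupIn ℚ, ∃ k : ZMod p,
          σ • x = x + k • z ∧ σ ρ = ζ ^ k.val * ρ)

theorem rho_eq_one_of {σ : 𝕂 ≃ₐ[ℚ] 𝕂}
    (h : ∀ x : Submodule.torsionBy ℤ
      ((W.map (Int.castRingHom ℚ))⁄(AlgebraicClosure ℚ)).Point p, σ • x = x) :
    rho W p σ = 1 := by
  refine LinearMap.ext fun P => ?_
  rw [galoisRepModuleEnd_apply, Module.End.one_apply]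
  exact h P

/-- In the line case, `E[p]` is trivialised over `ζ` and the radical of a unit. -/
theorem exists_radical (hΔ : W.Δ ≠ 0) {A : ValuationSubring 𝕂} {ζ : 𝕂}
    (hζ : IsPrimitiveRoot ζ p) (hL : LineAt W p A ζ) :
    ∃ ρ : 𝕂, A.valuation ρ = 1 ∧ (∀ σ ∈ A.inertiaSubgroupIn ℚ, σ (ρ ^ p) = ρ ^ p) ∧
      ∀ σ ∈ Star.Inst.inertiaStab A {ζ, ρ}, rho W p σ = 1 := by
  classical
  obtain ⟨L, h1, h2, h3, h4⟩ := hL
  haveI : Nontrivial L := Module.nontrivial_of_finrank_pos (R := ZMod p) (by rw [h1]; exact one_pos)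
  obtain ⟨z, hz0⟩ := exists_ne (0 : L)
  have hz0' : (z : Submodule.torsionBy ℤ
      ((W.map (Int.castRingHom ℚ))⁄(AlgebraicClosure ℚ)).Point p) ≠ 0 := by
    simpa using hz0
  haveI : Finite (Submodule.torsionBy ℤ
      ((W.map (Int.castRingHom ℚ))⁄(AlgebraicClosure ℚ)).Point p) :=
    finite_rat hΔ hpf.out.ne_zero
  haveI : FiniteDimensional (ZMod p) (Submodule.torsionBy ℤ
    ((W.map (Int.castRingHom ℚ))⁄(AlgebraicClosure ℚ)).Point p) := Module.Finite.of_finite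
  have hLt : L ≠ ⊤ := by
    intro h
    have h5 := finrank_rat hΔ (p := p)
    rw [← finrank_top, ← h, h1] at h5
    omega
  obtain ⟨x, hx⟩ : ∃ x, x ∉ L := by
    by_contra hcon
    push Not at hcon
    exact hLt (Submodule.eq_top_iff'.2 hcon)
  obtain ⟨ρ, hv, hρ0, hfix, hk⟩ := h4 z z.2 hz0' x
  refine ⟨ρ, hv, hfix, fun σ hσ => ?_⟩
  obtain ⟨hσI, hσ2⟩ := hσ
  have hσζ : σ ζ = ζ := hσ2 ζ (by simp)
  have hσρ : σ ρ = ρ := hσ2 ρ (by simp)
  have hc1 : cycMod p σ = 1 := by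
    have := cycMod_unique hζ (σ := σ) (c := 1) (by rw [hσζ, pow_one])
    rw [this, Nat.cast_one]
  obtain ⟨k, hk1, hk2⟩ := hk σ hσI
  have hk0 : k = 0 := by
    rw [hσρ] at hk2
    have h5 : ζ ^ k.val = 1 := by
      have h6 : ζ ^ k.val * ρ = 1 * ρ := by rw [← hk2, one_mul]
      exact mul_right_cancel₀ hρ0 h6
    have h6 := hζ.dvd_of_pow_eq_one _ h5
    have h7 : k.val = 0 := Nat.eq_zero_of_dvd_of_lt h6 (ZMod.val_lt k)
    exact (ZMod.val_eq_zero k).1 h7
  have hσx : σ • x = x := by rw [hk1, hk0, zero_smul, add_zero]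
  have hσz : ∀ y ∈ L, σ • y = y := fun y hy => by rw [h3 σ hσI y hy, hc1, one_smul]
  -- `x` and `L` span
  have hspan : L ⊔ Submodule.span (ZMod p) {x} = ⊤ := by
    have hlt : L < L ⊔ Submodule.span (ZMod p) {x} := by
      refine lt_of_le_of_ne le_sup_left fun h => hx ?_
      rw [h]
      exact (le_sup_right : Submodule.span (ZMod p) {x} ≤ _) (Submodule.mem_span_singleton_self x)
    refine Submodule.eq_top_of_finrank_eq ?_
    have h5 := Submodule.finrank_lt_finrank_of_lt hlt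
    have h6 := Submodule.finrank_le (L ⊔ Submodule.span (ZMod p) {x})
    rw [finrank_rat hΔ] at h6 ⊢
    omega
  refine LinearMap.ext fun P => ?_
  have hP : P ∈ L ⊔ Submodule.span (ZMod p) {x} := by rw [hspan]; exact Submodule.mem_top
  obtain ⟨y, hy, w, hw, rfl⟩ := Submodule.mem_sup.1 hP
  obtain ⟨c, rfl⟩ := Submodule.mem_span_singleton.1 hw
  rw [map_add, map_smul, galoisRepModuleEnd_apply, galoisRepModuleEnd_apply,
    Module.End.one_apply, hσz y hy, hσx]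

end

section

variable {A : ValuationSubring (AlgebraicClosure ℚ)} {p m : ℕ} [NeZero m]
  [hpf : Fact p.Prime] [CharP (IsLocalRing.ResidueField A) p]
  (hp : p.Prime) (hm : ¬ p ∣ m) (hA : A.LiesOverPrime p)
  (H3 : S18aux.DegThm (IsLocalRing.ResidueField A) m)

/-- what the level lowering argument needs: a subgroup of inertia acting trivially on `E[p]`, wild
or tame. -/
def WT (W : WeierstrassCurve ℤ) : Prop :=
  ∃ H : Subgroup (𝕂 ≃ₐ[ℚ] 𝕂), H ≤ A.inertiaSubgroupIn ℚ ∧ (∀ σ ∈ H, rho W p σ = 1) ∧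
    (Nonempty (Star.Model.Wild (Star.Inst.model hp hm hA H3)
        (H.map (arithmeticGalois (modularFunctionFieldFull (m * p))))) ∨
      Nonempty (Star.Model.Tame (Star.Inst.model hp hm hA H3)
        (H.map (arithmeticGalois (modularFunctionFieldFull (m * p))))))

/-- the line case -/
theorem wt_of_line {W : WeierstrassCurve ℤ} (hp2 : p ≠ 2) (hΔ : W.Δ ≠ 0) {ζ : 𝕂}
    (hζ : IsPrimitiveRoot ζ p) (hL : LineAt W p A ζ) : WT hp hm hA H3 W := by
  obtain ⟨ρ, hv, hfix, hH⟩ := exists_radical hΔ hζ hL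
  exact ⟨Star.Inst.inertiaStab A {ζ, ρ}, fun σ hσ => hσ.1, hH,
    Star.Inst.wild_or_tame hp hm hA H3 hp2 hζ hv hfix⟩

/-- the subgroup of inertia acting trivially on `E[p]` -/
def triv (W : WeierstrassCurve ℤ) (p : ℕ) (A : ValuationSubring 𝕂) :
    Subgroup (𝕂 ≃ₐ[ℚ] 𝕂) :=
  A.inertiaSubgroupIn ℚ ⊓ (rho W p).ker

/-- the case of good reduction -/
theorem wt_of_good {W : WeierstrassCurve ℤ} (hp2 : p ≠ 2) (hgood : W.IsGoodPrimeFor p) :
    WT hp hm hA H3 W := by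
  have hΔ : W.Δ ≠ 0 := Fermat.Agent.ECFlat.Δ_ne_zero_of_good hgood
  obtain ⟨ζ, hζ⟩ := exists_primitiveRoot p
  rcases FlatP.good_local hp2 hgood hA hζ with hL | hss
  · exact wt_of_line hp hm hA H3 hp2 hΔ hζ hL
  · have h1 : 0 < p ^ 2 - 1 := by
      have := Nat.pow_lt_pow_left hp.one_lt two_ne_zero
      omega
    obtain ⟨π, hπ⟩ := IsAlgClosed.exists_pow_nat_eq (p : 𝕂) h1
    obtain ⟨-, h2⟩ := hss π hπ
    have hco : Nat.Coprime p (p ^ 2 - 1) := by
      rw [hp.coprime_iff_not_dvd]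
      intro h
      have h3 : p ∣ p ^ 2 := dvd_pow_self p two_ne_zero
      have h4 : p ∣ 1 := by
        have := Nat.dvd_sub h3 h
        have h5 : p ^ 2 - (p ^ 2 - 1) = 1 := by omega
        rwa [h5] at this
      exact hp.one_lt.ne' (Nat.dvd_one.1 h4)
    refine ⟨triv W p A, inf_le_left, fun σ hσ => hσ.2, Or.inr ⟨?_⟩⟩
    refine Star.Inst.tame hp hm hA H3 (triv W p A) inf_le_left (p ^ 2 - 1) h1.ne' hco ?_
    intro a ha hfix
    refine h2 a ha fun σ hσ hx => hfix σ ⟨hσ, rho_eq_one_of hx⟩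

end

end Fermat.Agent.LowP

end
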