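import Fermat.Agent.S58.Reduction
import Fermat.Agent.S35_CharEigen
import Fermat.Agent.S44w.Dichotomy

/-!
# Modularity from relations in the Hecke algebra

If every polynomial relation between the `T_ℓ` (`ℓ ∉ S`) on `S₂(Γ₀(N))` holds for the numbers
`a_ℓ(W)`, then `W` is modular of level `N`.
-/

set_option autoImplicit false
set_option linter.style.haveILetI false

noncomputable section

open CuspForm ModularFormClass Fermat.Agent.GalRep FermatAgent.HeckeEigen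

namespace Fermat.Agent.S59aux

open Fermat.Agent.S44w Fermat.Agent.S58aux

/-- The eigenform attached to a system of integers satisfying all the relations of the Hecke
algebra. -/
theorem exists_eigenform_of_relations {N : ℕ} [NeZero N] (S : Finset ℕ) (a : ℕ → ℤ)
    (h : ∀ t : HeckeAlgS (↑S : Set ℕ), evS N (↑S : Set ℕ) t = 0 → thetaZ S a t = 0) :
    ∃ f : CuspForm (CongruenceSubgroup.Gamma0 N) 2, f.IsNormalizedEigenform ∧
      ∀ ℓ : ℕ, ℓ.Prime → ℓ ∉ S → qCoeff f ℓ = (a ℓ : ℂ) := by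
  classical
  let e : heckeAlgebra N 2 (↑S : Set ℕ) →+* ℤ :=
    (RingHom.liftOfSurjective (evS N (↑S : Set ℕ)).toRingHom
      (S35aux.evS_surjective N (↑S : Set ℕ)) ⟨thetaZ S a, fun t ht => h t ht⟩)
  have he : ∀ t, e (evS N (↑S : Set ℕ) t) = thetaZ S a t := fun t =>
    RingHom.liftOfRightInverse_comp_apply _ _ _ _ t
  obtain ⟨v, hv0, hv⟩ := S35aux.exists_cuspForm_of_char N (↑S : Set ℕ)
    ((Int.castRingHom ℂ).comp e)
  obtain ⟨f, hf, hfℓ⟩ := Oldforms.exists_eigenform_of_joint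
    {ℓ : Nat.Primes | (ℓ : ℕ) ∉ (↑S : Set ℕ)} (fun ℓ => ((a (ℓ : ℕ) : ℤ) : ℂ)) v hv0
    (fun ℓ hℓ => by
      have hℓ' : (ℓ : ℕ) ∉ (↑S : Set ℕ) := hℓ
      have h1 : ((Int.castRingHom ℂ).comp e) (genS N (↑S : Set ℕ) ⟨ℓ, hℓ'⟩) =
          ((a (ℓ : ℕ) : ℤ) : ℂ) := by
        have h2 := he (MvPolynomial.X ⟨ℓ, hℓ'⟩)
        rw [evS, MvPolynomial.aeval_X, thetaZ_X] at h2
        rw [RingHom.comp_apply, h2]
        rfl
      show heckeOp N 2 ℓ v = ((a (ℓ : ℕ) : ℤ) : ℂ) • v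
      rw [← h1, ← hv]
      congr 1
      rw [genS]
      by_cases h : (ℓ : ℕ) ∣ N
      · rw [heckeOp_of_dvd h]; simp only [h, dite_true]; rfl
      · rw [heckeOp_of_not_dvd h]; simp only [h, dite_false]; rfl)
  exact ⟨f, hf, fun ℓ hℓ hℓS => hfℓ ⟨ℓ, hℓ⟩ (by
    show (ℓ : ℕ) ∉ (↑S : Set ℕ)
    simpa using hℓS)⟩

/-- **Modularity from the relations of the Hecke algebra.** -/
theorem modular_of_relations (h35 : Stmt35) {W : WeierstrassCurve ℤ} (hΔ : W.Δ ≠ 0) {N : ℕ}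
    [NeZero N] (S : Finset ℕ)
    (h : ∀ t : HeckeAlgS (↑S : Set ℕ), evS N (↑S : Set ℕ) t = 0 →
      thetaZ S (fun ℓ => W.apOfModel ℓ) t = 0) :
    W.IsModularModelOfLevel N := by
  obtain ⟨f, hf, hfW⟩ := exists_eigenform_of_relations S _ h
  have hN0 : N ≠ 0 := NeZero.ne N
  obtain ⟨M, hMN, hM0, g, hg, hgf⟩ :=
    Fermat.Agent.Oldforms.exists_newform (Nat.pos_of_ne_zero hN0) f hf
  haveI : NeZero M := ⟨hM0.ne'⟩
  have hS₀ : ((N.primeFactors ∪ S : Finset ℕ) : Set ℕ).Finite := Finset.finite_toSet _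
  have hgW : ∀ ℓ : ℕ, ℓ.Prime → ℓ ∉ ((N.primeFactors ∪ S : Finset ℕ) : Set ℕ) →
      W.IsGoodPrimeFor ℓ → qCoeff ⇑g ℓ = ((W.apOfModel ℓ : ℤ) : ℂ) := by
    intro ℓ hℓ hℓN _
    rw [Finset.mem_coe, Finset.mem_union, not_or] at hℓN
    have h1 : ¬ ℓ ∣ N := fun h => hℓN.1 (Nat.mem_primeFactors.mpr ⟨hℓ, h, hN0⟩)
    rw [hgf ℓ hℓ h1, hfW ℓ hℓ hℓN.2]
  obtain ⟨hcoeff, -⟩ := coeff_eq_and_bad hΔ hg _ hS₀ hgW h35
  obtain ⟨f', hf', hf'g⟩ := Fermat.Agent.Oldforms.exists_eigenform_raise hMN g hg.1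
  refine ⟨f', hf', fun ℓ hℓ hgood hℓN => ?_⟩
  rw [hf'g ℓ hℓ (fun h => absurd h hℓN)]
  exact hcoeff ℓ hℓ (fun h => hℓN (h.trans hMN)) hgood

end Fermat.Agent.S59aux

end
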