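import Fermat.Agent.S59.Top

/-!
# The top level assembly without level lowering at `p`

If `p ∤ M₀` whenever `W` is good at `p`, modularity lifting from the squarefree residual level
`M₀` does not need `LowerAtP`.
-/

set_option autoImplicit false
set_option linter.unusedVariables false

noncomputable section

open WeierstrassCurve ModularFormClass
open scoped WeierstrassCurve.Affine

namespace Fermat.Agent.S59aux

open Fermat.Agent.Tate Fermat.Agent.S58aux Fermat.Agent.ECFrob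

/-- The minimal level, `p ∤ M₁` if `W` is good at `p`. -/
theorem exists_minimal_level_good (h1 : LowerUnr) {p : ℕ}
    (hp : p = 3 ∨ p = 5) {W : WeierstrassCurve ℤ}
    (hΔ : W.Δ ≠ 0) (hW : W.IsSemistableModel) (hirr : W.ModRepIsIrreducible p) {r : ℕ}
    (hr : AuxPrime W p r) {M₁ : ℕ} (hsq₁ : Squarefree M₁) (hrM₁ : r ∣ M₁)
    (hpM₁ : p ∣ M₁ → ¬ W.IsGoodPrimeFor p)
    (hres₁ : W.IsResiduallyModularOfLevel p M₁) :
    ∃ N₀, Squarefree N₀ ∧ r ∣ N₀ ∧ N₀ ∣ r * W.conductorLevel ∧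
      (∀ q : ℕ, q.Prime → q ∣ N₀ → q = r ∨ q = p ∨ ¬ UnrAt W p q) ∧
      W.IsResiduallyModularOfLevel p N₀ := by
  have hpp : p.Prime := by rcases hp with rfl | rfl <;> norm_num
  obtain ⟨N₀, hN₀, hsq, hrN, hres', hram⟩ :=
    stage2 h1 hp hΔ hW hirr hr M₁ M₁ le_rfl hsq₁ hrM₁ hres₁
  have hpgood : p ∣ N₀ → ¬ W.IsGoodPrimeFor p := fun h => hpM₁ (h.trans hN₀)
  refine ⟨N₀, hsq, hrN, ?_, hram, hres'⟩
  rw [← Nat.prod_primeFactors_of_squarefree hsq]
  refine Finset.prod_primes_dvd _ (fun q hq => (Nat.prime_of_mem_primeFactors hq).prime) ?_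
  intro q hq
  have hq1 := Nat.prime_of_mem_primeFactors hq
  have hq2 := Nat.dvd_of_mem_primeFactors hq
  by_cases hqr : q = r
  · rw [hqr]; exact dvd_mul_right _ _
  refine dvd_mul_of_dvd_right ?_ _
  rw [WeierstrassCurve.prime_dvd_conductorLevel_iff W hΔ hq1]
  by_contra hgood
  rcases hram q hq1 hq2 with h | h | h
  · exact hqr h
  · subst h; exact hpgood hq2 hgood
  · by_cases hqp : q = p
    · subst hqp; exact hpgood hq2 hgood
    · exact h (unrAt_of_good hpp hq1 hqp hgood)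

/-- From a squarefree level divisible by an auxiliary prime. -/
theorem core_good (h35 : Stmt35) (h36 : Stmt36) (h1 : LowerUnr) (hclimb : Climb)
    {p : ℕ} (hp : p = 3 ∨ p = 5)
    {W : WeierstrassCurve ℤ} (hΔ : W.Δ ≠ 0) (hW : W.IsSemistableModel)
    (hirr : W.ModRepIsIrreducible p) {r : ℕ} (hr : AuxPrime W p r)
    {M₁ : ℕ} (hsq₁ : Squarefree M₁) (hrM₁ : r ∣ M₁)
    (hpM₁ : p ∣ M₁ → ¬ W.IsGoodPrimeFor p) (hres₁ : W.IsResiduallyModularOfLevel p M₁) :
    Mlc1IsModularModelOfExactConductorLevel W := by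
  have hpp : p.Prime := by rcases hp with rfl | rfl <;> norm_num
  haveI : Fact p.Prime := ⟨hpp⟩
  have hp2 : p ≠ 2 := by rcases hp with rfl | rfl <;> norm_num
  obtain ⟨N₀, hsq, hrN, hN₀, hram, hres⟩ :=
    exists_minimal_level_good h1 hp hΔ hW hirr hr hsq₁ hrM₁ hpM₁ hres₁
  have hmod := hclimb p hp W hΔ hW hirr r N₀ hr hsq hrN hN₀ hram hres
  -- the level `r * conductorLevel` is squarefree
  have hrc : ¬ r ∣ W.conductorLevel := fun h =>
    hr.good ((WeierstrassCurve.prime_dvd_conductorLevel_iff W hΔ hr.prime).mp h)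
  have hsqN : Squarefree (r * W.conductorLevel) := by
    rw [Nat.squarefree_mul ((Nat.Prime.coprime_iff_not_dvd hr.prime).mpr hrc)]
    exact ⟨hr.prime.squarefree, W.squarefree_conductorLevel⟩
  have hno : ∀ q : ℕ, q.Prime → ¬ q ^ 2 ∣ r * W.conductorLevel := by
    intro q hq h
    rw [sq] at h
    exact hq.one_lt.ne' (Nat.isUnit_iff.mp (hsqN q h))
  have hfin : W.IsModularModelOfLevel W.conductorLevel :=
    stmt58_of h35 h36 W (r * W.conductorLevel) p hp2
      (fun hΔ => tateRep_residual_isAbsolutelyIrreducible _ p hp2 hirr)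
      (fun hΔ => tateRep_residual_isOdd _ p hp2)
      (fun hΔ q hq hqp => tateRep_unipotent_of_semistable _ p hW hp2 hq hqp)
      (hno p hpp) hmod
      (fun ℓ hℓ h => dvd_mul_of_dvd_right
        ((WeierstrassCurve.prime_dvd_conductorLevel_iff W hΔ hℓ).mpr h) _)
      (fun q hq h => hno q hq ((pow_dvd_pow q (by norm_num)).trans h))
  exact ⟨W.conductorLevel, W.conductorLevel_pos, W.squarefree_conductorLevel,
    fun q hq => WeierstrassCurve.prime_dvd_conductorLevel_iff W hΔ hq, hfin⟩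

/-- **Modularity lifting from a squarefree level which is prime to `p` if `W` is good at `p`**
(neither (E0) nor (E2)). -/
theorem liftSfP_of (h35 : Stmt35) (h36 : Stmt36) (haux : AuxExists) (h1 : LowerUnr)
    (hclimb : Climb)
    (p : ℕ) (hp : p = 3 ∨ p = 5)
    (W : WeierstrassCurve ℤ) (hΔ : W.Δ ≠ 0) (hW : W.IsSemistableModel)
    (hirr : W.ModRepIsIrreducible p)
    (M₀ : ℕ) (hsq : Squarefree M₀) (hpM₀ : p ∣ M₀ → ¬ W.IsGoodPrimeFor p)
    (hres₀ : W.IsResiduallyModularOfLevel p M₀) :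
    Mlc1IsModularModelOfExactConductorLevel W := by
  have hM0 : M₀ ≠ 0 := hsq.ne_zero
  have hpp : p.Prime := by rcases hp with rfl | rfl <;> norm_num
  obtain ⟨r, hrS, hr⟩ := haux p hp W hΔ hW hirr M₀.primeFactors
  have hrM₀ : ¬ r ∣ M₀ := fun h => hrS (Nat.mem_primeFactors.mpr ⟨hr.prime, h, hM0⟩)
  refine core_good h35 h36 h1 hclimb hp hΔ hW hirr hr (M₁ := M₀ * r) ?_ (dvd_mul_left _ _) ?_
    (resMod_raise (Nat.mul_pos (Nat.pos_of_ne_zero hM0) hr.prime.pos) (dvd_mul_right _ _) hres₀)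
  · rw [mul_comm, Nat.squarefree_mul ((Nat.Prime.coprime_iff_not_dvd hr.prime).mpr hrM₀)]
    exact ⟨hr.prime.squarefree, hsq⟩
  · intro h
    refine hpM₀ ((hpp.dvd_mul.mp h).resolve_right fun h' => ?_)
    exact hr.ne ((Nat.prime_dvd_prime_iff_eq hpp hr.prime).mp h').symm

end Fermat.Agent.S59aux

end
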