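import Fermat.Agent.S59.Inputs
import Fermat.Agent.S59.LowPAll
import Fermat.Agent.S59.Flat
import Fermat.Agent.S59.Strict
import Fermat.Agent.Ribet.LowerUnrMain
import Fermat.Agent.Top.Defs

/-!
# Modularity lifting at `p = 3, 5` from a squarefree residual level
-/

set_option autoImplicit false

noncomputable section

namespace Fermat.Agent.S59aux

/-- **Modularity lifting at `p = 3, 5` from a squarefree residual level**, unconditional. -/
theorem liftSf : Top.LiftSf :=
  fun p hp W hΔ hW hirr M₀ hsq hres₀ =>
    liftSf_of_open Ribet.lowerUnr LowP.lowerAtP climbFlat climbStrict p hp W hΔ hW hirr M₀ hsq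
      hres₀

end Fermat.Agent.S59aux

end
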