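import Fermat.Agent.S59.SidesMain
import Fermat.Agent.S59.Frob

set_option autoImplicit false

/-!
# Actions of deformation rings: reduction to Frobenius elements
-/

noncomputable section

namespace Fermat.Agent.Sides

open IsLocalRing GaloisRep
open Fermat.Agent.RT (gr aug nOp nrm)
open Fermat.Agent.RTD
open Fermat.Agent.S53norm (GQ M2 HasMat dualAlg)
open Fermat.Agent.LocRing (LocData LamT Ka IT trT SgT locK)
open Fermat.Agent.S30aux (cycO cn cn_spec cycO_sub_mem)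

section Det

variable {𝒪 : Type} [CommRing 𝒪] [IsDomain 𝒪] [IsDiscreteValuationRing 𝒪]
  [IsAdicComplete (maximalIdeal 𝒪) 𝒪] {p : ℕ} [Fact p.Prime]

/-- The determinant is the cyclotomic character. -/
theorem det_eq_cycO (hp𝒪 : (p : 𝒪) ∈ maximalIdeal 𝒪) {R : Type} [CommRing R] [IsLocalRing R]
    [IsNoetherianRing R] [Algebra 𝒪 R] [IsLocalHom (algebraMap 𝒪 R)] {ρ : GaloisRepAdic R}
    (h : ρ.DetIsCyclotomic p) (g : GQ) :
    LinearMap.det (ρ.ρ g) = algebraMap 𝒪 R (cycO hp𝒪 g : 𝒪ˣ) := by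
  rw [← sub_eq_zero]
  have hH : IsHausdorff (maximalIdeal R) R :=
    IsHausdorff.of_le_jacobson _ _ (IsLocalRing.maximalIdeal_le_jacobson _)
  refine hH.haus _ fun m => ?_
  rw [SModEq.zero, smul_eq_mul, Ideal.mul_top]
  have h1 : LinearMap.det (ρ.ρ g) - ((cn p m g : ℕ) : R) ∈ maximalIdeal R ^ m := by
    have h2 := h.2 m g (cn p m g) (cn_spec p m g)
    have h3 : Ideal.span {((p ^ m : ℕ) : R)} ≤ maximalIdeal R ^ m := by
      rw [Ideal.span_singleton_le_iff_mem, Nat.cast_pow]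
      exact Ideal.pow_mem_pow h.1 m
    exact h3 h2
  have h4 : algebraMap 𝒪 R (cycO hp𝒪 g : 𝒪ˣ) - ((cn p m g : ℕ) : R) ∈ maximalIdeal R ^ m := by
    have h5 := Ideal.mem_map_of_mem (algebraMap 𝒪 R) (cycO_sub_mem hp𝒪 m g)
    rw [map_sub, map_natCast] at h5
    refine (?_ : (maximalIdeal 𝒪 ^ m).map (algebraMap 𝒪 R) ≤ maximalIdeal R ^ m) h5
    rw [Ideal.map_pow]
    refine Ideal.pow_right_mono ?_ _
    exact ((IsLocalRing.local_hom_TFAE (algebraMap 𝒪 R)).out 0 2).1 ‹_›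
  have h6 := Ideal.sub_mem _ h1 h4
  rwa [sub_sub_sub_cancel_right] at h6

end Det

variable {𝒪 : Type} [CommRing 𝒪] [IsDomain 𝒪] [IsDiscreteValuationRing 𝒪]
  [IsAdicComplete (maximalIdeal 𝒪) 𝒪] [Finite (ResidueField 𝒪)] {p : ℕ} {𝓢 : Setup 𝒪 p}
  {L : PCond}

/-- A map commuting with the traces of Frobenius elements commutes with the deformation ring. -/
theorem comm_of_frob {Q : Finset ℕ} (D : DeformationRingData 𝒪 𝓢.ρbar (𝓢.type L Q))
    (hL : GoodCond L (ResidueField 𝒪)) (hodd : 𝓢.ρbar.IsOdd) (S' : Set ℕ) (hS' : S'.Finite)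
    {R' : Type} [CommRing R'] [IsLocalRing R'] [Algebra 𝒪 R'] (ψ : D.R →ₐ[𝒪] R')
    (hψ : IsLocalHom (ψ : D.R →+* R'))
    {Λ Λ' : Type} [CommRing Λ] [Algebra 𝒪 Λ] [Module.Finite 𝒪 Λ] [CommRing Λ'] [Algebra 𝒪 Λ']
    [Module.Finite 𝒪 Λ'] {M M' : Type} [AddCommGroup M] [Module Λ M] [hM : Module.Finite Λ M]
    [AddCommGroup M'] [Module Λ' M'] [hM' : Module.Finite Λ' M']
    (act : D.R →+* Module.End Λ M)
    (hC : ∀ (c : 𝒪) x, act (algebraMap 𝒪 D.R c) x = algebraMap 𝒪 Λ c • x)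
    (act' : R' →+* Module.End Λ' M')
    (hC' : ∀ (c : 𝒪) x, act' (algebraMap 𝒪 R' c) x = algebraMap 𝒪 Λ' c • x)
    (i : M →+ M') (hi : ∀ (c : 𝒪) x, i (algebraMap 𝒪 Λ c • x) = algebraMap 𝒪 Λ' c • i x)
    (hF : ∀ ℓ : ℕ, ℓ.Prime → ℓ ∉ S' → ∀ A : ValuationSubring (AlgebraicClosure ℚ),
      A.LiesOverPrime ℓ → ∀ σ : GQ, A.IsFrobeniusAt σ ℓ →
        ∀ x, i (act (LinearMap.trace _ _ (D.ρ.ρ σ)) x) =
          act' (ψ (LinearMap.trace _ _ (D.ρ.ρ σ))) (i x)) (f : D.R) (x : M) :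
    i (act f x) = act' (ψ f) (i x) := by
  have hfact : Fact p.Prime := ⟨𝓢.hp⟩
  letI m1 : Module 𝒪 M := Module.compHom M (algebraMap 𝒪 Λ)
  letI m2 : Module 𝒪 M' := Module.compHom M' (algebraMap 𝒪 Λ')
  have s1 : IsScalarTower 𝒪 Λ M := ⟨fun a l x => by
    show (a • l) • x = algebraMap 𝒪 Λ a • (l • x)
    rw [Algebra.smul_def, mul_smul]⟩
  have s2 : IsScalarTower 𝒪 Λ' M' := ⟨fun a l x => by
    show (a • l) • x = algebraMap 𝒪 Λ' a • (l • x)
    rw [Algebra.smul_def, mul_smul]⟩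
  have f1 : Module.Finite 𝒪 M := Module.Finite.trans Λ M
  have f2 : Module.Finite 𝒪 M' := Module.Finite.trans Λ' M'
  let a1 : D.R →ₐ[𝒪] Module.End 𝒪 M :=
    { toFun := fun g =>
        { toFun := fun x => act g x
          map_add' := fun x y => map_add _ x y
          map_smul' := fun c x => by
            show act g (algebraMap 𝒪 Λ c • x) = algebraMap 𝒪 Λ c • act g x
            rw [map_smul] }
      map_one' := by
        refine LinearMap.ext fun x => ?_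
        show act 1 x = x
        rw [map_one]
        rfl
      map_mul' := fun a b => by
        refine LinearMap.ext fun x => ?_
        show act (a * b) x = act a (act b x)
        rw [map_mul]
        rfl
      map_zero' := by
        refine LinearMap.ext fun x => ?_
        show act 0 x = 0
        rw [map_zero]
        rfl
      map_add' := fun a b => by
        refine LinearMap.ext fun x => ?_
        show act (a + b) x = act a x + act b x
        rw [map_add]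
        rfl
      commutes' := fun c => by
        refine LinearMap.ext fun x => ?_
        exact hC c x }
  let a2 : R' →ₐ[𝒪] Module.End 𝒪 M' :=
    { toFun := fun g =>
        { toFun := fun x => act' g x
          map_add' := fun x y => map_add _ x y
          map_smul' := fun c x => by
            show act' g (algebraMap 𝒪 Λ' c • x) = algebraMap 𝒪 Λ' c • act' g x
            rw [map_smul] }
      map_one' := by
        refine LinearMap.ext fun x => ?_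
        show act' 1 x = x
        rw [map_one]
        rfl
      map_mul' := fun a b => by
        refine LinearMap.ext fun x => ?_
        show act' (a * b) x = act' a (act' b x)
        rw [map_mul]
        rfl
      map_zero' := by
        refine LinearMap.ext fun x => ?_
        show act' 0 x = 0
        rw [map_zero]
        rfl
      map_add' := fun a b => by
        refine LinearMap.ext fun x => ?_
        show act' (a + b) x = act' a x + act' b x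
        rw [map_add]
        rfl
      commutes' := fun c => by
        refine LinearMap.ext fun x => ?_
        exact hC' c x }
  let i' : M →ₗ[𝒪] M' :=
    { toFun := i
      map_add' := i.map_add
      map_smul' := fun c x => hi c x }
  obtain ⟨κ, hκ⟩ : ∃ κ : 𝒪, 2 * κ = 1 := by
    obtain ⟨κ, hκ⟩ := (𝓢.isUnit_natCast Nat.prime_two (Ne.symm 𝓢.hp2)).exists_right_inv
    exact ⟨κ, by exact_mod_cast hκ⟩
  have hstab : letI := dualAlg 𝒪
      ∀ (φ : D.R →ₐ[𝒪] DualNumber (ResidueField 𝒪))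
        (hφ : IsLocalHom (φ : D.R →+* DualNumber (ResidueField 𝒪))),
        𝓢.type L Q (D.ρ.baseChangeAlong (φ : D.R →+* DualNumber (ResidueField 𝒪)) hφ) := by
    letI := dualAlg 𝒪
    intro φ hφ
    exact 𝓢.type_baseChange hL D.isOfType (φ : D.R →+* DualNumber (ResidueField 𝒪)) hφ
  have key := S59aux.act_comm D hκ hodd
    (fun g => ⟨(cycO 𝓢.hp𝒪 g : 𝒪ˣ), (det_eq_cycO 𝓢.hp𝒪 D.isOfType.1.1 g).symm⟩)
    hstab
    S' hS' ψ hψ a1 a2 i' (fun ℓ hℓ hℓS A hA σ hσ x => hF ℓ hℓ hℓS A hA σ hσ x) f x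
  exact key

variable {S : Finset ℕ} {G : 𝓢.GalSide L S} {H : HeckeSide 𝒪 p G.qv 𝓢.pr S}

/-- The action of the deformation rings, on Frobenius elements. -/
structure FrobAct (G : 𝓢.GalSide L S) (H : HeckeSide 𝒪 p G.qv 𝓢.pr S) where
  act : ∀ s n, (G.Lv n).D.R →+* Module.End (MonoidAlgebra 𝒪 (Dia p (G.qv n))) (H.M s n)
  act_C : ∀ s n (c : 𝒪) x, act s n (algebraMap 𝒪 (G.Lv n).D.R c) x =
    algebraMap 𝒪 (MonoidAlgebra 𝒪 (Dia p (G.qv n))) c • x
  act_frob : ∀ s n (ℓ : ℕ), ℓ.Prime → ℓ ∉ S → (∀ i, ℓ ≠ G.qv n i) →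
    ∀ A : ValuationSubring (AlgebraicClosure ℚ), A.LiesOverPrime ℓ → ∀ σ : GQ,
      A.IsFrobeniusAt σ ℓ → act s n (tr G n σ) = H.T s n ℓ
  act_v : ∀ s n v, v ∉ s → act s n (tr G n (𝓢.φ (𝓢.pr v))) = H.T s n (𝓢.pr v)
  norm : ∀ s n i x, act s n (nOp (pPart p (G.qv n i)) (θ G n i : (G.Lv n).D.R)) x =
    nOp (pPart p (G.qv n i)) (gr 𝒪 (Dia p (G.qv n)) (gen p (G.qv n) i)) • x
  unram : ∀ s n v, v ∉ s → ∀ i j x,
    act s n ((G.Lv n).γ ((SgT 𝒪 (Fin (G.m - 𝓢.δ)) v - 1) i j)) x = 0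
  new : ∀ s v hv n z, H.j1 s v hv n z = 0 → H.j2 s v hv n z = 0 →
    ∃ k : ℕ, act (insert v s) n ((tr G n (𝓢.φ (𝓢.pr v)) ^ 2 -
      ((𝓢.pr v + 1 : ℕ) : (G.Lv n).D.R) ^ 2) ^ k) z = 0
  act₀ : ∀ s, G.D₀.R →+* Module.End 𝒪 (H.M₀ s)
  act₀_C : ∀ s (c : 𝒪) x, act₀ s (algebraMap 𝒪 G.D₀.R c) x = c • x
  act₀_frob : ∀ s (ℓ : ℕ), ℓ.Prime → ℓ ∉ S →
    ∀ A : ValuationSubring (AlgebraicClosure ℚ), A.LiesOverPrime ℓ → ∀ σ : GQ,
      A.IsFrobeniusAt σ ℓ → act₀ s (tr₀ G σ) = H.T₀ s ℓ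

/-- `ψ_n` maps traces to traces. -/
lemma ψ_tr (G : 𝓢.GalSide L S) (n : ℕ) (σ : GQ) : G.ψ n (tr G n σ) = tr₀ G σ := by
  obtain ⟨r, hr⟩ := Fermat.Agent.S53norm.exists_hasMat_adic (G.Lv n).D.ρ
  have h1 := hr.baseChangeAlong (G.ψ n : (G.Lv n).D.R →+* G.D₀.R) (G.ψ_local n)
  have h2 := h1.of_isEquiv (G.ψ_equiv n)
  rw [tr, tr₀, trace_of_hasMat hr, trace_of_hasMat h2, Matrix.trace_fin_two, Matrix.trace_fin_two,
    map_add]
  rfl

/-- **The action of the deformation rings from its values on Frobenius elements.** -/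
def FrobAct.toGalAct (A : FrobAct G H) (hL : GoodCond L (ResidueField 𝒪))
    (hodd : 𝓢.ρbar.IsOdd) : GalAct G H :=
  have hfin : ∀ s n, Module.Finite (MonoidAlgebra 𝒪 (Dia p (G.qv n))) (H.M s n) := fun s n => by
    obtain ⟨b⟩ := H.b s n
    exact Module.Finite.of_basis b
  have hfin₀ : ∀ s, Module.Finite 𝒪 (H.M₀ s) := H.finite_M₀
  have hΛ : ∀ n, Module.Finite 𝒪 (MonoidAlgebra 𝒪 (Dia p (G.qv n))) := fun n => by
    have : NeZero p := ⟨𝓢.hp.ne_zero⟩
    infer_instance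
  have hid : ∀ n, IsLocalHom ((AlgHom.id 𝒪 (G.Lv n).D.R : (G.Lv n).D.R →ₐ[𝒪] (G.Lv n).D.R) :
      (G.Lv n).D.R →+* (G.Lv n).D.R) := fun n => ⟨fun _ h => h⟩
  have hS : ∀ n, ((↑S : Set ℕ) ∪ Set.range (G.qv n)).Finite := fun n =>
    S.finite_toSet.union (Set.finite_range _)
  have hmem : ∀ n (ℓ : ℕ), ℓ ∉ (↑S : Set ℕ) ∪ Set.range (G.qv n) → ℓ ∉ S ∧ ∀ i, ℓ ≠ G.qv n i :=
    fun n ℓ h => ⟨fun h1 => h (Or.inl h1), fun i h1 => h (Or.inr ⟨i, h1.symm⟩)⟩
  { act := A.act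
    act_C := A.act_C
    act_frob := A.act_frob
    act_v := A.act_v
    i1_act := fun s v hv n f x => by
      refine comm_of_frob (G.Lv n).D hL hodd _ (hS n) (AlgHom.id 𝒪 _) (hid n) (A.act s n)
        (A.act_C s n) (A.act (insert v s) n) (A.act_C _ n) (H.i1 s v hv n).toAddMonoidHom
        (fun c x => (H.i1 s v hv n).map_smul _ x) (fun ℓ hℓ hℓS B hB σ hσ x => ?_) f x
      obtain ⟨h1, h2⟩ := hmem n ℓ hℓS
      show H.i1 s v hv n (A.act s n (tr G n σ) x) =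
        A.act (insert v s) n (tr G n σ) (H.i1 s v hv n x)
      rw [A.act_frob s n ℓ hℓ h1 h2 B hB σ hσ, A.act_frob _ n ℓ hℓ h1 h2 B hB σ hσ,
        H.i1_T s v hv n ℓ hℓ h1 h2]
    i2_act := fun s v hv n f x => by
      refine comm_of_frob (G.Lv n).D hL hodd _ (hS n) (AlgHom.id 𝒪 _) (hid n) (A.act s n)
        (A.act_C s n) (A.act (insert v s) n) (A.act_C _ n) (H.i2 s v hv n).toAddMonoidHom
        (fun c x => (H.i2 s v hv n).map_smul _ x) (fun ℓ hℓ hℓS B hB σ hσ x => ?_) f x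
      obtain ⟨h1, h2⟩ := hmem n ℓ hℓS
      show H.i2 s v hv n (A.act s n (tr G n σ) x) =
        A.act (insert v s) n (tr G n σ) (H.i2 s v hv n x)
      rw [A.act_frob s n ℓ hℓ h1 h2 B hB σ hσ, A.act_frob _ n ℓ hℓ h1 h2 B hB σ hσ,
        H.i2_T s v hv n ℓ hℓ h1 h2]
    j1_act := fun s v hv n f x => by
      refine comm_of_frob (G.Lv n).D hL hodd _ (hS n) (AlgHom.id 𝒪 _) (hid n)
        (A.act (insert v s) n)
        (A.act_C _ n) (A.act s n) (A.act_C _ n) (H.j1 s v hv n).toAddMonoidHom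
        (fun c x => (H.j1 s v hv n).map_smul _ x) (fun ℓ hℓ hℓS B hB σ hσ x => ?_) f x
      obtain ⟨h1, h2⟩ := hmem n ℓ hℓS
      show H.j1 s v hv n (A.act (insert v s) n (tr G n σ) x) =
        A.act s n (tr G n σ) (H.j1 s v hv n x)
      rw [A.act_frob s n ℓ hℓ h1 h2 B hB σ hσ, A.act_frob _ n ℓ hℓ h1 h2 B hB σ hσ,
        H.j1_T s v hv n ℓ hℓ h1 h2]
    j2_act := fun s v hv n f x => by
      refine comm_of_frob (G.Lv n).D hL hodd _ (hS n) (AlgHom.id 𝒪 _) (hid n)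
        (A.act (insert v s) n)
        (A.act_C _ n) (A.act s n) (A.act_C _ n) (H.j2 s v hv n).toAddMonoidHom
        (fun c x => (H.j2 s v hv n).map_smul _ x) (fun ℓ hℓ hℓS B hB σ hσ x => ?_) f x
      obtain ⟨h1, h2⟩ := hmem n ℓ hℓS
      show H.j2 s v hv n (A.act (insert v s) n (tr G n σ) x) =
        A.act s n (tr G n σ) (H.j2 s v hv n x)
      rw [A.act_frob s n ℓ hℓ h1 h2 B hB σ hσ, A.act_frob _ n ℓ hℓ h1 h2 B hB σ hσ,
        H.j2_T s v hv n ℓ hℓ h1 h2]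
    norm := A.norm
    unram := A.unram
    new := A.new
    act₀ := A.act₀
    act₀_C := A.act₀_C
    π_act := fun s n f x => by
      refine comm_of_frob (G.Lv n).D hL hodd _ (hS n) (G.ψ n) (G.ψ_local n)
        (A.act s n) (A.act_C _ n) (A.act₀ s) (fun c x => A.act₀_C s c x) (H.π s n)
        (fun c x => ?_) (fun ℓ hℓ hℓS B hB σ hσ x => ?_) f x
      · rw [H.π_smul, AlgHom.commutes]
      · obtain ⟨h1, h2⟩ := hmem n ℓ hℓS
        show H.π s n (A.act s n (tr G n σ) x) = A.act₀ s (G.ψ n (tr G n σ)) (H.π s n x)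
        rw [A.act_frob s n ℓ hℓ h1 h2 B hB σ hσ, ψ_tr, A.act₀_frob s ℓ hℓ h1 B hB σ hσ,
          H.π_T s n ℓ hℓ h1 h2] }

end Fermat.Agent.Sides

end
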