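import Fermat.Agent.S59.TSide
import Fermat.Agent.S59.ActGen

set_option autoImplicit false

/-!
# The action of the deformation rings on a sub-side of a Hecke side

* `TData H` : the Hecke algebras acting on the Hecke side `H`, with their Galois representations;
* `SubSide X H` : a Hecke side `X` embedded in `H`;
* `TData.galAct` : the deformation rings act on `X`, provided the representations are of the right
  type modulo the annihilators of the modules of `X`.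
-/

noncomputable section

namespace Fermat.Agent.Sides

open IsLocalRing GaloisRep
open Fermat.Agent.RT (gr aug nOp nrm TM toTM)
open Fermat.Agent.RTD
open Fermat.Agent.S53norm (GQ M2 HasMat)
open Fermat.Agent.LocRing (LocData LamT Ka IT trT SgT locK)

/-- The bad primes of a Taylor-Wiles level. -/
abbrev badSet (S : Finset ℕ) {m : ℕ} (qv : Fin m → ℕ) : Set ℕ :=
  (↑(S ∪ Finset.univ.image qv) : Set ℕ)

lemma mem_badSet {S : Finset ℕ} {m : ℕ} {qv : Fin m → ℕ} {ℓ : ℕ} :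
    ℓ ∉ badSet S qv ↔ ℓ ∉ S ∧ ∀ i, ℓ ≠ qv i := by
  rw [badSet, Finset.mem_coe, Finset.mem_union, Finset.mem_image, not_or]
  refine and_congr_right fun _ => ?_
  push Not
  exact ⟨fun h i hi => h i (Finset.mem_univ i) hi.symm, fun h i _ hi => h i hi.symm⟩

section Defs

variable {𝒪 : Type} [CommRing 𝒪] [IsDomain 𝒪] [IsDiscreteValuationRing 𝒪] {p : ℕ}
  {𝓢 : Setup 𝒪 p} {S : Finset ℕ} {m : ℕ} {qv : ℕ → Fin m → ℕ}

/-- The Hecke algebras of a Hecke side. -/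
structure TData (𝓢 : Setup 𝒪 p) (H : HeckeSide 𝒪 p qv 𝓢.pr S) where
  W : ∀ s n, TLev 𝓢.ρbar (MonoidAlgebra 𝒪 (Dia p (qv n))) (H.M s n) (badSet S (qv n)) (H.T s n)
  act_v : ∀ s n v, v ∉ s → (W s n).act ((W s n).ρ.trace (𝓢.φ (𝓢.pr v))) = H.T s n (𝓢.pr v)
  new : ∀ s v hv n z, H.j1 s v hv n z = 0 → H.j2 s v hv n z = 0 →
    ∃ k : ℕ, (W (insert v s) n).act (((W (insert v s) n).ρ.trace (𝓢.φ (𝓢.pr v)) ^ 2 -
      ((𝓢.pr v + 1 : ℕ) : (W (insert v s) n).T) ^ 2) ^ k) z = 0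
  unr : ∀ s n v, v ∉ s → (W s n).ρ.IsUnramifiedAt (𝓢.pr v)
  W₀ : ∀ s, TLev 𝓢.ρbar 𝒪 (H.M₀ s) (↑S : Set ℕ) (H.T₀ s)

/-- A Hecke side embedded in another one. -/
structure SubSide {qT : ({v // v ∈ 𝓢.T₀} ⊕ {v // v ∈ 𝓢.V}) → ℕ} (X H : HeckeSide 𝒪 p qv qT S)
    where
  ι : ∀ s n, X.M s n →ₗ[MonoidAlgebra 𝒪 (Dia p (qv n))] H.M s n
  inj : ∀ s n, Function.Injective (ι s n)
  T : ∀ s n (ℓ : ℕ), ℓ.Prime → ℓ ∉ S → (∀ i, ℓ ≠ qv n i) → ∀ x,
    ι s n (X.T s n ℓ x) = H.T s n ℓ (ι s n x)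
  Tv : ∀ s n v, v ∉ s → ∀ x, ι s n (X.T s n (qT v) x) = H.T s n (qT v) (ι s n x)
  j1 : ∀ s v hv n x, ι s n (X.j1 s v hv n x) = H.j1 s v hv n (ι (insert v s) n x)
  j2 : ∀ s v hv n x, ι s n (X.j2 s v hv n x) = H.j2 s v hv n (ι (insert v s) n x)
  ι₀ : ∀ s, X.M₀ s →ₗ[𝒪] H.M₀ s
  inj₀ : ∀ s, Function.Injective (ι₀ s)
  T₀ : ∀ s (ℓ : ℕ), ℓ.Prime → ℓ ∉ S → ∀ x, ι₀ s (X.T₀ s ℓ x) = H.T₀ s ℓ (ι₀ s x)

/-- The whole Hecke side. -/
def SubSide.refl {qT : ({v // v ∈ 𝓢.T₀} ⊕ {v // v ∈ 𝓢.V}) → ℕ} (H : HeckeSide 𝒪 p qv qT S) :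
    SubSide (𝓢 := 𝓢) H H where
  ι := fun s n => LinearMap.id
  inj := fun s n => Function.injective_id
  T := fun s n ℓ _ _ _ x => rfl
  Tv := fun s n v _ x => rfl
  j1 := fun s v hv n x => rfl
  j2 := fun s v hv n x => rfl
  ι₀ := fun s => LinearMap.id
  inj₀ := fun s => Function.injective_id
  T₀ := fun s ℓ _ _ x => rfl

end Defs

section Main

variable {𝒪 : Type} [CommRing 𝒪] [IsDomain 𝒪] [IsDiscreteValuationRing 𝒪]
  [IsAdicComplete (maximalIdeal 𝒪) 𝒪] {p : ℕ} {𝓢 : Setup 𝒪 p} {L : PCond} {S : Finset ℕ}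
  {G : 𝓢.GalSide L S} {H X : HeckeSide 𝒪 p G.qv 𝓢.pr S}

/-- The data of the actions on a sub-side. -/
structure SubAct (E : TData 𝓢 H) (J : SubSide (𝓢 := 𝓢) X H) where
  gal : ∀ s n, (E.W s n).Gal (J.ι s n) (G.Lv n).D
  gal₀ : ∀ s, (E.W₀ s).Gal (J.ι₀ s) G.D₀

/-- Existence of the actions. -/
theorem nonempty_subAct (E : TData 𝓢 H) (J : SubSide (𝓢 := 𝓢) X H)
    (hnt : ∀ s n, Nontrivial (X.M s n)) (hnt₀ : ∀ s, Nontrivial (X.M₀ s))
    (hty : ∀ s n, (E.W s n).TypeMod (J.ι s n) (𝓢.type L (Finset.univ.image (G.qv n))))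
    (hty₀ : ∀ s, (E.W₀ s).TypeMod (J.ι₀ s) (𝓢.type L ∅)) :
    Nonempty (SubAct (G := G) E J) := by
  have h1 : ∀ s n, Nonempty ((E.W s n).Gal (J.ι s n) (G.Lv n).D) := fun s n =>
    have := hnt s n
    (E.W s n).nonempty_gal (J.ι s n) (J.inj s n) (X.T s n) (G.Lv n).D
      (fun ℓ hℓ hB x => J.T s n ℓ hℓ (mem_badSet.mp hB).1 (mem_badSet.mp hB).2 x) (hty s n)
  have h2 : ∀ s, Nonempty ((E.W₀ s).Gal (J.ι₀ s) G.D₀) := fun s =>
    have := hnt₀ s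
    (E.W₀ s).nonempty_gal (J.ι₀ s) (J.inj₀ s) (X.T₀ s) G.D₀
      (fun ℓ hℓ hB x => J.T₀ s ℓ hℓ (fun h => hB (Finset.mem_coe.mpr h)) x) (hty₀ s)
  exact ⟨⟨fun s n => (h1 s n).some, fun s => (h2 s).some⟩⟩

/-- **The action of the deformation rings on Frobenius elements.** -/
def SubAct.frobAct {E : TData 𝓢 H} {J : SubSide (𝓢 := 𝓢) X H} (Γ : SubAct (G := G) E J)
    (hnorm : ∀ s n i x, (Γ.gal s n).act (nOp (pPart p (G.qv n i)) (θ G n i : (G.Lv n).D.R)) x =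
      nOp (pPart p (G.qv n i)) (gr 𝒪 (Dia p (G.qv n)) (gen p (G.qv n) i)) • x) :
    FrobAct G X where
  act := fun s n => (Γ.gal s n).act
  act_C := fun s n c x => (Γ.gal s n).act_C (J.inj s n) c x
  act_frob := fun s n ℓ hℓ hℓS hi A hA σ hσ => LinearMap.ext fun x => J.inj s n (by
    have h1 := (Γ.gal s n).act_trace σ x
    rw [(E.W s n).act_frob ℓ hℓ (mem_badSet.mpr ⟨hℓS, hi⟩) A hA σ hσ] at h1
    exact h1.trans (J.T s n ℓ hℓ hℓS hi x).symm)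
  act_v := fun s n v hv => LinearMap.ext fun x => J.inj s n (by
    have h1 := (Γ.gal s n).act_trace (𝓢.φ (𝓢.pr v)) x
    rw [E.act_v s n v hv] at h1
    exact h1.trans (J.Tv s n v hv x).symm)
  norm := hnorm
  unram := fun s n v hv i j x => by
    have h1 := (G.Lv n).map_SgT_eq_zero ((Γ.gal s n).φ : (G.Lv n).D.R →+* (Γ.gal s n).Q)
      (Γ.gal s n).φ_local v ((Γ.gal s n).isUnramifiedAt (E.unr s n v hv)) i j
    rw [(Γ.gal s n).act_of_φ (J.inj s n) h1, LinearMap.zero_apply]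
  new := fun s v hv n z h1 h2 => by
    obtain ⟨k, hk⟩ := E.new s v hv n (J.ι (insert v s) n z)
      (by rw [← J.j1, h1, map_zero]) (by rw [← J.j2, h2, map_zero])
    refine ⟨k, J.inj (insert v s) n ?_⟩
    rw [map_zero, ← hk]
    refine (Γ.gal (insert v s) n).act_eq _ _ ?_ z
    rw [map_pow, map_sub, map_pow, map_pow, map_natCast, map_pow, map_sub, map_pow, map_pow,
      map_natCast]
    congr 3
    exact (Γ.gal (insert v s) n).φ_trace _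
  act₀ := fun s => (Γ.gal₀ s).act
  act₀_C := fun s c x => (Γ.gal₀ s).act_C (J.inj₀ s) c x
  act₀_frob := fun s ℓ hℓ hℓS A hA σ hσ => LinearMap.ext fun x => J.inj₀ s (by
    have h1 := (Γ.gal₀ s).act_trace σ x
    rw [(E.W₀ s).act_frob ℓ hℓ (fun h => hℓS (Finset.mem_coe.mp h)) A hA σ hσ] at h1
    exact h1.trans (J.T₀ s ℓ hℓ hℓS x).symm)

end Main

end Fermat.Agent.Sides

end
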