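import Mathlib.RingTheory.WittVector.Complete
import Mathlib.RingTheory.WittVector.DiscreteValuationRing
import Mathlib.RingTheory.WittVector.Compare
import Mathlib.FieldTheory.Finite.GaloisField
import Mathlib.RingTheory.LocalRing.ResidueField.Basic
import Mathlib.FieldTheory.Finite.Extension
import Mathlib.Algebra.Polynomial.SpecificDegree

import Mathlib.NumberTheory.Padics.RingHoms

/-!
# The coefficient ring: Witt vectors of `𝔽_{p²}`
-/

set_option autoImplicit false

noncomputable section

open IsLocalRing Polynomial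

namespace Fermat.Agent.S59aux

variable (p : ℕ) [hp : Fact p.Prime]

/-- the residue field `𝔽_{p²}`. -/
abbrev KK : Type := GaloisField p 2

/-- the coefficient ring `W(𝔽_{p²})`. -/
abbrev OO : Type := WittVector p (KK p)

instance : IsDomain (OO p) := inferInstance

theorem maximalIdeal_OO : maximalIdeal (OO p) = Ideal.span {(p : OO p)} := by
  refine (IsLocalRing.eq_maximalIdeal ?_).symm
  rw [← WittVector.ker_constantCoeff]
  exact RingHom.ker_isMaximal_of_surjective _ (WittVector.constantCoeff_surjective p)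

theorem p_mem_OO : (p : OO p) ∈ maximalIdeal (OO p) := by
  rw [maximalIdeal_OO]; exact Ideal.mem_span_singleton_self _

instance isAdicComplete_OO : IsAdicComplete (maximalIdeal (OO p)) (OO p) := by
  rw [maximalIdeal_OO]; infer_instance

/-- The residue field of `W(𝔽_{p²})`. -/
def resEquiv : ResidueField (OO p) ≃+* KK p :=
  (Ideal.quotEquivOfEq (maximalIdeal_OO p)).trans WittVector.quotientPEquiv

instance finite_OO : Finite (ResidueField (OO p)) :=
  Finite.of_equiv _ (resEquiv p).symm.toEquiv

instance charZero_OO : CharZero (OO p) := by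
  refine charZero_of_inj_zero fun n hn => ?_
  by_contra hn0
  obtain ⟨a, m, hm, rfl⟩ := Nat.exists_eq_pow_mul_and_not_dvd hn0 p hp.out.ne_one
  rw [Nat.cast_mul, Nat.cast_pow] at hn
  have h1 : ((m : ℕ) : OO p) = 0 :=
    (mul_eq_zero.mp hn).resolve_left (pow_ne_zero _ (WittVector.p_nonzero p (KK p)))
  have h2 : ((m : ℕ) : KK p) = 0 := by
    have := congrArg (WittVector.constantCoeff (p := p) (R := KK p)) h1
    simpa using this
  exact hm ((CharP.cast_eq_zero_iff (KK p) p m).mp h2)

/-- The embedding `ℤ_p → W(𝔽_{p²})`. -/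
def phiO : ℤ_[p] →+* OO p :=
  (WittVector.map (algebraMap (ZMod p) (KK p))).comp
    ((WittVector.equiv p).symm : ℤ_[p] →+* WittVector p (ZMod p))

theorem isLocalHom_phiO : IsLocalHom (phiO p) := by
  refine ⟨fun a ha => ?_⟩
  by_contra hn
  have h1 : a ∈ maximalIdeal ℤ_[p] := hn
  rw [PadicInt.maximalIdeal_eq_span_p, Ideal.mem_span_singleton] at h1
  obtain ⟨b, rfl⟩ := h1
  rw [map_mul, map_natCast] at ha
  exact (p_mem_OO p) (isUnit_of_mul_isUnit_left ha)

/-- Monic quadratic polynomials over `𝔽_p` split over `𝔽_{p²}`. -/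
theorem exists_split_KK (f : (ZMod p)[X]) (hf : f.Monic) (hd : f.natDegree = 2) :
    ∃ α β : KK p, f.map (algebraMap (ZMod p) (KK p)) = (X - C α) * (X - C β) := by
  have hsp : (f.map (algebraMap (ZMod p) (KK p))).Splits := by
    by_cases hirr : Irreducible f
    · have h1 : f ∣ X ^ (Nat.card (ZMod p)) ^ 2 - X :=
        (hirr.natDegree_dvd_iff_dvd_X_pow_card_pow_sub_X (n := 2)).mp (by rw [hd])
      have hsp : ((X ^ p ^ 2 - X : (ZMod p)[X]).map (algebraMap (ZMod p) (KK p))).Splits :=
        Polynomial.SplittingField.splits _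
      refine Splits.of_dvd hsp ?_ (Polynomial.map_dvd _ ?_)
      · exact map_ne_zero (FiniteField.X_pow_card_pow_sub_X_ne_zero _ two_ne_zero hp.out.one_lt)
      · rwa [Nat.card_zmod] at h1
    · rw [Polynomial.Monic.irreducible_iff_roots_eq_zero_of_degree_le_three hf (by omega) (by omega)] at hirr
      obtain ⟨a, ha⟩ := Multiset.exists_mem_of_ne_zero hirr
      have hroot : f.IsRoot a := (mem_roots hf.ne_zero).mp ha
      obtain ⟨g, hg⟩ := dvd_iff_isRoot.mpr hroot
      have hgd : g.natDegree = 1 := by
        have h1 := congrArg natDegree hg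
        have hg0 : g ≠ 0 := by rintro rfl; rw [mul_zero] at hg; exact hf.ne_zero hg
        rw [hd, natDegree_mul (X_sub_C_ne_zero a) hg0, natDegree_X_sub_C] at h1
        omega
      rw [hg, Polynomial.map_mul]
      refine Splits.mul ?_ ?_
      · rw [Polynomial.map_sub, map_X, map_C]; exact Splits.X_sub_C _
      · exact Splits.of_natDegree_le_one (by
          rw [natDegree_map]; omega)
  have hm : (f.map (algebraMap (ZMod p) (KK p))).Monic := hf.map _
  have hdm : (f.map (algebraMap (ZMod p) (KK p))).natDegree = 2 := by rw [natDegree_map, hd]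
  have hcard := hsp.natDegree_eq_card_roots
  rw [hdm] at hcard
  obtain ⟨α, β, hαβ⟩ := Multiset.card_eq_two.mp hcard.symm
  refine ⟨α, β, ?_⟩
  rw [hsp.eq_prod_roots_of_monic hm, hαβ]
  simp

/-- Ring homomorphisms from `ℤ_p` to rings of characteristic `p` are unique. -/
theorem padicInt_hom_ext {K : Type*} [CommRing K] (hK : (p : K) = 0) (f g : ℤ_[p] →+* K) :
    f = g := by
  have key : ∀ (f : ℤ_[p] →+* K) (x : ℤ_[p]), f x = ((PadicInt.zmodRepr x : ℕ) : K) := by
    intro f x
    have h1 := PadicInt.sub_zmodRepr_mem x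
    rw [PadicInt.maximalIdeal_eq_span_p, Ideal.mem_span_singleton] at h1
    obtain ⟨y, hy⟩ := h1
    have h2 := congrArg f hy
    rw [map_sub, map_mul, map_natCast, map_natCast, hK, zero_mul, sub_eq_zero] at h2
    exact h2
  ext x
  rw [key f, key g]

theorem residue_phiO (x : ℤ_[p]) : residue (OO p) (phiO p x) =
    (resEquiv p).symm (algebraMap (ZMod p) (KK p) (PadicInt.toZMod x)) := by
  have hK : (p : ResidueField (OO p)) = 0 := by
    have := (residue_eq_zero_iff (p : OO p)).mpr (p_mem_OO p)
    rwa [map_natCast] at this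
  exact congrArg (fun f : ℤ_[p] →+* ResidueField (OO p) => f x)
    (padicInt_hom_ext p hK ((residue (OO p)).comp (phiO p))
      ((((resEquiv p).symm : KK p →+* ResidueField (OO p)).comp
        (algebraMap (ZMod p) (KK p))).comp PadicInt.toZMod))

/-- Monic quadratic polynomials with coefficients in `ℤ_p` split over the residue field. -/
theorem exists_split_res (f : ℤ_[p][X]) (hf : f.Monic) (hd : f.natDegree = 2) :
    ∃ α β : ResidueField (OO p),
      f.map ((residue (OO p)).comp (phiO p)) = (X - C α) * (X - C β) := by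
  have h1 : (residue (OO p)).comp (phiO p) = (((resEquiv p).symm : KK p →+* _).comp
        (algebraMap (ZMod p) (KK p))).comp PadicInt.toZMod := by
    ext x; exact residue_phiO p x
  have hd' : (f.map (PadicInt.toZMod (p := p))).natDegree = 2 := by
    rw [hf.natDegree_map, hd]
  obtain ⟨α, β, h⟩ := exists_split_KK p (f.map PadicInt.toZMod) (hf.map _) hd'
  refine ⟨(resEquiv p).symm α, (resEquiv p).symm β, ?_⟩
  rw [h1, ← Polynomial.map_map, ← Polynomial.map_map, h]
  simp

end Fermat.Agent.S59aux
end
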