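import Fermat.Agent.S59.StrictCore

set_option autoImplicit false

/-!
# The flat case, in terms of the two sides
-/

noncomputable section

namespace Fermat.Agent.Sides

open IsLocalRing GaloisRep
open Fermat.Agent.RTD
open Fermat.Agent.TwExact Fermat.Agent.TwHecke

variable {𝒪 : Type} [CommRing 𝒪] [IsDomain 𝒪] [IsDiscreteValuationRing 𝒪]
  [IsAdicComplete (maximalIdeal 𝒪) 𝒪] [Finite (ResidueField 𝒪)] {p : ℕ} {𝓢 : Setup 𝒪 p}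
  {S : Finset ℕ} {G : 𝓢.GalSide (Lflat p) S} {H : HeckeSide 𝒪 p G.qv 𝓢.pr S}

/-- **The flat case.** -/
theorem occurs_flat [hpf : Fact p.Prime] [CharZero 𝒪] (E : TData 𝓢 H)
    [h0 : Nontrivial (H.M₀ ∅)] (hodd : 𝓢.ρbar.IsOdd)
    (hty : ∀ s n, (E.W s n).TypeMod LinearMap.id
      (𝓢.type (Lflat p) (Finset.univ.image (G.qv n))))
    (hty₀ : ∀ s, (E.W₀ s).TypeMod LinearMap.id (𝓢.type (Lflat p) ∅))
    (hnorm : NormHyp G H)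
    (hs : ∀ s v hv n x y, ∃ z, H.j1 s v hv n z = x ∧ H.j2 s v hv n z = y)
    {x : GaloisRepAdic 𝒪} {r N : ℕ} {T : Finset ℕ} {a : ℕ → 𝒪}
    (hx : S59aux.ClimbData p x r N T S a) (hxρ : 𝓢.ρbar = x.residual)
    (hxt : 𝓢.type (Lflat p) ∅ x) {M : ℕ} [NeZero M]
    {ε : (ZMod M)ˣ →* 𝒪ˣ} (hε : ε = 1) {I : Type*}
    (e : I → H.M₀ Finset.univ →+ HM M ε 𝒪)
    (hinj : ∀ y, (∀ j, e j y = 0) → y = 0)
    (hmem : ∀ j y, e j y ∈ Hm M ε 𝒪 (↑S : Set ℕ) (S59aux.resSys (↑S : Set ℕ) a))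
    (he : ∀ j (ℓ : PIdx (↑S : Set ℕ)) y,
      e j (H.T₀ Finset.univ (ℓ.1 : ℕ) y) = heckeP M ε 𝒪 ℓ.1 (e j y)) :
    S59aux.Occurs M S a := by
  obtain ⟨Γ, A, hA⟩ := exists_galAct (G := G) E (SubSide.refl H) (goodCond_flat p _) hodd hty
    hty₀ hnorm
  obtain ⟨x₀, hloc, hx₀⟩ := G.exists_point (x := x) (by
    rw [hxρ]
    exact ⟨ResidualGaloisRep.Equiv.refl _⟩) hxt
  exact A.occurs hx x₀ hloc hx₀ hε e hinj hmem he fun f hf =>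
    A.main_of_surjective hs x₀ hf

end Fermat.Agent.Sides

end
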