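import Fermat.Agent.S59.SidesPkg

set_option autoImplicit false

/-!
# The main theorem on the two sides
-/

noncomputable section

namespace Fermat.Agent.Sides

open IsLocalRing GaloisRep
open Fermat.Agent.RT (gr aug nOp nrm TM toTM smul_toTM isLocalRing_groupRing)
open Fermat.Agent.RTD
open Fermat.Agent.S53norm (GQ M2 HasMat)
open Fermat.Agent.LocRing (LocData LamT Ka IT trT SgT locK)
open Fermat.Agent.Patch (TWPackage)

/-- The bottom modules are finite over `𝒪`. -/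
theorem HeckeSide.finite_M₀ {𝒪 : Type} [CommRing 𝒪] {p m : ℕ} {qv : ℕ → Fin m → ℕ}
    {ι : Type} [DecidableEq ι] {qT : ι → ℕ} {S : Finset ℕ} (H : HeckeSide 𝒪 p qv qT S)
    (s : Finset ι) : Module.Finite 𝒪 (H.M₀ s) := by
  classical
  obtain ⟨b⟩ := H.b s 0
  refine Module.Finite.of_fg_top ⟨Finset.univ.image (fun i => H.π s 0 (b i)), ?_⟩
  rw [eq_top_iff]
  rintro y -
  obtain ⟨x, rfl⟩ := H.π_surjective s 0 y
  rw [← b.sum_repr x, map_sum]
  refine Submodule.sum_mem _ fun i _ => ?_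
  rw [H.π_smul]
  refine Submodule.smul_mem _ _ (Submodule.subset_span ?_)
  simp

variable {𝒪 : Type} [CommRing 𝒪] [IsDomain 𝒪] [IsDiscreteValuationRing 𝒪]
  [IsAdicComplete (maximalIdeal 𝒪) 𝒪] {p : ℕ} {𝓢 : Setup 𝒪 p} {L : PCond} {S : Finset ℕ}
  {G : 𝓢.GalSide L S} {H : HeckeSide 𝒪 p G.qv 𝓢.pr S}

lemma card_le (G : 𝓢.GalSide L S) :
    3 * Fintype.card {v // v ∈ 𝓢.T₀} + Fintype.card {v // v ∈ 𝓢.V} +
      Fintype.card (Fin (G.m - 𝓢.δ)) ≤ G.m := by
  have h1 := G.δ_le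
  rw [Fintype.card_coe, Fintype.card_coe, Fintype.card_fin]
  have h2 : 𝓢.δ = 3 * 𝓢.T₀.card + 𝓢.V.card := rfl
  omega

/-- **Main theorem, general form**: every point of `R_∅` with values in `𝒪` is in the support of
the bottom module of level `T`. -/
theorem GalAct.main [Finite (ResidueField 𝒪)] [CharZero 𝒪] (A : GalAct G H)
    [h0 : Nontrivial (H.M₀ ∅)]
    (hsurj : ∀ s v hv n, ∃ a ∉ locK 𝒪 {v // v ∈ 𝓢.T₀} {v // v ∈ 𝓢.V} (Fin (G.m - 𝓢.δ)) ⊔
        maximalIdeal (𝓢.Lam (G.m - 𝓢.δ)) ^ 2,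
      ∀ x y, ∃ z, H.j1 s v hv n z = A.act s n ((G.Lv n).γ a) x ∧
        H.j2 s v hv n z = A.act s n ((G.Lv n).γ a) y)
    (x₀ : G.D₀.R →ₐ[𝒪] 𝒪) {f : G.D₀.R} (hf : ∀ y : H.M₀ Finset.univ, A.act₀ _ f y = 0) :
    x₀ f = 0 := by
  have hfin : Module.Finite G.D₀.R (BMod A Finset.univ) := by
    obtain ⟨t, ht⟩ := (H.finite_M₀ Finset.univ).fg_top
    classical
    refine Module.Finite.of_fg_top ⟨t.image (toB A Finset.univ), ?_⟩
    rw [eq_top_iff]
    rintro y -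
    have hy : (toB A Finset.univ).symm y ∈ Submodule.span 𝒪 (t : Set (H.M₀ Finset.univ)) := by
      rw [ht]
      trivial
    refine Submodule.span_induction (p := fun (z : H.M₀ Finset.univ) _ =>
      toB A Finset.univ z ∈ Submodule.span G.D₀.R (t.image (toB A Finset.univ) :
        Set (BMod A Finset.univ))) ?_ ?_ ?_ ?_ hy
    · intro z hz
      exact Submodule.subset_span (Finset.mem_coe.mpr (Finset.mem_image_of_mem _ hz))
    · rw [map_zero]
      exact Submodule.zero_mem _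
    · intro z w _ _ hz hw
      rw [map_add]
      exact Submodule.add_mem _ hz hw
    · intro c z _ hz
      have h1 : toB A Finset.univ (c • z) = algebraMap 𝒪 G.D₀.R c • toB A Finset.univ z := by
        rw [smul_toB, A.act₀_C]
      rw [h1]
      exact Submodule.smul_mem _ _ hz
  have hres : Finite (ResidueField G.D₀.R) := by
    have h1 : Function.Surjective (ResidueField.map (algebraMap 𝒪 G.D₀.R)) := by
      intro y
      obtain ⟨c, rfl⟩ := G.D₀.residue_surjective y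
      exact ⟨residue 𝒪 c, rfl⟩
    exact Finite.of_surjective _ h1
  have hnt : Nontrivial (BMod A ∅) := h0
  have hp0 : NeZero p := ⟨𝓢.hp.ne_zero⟩
  have hDia : ∀ n, Finite (Dia p (G.qv n)) := fun n => inferInstance
  refine (package (A := A)).mainK 𝓢.hp 𝓢.hp𝒪 (card_le G) hsurj (x₀ : G.D₀.R →+* 𝒪) ?_ ?_
  · intro a b hab
    have h1 : ∀ c, ((x₀ : G.D₀.R →+* 𝒪).comp (algebraMap 𝒪 G.D₀.R)) c = c := fun c =>
      x₀.commutes c
    rwa [h1, h1] at hab
  · rw [Module.mem_annihilator]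
    exact hf

/-- **Main theorem**: the case where the pairs of traces are surjective. -/
theorem GalAct.main_of_surjective [Finite (ResidueField 𝒪)] [CharZero 𝒪] (A : GalAct G H)
    [h0 : Nontrivial (H.M₀ ∅)]
    (hsurj : ∀ s v hv n, ∀ x y, ∃ z, H.j1 s v hv n z = x ∧ H.j2 s v hv n z = y)
    (x₀ : G.D₀.R →ₐ[𝒪] 𝒪) {f : G.D₀.R} (hf : ∀ y : H.M₀ Finset.univ, A.act₀ _ f y = 0) :
    x₀ f = 0 := by
  refine A.main (fun s v hv n => ⟨1, ?_, fun x y => ?_⟩) x₀ hf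
  · intro h
    have h1 : locK 𝒪 {v // v ∈ 𝓢.T₀} {v // v ∈ 𝓢.V} (Fin (G.m - 𝓢.δ)) ⊔
        maximalIdeal (𝓢.Lam (G.m - 𝓢.δ)) ^ 2 ≤ maximalIdeal (𝓢.Lam (G.m - 𝓢.δ)) :=
      sup_le (IsLocalRing.le_maximalIdeal (Ideal.IsPrime.ne_top inferInstance))
        (Ideal.pow_le_self two_ne_zero)
    exact (Ideal.ne_top_iff_one _).1 (IsLocalRing.maximalIdeal.isMaximal _).ne_top (h1 h)
  · obtain ⟨z, h1, h2⟩ := hsurj s v hv n x y
    refine ⟨z, ?_, ?_⟩
    · rw [h1, map_one, map_one]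
      rfl
    · rw [h2, map_one, map_one]
      rfl

end Fermat.Agent.Sides

end
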