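import Fermat.Agent.S59.KSide
import Fermat.Agent.S59.SidesMain

set_option autoImplicit false

/-!
# The main theorem when the cokernels of the traces are strict and flat
-/

noncomputable section

namespace Fermat.Agent.Sides

open IsLocalRing GaloisRep
open Fermat.Agent.RTD
open Fermat.Agent.LocRing (locK)

variable {𝒪 : Type} [CommRing 𝒪] [IsDomain 𝒪] [IsDiscreteValuationRing 𝒪]
  [IsAdicComplete (maximalIdeal 𝒪) 𝒪] {p : ℕ} {𝓢 : Setup 𝒪 p} {L : PCond} {S : Finset ℕ}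
  {G : 𝓢.GalSide L S} {X : HeckeSide 𝒪 p G.qv 𝓢.pr S}

/-- If the deformations to the dual numbers which factor through `R_n / cokerAnn` are strict and
flat, then the cokernels of the traces are killed by an element outside `locK ⊔ 𝔪²`. -/
theorem GalAct.exists_cokerAnn [Fact p.Prime] [Finite (ResidueField 𝒪)] (A : GalAct G X)
    (hb : ∀ s v hv n (f : (G.Lv n).D.R →+* DualNumber (ResidueField 𝒪)) (hf : IsLocalHom f),
      (∀ a ∈ A.cokerAnn s v hv n, f a = 0) → Lboth p ((G.Lv n).D.ρ.baseChangeAlong f hf))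
    (s : Finset ({v // v ∈ 𝓢.T₀} ⊕ {v // v ∈ 𝓢.V})) (v : {v // v ∈ 𝓢.T₀} ⊕ {v // v ∈ 𝓢.V})
    (hv : v ∉ s) (n : ℕ) :
    ∃ a ∉ locK 𝒪 {v // v ∈ 𝓢.T₀} {v // v ∈ 𝓢.V} (Fin (G.m - 𝓢.δ)) ⊔
        maximalIdeal (𝓢.Lam (G.m - 𝓢.δ)) ^ 2,
      ∀ x y, ∃ z, X.j1 s v hv n z = A.act s n ((G.Lv n).γ a) x ∧
        X.j2 s v hv n z = A.act s n ((G.Lv n).γ a) y := by
  obtain ⟨a, ha, ha'⟩ := G.linear_both n (A.cokerAnn s v hv n) fun f hf h =>
    hb s v hv n f hf h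
  exact ⟨a, ha', ha⟩

/-- **Main theorem**: the strict case. -/
theorem GalAct.main_of_both [Fact p.Prime] [Finite (ResidueField 𝒪)] [CharZero 𝒪]
    (A : GalAct G X) [h0 : Nontrivial (X.M₀ ∅)]
    (hb : ∀ s v hv n (f : (G.Lv n).D.R →+* DualNumber (ResidueField 𝒪)) (hf : IsLocalHom f),
      (∀ a ∈ A.cokerAnn s v hv n, f a = 0) → Lboth p ((G.Lv n).D.ρ.baseChangeAlong f hf))
    (x₀ : G.D₀.R →ₐ[𝒪] 𝒪) {f : G.D₀.R} (hf : ∀ y : X.M₀ Finset.univ, A.act₀ _ f y = 0) :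
    x₀ f = 0 :=
  A.main (A.exists_cokerAnn hb) x₀ hf

end Fermat.Agent.Sides

end
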