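import Fermat.Agent.S59.ActOf
import Fermat.Agent.S59.KMain

set_option autoImplicit false

/-!
# The cokernel of the traces on the `p`-new kernels

An element of the deformation ring which lifts a Hecke operator vanishing on the modules of level
prime to `p` kills the cokernel of the traces `(j1, j2)` on the `p`-new kernels.
-/

noncomputable section

namespace Fermat.Agent.Sides

open IsLocalRing GaloisRep
open Fermat.Agent.RT (gr aug nOp nrm TM toTM)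
open Fermat.Agent.RTD
open Fermat.Agent.S53norm (GQ M2 HasMat)
open Fermat.Agent.LocRing (LocData LamT Ka IT trT SgT locK)

variable {𝒪 : Type} [CommRing 𝒪] [IsDomain 𝒪] [IsDiscreteValuationRing 𝒪]
  [IsAdicComplete (maximalIdeal 𝒪) 𝒪] {p : ℕ} {𝓢 : Setup 𝒪 p} {S : Finset ℕ}

section Gen

variable {m : ℕ} {qv : Fin m → ℕ} {Λ : Type} [CommRing Λ] [Algebra 𝒪 Λ]
  {ρbar : ResidualGaloisRep (ResidueField 𝒪)} {B : Set ℕ}
  {M M' : Type} [AddCommGroup M] [Module Λ M] [AddCommGroup M'] [Module Λ M']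
  {Tl : ℕ → Module.End Λ M} {Tl' : ℕ → Module.End Λ M'}

/-- Every Hecke operator has a companion, with respect to a family of intertwining maps. -/
theorem TLev.exists_companion (W : TLev ρbar Λ M B Tl) {I : Type} (j : I → M →ₗ[Λ] M')
    (hj : ∀ i ℓ, ℓ.Prime → ℓ ∉ B → ∀ x, j i (Tl ℓ x) = Tl' ℓ (j i x)) (t : W.T) :
    ∃ t' : Module.End Λ M', ∀ i x, j i (W.act t x) = t' (j i x) := by
  refine W.gen (fun t => ∃ t' : Module.End Λ M', ∀ i x, j i (W.act t x) = t' (j i x))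
    (fun a => ?_) (fun ℓ hℓ hB A hA σ hσ => ?_) (fun a b ha hb => ?_) (fun a b ha hb => ?_) t
  · exact ⟨algebraMap Λ _ (algebraMap 𝒪 Λ a), fun i x => by
      rw [W.act_C, map_smul, Module.algebraMap_end_apply]⟩
  · exact ⟨Tl' ℓ, fun i x => by rw [W.act_frob ℓ hℓ hB A hA σ hσ, hj i ℓ hℓ hB]⟩
  · obtain ⟨a', ha'⟩ := ha
    obtain ⟨b', hb'⟩ := hb
    exact ⟨a' + b', fun i x => by
      rw [map_add, LinearMap.add_apply, map_add, ha', hb', LinearMap.add_apply]⟩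
  · obtain ⟨a', ha'⟩ := ha
    obtain ⟨b', hb'⟩ := hb
    exact ⟨a' * b', fun i x => by
      rw [map_mul, Module.End.mul_apply, ha', hb', Module.End.mul_apply]⟩

end Gen

section Torsion

variable {m : ℕ} {qv : ℕ → Fin m → ℕ} {ι : Type} [DecidableEq ι] {qT : ι → ℕ}

omit [IsDiscreteValuationRing 𝒪] [IsAdicComplete (maximalIdeal 𝒪) 𝒪] in
/-- The modules have no torsion. -/
theorem HeckeSide.eq_zero_of_nsmul [CharZero 𝒪] (H : HeckeSide 𝒪 p qv qT S) (s : Finset ι) (n : ℕ)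
    {k : ℕ} (hk : k ≠ 0) {x : H.M s n} (h : k • x = 0) : x = 0 := by
  obtain ⟨b⟩ := H.b s n
  refine b.repr.map_eq_zero_iff.mp (Finsupp.ext fun i => ?_)
  have h1 : (k : 𝒪) • (b.repr x i) = 0 := by
    have h2 := congrArg (fun y => b.repr y i) h
    rw [Nat.cast_smul_eq_nsmul]
    simpa using h2
  rw [Finsupp.zero_apply]
  exact (smul_eq_zero.mp h1).resolve_left (Nat.cast_ne_zero.mpr hk)

end Torsion

section Main

variable {L : PCond} {G : 𝓢.GalSide L S} {Hp H : HeckeSide 𝒪 p G.qv 𝓢.pr S}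

/-- The new kernels as a sub-side. -/
def NewPair.subSide [Fact p.Prime] (P : NewPair Hp H) (hp𝒪 : (p : 𝒪) ∈ maximalIdeal 𝒪)
    (h0 : ∀ ℓ : ℕ, ℓ.Prime → ∃ n, ∀ i, ℓ ≠ G.qv n i) : SubSide (𝓢 := 𝓢) (P.K hp𝒪) Hp where
  ι := P.incl hp𝒪
  inj := P.incl_injective hp𝒪
  T := fun s n ℓ h1 h2 h3 x => P.incl_T hp𝒪 s n ℓ h1 h2 h3 x
  Tv := fun s n v hv x => P.incl_Tv hp𝒪 s v hv n x
  j1 := fun s v hv n x => P.incl_j1 hp𝒪 s v hv n x
  j2 := fun s v hv n x => P.incl_j2 hp𝒪 s v hv n x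
  ι₀ := P.incl₀ hp𝒪
  inj₀ := P.incl₀_injective hp𝒪
  T₀ := fun s ℓ h1 h2 x => by
    obtain ⟨n, hn⟩ := h0 ℓ h1
    exact P.incl₀_T₀ hp𝒪 s n ℓ h1 h2 hn x

variable [Fact p.Prime] [Finite (ResidueField 𝒪)] [CharZero 𝒪]
  (P : NewPair Hp H) (hp𝒪 : (p : 𝒪) ∈ maximalIdeal 𝒪)
  {h0 : ∀ ℓ : ℕ, ℓ.Prime → ∃ n, ∀ i, ℓ ≠ G.qv n i}
  {E : TData 𝓢 Hp} (Γ : SubAct (G := G) E (P.subSide hp𝒪 h0)) (A : GalAct G (P.K hp𝒪))
  (hA : ∀ s n, A.act s n = (Γ.gal s n).act)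
  {s : Finset ({v // v ∈ 𝓢.T₀} ⊕ {v // v ∈ 𝓢.V})} {v : {v // v ∈ 𝓢.T₀} ⊕ {v // v ∈ 𝓢.V}}
  (hv : v ∉ s) (n : ℕ)

include hA hv in
/-- Elements acting trivially at the upper level act trivially at the lower level. -/
theorem act_eq_zero_of_insert {a : (G.Lv n).D.R} (ha : ∀ x, A.act (insert v s) n a x = 0)
    (x : (P.K hp𝒪).M s n) : A.act s n a x = 0 := by
  have h1 : (𝓢.pr v + 1) • A.act s n a x = 0 := by
    rw [← (P.K hp𝒪).j1_i1 s v hv n (A.act s n a x), A.i1_act, ha, map_zero]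
  exact (P.K hp𝒪).eq_zero_of_nsmul s n (Nat.succ_ne_zero _) h1

include hA in
/-- The elements which lift operators vanishing on the modules of level prime to `p` kill the
cokernel of the traces. -/
theorem mem_cokerAnn_of_lift
    (hs : ∀ x y, ∃ z, Hp.j1 s v hv n z = x ∧ Hp.j2 s v hv n z = y)
    {t : (E.W (insert v s) n).T}
    (ht : ∀ z, P.t1 (insert v s) n ((E.W (insert v s) n).act t z) = 0 ∧
      P.t2 (insert v s) n ((E.W (insert v s) n).act t z) = 0)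
    {a : (G.Lv n).D.R} (ha : (Γ.gal (insert v s) n).φ a = (Γ.gal (insert v s) n).mkQ t) :
    a ∈ A.cokerAnn s v hv n := by
  -- the companion on `Hp.M s n`
  obtain ⟨t', ht'⟩ := (E.W (insert v s) n).exists_companion (Tl' := Hp.T s n)
    (fun i : Bool => if i then Hp.j1 s v hv n else Hp.j2 s v hv n) (fun i ℓ hℓ hB x => by
      obtain ⟨h1, h2⟩ := mem_badSet.mp hB
      cases i
      · exact Hp.j2_T s v hv n ℓ hℓ h1 h2 x
      · exact Hp.j1_T s v hv n ℓ hℓ h1 h2 x) t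
  have hj1 : ∀ z, Hp.j1 s v hv n ((E.W (insert v s) n).act t z) = t' (Hp.j1 s v hv n z) :=
    fun z => ht' true z
  have hj2 : ∀ z, Hp.j2 s v hv n ((E.W (insert v s) n).act t z) = t' (Hp.j2 s v hv n z) :=
    fun z => ht' false z
  -- `a` acts on the new kernel of level `s` as `t'`
  have hact : ∀ x : (P.K hp𝒪).M (insert v s) n, P.incl hp𝒪 (insert v s) n
      (A.act (insert v s) n a x) = (E.W (insert v s) n).act t (P.incl hp𝒪 (insert v s) n x) := by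
    intro x
    rw [hA]
    exact (Γ.gal (insert v s) n).act_eq a t ha x
  have hts : ∀ x : (P.K hp𝒪).M s n, P.incl hp𝒪 s n (A.act s n a x) = t' (P.incl hp𝒪 s n x) := by
    intro x
    have e1 : (𝓢.pr v + 1) • P.incl hp𝒪 s n (A.act s n a x) =
        t' (Hp.j1 s v hv n (P.incl hp𝒪 (insert v s) n ((P.K hp𝒪).i1 s v hv n x))) := by
      rw [← map_nsmul, ← (P.K hp𝒪).j1_i1 s v hv n (A.act s n a x), A.i1_act, P.incl_j1, hact, hj1]
    have e2 : (𝓢.pr v + 1) • t' (P.incl hp𝒪 s n x) =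
        t' (Hp.j1 s v hv n (P.incl hp𝒪 (insert v s) n ((P.K hp𝒪).i1 s v hv n x))) := by
      rw [← P.incl_j1, (P.K hp𝒪).j1_i1 s v hv n x, map_nsmul, map_nsmul]
    have h1 : (𝓢.pr v + 1) • (P.incl hp𝒪 s n (A.act s n a x) - t' (P.incl hp𝒪 s n x)) = 0 := by
      rw [smul_sub, e1, e2, sub_self]
    exact sub_eq_zero.mp (Hp.eq_zero_of_nsmul s n (Nat.succ_ne_zero _) h1)
  rw [GalAct.mem_cokerAnn]
  exact P.exists_of_kills hp𝒪 hv hs (tsv := (E.W (insert v s) n).act t) (ts := t')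
    (tH := fun _ => 0) hj1 hj2 (fun z => (ht z).1) (fun z => (ht z).2) (fun _ => rfl) hts

include hA in
/-- **Deformations killed by `cokerAnn` are flat.** -/
theorem flat_of_cokerAnn
    (hs : ∀ x y, ∃ z, Hp.j1 s v hv n z = x ∧ Hp.j2 s v hv n z = y)
    (hflat : ∀ (f : (E.W (insert v s) n).T →+* DualNumber (ResidueField 𝒪)) (hf : IsLocalHom f),
      (∀ t, (∀ z, P.t1 (insert v s) n ((E.W (insert v s) n).act t z) = 0 ∧
        P.t2 (insert v s) n ((E.W (insert v s) n).act t z) = 0) → f t = 0) →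
        ((E.W (insert v s) n).ρ.baseChangeAlong f hf).IsFlatAt p)
    (f : (G.Lv n).D.R →+* DualNumber (ResidueField 𝒪)) (hf : IsLocalHom f)
    (hker : ∀ a ∈ A.cokerAnn s v hv n, f a = 0) :
    ((G.Lv n).D.ρ.baseChangeAlong f hf).IsFlatAt p := by
  set Gg := Γ.gal (insert v s) n with hGg
  have h1 : ∀ a, (Gg.φ : (G.Lv n).D.R →+* Gg.Q) a = 0 → f a = 0 := fun a ha =>
    hker a (A.mem_cokerAnn_of_act_eq_zero fun x =>
      act_eq_zero_of_insert P hp𝒪 Γ A hA hv n (fun y => by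
        rw [hA, Gg.act_of_φ (P.incl_injective hp𝒪 (insert v s) n) ha, LinearMap.zero_apply]) x)
  let g : Gg.Q →+* DualNumber (ResidueField 𝒪) :=
    RingHom.liftOfSurjective (Gg.φ : (G.Lv n).D.R →+* Gg.Q) Gg.φ_surj ⟨f, fun a ha => h1 a ha⟩
  have hg : ∀ a, g (Gg.φ a) = f a := fun a =>
    RingHom.liftOfRightInverse_comp_apply _ _ _ ⟨f, fun a ha => h1 a ha⟩ a
  have hgl : IsLocalHom g := by
    constructor
    intro b hb
    obtain ⟨a, rfl⟩ := Gg.φ_surj b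
    rw [hg] at hb
    exact (hf.map_nonunit a hb).map (Gg.φ : (G.Lv n).D.R →+* Gg.Q)
  have hmkl := Gg.mk_local
  have hfl : IsLocalHom (g.comp (Gg.mkQ : (E.W (insert v s) n).T →+* Gg.Q)) :=
    RingHom.isLocalHom_comp _ _
  have h2 := hflat (g.comp (Gg.mkQ : (E.W (insert v s) n).T →+* Gg.Q)) hfl (fun t ht => by
    obtain ⟨a, ha⟩ := Gg.φ_surj (Gg.mkQ t)
    have h3 := hker a (mem_cokerAnn_of_lift P hp𝒪 Γ A hA hv n hs ht ha)
    rw [RingHom.comp_apply]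
    change g (Gg.mkQ t) = 0
    rw [← ha, hg, h3])
  have h3 : ((G.Lv n).D.ρ.baseChangeAlong f hf).IsEquiv
      ((E.W (insert v s) n).ρ.baseChangeAlong (g.comp (Gg.mkQ : (E.W (insert v s) n).T →+* Gg.Q))
        hfl) := by
    obtain ⟨e1⟩ := isEquiv_baseChange_comp (Gg.φ : (G.Lv n).D.R →+* Gg.Q) Gg.φ_local Gg.equiv
      g hgl f hf (RingHom.ext fun a => (hg a).symm)
    obtain ⟨e2⟩ := isEquiv_baseChange_comp (ρ := (E.W (insert v s) n).ρ.baseChangeAlong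
      (Gg.mkQ : (E.W (insert v s) n).T →+* Gg.Q) Gg.mk_local)
      (Gg.mkQ : (E.W (insert v s) n).T →+* Gg.Q) Gg.mk_local ⟨GaloisRepAdic.Equiv.refl _⟩
      g hgl (g.comp (Gg.mkQ : (E.W (insert v s) n).T →+* Gg.Q)) hfl rfl
    exact ⟨e1.trans e2.symm⟩
  obtain ⟨e⟩ := h3
  exact FlatGS.isFlatAt_of_isEquiv ⟨e.symm⟩ h2

end Main

section Strict

variable {G : 𝓢.GalSide (Lord p) S} {Hp H : HeckeSide 𝒪 p G.qv 𝓢.pr S}
  [Fact p.Prime] [Finite (ResidueField 𝒪)] [CharZero 𝒪]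
  (P : NewPair Hp H) (hp𝒪 : (p : 𝒪) ∈ maximalIdeal 𝒪)
  {h0 : ∀ ℓ : ℕ, ℓ.Prime → ∃ n, ∀ i, ℓ ≠ G.qv n i}
  {E : TData 𝓢 Hp} (Γ : SubAct (G := G) E (P.subSide hp𝒪 h0)) (A : GalAct G (P.K hp𝒪))
  (hA : ∀ s n, A.act s n = (Γ.gal s n).act)

include hA in
/-- **Deformations killed by `cokerAnn` are flat and strictly ordinary.** -/
theorem both_of_cokerAnn
    (hs : ∀ s v hv n x y, ∃ z, Hp.j1 s v hv n z = x ∧ Hp.j2 s v hv n z = y)
    (hflat : ∀ s n (f : (E.W s n).T →+* DualNumber (ResidueField 𝒪)) (hf : IsLocalHom f),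
      (∀ t, (∀ z, P.t1 s n ((E.W s n).act t z) = 0 ∧ P.t2 s n ((E.W s n).act t z) = 0) →
        f t = 0) → ((E.W s n).ρ.baseChangeAlong f hf).IsFlatAt p)
    (s : Finset ({v // v ∈ 𝓢.T₀} ⊕ {v // v ∈ 𝓢.V})) (v : {v // v ∈ 𝓢.T₀} ⊕ {v // v ∈ 𝓢.V})
    (hv : v ∉ s) (n : ℕ)
    (f : (G.Lv n).D.R →+* DualNumber (ResidueField 𝒪)) (hf : IsLocalHom f)
    (hker : ∀ a ∈ A.cokerAnn s v hv n, f a = 0) :
    Lboth p ((G.Lv n).D.ρ.baseChangeAlong f hf) :=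
  ⟨flat_of_cokerAnn P hp𝒪 Γ A hA hv n (hs s v hv n) (hflat (insert v s) n) f hf hker,
    (goodCond_ord p _).baseChange _ f hf (G.Lv n).D.isOfType.1.2.1⟩

include hA in
/-- **Main theorem, strict case.** -/
theorem main_strict [h1 : Nontrivial ((P.K hp𝒪).M₀ ∅)]
    (hs : ∀ s v hv n x y, ∃ z, Hp.j1 s v hv n z = x ∧ Hp.j2 s v hv n z = y)
    (hflat : ∀ s n (f : (E.W s n).T →+* DualNumber (ResidueField 𝒪)) (hf : IsLocalHom f),
      (∀ t, (∀ z, P.t1 s n ((E.W s n).act t z) = 0 ∧ P.t2 s n ((E.W s n).act t z) = 0) →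
        f t = 0) → ((E.W s n).ρ.baseChangeAlong f hf).IsFlatAt p)
    (x₀ : G.D₀.R →ₐ[𝒪] 𝒪) {f : G.D₀.R}
    (hf : ∀ y : (P.K hp𝒪).M₀ Finset.univ, A.act₀ _ f y = 0) : x₀ f = 0 :=
  A.main_of_both (both_of_cokerAnn P hp𝒪 Γ A hA hs hflat) x₀ hf

end Strict

end Fermat.Agent.Sides

end
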