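import Fermat.Agent.S59.Top
import Fermat.Agent.S59.LowLocal
import Fermat.Agent.S44w.Main
import Fermat.Agent.S44w.PPowW
import Fermat.Agent.Star.InstGood
import Fermat.Agent.Star.WidthInst
import Fermat.Agent.S33.OrdNInst
import Fermat.Agent.Ribet.Forms
import Fermat.Agent.Frob.Exists
import Fermat.Agent.Dlog.Concrete
import Fermat.Agent.EC.RedFrob

/-!
# (E2): level lowering at `p` when `W` has good reduction at `p`
-/

set_option autoImplicit false
set_option linter.unusedSectionVars false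
set_option linter.style.haveILetI false

noncomputable section

open CuspForm ModularCurve HahnSeries AlgebraicCurve
open Fermat.Agent.GaussVal Fermat.Agent.TEll Fermat.Agent.TwoGauss Fermat.Agent.GalRep
open WeierstrassCurve WeierstrassCurve.Affine WeierstrassCurve.Affine.Point
open Fermat.Agent.ECFrob Fermat.Agent.Torsion Fermat.Agent.ECRed
open scoped Fermat.Agent.GaussVal

namespace Fermat.Agent.LowP

local notation "𝕂" => AlgebraicClosure ℚ

/-- **(G2)** at all places over `p` and the level `m`. -/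
def G2At (p m : ℕ) : Prop :=
  ∀ A : ValuationSubring (AlgebraicClosure ℚ), A.LiesOverPrime p →
    S44w.G2 (IsLocalRing.ResidueField A) p m

theorem g2At_of_five_le {p : ℕ} (hp : p.Prime) (hp5 : 5 ≤ p) {m : ℕ} [NeZero m] (hm : ¬ p ∣ m) :
    G2At p m :=
  fun _ hA _ hy hw => Dlog.dlog_mem_span hp hA hp5 hm hy hw

/-- **Level lowering at `p`** from a local statement at `p`, when all the widths are one. -/
theorem lower_of_wt {p : ℕ} (hp : p.Prime) (hp2 : p ≠ 2) {W : WeierstrassCurve ℤ} (hΔ : W.Δ ≠ 0)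
    (hirr : W.ModRepIsIrreducible p) {m : ℕ} [NeZero m] (hm : ¬ p ∣ m)
    {r : ℕ} (hr : r.Prime) (hrm : r ∣ m) (hr12 : r % 12 = 11) (hG2 : G2At p m)
    (hwt : haveI : Fact p.Prime := ⟨hp⟩
      ∀ (A : ValuationSubring (AlgebraicClosure ℚ)) (hA : A.LiesOverPrime p)
        [CharP (IsLocalRing.ResidueField A) p]
        (H3 : S18aux.DegThm (IsLocalRing.ResidueField A) m), WT hp hm hA H3 W)
    (hres : W.IsResiduallyModularOfLevel p (m * p)) :
    W.IsResiduallyModularOfLevel p m := by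
  classical
  haveI : Fact p.Prime := ⟨hp⟩
  obtain ⟨A, hA⟩ := Frob.exists_liesOverPrime p hp
  haveI : CharP (IsLocalRing.ResidueField A) p := TEll.charP_residueField A p hA
  haveI : IsAlgClosed (IsLocalRing.ResidueField A) := inferInstance
  have H3 : S18aux.DegThm (IsLocalRing.ResidueField A) m :=
    GoodRed.degThm_res hp hA (NeZero.ne m) hm
  haveI i1 : FF.IsFF (IsLocalRing.ResidueField A)
      (modularFunctionFieldFullC (IsLocalRing.ResidueField A) m) := isFF_m' H3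
  haveI i2 : FF.IsFF 𝕂 (modularFunctionFieldBar (m * p)) := isFF_m
  have hM := Star.Inst.good hp hm hA H3
  obtain ⟨H, hHA, hHE, hWT⟩ := hwt A hA H3
  have hstar := S44w.starEis_of_width hp hm hA H3 hM (Star.Inst.unitData hp hm hA H3)
    (fun hP C => Star.Inst.width_eq_one hp hm hA H3 hr hrm hr12 C hP) hWT
  obtain ⟨f, 𝔪, hf, h𝔪, hp𝔪, hcong⟩ := hres
  set S : Finset ℕ := (m * p).primeFactors ∪ W.Δ.natAbs.primeFactors with hSdef
  have hN0 : m * p ≠ 0 := mul_ne_zero (NeZero.ne m) hp.ne_zero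
  have hS : ∀ ℓ : ℕ, ℓ.Prime → ℓ ∣ m * p → ℓ ∈ S := fun ℓ hℓ hd =>
    Finset.mem_union_left _ (Nat.mem_primeFactors.2 ⟨hℓ, hd, hN0⟩)
  have hS2 : ∀ ℓ : ℕ, ℓ.Prime → ℓ ∉ S → W.IsGoodPrimeFor ℓ := by
    intro ℓ hℓ hℓS hd
    exact hℓS (Finset.mem_union_right _
      (Nat.mem_primeFactors.2 ⟨hℓ, Int.natCast_dvd.1 hd, Int.natAbs_ne_zero.2 hΔ⟩))
  obtain ⟨f', 𝔪', hf', h𝔪', hp𝔪', hcong'⟩ := S44w.level_lower hp hm hA H3 hΔ hp2 hirr hS
    (a := fun ℓ => W.apOfModel ℓ) ∅ (fun ℓ _ _ => rfl) hf h𝔪 hp𝔪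
    (fun ℓ hℓ hℓS => hcong ℓ hℓ (hS2 ℓ hℓ hℓS) (fun hd => hℓS (hS ℓ hℓ hd))
      (fun h => hℓS (h ▸ hS p hp (Dvd.intro_left m rfl))))
    (hG2 A hA) (S33aux.ordN hp hm hA H3) hHA hHE hstar
  exact Ribet.isResiduallyModularOfLevel_of_cong (NeZero.ne m) hf' hΔ 𝔪' h𝔪' hp𝔪'
    (S := (↑S : Set ℕ)) S.finite_toSet hcong'

/-- **(E2)**, with (G2) as a hypothesis. -/
theorem lower_at_p {p : ℕ} (hp : p.Prime) (hp2 : p ≠ 2) {W : WeierstrassCurve ℤ}
    (hirr : W.ModRepIsIrreducible p) (hgood : W.IsGoodPrimeFor p) {m : ℕ} [NeZero m]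
    (hm : ¬ p ∣ m) {r : ℕ} (hr : r.Prime) (hrm : r ∣ m) (hr12 : r % 12 = 11)
    (hG2 : G2At p m) (hres : W.IsResiduallyModularOfLevel p (m * p)) :
    W.IsResiduallyModularOfLevel p m :=
  lower_of_wt hp hp2 (Fermat.Agent.ECFlat.Δ_ne_zero_of_good hgood) hirr hm hr hrm hr12 hG2
    (fun _ hA _ H3 => haveI : Fact p.Prime := ⟨hp⟩
      wt_of_good hp hm hA H3 hp2 hgood) hres

/-- **(E2)** of S59: only (G2) at `p = 3` is left as a hypothesis. -/
theorem lowerAtP_of (hG2 : ∀ m : ℕ, [NeZero m] → ¬ 3 ∣ m → G2At 3 m) : S59aux.LowerAtP := by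
  intro p hp W hΔ hW hirr r M hr hsq hrM hpM hgood hres
  have hpp : p.Prime := by rcases hp with rfl | rfl <;> norm_num
  have hp2 : p ≠ 2 := by rcases hp with rfl | rfl <;> norm_num
  obtain ⟨m, rfl⟩ := hpM
  have hM0 : p * m ≠ 0 := hsq.ne_zero
  have hm0 : m ≠ 0 := fun h => hM0 (by rw [h, mul_zero])
  haveI : NeZero m := ⟨hm0⟩
  have hm : ¬ p ∣ m := by
    intro h
    have h2 : p * p ∣ p * m := mul_dvd_mul_left p h
    exact hpp.one_lt.ne' (Nat.isUnit_iff.1 (hsq p h2))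
  rw [Nat.mul_div_cancel_left _ hpp.pos]
  have hrm : r ∣ m := (hr.prime.dvd_mul.1 hrM).resolve_left fun h =>
    hr.ne ((Nat.prime_dvd_prime_iff_eq hr.prime hpp).1 h)
  refine lower_at_p hpp hp2 hirr hgood hm hr.prime hrm hr.mod_twelve ?_ (by rwa [mul_comm] at hres)
  rcases hp with rfl | rfl
  · exact hG2 m hm
  · exact g2At_of_five_le hpp le_rfl hm

end Fermat.Agent.LowP

end
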