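import Fermat.Agent.S59.Sides
import Fermat.Agent.S59.Frob
import Fermat.Agent.HSide.Top
import Fermat.Agent.RT.NormSide
import Fermat.Agent.RT.Stmts

/-!
# The norm elements of inertia and of the diamond operators agree

* `absIrr_odd_univ` : the universal representations are residually absolutely irreducible, odd;
* `norm_level` : the field `norm` of the action of the deformation ring on any module embedded in
  `B.MM qv s`.
-/

set_option autoImplicit false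
set_option linter.style.haveILetI false
set_option synthInstance.maxHeartbeats 400000
set_option maxHeartbeats 1000000

noncomputable section

namespace Fermat.Agent.Sides

open IsLocalRing GaloisRep
open Fermat.Agent.RT (gr aug nOp nrm TM toTM)
open Fermat.Agent.RTD Fermat.Agent.HSide
open Fermat.Agent.S53norm (GQ M2 HasMat)

variable {𝒪 : Type} [CommRing 𝒪] [IsDomain 𝒪] [IsDiscreteValuationRing 𝒪]
  [IsAdicComplete (maximalIdeal 𝒪) 𝒪] {p : ℕ} {𝓢 : Setup 𝒪 p} {L : PCond}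

/-- The universal representations are residually absolutely irreducible and odd. -/
theorem absIrr_odd_univ {Q : Finset ℕ} (D : DeformationRingData 𝒪 𝓢.ρbar (𝓢.type L Q))
    (hodd : 𝓢.ρbar.IsOdd) : D.ρ.residual.IsAbsolutelyIrreducible ∧ D.ρ.residual.IsOdd := by
  obtain ⟨κ, hκ⟩ : ∃ κ : 𝒪, 2 * κ = 1 := by
    obtain ⟨κ, hκ⟩ := (𝓢.isUnit_natCast Nat.prime_two (Ne.symm 𝓢.hp2)).exists_right_inv
    exact ⟨κ, by exact_mod_cast hκ⟩
  exact S59aux.absIrr_odd_of_isEquiv (κ := residue 𝒪 κ)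
    (by rw [← map_ofNat (residue 𝒪) 2, ← map_mul, hκ, map_one]) _ D.residual_isEquiv 𝓢.habs hodd

variable [Finite (ResidueField 𝒪)] [CharZero 𝒪] [Fact p.Prime] {S : Finset ℕ}

/-- **The field `norm`**, for a module `X` embedded in `B.MM qv s`. -/
theorem norm_level (G : 𝓢.GalSide L S) (hodd : 𝓢.ρbar.IsOdd) (B : Base 𝒪 p 𝓢.pr S) (n : ℕ)
    (A : Auxs B (G.qv n)) [IsLocalRing (Lam 𝒪 p (G.qv n))]
    (s : Finset ({v // v ∈ 𝓢.T₀} ⊕ {v // v ∈ 𝓢.V}))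
    {X : Type} [AddCommGroup X] [Module (Lam 𝒪 p (G.qv n)) X]
    (j : X →ₗ[Lam 𝒪 p (G.qv n)] B.MM (G.qv n) s) (hj : Function.Injective j)
    (Tx : ℕ → Module.End (Lam 𝒪 p (G.qv n)) X)
    (hT : ∀ ℓ : ℕ, ℓ.Prime → ℓ ∉ S → (∀ i, ℓ ≠ G.qv n i) → ∀ x,
      j (Tx ℓ x) = B.T (G.qv n) s ℓ (j x))
    (act : (G.Lv n).D.R →+* Module.End (Lam 𝒪 p (G.qv n)) X)
    (hC : ∀ (c : 𝒪) x, act (algebraMap 𝒪 (G.Lv n).D.R c) x =
      algebraMap 𝒪 (Lam 𝒪 p (G.qv n)) c • x)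
    (hF : ∀ ℓ : ℕ, ℓ.Prime → ℓ ∉ S → (∀ i, ℓ ≠ G.qv n i) →
      ∀ A : ValuationSubring (AlgebraicClosure ℚ), A.LiesOverPrime ℓ → ∀ σ : GQ,
        A.IsFrobeniusAt σ ℓ → act (tr G n σ) = Tx ℓ) (i : Fin G.m) (x : X) :
    act (nOp (pPart p (G.qv n i)) (θ G n i : (G.Lv n).D.R)) x =
      nOp (pPart p (G.qv n i)) (gr 𝒪 (Dia p (G.qv n)) (gen p (G.qv n) i)) • x := by
  obtain ⟨h1, h2⟩ := absIrr_odd_univ (G.Lv n).D hodd
  refine RT.norm_MM B A RT.stmt36 (RT.unipLow B.p_ne_two (B.S_sub B.pS)) s i j hj act hC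
    (G.Lv n).D.ρ (fun ℓ Q hQ σ hσ y => ?_) (G.Lv n).D.isOfType.1.1 h1 h2 ((G.Lv n).tw i) x
  have h3 : (ℓ.1 : ℕ) ∉ S := fun h => ℓ.2 (Finset.mem_coe.mpr (B.S_sub h))
  have h4 : ∀ i, (ℓ.1 : ℕ) ≠ G.qv n i := fun i h => ℓ.2 (Finset.mem_coe.mpr (h ▸ B.qv_mem i))
  exact (congrArg (fun f : Module.End (Lam 𝒪 p (G.qv n)) X => j (f y))
    (hF ℓ.1 ℓ.1.2 h3 h4 Q hQ σ hσ)).trans ((hT ℓ.1 ℓ.1.2 h3 h4 y).trans
      (congrArg (fun f : Module.End (Lam 𝒪 p (G.qv n)) (B.MM (G.qv n) s) => f (j y))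
        (tvo_hT (B.eta (G.qv n) s) (B.eta (G.qv n) s ^ 2) (B.th (G.qv n)) ℓ)))

end Fermat.Agent.Sides

end
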