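import Fermat.Agent.S59.ShellUnr
import Fermat.Agent.GalW.Final

/-!
# `Climb` from the modularity lifting statements
-/

set_option autoImplicit false
set_option linter.style.haveILetI false

noncomputable section

open Polynomial IsLocalRing Matrix Fermat.Agent.S53norm Fermat.Agent.RTD Fermat.Agent.Tate
open Fermat.Agent.FlatGS Fermat.Agent.GalRep
open WeierstrassCurve WeierstrassCurve.Affine FermatAgent.ECVal Fermat.Agent.ECRed
open scoped WeierstrassCurve.Affine TensorProduct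

namespace Fermat.Agent.S59aux

/-- The characteristic polynomial of Frobenius at a prime of multiplicative reduction. -/
def FrobMult : Prop :=
  ∀ (p : ℕ) [Fact p.Prime] (W : WeierstrassCurve ℤ) (hΔ : (W.map (Int.castRingHom ℚ)).Δ ≠ 0)
    (q : ℕ), p ≠ 2 → IsMultAt W q → q ≠ p →
    ∀ A : ValuationSubring (AlgebraicClosure ℚ), A.LiesOverPrime q →
    ∀ σ : AlgebraicClosure ℚ ≃ₐ[ℚ] AlgebraicClosure ℚ, A.IsFrobeniusAt σ q →
      ∃ ε : ℤ_[p], ε ^ 2 = 1 ∧
        LinearMap.charpoly ((tateRep (W.map (Int.castRingHom ℚ)) hΔ p).ρ σ) =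
          (X - C ε) * (X - C (ε * (q : ℤ_[p])))

section sets

variable {p r N₀ c : ℕ}

/-- the combinatorics of the levels. -/
theorem exists_levels (hp : p.Prime) (hr : r.Prime) (hrp : r ≠ p)
    (hsq : Squarefree N₀) (hrN : r ∣ N₀) (hc : Squarefree c) (hN₀ : N₀ ∣ c) :
    ∃ (N : ℕ) (T S : Finset ℕ), N ≠ 0 ∧ Squarefree N ∧ ¬ p ∣ N ∧ r ∣ N ∧
      (∀ q : ℕ, q.Prime → (q ∣ N ↔ q ∣ N₀ ∧ q ≠ p)) ∧
      (∀ v ∈ T, v.Prime ∧ v ≠ p ∧ ¬ v ∣ N) ∧ (∀ v ∈ T, v ∣ c ∧ ¬ v ∣ N₀) ∧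
      (∀ q : ℕ, q ∈ S ↔ q.Prime ∧ (q = p ∨ q ∣ N ∨ q ∈ T)) ∧
      (∀ q : ℕ, q ∈ S ↔ q = p ∨ (q.Prime ∧ q ∣ c)) ∧
      (¬ p ∣ c → N = N₀ ∧ c = N * ∏ v ∈ T, v) ∧
      (p ∣ c → N₀ ∣ N * p ∧ c = N * p * ∏ v ∈ T, v) := by
  classical
  have hN0 : N₀ ≠ 0 := hsq.ne_zero
  have hc0 : c ≠ 0 := hc.ne_zero
  set P₀ := N₀.primeFactors.erase p with hP₀
  set P := c.primeFactors.erase p with hP
  have hsub : P₀ ⊆ P := Finset.erase_subset_erase _ (Nat.primeFactors_mono hN₀ hc0)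
  have hP₀p : ∀ q ∈ P₀, q.Prime := fun q hq =>
    Nat.prime_of_mem_primeFactors (Finset.mem_of_mem_erase hq)
  have hPp : ∀ q ∈ P, q.Prime := fun q hq =>
    Nat.prime_of_mem_primeFactors (Finset.mem_of_mem_erase hq)
  set N := ∏ q ∈ P₀, q with hN
  have hNdvd : N ∣ N₀ := by
    conv_rhs => rw [← Nat.prod_primeFactors_of_squarefree hsq]
    exact Finset.prod_dvd_prod_of_subset _ _ _ (Finset.erase_subset _ _)
  have hNpf : ∀ q : ℕ, q.Prime → (q ∣ N ↔ q ∈ P₀) := by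
    intro q hq
    constructor
    · intro h
      obtain ⟨q', hq', hqq'⟩ := (hq.prime.dvd_finsetProd_iff _).mp h
      rwa [(Nat.prime_dvd_prime_iff_eq hq (hP₀p q' hq')).mp hqq']
    · intro h
      exact Finset.dvd_prod_of_mem _ h
  have hmemP₀ : ∀ q : ℕ, q ∈ P₀ ↔ q ≠ p ∧ q.Prime ∧ q ∣ N₀ := by
    intro q
    rw [hP₀, Finset.mem_erase, Nat.mem_primeFactors]
    exact ⟨fun h => ⟨h.1, h.2.1, h.2.2.1⟩, fun h => ⟨h.1, h.2.1, h.2.2, hN0⟩⟩
  have hmemP : ∀ q : ℕ, q ∈ P ↔ q ≠ p ∧ q.Prime ∧ q ∣ c := by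
    intro q
    rw [hP, Finset.mem_erase, Nat.mem_primeFactors]
    exact ⟨fun h => ⟨h.1, h.2.1, h.2.2.1⟩, fun h => ⟨h.1, h.2.1, h.2.2, hc0⟩⟩
  have hprodP : (∏ q ∈ P, q) = N * ∏ v ∈ P \ P₀, v := by
    rw [hN, mul_comm]
    exact (Finset.prod_sdiff hsub).symm
  have hpN : ¬ p ∣ N := fun h => (hmemP₀ p).mp ((hNpf p hp).mp h) |>.1 rfl
  refine ⟨N, P \ P₀, insert p P, ?_, hsq.squarefree_of_dvd hNdvd, hpN, ?_, ?_, ?_, ?_, ?_, ?_, ?_, ?_⟩
  · exact fun h => hN0 (by rw [h] at hNdvd; exact Nat.eq_zero_of_zero_dvd hNdvd)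
  · exact (hNpf r hr).mpr ((hmemP₀ r).mpr ⟨hrp, hr, hrN⟩)
  · intro q hq
    rw [hNpf q hq, hmemP₀]
    tauto
  · intro v hv
    rw [Finset.mem_sdiff] at hv
    have h1 := (hmemP v).mp hv.1
    exact ⟨h1.2.1, h1.1, fun h => hv.2 ((hNpf v h1.2.1).mp h)⟩
  · intro v hv
    rw [Finset.mem_sdiff] at hv
    have h1 := (hmemP v).mp hv.1
    exact ⟨h1.2.2, fun h => hv.2 ((hmemP₀ v).mpr ⟨h1.1, h1.2.1, h⟩)⟩
  · intro q
    rw [Finset.mem_insert, Finset.mem_sdiff]
    constructor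
    · rintro (rfl | h)
      · exact ⟨hp, Or.inl rfl⟩
      · have h1 := (hmemP q).mp h
        refine ⟨h1.2.1, Or.inr ?_⟩
        by_cases h2 : q ∈ P₀
        · exact Or.inl ((hNpf q h1.2.1).mpr h2)
        · exact Or.inr ⟨h, h2⟩
    · rintro ⟨h1, h2 | h2 | h2⟩
      · exact Or.inl h2
      · exact Or.inr (hsub ((hNpf q h1).mp h2))
      · exact Or.inr h2.1
  · intro q
    rw [Finset.mem_insert, hmemP]
    constructor
    · rintro (h | h)
      · exact Or.inl h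
      · exact Or.inr h.2
    · rintro (h | h)
      · exact Or.inl h
      · by_cases hqp : q = p
        · exact Or.inl hqp
        · exact Or.inr ⟨hqp, h⟩
  · intro hpc
    have hpN₀ : ¬ p ∣ N₀ := fun h => hpc (h.trans hN₀)
    constructor
    · have h1 : P₀ = N₀.primeFactors := Finset.erase_eq_of_notMem
        (fun h => hpN₀ (Nat.dvd_of_mem_primeFactors h))
      rw [hN, h1, Nat.prod_primeFactors_of_squarefree hsq]
    · have h1 : P = c.primeFactors := Finset.erase_eq_of_notMem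
        (fun h => hpc (Nat.dvd_of_mem_primeFactors h))
      rw [← hprodP, h1, Nat.prod_primeFactors_of_squarefree hc]
  · intro hpc
    constructor
    · rw [← Nat.prod_primeFactors_of_squarefree hsq]
      refine Finset.prod_primes_dvd _ (fun q hq => (Nat.prime_of_mem_primeFactors hq).prime) ?_
      intro q hq
      by_cases hqp : q = p
      · rw [hqp]; exact dvd_mul_left _ _
      · exact dvd_mul_of_dvd_left ((hNpf q (Nat.prime_of_mem_primeFactors hq)).mpr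
          ((hmemP₀ q).mpr ⟨hqp, Nat.prime_of_mem_primeFactors hq,
            Nat.dvd_of_mem_primeFactors hq⟩)) _
    · have h1 : p * ∏ q ∈ P, q = c := by
        have h2 := Finset.mul_prod_erase c.primeFactors (fun q => q)
          (Nat.mem_primeFactors.mpr ⟨hp, hpc, hc0⟩)
        rw [hP, h2]
        exact Nat.prod_primeFactors_of_squarefree hc
      rw [← h1, hprodP]
      ring

end sets

section shell

variable {W : WeierstrassCurve ℤ} (hΔ : (W.map (Int.castRingHom ℚ)).Δ ≠ 0)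
  (p : ℕ) [hp : Fact p.Prime]

/-- The lift `T_p E ⊗ W(F_{p²})`. -/
abbrev xO : GaloisRepAdic (OO p) := tateO hΔ p (phiO p) (isLocalHom_phiO p)

theorem charpoly_residual {A : Type} [CommRing A] [IsLocalRing A] (ρ : GaloisRepAdic A)
    (σ : AlgebraicClosure ℚ ≃ₐ[ℚ] AlgebraicClosure ℚ) :
    LinearMap.charpoly (ρ.residual.ρ σ) = (LinearMap.charpoly (ρ.ρ σ)).map (residue A) :=
  LinearMap.charpoly_baseChange _ _

theorem charpoly_xO (σ : AlgebraicClosure ℚ ≃ₐ[ℚ] AlgebraicClosure ℚ) :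
    LinearMap.charpoly ((xO hΔ p).ρ σ) =
      (LinearMap.charpoly ((tateRep (W.map (Int.castRingHom ℚ)) hΔ p).ρ σ)).map (phiO p) :=
  charpoly_baseChangeAlong' _ _ _ _

theorem xO_residual_isUnramifiedAt_iff {v : ℕ} : (xO hΔ p).residual.IsUnramifiedAt v ↔
    (tateRep (W.map (Int.castRingHom ℚ)) hΔ p).residual.IsUnramifiedAt v := by
  constructor
  · intro h A hA σ hσ
    exact (residual_baseChangeAlong_eq_one_iff _ _ _ σ).mp (h A hA σ hσ)
  · intro h A hA σ hσ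
    exact (residual_baseChangeAlong_eq_one_iff _ _ _ σ).mpr (h A hA σ hσ)

theorem xO_residual_isUnramifiedAt_iff_unrAt {v : ℕ} :
    (xO hΔ p).residual.IsUnramifiedAt v ↔ UnrAt W p v := by
  rw [xO_residual_isUnramifiedAt_iff]
  constructor
  · intro h A hA σ hσ
    exact (tateRep_residual_eq_one_iff hΔ p σ).mp (h A hA σ hσ)
  · intro h A hA σ hσ
    exact (tateRep_residual_eq_one_iff hΔ p σ).mpr (h A hA σ hσ)

theorem xO_split (σ : AlgebraicClosure ℚ ≃ₐ[ℚ] AlgebraicClosure ℚ) :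
    ∃ α β : ResidueField (OO p),
      LinearMap.charpoly ((xO hΔ p).residual.ρ σ) = (X - C α) * (X - C β) := by
  rw [charpoly_residual, charpoly_xO, Polynomial.map_map]
  refine exists_split_res p _ (LinearMap.charpoly_monic _) ?_
  rw [LinearMap.charpoly_natDegree, (tateRep (W.map (Int.castRingHom ℚ)) hΔ p).finrank_eq]

variable {p}

/-- the data of the climb, for a semistable curve. -/
theorem climbData_of (hfm : FrobMult) (hp2 : p ≠ 2) (hW : W.IsSemistableModel)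
    (hirr : W.ModRepIsIrreducible p) {r N₀ c N : ℕ} {T S : Finset ℕ} (hr : AuxPrime W p r)
    (hc : c = r * W.conductorLevel) (hN₀ : N₀ ≠ 0)
    (hram : ∀ q : ℕ, q.Prime → q ∣ N₀ → q = r ∨ q = p ∨ ¬ UnrAt W p q)
    (hres : W.IsResiduallyModularOfLevel p N₀)
    (hsqN : Squarefree N) (hpN : ¬ p ∣ N) (hrN : r ∣ N)
    (hNN₀ : ∀ q : ℕ, q.Prime → (q ∣ N ↔ q ∣ N₀ ∧ q ≠ p))
    (hT : ∀ v ∈ T, v.Prime ∧ v ≠ p ∧ ¬ v ∣ N) (hTc : ∀ v ∈ T, v ∣ c ∧ ¬ v ∣ N₀)
    (hS : ∀ q : ℕ, q ∈ S ↔ q.Prime ∧ (q = p ∨ q ∣ N ∨ q ∈ T))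
    (hSc : ∀ q : ℕ, q ∈ S ↔ q = p ∨ (q.Prime ∧ q ∣ c)) :
    ClimbData p (xO hΔ p) r N T S (fun ℓ => ((W.apOfModel ℓ : ℤ) : OO p)) := by
  have hΔ' : W.Δ ≠ 0 := Δ_ne_zero_of_map hΔ
  have hgood : ∀ q : ℕ, q.Prime → q ∉ S → W.IsGoodPrimeFor q := by
    intro q hq hqS hdvd
    apply hqS
    rw [hSc, hc]
    exact Or.inr ⟨hq, dvd_mul_of_dvd_right
      ((WeierstrassCurve.prime_dvd_conductorLevel_iff W hΔ' hq).mpr hdvd) _⟩
  have hTbad : ∀ v ∈ T, (v : ℤ) ∣ W.Δ := by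
    intro v hv
    have h1 := (hTc v hv).1
    have hvp := (hT v hv).1
    rw [hc] at h1
    rcases hvp.dvd_mul.mp h1 with h | h
    · exfalso
      rw [Nat.prime_dvd_prime_iff_eq hvp hr.prime] at h
      exact (hT v hv).2.2 (h ▸ hrN)
    · exact (WeierstrassCurve.prime_dvd_conductorLevel_iff W hΔ' hvp).mp h
  refine
    { abs := tateO_residual_isAbsolutelyIrreducible hΔ p _ _ hp2 hirr
      odd := tateO_residual_isOdd hΔ p _ _ hp2
      split := xO_split hΔ p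
      tw := fun r₁ h₁ => GalW.noLine_residual hΔ p hW hirr hp2 _ _ h₁
      sqf := hsqN
      not_dvd := hpN
      mem_T := hT
      mem_S := hS
      r_prime := hr.prime
      r_dvd := hrN
      r_mod := hr.mod_twelve
      r_not_one := hr.not_one
      r_unr := (xO_residual_isUnramifiedAt_iff_unrAt hΔ p).mpr
        (unrAt_of_good hp.out hr.prime hr.ne hr.good)
      r_frob := ?_
      ram := ?_
      T_unr := ?_
      T_frob := ?_
      frob := ?_ }
  · intro A hA σ hσ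
    haveI : Fact r.Prime := ⟨hr.prime⟩
    have h1 := charpoly_tateO_frobenius hΔ p (phiO p) (isLocalHom_phiO p) hr.good
      (Ne.symm hr.ne) hA hσ
    have h2 := charpoly_residual (xO hΔ p) σ
    rw [h1, S30aux.charpoly_eq_trace_det (xO hΔ p).residual.finrank_eq] at h2
    have h3 := congrArg (fun q => q.coeff 1) h2
    simp only [Polynomial.map_add, Polynomial.map_sub, Polynomial.map_mul, Polynomial.map_pow,
      Polynomial.map_X, Polynomial.map_C, coeff_add, coeff_sub, coeff_C_mul, coeff_X_one,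
      coeff_X_pow, coeff_C] at h3
    norm_num at h3
    rw [h3]
    intro h4
    apply hr.not_raising
    have h5 : residue (OO p) ((((W.apOfModel r) ^ 2 - ((r : ℤ) + 1) ^ 2 : ℤ)) : OO p) = 0 := by
      rw [map_intCast]
      push_cast
      rw [h4, sub_self]
    have hch : CharP (ResidueField (OO p)) p := charP_of_mem (p_mem_OO p)
    rw [map_intCast] at h5
    exact (CharP.intCast_eq_zero_iff (ResidueField (OO p)) p _).mp h5
  · intro q hq hqN hqr hunr
    obtain ⟨h1, h2⟩ := (hNN₀ q hq).mp hqN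
    rcases hram q hq h1 with h | h | h
    · exact hqr h
    · exact h2 h
    · exact h ((xO_residual_isUnramifiedAt_iff_unrAt hΔ p).mp hunr)
  · intro v hv
    rw [xO_residual_isUnramifiedAt_iff]
    refine tateRep_residual_isUnramifiedAt hΔ hp2 hirr hN₀ hres (hT v hv).1 fun h => ?_
    rcases (hT v hv).1.dvd_mul.mp h with h | h
    · exact (hTc v hv).2 h
    · exact (hT v hv).2.1 ((Nat.prime_dvd_prime_iff_eq (hT v hv).1 hp.out).mp h)
  · intro v hv A hA σ hσ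
    obtain ⟨ε, hε, hch⟩ := hfm p W hΔ v hp2
      (isMultAt_of_semistable hW hΔ' (hT v hv).1 (hTbad v hv)) (hT v hv).2.1 A hA σ hσ
    refine ⟨phiO p ε, by rw [← map_pow, hε, map_one], ?_⟩
    rw [charpoly_residual, charpoly_xO, hch]
    simp [Polynomial.map_mul]
  · intro ℓ hℓ hℓS A hA σ hσ
    haveI : Fact ℓ.Prime := ⟨hℓ⟩
    exact charpoly_tateO_frobenius hΔ p (phiO p) (isLocalHom_phiO p) (hgood ℓ hℓ hℓS)
      (fun h => hℓS ((hSc ℓ).mpr (Or.inl h.symm))) hA hσ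

end shell

/-- **The climb** from the two modularity lifting theorems. -/
theorem climb_of (h35 : S58aux.Stmt35) (hfm : FrobMult) (hF : ClimbFlat) (hS : ClimbStrict) :
    Climb := by
  intro p hp W hΔ' hW hirr r N₀ hr hsq hrN hN₀ hram hres
  have hpp : p.Prime := by rcases hp with rfl | rfl <;> norm_num
  haveI : Fact p.Prime := ⟨hpp⟩
  have hp2 : p ≠ 2 := by rcases hp with rfl | rfl <;> norm_num
  have hΔ : (W.map (Int.castRingHom ℚ)).Δ ≠ 0 := by
    rw [WeierstrassCurve.map_Δ]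
    simpa using hΔ'
  have hrc : ¬ r ∣ W.conductorLevel := fun h =>
    hr.good ((WeierstrassCurve.prime_dvd_conductorLevel_iff W hΔ' hr.prime).mp h)
  have hsqc : Squarefree (r * W.conductorLevel) := by
    rw [Nat.squarefree_mul ((Nat.Prime.coprime_iff_not_dvd hr.prime).mpr hrc)]
    exact ⟨hr.prime.squarefree, W.squarefree_conductorLevel⟩
  obtain ⟨N, T, S, hN0, hsqN, hpN, hrN', hNN₀, hT, hTc, hSmem, hSc, hflat, hstrict⟩ :=
    exists_levels hpp hr.prime hr.ne hsq hrN hsqc hN₀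
  have hD := climbData_of hΔ hfm hp2 hW hirr hr rfl hsq.ne_zero hram hres hsqN hpN hrN' hNN₀ hT
    hTc hSmem hSc
  haveI : NeZero N := ⟨hN0⟩
  haveI : NeZero (r * W.conductorLevel) := ⟨hsqc.ne_zero⟩
  have hgood : ∀ q : ℕ, q.Prime → q ∉ S → W.IsGoodPrimeFor q := by
    intro q hq hqS hdvd
    apply hqS
    rw [hSc]
    exact Or.inr ⟨hq, dvd_mul_of_dvd_right
      ((WeierstrassCurve.prime_dvd_conductorLevel_iff W hΔ' hq).mpr hdvd) _⟩
  have hpS : p ∈ S := (hSc p).mpr (Or.inl rfl)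
  have hpc : p ∣ r * W.conductorLevel ↔ ¬ W.IsGoodPrimeFor p := by
    rw [hpp.dvd_mul, WeierstrassCurve.prime_dvd_conductorLevel_iff W hΔ' hpp]
    constructor
    · rintro (h | h)
      · exact absurd ((Nat.prime_dvd_prime_iff_eq hpp hr.prime).mp h) (Ne.symm hr.ne)
      · exact not_not.mpr h
    · exact fun h => Or.inr (not_not.mp h)
  by_cases hpgood : W.IsGoodPrimeFor p
  · obtain ⟨hNN, hlev⟩ := hflat (fun h => hpc.mp h hpgood)
    have hocc : OccursRes N S (fun ℓ => ((W.apOfModel ℓ : ℤ) : OO p)) :=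
      occursRes_of_resMod (p_mem_OO p) S hpS
        (fun q hq hqN => (hSmem q).mpr ⟨hq, Or.inr (Or.inl hqN)⟩) hgood (by rw [hNN]; exact hres)
    exact modular_of_occurs h35 hΔ' S (hF p (OO p) (xO hΔ p) r N T S _ (r * W.conductorLevel) hp2
      (p_mem_OO p) hD (tateO_condFlat hΔ p _ _ hW hp2 hpgood S S hpS hgood) hlev hocc)
  · obtain ⟨hNN, hlev⟩ := hstrict (hpc.mpr hpgood)
    haveI : NeZero (N * p) := ⟨Nat.mul_ne_zero hN0 hpp.ne_zero⟩
    have hocc : OccursRes (N * p) S (fun ℓ => ((W.apOfModel ℓ : ℤ) : OO p)) :=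
      occursRes_of_resMod (p_mem_OO p) S hpS
        (fun q hq hqN => by
          rcases hq.dvd_mul.mp hqN with h | h
          · exact (hSmem q).mpr ⟨hq, Or.inr (Or.inl h)⟩
          · exact (hSmem q).mpr ⟨hq, Or.inl ((Nat.prime_dvd_prime_iff_eq hq hpp).mp h)⟩) hgood
        (resMod_raise (Nat.mul_pos (Nat.pos_of_ne_zero hN0) hpp.pos) hNN hres)
    exact modular_of_occurs h35 hΔ' S (hS p (OO p) (xO hΔ p) r N T S _ (r * W.conductorLevel) hp2
      (p_mem_OO p) hD (tateO_condOrd hΔ p _ _ hW hp2 hpgood S S hpS hgood) hlev hocc)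

end Fermat.Agent.S59aux
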