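import Fermat.Agent.S59.Top
import Fermat.Agent.S59.ClimbDef
import Fermat.Agent.S59.Coeff
import Fermat.Agent.EC.TateDatum
import Fermat.Agent.RTD.CondBasic

/-!
# The residual representation of `T_p E ⊗ 𝒪` and `E[p]`
-/

set_option autoImplicit false

noncomputable section

open Polynomial IsLocalRing Matrix Fermat.Agent.S53norm Fermat.Agent.RTD Fermat.Agent.Tate
open Fermat.Agent.FlatGS
open WeierstrassCurve WeierstrassCurve.Affine FermatAgent.ECVal Fermat.Agent.ECRed
open scoped WeierstrassCurve.Affine TensorProduct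

namespace Fermat.Agent.S59aux

section eqone

variable {A : Type} [CommRing A] [IsLocalRing A] {B : Type} [CommRing B] [IsLocalRing B]

theorem map_eq_one_iff_of_injective {k k' : Type} [Field k] [Field k'] (f : k →+* k') (X : M2 k) :
    X.map f = 1 ↔ X = 1 := by
  constructor
  · intro h
    ext i j
    have h1 := congrFun (congrFun h i) j
    rw [Matrix.map_apply] at h1
    apply f.injective
    rw [h1, Matrix.one_apply, Matrix.one_apply]
    split_ifs <;> simp
  · rintro rfl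
    ext i j
    rw [Matrix.map_apply, Matrix.one_apply, Matrix.one_apply]
    split_ifs <;> simp

theorem residual_baseChangeAlong_eq_one_iff (ρ : GaloisRepAdic A) (φ : A →+* B)
    (hφ : IsLocalHom φ) (σ : AlgebraicClosure ℚ ≃ₐ[ℚ] AlgebraicClosure ℚ) :
    (ρ.baseChangeAlong φ hφ).residual.ρ σ = 1 ↔ ρ.residual.ρ σ = 1 := by
  obtain ⟨r, hr⟩ := exists_hasMat_adic ρ
  rw [hasMat_eq_one_iff hr.residual, hasMat_eq_one_iff (hr.baseChangeAlong φ hφ).residual]
  have h : ((r σ).map φ).map (residue B) = ((r σ).map (residue A)).map (ResidueField.map φ) := by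
    ext i j
    simp only [Matrix.map_apply]
    rfl
  rw [h]
  exact map_eq_one_iff_of_injective _ _

theorem res_baseChangeAlong_eq_one_iff {k k' : Type} [Field k] [Field k'] (ρ : ResidualGaloisRep k)
    (φ : k →+* k') (σ : AlgebraicClosure ℚ ≃ₐ[ℚ] AlgebraicClosure ℚ) :
    (ρ.baseChangeAlong φ).ρ σ = 1 ↔ ρ.ρ σ = 1 := by
  obtain ⟨r, hr⟩ := exists_hasMat_res ρ
  rw [hasMat_eq_one_iff hr, hasMat_eq_one_iff (hr.baseChangeAlong_res φ)]
  exact map_eq_one_iff_of_injective _ _

theorem residual_eq_one_iff {ρ : GaloisRepAdic A}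
    {r : (AlgebraicClosure ℚ ≃ₐ[ℚ] AlgebraicClosure ℚ) → M2 A}
    (hr : HasMat (ρ.ρ : (AlgebraicClosure ℚ ≃ₐ[ℚ] AlgebraicClosure ℚ) → _) r)
    (σ : AlgebraicClosure ℚ ≃ₐ[ℚ] AlgebraicClosure ℚ) :
    ρ.residual.ρ σ = 1 ↔ ∀ i j, (r σ - 1) i j ∈ maximalIdeal A := by
  rw [hasMat_eq_one_iff hr.residual]
  constructor
  · intro h i j
    rw [← residue_eq_zero_iff, Matrix.sub_apply, map_sub, sub_eq_zero]
    have h1 := congrFun (congrFun h i) j
    rw [Matrix.map_apply] at h1
    rw [h1, Matrix.one_apply, Matrix.one_apply]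
    split_ifs <;> simp
  · intro h
    ext i j
    have h1 := h i j
    rw [← residue_eq_zero_iff, Matrix.sub_apply, map_sub, sub_eq_zero] at h1
    rw [Matrix.map_apply, h1, Matrix.one_apply, Matrix.one_apply]
    split_ifs <;> simp

end eqone

section tate

variable {W : WeierstrassCurve ℤ} (hΔ : (W.map (Int.castRingHom ℚ)).Δ ≠ 0)
  (p : ℕ) [hp : Fact p.Prime]

/-- The residual representation of `T_p E` is trivial at `σ` iff `E[p]` is. -/
theorem tateRep_residual_eq_one_iff (σ : AlgebraicClosure ℚ ≃ₐ[ℚ] AlgebraicClosure ℚ) :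
    (tateRep (W.map (Int.castRingHom ℚ)) hΔ p).residual.ρ σ = 1 ↔
      WeierstrassCurve.Affine.Point.galoisRepModuleEnd (K := AlgebraicClosure ℚ) ℚ
        (W.map (Int.castRingHom ℚ)) p σ = 1 := by
  obtain ⟨r, hr⟩ := exists_hasMat_adic (tateRep (W.map (Int.castRingHom ℚ)) hΔ p)
  rw [residual_eq_one_iff hr]
  obtain ⟨e, he⟩ := hr
  have hmem : ∀ a : ℤ_[p], a ∈ maximalIdeal ℤ_[p] ↔ ∃ b, a = (p : ℤ_[p]) * b := by
    intro a
    rw [PadicInt.maximalIdeal_eq_span_p, Ideal.mem_span_singleton']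
    constructor
    · rintro ⟨b, rfl⟩; exact ⟨b, mul_comm _ _⟩
    · rintro ⟨b, rfl⟩; exact ⟨b, mul_comm _ _⟩
  have hT := hasTwoRank_curve hΔ p
  -- the middle condition
  have hmid : (∀ i j, (r σ - 1) i j ∈ maximalIdeal ℤ_[p]) ↔
      ∀ v : (tateRep (W.map (Int.castRingHom ℚ)) hΔ p).V,
        ∃ w, (tateRep (W.map (Int.castRingHom ℚ)) hΔ p).ρ σ v - v = (p : ℤ_[p]) • w := by
    constructor
    · intro h v
      choose b hb using fun i j => (hmem _).mp (h i j)
      refine ⟨e.symm (Matrix.of b *ᵥ e v), e.injective ?_⟩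
      rw [map_sub, he, map_smul, LinearEquiv.apply_symm_apply]
      ext i
      have h1 : (r σ *ᵥ e v - e v) i = ((r σ - 1) *ᵥ e v) i := by
        rw [Matrix.sub_mulVec, Matrix.one_mulVec]
      rw [h1]
      simp only [Matrix.mulVec, dotProduct, Fin.sum_univ_two, Pi.smul_apply, smul_eq_mul,
        Matrix.of_apply, hb]
      ring
    · intro h i j
      obtain ⟨w, hw⟩ := h (e.symm (Pi.single j 1))
      have h1 := congrArg e hw
      rw [map_sub, he, map_smul, LinearEquiv.apply_symm_apply] at h1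
      have h2 := congrFun h1 i
      rw [Pi.sub_apply, Matrix.mulVec_single_one, Pi.smul_apply, smul_eq_mul] at h2
      rw [hmem]
      refine ⟨e w i, ?_⟩
      rw [← h2, Matrix.sub_apply, Matrix.one_apply]
      rw [Matrix.col_apply, Pi.single_apply]
  rw [hmid]
  constructor
  · intro h
    refine LinearMap.ext fun P => ?_
    rw [Affine.Point.galoisRepModuleEnd_apply, Module.End.one_apply]
    obtain ⟨v, hv⟩ : ∃ v : (tateRep (W.map (Int.castRingHom ℚ)) hΔ p).V,
        toT hΔ v 1 = (P : (EQ W).Point) :=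
      hT.exists_apply_eq (n := 1) (x := (P : (EQ W).Point))
        (by rw [pow_one]; exact mem_torsionBy_nat.mp P.2)
    obtain ⟨w, hw⟩ := h v
    apply Subtype.ext
    have h1 : toT hΔ ((tateRep (W.map (Int.castRingHom ℚ)) hΔ p).ρ σ v - v) 1 = 0 := by
      rw [hw]
      refine (TMod.apply_eq_zero_iff (p := p) (A := (EQ W).Point) _ 1).mpr ⟨w, ?_⟩
      rw [pow_one]
      rfl
    have h2 : σ • (toT hΔ v 1) - toT hΔ v 1 = 0 := h1
    have h3 : toT hΔ v 1 = (P : (EQ W).Point) := hv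
    rw [h3, sub_eq_zero] at h2
    exact h2
  · intro h v
    have hv1 : p • toT hΔ v 1 = 0 := by
      have := TMod.pow_smul_apply (toT hΔ v) 1
      rwa [pow_one] at this
    have h1 := congrArg (fun f => f (⟨toT hΔ v 1, mem_torsionBy_nat.mpr hv1⟩ :
        Submodule.torsionBy ℤ (EQ W).Point (p : ℤ))) h
    rw [Affine.Point.galoisRepModuleEnd_apply, Module.End.one_apply] at h1
    have h2 : σ • (toT hΔ v 1) = toT hΔ v 1 := congrArg Subtype.val h1
    have h3 : toT hΔ ((tateRep (W.map (Int.castRingHom ℚ)) hΔ p).ρ σ v - v) 1 = 0 := by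
      change σ • (toT hΔ v 1) - toT hΔ v 1 = 0
      rw [h2, sub_self]
    obtain ⟨w, hw⟩ := (TMod.apply_eq_zero_iff (p := p) (A := (EQ W).Point) _ 1).mp h3
    refine ⟨w, ?_⟩
    rw [pow_one] at hw
    exact hw

end tate

end Fermat.Agent.S59aux
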