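import Fermat.Agent.S59.ShellRes
import Fermat.Agent.S29
import Fermat.Agent.S59.Modular

/-!
# Residual modularity of level `N`: `E[p]` is unramified outside `N p`; the relations
-/

set_option autoImplicit false
set_option linter.style.haveILetI false

noncomputable section

open Polynomial IsLocalRing Matrix Fermat.Agent.S53norm Fermat.Agent.RTD Fermat.Agent.Tate
open Fermat.Agent.FlatGS Fermat.Agent.GalRep
open WeierstrassCurve WeierstrassCurve.Affine FermatAgent.ECVal Fermat.Agent.ECRed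
open scoped WeierstrassCurve.Affine TensorProduct

namespace Fermat.Agent.S59aux

theorem exists_embed (p : ℕ) [hp : Fact p.Prime] (k : Type) [Field k] [Finite k] [CharP k p]
    (K : Type) [Field K] [IsAlgClosed K] [CharP K p] : Nonempty (k →+* K) := by
  letI := ZMod.algebra k p
  letI := ZMod.algebra K p
  haveI : Module.Finite (ZMod p) k := Module.Finite.of_finite
  exact ⟨(IsAlgClosed.lift (R := ZMod p) (S := k) (M := K) : k →ₐ[ZMod p] K)⟩

variable {W : WeierstrassCurve ℤ} (hΔ : (W.map (Int.castRingHom ℚ)).Δ ≠ 0)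
  {p : ℕ} [hp : Fact p.Prime]

instance finite_residueField_padicInt : Finite (ResidueField ℤ_[p]) := by
  haveI : NeZero p := ⟨hp.out.ne_zero⟩
  exact Finite.of_equiv _ (PadicInt.residueField (p := p)).symm.toEquiv

theorem charP_of_mem {A : Type} [CommRing A] [IsLocalRing A] (h : (p : A) ∈ maximalIdeal A) :
    CharP (ResidueField A) p := by
  refine Frob.charP_of_prime_natCast_eq_zero hp.out ?_
  rw [← map_natCast (residue A)]
  exact (residue_eq_zero_iff _).mpr h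

theorem map_map_quad {A B B' : Type*} [CommRing A] [CommRing B] [CommRing B'] (f : A →+* B)
    (g : B →+* B') (a : ℤ) (ℓ : ℕ) :
    ((X ^ 2 - C (a : A) * X + C (ℓ : A)).map f).map g =
      X ^ 2 - C (a : B') * X + C (ℓ : B') := by
  simp

/-- **`E[p]` is unramified at the primes not dividing `N p`** if `E[p]` is modular of level `N`. -/
theorem tateRep_residual_isUnramifiedAt (hp2 : p ≠ 2) (hirr : W.ModRepIsIrreducible p)
    {N : ℕ} (hN : N ≠ 0) (hres : W.IsResiduallyModularOfLevel p N) {v : ℕ} (hv : v.Prime)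
    (hvN : ¬ v ∣ N * p) :
    (tateRep (W.map (Int.castRingHom ℚ)) hΔ p).residual.IsUnramifiedAt v := by
  have hΔ' : W.Δ ≠ 0 := Δ_ne_zero_of_map hΔ
  obtain ⟨f, 𝔪, hf, hmax, hp𝔪, hcong⟩ := hres
  letI : Field (integralClosure ℤ ℂ ⧸ 𝔪) := Ideal.Quotient.field 𝔪
  let K := AlgebraicClosure (integralClosure ℤ ℂ ⧸ 𝔪)
  let φ : integralClosure ℤ ℂ →+* K :=
    (algebraMap (integralClosure ℤ ℂ ⧸ 𝔪) K).comp (Ideal.Quotient.mk 𝔪)
  have hφ𝔪 : ∀ a ∈ 𝔪, φ a = 0 := fun a ha => by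
    rw [RingHom.comp_apply, Ideal.Quotient.eq_zero_iff_mem.mpr ha, map_zero]
  have hpK : (p : K) = 0 := by
    rw [← map_natCast φ]
    exact hφ𝔪 _ hp𝔪
  haveI : CharP K p := Frob.charP_of_prime_natCast_eq_zero hp.out hpK
  haveI : CharP (ResidueField ℤ_[p]) p := charP_of_mem (natCast_mem_maximalIdeal p)
  obtain ⟨ι⟩ := exists_embed p (ResidueField ℤ_[p]) K
  obtain ⟨ρ, hatt, hunr⟩ := Fermat.Agent.S29.result hf hp.out φ
  have h2 := two_ne_zero_residueField p hp2 (natCast_mem_maximalIdeal p)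
  set ρ₀ := (tateRep (W.map (Int.castRingHom ℚ)) hΔ p).residual with hρ₀
  have hdc₀ : LinearMap.det (ρ₀.ρ complexConjugation) = -1 := by
    rw [hρ₀, det_residual, Fermat.Agent.S30aux.cyc_complexConjugation, map_neg, map_one]
  have habs : ρ₀.IsAbsolutelyIrreducible := tateRep_residual_isAbsolutelyIrreducible hΔ p hp2 hirr
  have habs1 : (ρ₀.baseChangeAlong ι).IsAbsolutelyIrreducible :=
    (Fermat.Agent.HeckeRep.isAbsolutelyIrreducible_baseChangeAlong_iff
      (c := complexConjugation) complexConjugation_mul_self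
      (κ := (2 : ResidueField ℤ_[p])⁻¹) (mul_inv_cancel₀ h2) ρ₀ hdc₀ ι).mpr habs
  have hκ : 2 * ι (2 : ResidueField ℤ_[p])⁻¹ = 1 := by
    rw [← map_ofNat ι 2, ← map_mul, mul_inv_cancel₀ h2, map_one]
  have hdc1 : LinearMap.det ((ρ₀.baseChangeAlong ι).ρ complexConjugation) = -1 := by
    letI : Algebra (ResidueField ℤ_[p]) K := ι.toAlgebra
    exact Fermat.Agent.HeckeRep.det_baseChange_c complexConjugation_mul_self
      (mul_inv_cancel₀ h2) ρ₀ K hdc₀
  have hirr1 : (ρ₀.baseChangeAlong ι).IsIrreducible :=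
    (Fermat.Agent.HeckeRep.isAbsolutelyIrreducible_iff (c := complexConjugation)
      complexConjugation_mul_self hκ _ hdc1).mp habs1
  have hequiv : (ρ₀.baseChangeAlong ι).IsEquiv ρ := by
    refine Fermat.Agent.HeckeRep.residual_isEquiv_of_frobenius complexConjugation_mul_self hκ
      hdc1 hirr1 (((N * p).primeFactors ∪ W.Δ.natAbs.primeFactors : Finset ℕ) : Set ℕ)
      (Finset.finite_toSet _) ?_
    intro ℓ hℓ hℓS A hA σ hσ
    rw [Finset.mem_coe, Finset.mem_union, not_or] at hℓS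
    have hℓNp : ¬ ℓ ∣ N * p := fun h =>
      hℓS.1 (Nat.mem_primeFactors.mpr ⟨hℓ, h, Nat.mul_ne_zero hN hp.out.ne_zero⟩)
    have hℓN : ¬ ℓ ∣ N := fun h => hℓNp (h.trans (dvd_mul_right _ _))
    have hℓp : p ≠ ℓ := fun h => hℓNp (h ▸ dvd_mul_left _ _)
    have hgood : W.IsGoodPrimeFor ℓ := fun h =>
      hℓS.2 (Nat.mem_primeFactors.mpr ⟨hℓ, Int.natCast_dvd.mp h, Int.natAbs_ne_zero.mpr hΔ'⟩)
    haveI : Fact ℓ.Prime := ⟨hℓ⟩
    have hℓK : (ℓ : K) ≠ 0 := fun h =>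
      hℓp ((Nat.prime_dvd_prime_iff_eq hp.out hℓ).mp ((CharP.cast_eq_zero_iff K p ℓ).mp h))
    obtain ⟨a, ha, hac⟩ := hatt ℓ hℓ hℓN hℓK A hA σ hσ
    obtain ⟨b, hb, hbm⟩ := hcong ℓ hℓ hgood hℓN (Ne.symm hℓp)
    have hab : a = b := Subtype.ext (ha.trans hb.symm)
    subst hab
    have hφa : φ a = ((W.apOfModel ℓ : ℤ) : K) := by
      have h3 := hφ𝔪 _ hbm
      rw [map_sub, map_intCast, sub_eq_zero] at h3
      exact h3
    rw [Fermat.Agent.HeckeRep.charpoly_baseChangeAlong, hac, hφa, hρ₀]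
    have h4 : LinearMap.charpoly ((tateRep (W.map (Int.castRingHom ℚ)) hΔ p).residual.ρ σ) =
        (LinearMap.charpoly ((tateRep (W.map (Int.castRingHom ℚ)) hΔ p).ρ σ)).map
          (residue ℤ_[p]) := LinearMap.charpoly_baseChange _ _
    rw [h4, charpoly_tateRep_frobenius p hΔ hgood hℓp hA hσ]
    exact map_map_quad _ _ _ _
  intro A hA σ hσ
  have h5 : ρ.ρ σ = 1 := hunr v hv hvN A hA σ hσ
  rw [← res_baseChangeAlong_eq_one_iff ρ₀ ι σ]
  obtain ⟨e⟩ := hequiv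
  refine LinearMap.ext fun y => e.toLinearEquiv.injective ?_
  rw [Module.End.one_apply]
  have h6 := e.map_apply σ y
  rw [h5, Module.End.one_apply] at h6
  exact h6

theorem evalA_intCast {𝒪 : Type} [CommRing 𝒪] (S : Finset ℕ) (b : ℕ → ℤ)
    (t : HeckeAlgS (↑S : Set ℕ)) :
    evalA (↑S : Set ℕ) (fun ℓ => ((b ℓ : ℤ) : 𝒪)) t = ((S44w.thetaZ S b t : ℤ) : 𝒪) := by
  have h : evalA (↑S : Set ℕ) (fun ℓ => ((b ℓ : ℤ) : 𝒪)) =
      (Int.castRingHom 𝒪).comp (S44w.thetaZ S b) := by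
    apply MvPolynomial.ringHom_ext
    · intro r
      simp [evalA]
    · intro i
      simp
  rw [h]
  rfl

/-- Residual modularity in terms of the relations of the Hecke algebra. -/
theorem occursRes_of_resMod {𝒪 : Type} [CommRing 𝒪] [IsLocalRing 𝒪]
    (hp𝒪 : (p : 𝒪) ∈ maximalIdeal 𝒪) {N : ℕ} [NeZero N] (S : Finset ℕ) (hpS : p ∈ S)
    (hNS : ∀ q : ℕ, q.Prime → q ∣ N → q ∈ S) (hS : ∀ q : ℕ, q.Prime → q ∉ S → W.IsGoodPrimeFor q)
    (hres : W.IsResiduallyModularOfLevel p N) :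
    OccursRes N S (fun ℓ => ((W.apOfModel ℓ : ℤ) : 𝒪)) := by
  obtain ⟨f, 𝔪, hf, hmax, hp𝔪, hcong⟩ := hres
  intro t ht
  have h1 : S44w.theta S p (fun ℓ => W.apOfModel ℓ) t = 0 :=
    S44w.theta_eq_zero_of_mem_span hf hmax hp𝔪 (fun ℓ hℓ hℓS =>
      hcong ℓ hℓ (hS ℓ hℓ hℓS) (fun h => hℓS (hNS ℓ hℓ h)) (fun h => hℓS (h ▸ hpS)))
      (by rw [ht]; exact Ideal.zero_mem _)
  rw [S44w.theta_eq, ZMod.intCast_zmod_eq_zero_iff_dvd] at h1
  rw [evalA_intCast, residue_eq_zero_iff]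
  obtain ⟨c, hc⟩ := h1
  rw [hc, Int.cast_mul, Int.cast_natCast]
  exact Ideal.mul_mem_right _ _ hp𝒪

/-- Modularity from the relations, over a ring of characteristic `0`. -/
theorem modular_of_occurs {𝒪 : Type} [CommRing 𝒪] [CharZero 𝒪] (h35 : S58aux.Stmt35)
    (hΔ : W.Δ ≠ 0) {N : ℕ} [NeZero N] (S : Finset ℕ)
    (h : Occurs N S (fun ℓ => ((W.apOfModel ℓ : ℤ) : 𝒪))) : W.IsModularModelOfLevel N := by
  refine modular_of_relations h35 hΔ S fun t ht => ?_
  have h1 := h t ht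
  rw [evalA_intCast] at h1
  exact_mod_cast h1

end Fermat.Agent.S59aux
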