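import Fermat.Agent.S59.Sides

set_option autoImplicit false

/-!
# The patching package attached to the two sides
-/

noncomputable section

namespace Fermat.Agent.Sides

open IsLocalRing GaloisRep
open Fermat.Agent.RT (gr aug nOp nrm TM toTM smul_toTM isLocalRing_groupRing)
open Fermat.Agent.RTD
open Fermat.Agent.S53norm (GQ M2 HasMat)
open Fermat.Agent.LocRing (LocData LamT Ka IT trT SgT locK)
open Fermat.Agent.Patch (TWPackage)

variable {𝒪 : Type} [CommRing 𝒪] [IsDomain 𝒪] [IsDiscreteValuationRing 𝒪]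
  [IsAdicComplete (maximalIdeal 𝒪) 𝒪] {p : ℕ} {𝓢 : Setup 𝒪 p} {L : PCond} {S : Finset ℕ}
  {G : 𝓢.GalSide L S} {H : HeckeSide 𝒪 p G.qv 𝓢.pr S}

/-- `M s n`, with the action of `R_n` and the action of `𝒪[Δ_n]` through the `θ_i`. -/
def TMod (_A : GalAct G H) (s : Finset ({v // v ∈ 𝓢.T₀} ⊕ {v // v ∈ 𝓢.V})) (n : ℕ) : Type :=
  H.M s n

/-- `M₀ s`, with the action of `R_∅`. -/
def BMod (_A : GalAct G H) (s : Finset ({v // v ∈ 𝓢.T₀} ⊕ {v // v ∈ 𝓢.V})) : Type :=
  H.M₀ s

variable (A : GalAct G H) (s : Finset ({v // v ∈ 𝓢.T₀} ⊕ {v // v ∈ 𝓢.V})) (n : ℕ)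

instance : AddCommGroup (TMod A s n) := H.acg s n

instance : Module (G.Lv n).D.R (TMod A s n) := Module.compHom (H.M s n) (A.act s n)

/-- the homomorphism `𝒪[Δ_n] → R_n` -/
def thA (G : 𝓢.GalSide L S) (n : ℕ) : MonoidAlgebra 𝒪 (Dia p (G.qv n)) →ₐ[𝒪] (G.Lv n).D.R :=
  thetaAlg 𝒪 (θ_pow G n)

instance : Module (MonoidAlgebra 𝒪 (Dia p (G.qv n))) (TMod A s n) :=
  Module.compHom (TMod A s n) (thA G n : MonoidAlgebra 𝒪 (Dia p (G.qv n)) →+* (G.Lv n).D.R)

instance : AddCommGroup (BMod A s) := H.acg₀ s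

instance : Module G.D₀.R (BMod A s) := Module.compHom (H.M₀ s) (A.act₀ s)

/-- The identity map. -/
def toT : H.M s n ≃+ TMod A s n := AddEquiv.refl _

/-- The identity map. -/
def toB : H.M₀ s ≃+ BMod A s := AddEquiv.refl _

lemma smul_toT (f : (G.Lv n).D.R) (x : H.M s n) : f • toT A s n x = toT A s n (A.act s n f x) :=
  rfl

lemma smul_toB (f : G.D₀.R) (x : H.M₀ s) : f • toB A s x = toB A s (A.act₀ s f x) := rfl

lemma smul_toT' (l : MonoidAlgebra 𝒪 (Dia p (G.qv n))) (x : H.M s n) :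
    l • toT A s n x = toT A s n (A.act s n (thA G n l) x) := rfl

/-- Freeness over the group ring acting through the `θ_i`, and the augmentation submodules. -/
theorem exists_basis_TMod :
    Nonempty (Module.Basis (Fin (H.d s)) (MonoidAlgebra 𝒪 (Dia p (G.qv n))) (TMod A s n)) ∧
    ∀ x : H.M s n, x ∈ (RingHom.ker (aug 𝒪 (Dia p (G.qv n))) • ⊤ :
        Submodule (MonoidAlgebra 𝒪 (Dia p (G.qv n))) (H.M s n)) →
      toT A s n x ∈ (RingHom.ker (aug 𝒪 (Dia p (G.qv n))) • ⊤ :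
        Submodule (MonoidAlgebra 𝒪 (Dia p (G.qv n))) (TMod A s n)) := by
  haveI := 𝓢.fact
  obtain ⟨b⟩ := H.b s n
  letI mod𝒪 : Module 𝒪 (H.M s n) :=
    Module.compHom (H.M s n) (algebraMap 𝒪 (MonoidAlgebra 𝒪 (Dia p (G.qv n))))
  have hsm : ∀ (c : 𝒪) (x : H.M s n), c • x =
      algebraMap 𝒪 (MonoidAlgebra 𝒪 (Dia p (G.qv n))) c • x := fun _ _ => rfl
  have hst1 : IsScalarTower 𝒪 (MonoidAlgebra 𝒪 (Dia p (G.qv n))) (H.M s n) :=
    ⟨fun a l x => by rw [hsm, Algebra.smul_def, mul_smul]⟩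
  have hfin : Module.Finite (MonoidAlgebra 𝒪 (Dia p (G.qv n))) (H.M s n) :=
    Module.Finite.of_basis b
  have hfree : Module.Free (MonoidAlgebra 𝒪 (Dia p (G.qv n))) (H.M s n) :=
    Module.Free.of_basis b
  let Θ : MonoidAlgebra 𝒪 (Dia p (G.qv n)) →ₐ[𝒪] Module.End 𝒪 (H.M s n) :=
    { toFun := fun l =>
        { toFun := fun x => A.act s n (thA G n l) x
          map_add' := fun x y => map_add _ x y
          map_smul' := fun c x => by
            rw [hsm, map_smul, RingHom.id_apply, hsm] }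
      map_one' := by
        refine LinearMap.ext fun x => ?_
        show A.act s n (thA G n 1) x = x
        rw [map_one, map_one]
        rfl
      map_mul' := fun a b => by
        refine LinearMap.ext fun x => ?_
        show A.act s n (thA G n (a * b)) x = A.act s n (thA G n a) (A.act s n (thA G n b) x)
        rw [map_mul, map_mul]
        rfl
      map_zero' := by
        refine LinearMap.ext fun x => ?_
        show A.act s n (thA G n 0) x = 0
        rw [map_zero, map_zero]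
        rfl
      map_add' := fun a b => by
        refine LinearMap.ext fun x => ?_
        show A.act s n (thA G n (a + b)) x = A.act s n (thA G n a) x + A.act s n (thA G n b) x
        rw [map_add, map_add]
        rfl
      commutes' := fun c => by
        refine LinearMap.ext fun x => ?_
        show A.act s n (thA G n (algebraMap 𝒪 _ c)) x = c • x
        rw [AlgHom.commutes, A.act_C]
        rfl }
  have hΘ : ∀ l (x : H.M s n), Θ l x = A.act s n (thA G n l) x := fun l x => rfl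
  have hcomm : ∀ (a b : MonoidAlgebra 𝒪 (Dia p (G.qv n))) (x : H.M s n),
      Θ a (b • x) = b • Θ a x := fun a b x => by
    rw [hΘ, hΘ, map_smul]
  have hN : ∀ i (x : H.M s n), Θ (nrm 𝒪 (gen p (G.qv n) i)) x = nrm 𝒪 (gen p (G.qv n) i) • x := by
    intro i x
    have h1 : thA G n (nrm 𝒪 (gen p (G.qv n) i)) =
        nOp (pPart p (G.qv n i)) (θ G n i : (G.Lv n).D.R) := by
      rw [nrm_gen, nOp, map_sum, nOp]
      refine Finset.sum_congr rfl fun j _ => ?_
      rw [map_pow, thA, thetaAlg_gen]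
    rw [hΘ, h1, A.norm, nrm_gen]
  constructor
  · obtain ⟨b', -⟩ := RT.exists_basis_theta Θ hcomm 𝓢.hp𝒪 (isPGroup_Dia p (G.qv n))
      (gen p (G.qv n)) (closure_gen p (G.qv n)) hN b
    let e : TM Θ ≃ₗ[MonoidAlgebra 𝒪 (Dia p (G.qv n))] TMod A s n :=
      { toFun := fun x => x
        invFun := fun x => x
        left_inv := fun _ => rfl
        right_inv := fun _ => rfl
        map_add' := fun _ _ => rfl
        map_smul' := fun _ _ => rfl }
    exact ⟨b'.map e⟩
  · intro x hx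
    have h1 := toTM_mem Θ hcomm 𝓢.hp𝒪 hN hx
    let e : TM Θ →ₗ[MonoidAlgebra 𝒪 (Dia p (G.qv n))] TMod A s n :=
      { toFun := fun x => x
        map_add' := fun _ _ => rfl
        map_smul' := fun _ _ => rfl }
    have h2 : e (toTM Θ x) ∈ (RingHom.ker (aug 𝒪 (Dia p (G.qv n))) • ⊤ :
        Submodule (MonoidAlgebra 𝒪 (Dia p (G.qv n))) (TM Θ)).map e := ⟨_, h1, rfl⟩
    rw [Submodule.map_smul''] at h2
    exact Submodule.smul_mono le_rfl le_top h2


variable {s} {n}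

/-- A linear map of `H`, seen over `R_n`. -/
def linT {s s' : Finset ({v // v ∈ 𝓢.T₀} ⊕ {v // v ∈ 𝓢.V})} {n : ℕ}
    (f : H.M s n →ₗ[MonoidAlgebra 𝒪 (Dia p (G.qv n))] H.M s' n)
    (hf : ∀ (a : (G.Lv n).D.R) x, f (A.act s n a x) = A.act s' n a (f x)) :
    TMod A s n →ₗ[(G.Lv n).D.R] TMod A s' n where
  toFun := f
  map_add' := f.map_add
  map_smul' := hf

lemma linT_toT {s s' : Finset ({v // v ∈ 𝓢.T₀} ⊕ {v // v ∈ 𝓢.V})} {n : ℕ}
    (f : H.M s n →ₗ[MonoidAlgebra 𝒪 (Dia p (G.qv n))] H.M s' n)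
    (hf : ∀ (a : (G.Lv n).D.R) x, f (A.act s n a x) = A.act s' n a (f x)) (x : H.M s n) :
    linT A f hf (toT A s n x) = toT A s' n (f x) := rfl

/-- The trace of Frobenius at `v`. -/
lemma tr_φ (n : ℕ) (v : {v // v ∈ 𝓢.T₀} ⊕ {v // v ∈ 𝓢.V}) :
    (G.Lv n).γ (trT (Fin (G.m - 𝓢.δ)) 𝓢.locData v) = tr G n (𝓢.φ (𝓢.pr v)) :=
  ((G.Lv n).trace_φ v).symm

/-- **The patching package.** -/
def package [Finite (ResidueField 𝒪)] : TWPackage 𝓢.locData (Fin (G.m - 𝓢.δ)) G.m p
    (fun n => (G.Lv n).D.R) G.D₀.R (fun n => Dia p (G.qv n)) (TMod A) (BMod A) H.d where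
  γ := fun n => (G.Lv n).γ
  γ_surjective := fun n => (G.Lv n).γ_surj
  γ_IT := fun n f hf => (G.Lv n).IT_le hf
  φ := fun n => (G.Lv n).Φ
  ψ := G.ψ
  ψ_surjective := G.ψ_surj
  ψ_φ := fun n i => by
    rw [(G.Lv n).Φ_X, map_sub, map_one, G.ψ_θ, sub_self]
  g := fun n => gen p (G.qv n)
  g_gen := fun n => closure_gen p (G.qv n)
  g_rel := fun n e he i => by
    haveI := 𝓢.fact
    refine pow_dvd_of_prod_gen p (G.qv n)
      (fun i => ⟨((G.good n).tw i).prime.ne_zero, ((G.good n).tw i).prime.ne_one⟩)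
      (fun i => (pow_dvd_pow p (Nat.le_succ n)).trans ((G.good n).tw i).dvd) he i
  smul_C := fun s n c x => by
    show A.act s n (algebraMap 𝒪 (G.Lv n).D.R c) x =
      A.act s n (thA G n (algebraMap 𝒪 (MonoidAlgebra 𝒪 (Dia p (G.qv n))) c)) x
    rw [AlgHom.commutes]
  smul_g := fun s n i x => by
    show A.act s n ((G.Lv n).γ ((G.Lv n).Φ (MvPowerSeries.X i))) x =
      A.act s n (thA G n (gr 𝒪 (Dia p (G.qv n)) (gen p (G.qv n) i) - 1)) x
    have h1 : thA G n (gr 𝒪 (Dia p (G.qv n)) (gen p (G.qv n) i) - 1) =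
        (θ G n i : (G.Lv n).D.R) - 1 := by
      rw [map_sub, map_one, thA, thetaAlg_gen]
    rw [h1, (G.Lv n).Φ_X]
    rfl
  b := fun s n => (exists_basis_TMod A s n).1.some
  unram := fun s n v hv i j x => A.unram s n v hv i j x
  i1 := fun s v hv n => linT A (H.i1 s v hv n) (A.i1_act s v hv n)
  i2 := fun s v hv n => linT A (H.i2 s v hv n) (A.i2_act s v hv n)
  j1 := fun s v hv n => linT A (H.j1 s v hv n) (A.j1_act s v hv n)
  j2 := fun s v hv n => linT A (H.j2 s v hv n) (A.j2_act s v hv n)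
  j1_i1 := fun s v hv n x => by
    rw [Setup.qT_eq, Nat.cast_smul_eq_nsmul]
    exact H.j1_i1 s v hv n x
  j1_i2 := fun s v hv n x => by
    rw [tr_φ]
    show H.j1 s v hv n (H.i2 s v hv n x) = A.act s n (tr G n (𝓢.φ (𝓢.pr v))) x
    rw [A.act_v s n v hv]
    exact H.j1_i2 s v hv n x
  j2_i1 := fun s v hv n x => by
    rw [tr_φ]
    show H.j2 s v hv n (H.i1 s v hv n x) = A.act s n (tr G n (𝓢.φ (𝓢.pr v))) x
    rw [A.act_v s n v hv]
    exact H.j2_i1 s v hv n x
  j2_i2 := fun s v hv n x => by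
    rw [Setup.qT_eq, Nat.cast_smul_eq_nsmul]
    exact H.j2_i2 s v hv n x
  new := fun s v hv n z h1 h2 => by
    rw [tr_φ, Setup.qT_eq]
    exact A.new s v hv n z h1 h2
  π := fun s n => H.π s n
  π_smul := fun s n f x => A.π_act s n f x
  π_surjective := fun s n => H.π_surjective s n
  π_ker := fun s n x hx => (exists_basis_TMod A s n).2 x (H.π_ker s n x hx)
  I1 := fun s v hv => H.I1 s v hv
  I2 := fun s v hv => H.I2 s v hv
  π_i1 := fun s v hv n x => H.π_i1 s v hv n x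
  π_i2 := fun s v hv n x => H.π_i2 s v hv n x
  ihara := fun ϖ hϖ s v hv x y z h => by
    have hC : ∀ s (y : H.M₀ s), algebraMap 𝒪 G.D₀.R ϖ • toB A s y = toB A s (ϖ • y) :=
      fun s y => by rw [smul_toB, A.act₀_C]
    obtain ⟨⟨x', hx'⟩, y', hy'⟩ := H.ihara ϖ hϖ s v hv x y z (by
      refine Eq.trans h ?_
      exact hC (insert v s) z)
    exact ⟨⟨x', hx'.trans (hC s x').symm⟩, y', hy'.trans (hC s y').symm⟩

end Fermat.Agent.Sides

end
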