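import Fermat.Agent.S59.TInst
import Fermat.Agent.S59.ActOf

/-!
# The Hecke algebras of the Hecke side attached to a base
-/

set_option autoImplicit false
set_option linter.style.haveILetI false
set_option synthInstance.maxHeartbeats 400000
set_option maxHeartbeats 1000000

noncomputable section

namespace Fermat.Agent.Sides

open IsLocalRing Fermat.Agent.TwHecke Fermat.Agent.TwExact Fermat.Agent.HeckeRep
  Fermat.Agent.RTE Fermat.Agent.RTD Fermat.Agent.GalRep Fermat.Agent.HSide CuspForm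

/-- Change of the Hecke operators. -/
def TLev.congrTl {𝒪 : Type} [CommRing 𝒪] [IsLocalRing 𝒪]
    {ρbar : ResidualGaloisRep (ResidueField 𝒪)} {Λ : Type} [CommRing Λ] [Algebra 𝒪 Λ] {M : Type}
    [AddCommGroup M] [Module Λ M] {B : Set ℕ} {Tl Tl' : ℕ → Module.End Λ M}
    (W : TLev ρbar Λ M B Tl) (h : ∀ ℓ : ℕ, ℓ.Prime → ℓ ∉ B → Tl ℓ = Tl' ℓ) :
    TLev ρbar Λ M B Tl' where
  T := W.T
  res_surj := W.res_surj
  ρ := W.ρ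
  res_equiv := W.res_equiv
  gen := W.gen
  act := W.act
  act_C := W.act_C
  act_frob := fun ℓ hℓ hB A hA σ hσ => (W.act_frob ℓ hℓ hB A hA σ hσ).trans (h ℓ hℓ hB)

section Ctx

variable {𝒪 : Type} [CommRing 𝒪] [IsDomain 𝒪] [IsDiscreteValuationRing 𝒪] {p : ℕ}
  (𝓢 : Setup 𝒪 p) {ι : Type} {qT : ι → ℕ} {S : Finset ℕ} (B : Base 𝒪 p qT S)
  (hρ : B.ρb = 𝓢.ρbar)

include hρ

/-- The residual context, for the residual representation of a setup. -/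
theorem hctx_setup {S' : Finset ℕ} (hS : S ⊆ S') :
    HCtx p 𝓢.ρbar S' (thOf B.a (↑S' : Set ℕ)) where
  two := 𝓢.hp2
  mem := 𝓢.hp𝒪
  mem_S := hS B.pS
  abs := 𝓢.habs
  frob ℓ A hA σ hσ := by
    rw [← hρ]
    exact B.frob ℓ.1 ℓ.1.2 (fun h => ℓ.2 (Finset.mem_coe.mpr (hS h))) A hA σ hσ

end Ctx

section Data

variable {𝒪 : Type} [CommRing 𝒪] [IsDomain 𝒪] [IsDiscreteValuationRing 𝒪]
  [IsAdicComplete (maximalIdeal 𝒪) 𝒪] [Finite (ResidueField 𝒪)] [CharZero 𝒪]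
  {p : ℕ} [Fact p.Prime] {𝓢 : Setup 𝒪 p} {S : Finset ℕ} (B : Base 𝒪 p 𝓢.pr S)
  (hρ : B.ρb = 𝓢.ρbar) (hocc : Occ B.N (↑S : Set ℕ) (thOf B.a (↑S : Set ℕ)))
  {m : ℕ} {qv : ℕ → Fin m → ℕ} (A : ∀ n, Auxs B (qv n))

/-- The Hecke algebra of the level `s`, `n`. -/
def topN (s : Finset ({v // v ∈ 𝓢.T₀} ⊕ {v // v ∈ 𝓢.V})) (n : ℕ)
    [IsLocalRing (Lam 𝒪 p (qv n))] :
    TLev 𝓢.ρbar (Lam 𝒪 p (qv n)) (B.MM (qv n) s) (badSet S (qv n)) (B.T (qv n) s) :=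
  haveI : NeZero (B.lev2 (qv n) s) := B.neZero_lev2 (A n) s
  TLev.top B (A n) s (B.occ_lev2 (A n) s hocc) (hctx_setup 𝓢 B hρ B.S_sub)

/-- The Hecke algebra of the bottom level `s`. -/
def botN (m : ℕ) (s : Finset ({v // v ∈ 𝓢.T₀} ⊕ {v // v ∈ 𝓢.V})) :
    TLev 𝓢.ρbar 𝒪 (Finset (Fin m) → B.M0 s) (↑S : Set ℕ)
      (fun ℓ => (B.T0 s ℓ).compLeft (Finset (Fin m))) :=
  TLev.bot B s (B.occ_NS s hocc) (hctx_setup 𝓢 B hρ subset_rfl) (Finset (Fin m))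

variable (s : Finset ({v // v ∈ 𝓢.T₀} ⊕ {v // v ∈ 𝓢.V})) (n : ℕ)

theorem topN_act_v [IsLocalRing (Lam 𝒪 p (qv n))] {v : {v // v ∈ 𝓢.T₀} ⊕ {v // v ∈ 𝓢.V}}
    (hv : v ∉ s) : (topN B hρ hocc A s n).act
      ((topN B hρ hocc A s n).ρ.trace (𝓢.φ (𝓢.pr v))) = B.T (qv n) s (𝓢.pr v) :=
  haveI : NeZero (B.lev2 (qv n) s) := B.neZero_lev2 (A n) s
  TLev.top_act_v B (A n) s (B.occ_lev2 (A n) s hocc) (hctx_setup 𝓢 B hρ B.S_sub) hv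
    (𝓢.ne_p (𝓢.pr_mem v)) (𝓢.hA _ (𝓢.pr_mem v)) (𝓢.hφ _ (𝓢.pr_mem v))

theorem topN_unr [IsLocalRing (Lam 𝒪 p (qv n))] {v : {v // v ∈ 𝓢.T₀} ⊕ {v // v ∈ 𝓢.V}}
    (hv : v ∉ s) : (topN B hρ hocc A s n).ρ.IsUnramifiedAt (𝓢.pr v) :=
  haveI : NeZero (B.lev2 (qv n) s) := B.neZero_lev2 (A n) s
  TLev.top_unr B (A n) s (B.occ_lev2 (A n) s hocc) (hctx_setup 𝓢 B hρ B.S_sub) hv
    (𝓢.ne_p (𝓢.pr_mem v))

theorem topN_new [IsLocalRing (Lam 𝒪 p (qv n))] {v : {v // v ∈ 𝓢.T₀} ⊕ {v // v ∈ 𝓢.V}}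
    (hv : v ∉ s) : ∃ k : ℕ, ∀ z : B.MM (qv n) (insert v s),
      B.mj1 hv (A n) z = 0 → B.mj2 hv (A n) z = 0 →
      (topN B hρ hocc A (insert v s) n).act
        (((topN B hρ hocc A (insert v s) n).ρ.trace (𝓢.φ (𝓢.pr v)) ^ 2 -
          ((𝓢.pr v + 1 : ℕ) : (topN B hρ hocc A (insert v s) n).T) ^ 2) ^ k) z = 0 :=
  haveI : NeZero (B.lev2 (qv n) (insert v s)) := B.neZero_lev2 (A n) (insert v s)
  TLev.top_new B (A n) s (hctx_setup 𝓢 B hρ B.S_sub) hv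
    (𝓢.ne_p (𝓢.pr_mem v)) (B.occ_lev2 (A n) (insert v s) hocc) (𝓢.hA _ (𝓢.pr_mem v))
    (𝓢.hφ _ (𝓢.pr_mem v))

end Data

end Fermat.Agent.Sides
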