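import Fermat.Agent.S59.StrictHyp
import Fermat.Agent.S59.TDataInst

/-!
# The hypotheses of the strictly ordinary case, for `topN` and `botN`
-/

set_option autoImplicit false
set_option linter.unusedSectionVars false
set_option synthInstance.maxHeartbeats 400000
set_option maxHeartbeats 1000000

noncomputable section

namespace Fermat.Agent.Sides

open IsLocalRing Fermat.Agent.TwHecke Fermat.Agent.TwExact Fermat.Agent.HeckeRep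
  Fermat.Agent.RTE Fermat.Agent.RTD Fermat.Agent.GalRep Fermat.Agent.HSide CuspForm

variable {𝒪 : Type} [CommRing 𝒪] [IsDomain 𝒪] [IsDiscreteValuationRing 𝒪]
  [IsAdicComplete (maximalIdeal 𝒪) 𝒪] [Finite (ResidueField 𝒪)] [CharZero 𝒪]
  {p : ℕ} [Fact p.Prime] {𝓢 : Setup 𝒪 p} {S : Finset ℕ} (B : Base 𝒪 p 𝓢.pr S)
  (hqp : ∀ v, 𝓢.pr v ≠ p) (hpN : ¬ p ∣ B.N) (hρ : (B.mulP hqp).ρb = 𝓢.ρbar)
  (hocc : Occ (B.mulP hqp).N (↑S : Set ℕ) (thOf (B.mulP hqp).a (↑S : Set ℕ)))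
  {m : ℕ} {qv : ℕ → Fin m → ℕ} (A : ∀ n, Auxs B (qv n))
  (s : Finset ({v // v ∈ 𝓢.T₀} ⊕ {v // v ∈ 𝓢.V})) (n : ℕ)

include hpN in
/-- **`hty`** -/
theorem typeMod_topN [IsLocalRing (Lam 𝒪 p (qv n))] (hNsq : Squarefree B.N) (hSg : 𝓢.Sg = S)
    (hord : (GaloisRepAdic.ofResidualGaloisRep 𝓢.ρbar).IsStrictOrdinaryAt p)
    {X : Type} [AddCommGroup X] [Module (Lam 𝒪 p (qv n)) X]
    (j : X →ₗ[Lam 𝒪 p (qv n)] (B.mulP hqp).MM (qv n) s)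
    (hj : ∀ x, B.t1 hqp hpN (A n) s (j x) = 0 ∧ B.t2 hqp hpN (A n) s (j x) = 0) :
    (topN (B.mulP hqp) hρ hocc (fun n => B.auxs_mulP hqp (A n)) s n).TypeMod j
      (𝓢.type (Lord p) (Finset.univ.image (qv n))) :=
  have : NeZero ((B.mulP hqp).lev2 (qv n) s) :=
    (B.mulP hqp).neZero_lev2 (B.auxs_mulP hqp (A n)) s
  typeMod_top B (A n) hqp hpN s ((B.mulP hqp).occ_lev2 (B.auxs_mulP hqp (A n)) s hocc) 𝓢
    (hctx_setup 𝓢 (B.mulP hqp) hρ (B.mulP hqp).S_sub) hNsq hSg hord j hj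

/-- **`hflat`** -/
theorem flat_topN [IsLocalRing (Lam 𝒪 p (qv n))]
    (f : (topN (B.mulP hqp) hρ hocc (fun n => B.auxs_mulP hqp (A n)) s n).T →+*
      DualNumber (ResidueField 𝒪)) (hf : IsLocalHom f)
    (hfK : ∀ t, (∀ z, B.t1 hqp hpN (A n) s
        ((topN (B.mulP hqp) hρ hocc (fun n => B.auxs_mulP hqp (A n)) s n).act t z) = 0 ∧
      B.t2 hqp hpN (A n) s
        ((topN (B.mulP hqp) hρ hocc (fun n => B.auxs_mulP hqp (A n)) s n).act t z) = 0) →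
      f t = 0) :
    ((topN (B.mulP hqp) hρ hocc
      (fun n => B.auxs_mulP hqp (A n)) s n).ρ.baseChangeAlong f hf).IsFlatAt p :=
  have : NeZero ((B.mulP hqp).lev2 (qv n) s) :=
    (B.mulP hqp).neZero_lev2 (B.auxs_mulP hqp (A n)) s
  flat_top_dual B (A n) hqp hpN s ((B.mulP hqp).occ_lev2 (B.auxs_mulP hqp (A n)) s hocc) 𝓢
    (hctx_setup 𝓢 (B.mulP hqp) hρ (B.mulP hqp).S_sub) f hf hfK

include hpN in
/-- **`hty₀`** -/
theorem typeMod_botN (hNsq : Squarefree B.N) (hSg : 𝓢.Sg = S)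
    (hord : (GaloisRepAdic.ofResidualGaloisRep 𝓢.ρbar).IsStrictOrdinaryAt p)
    {X : Type} [AddCommGroup X] [Module 𝒪 X]
    (j : X →ₗ[𝒪] (Finset (Fin m) → (B.mulP hqp).M0 s))
    (hj : ∀ x J, B.b1 hqp hpN s (j x J) = 0 ∧ B.b2 hqp hpN s (j x J) = 0) :
    (botN (B.mulP hqp) hρ hocc m s).TypeMod j (𝓢.type (Lord p) ∅) :=
  typeMod_bot B hqp hpN s ((B.mulP hqp).occ_NS s hocc) 𝓢
    (hctx_setup 𝓢 (B.mulP hqp) hρ subset_rfl) (Finset (Fin m)) hNsq hSg hord j hj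

include hpN in
/-- **`hty₀`**, any Hecke operators. -/
theorem typeMod_botN_congr (hNsq : Squarefree B.N) (hSg : 𝓢.Sg = S)
    (hord : (GaloisRepAdic.ofResidualGaloisRep 𝓢.ρbar).IsStrictOrdinaryAt p)
    {X : Type} [AddCommGroup X] [Module 𝒪 X]
    (j : X →ₗ[𝒪] (Finset (Fin m) → (B.mulP hqp).M0 s))
    (hj : ∀ x J, B.b1 hqp hpN s (j x J) = 0 ∧ B.b2 hqp hpN s (j x J) = 0)
    {Tl' : ℕ → Module.End 𝒪 (Finset (Fin m) → (B.mulP hqp).M0 s)}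
    (h : ∀ ℓ : ℕ, ℓ.Prime → ℓ ∉ (↑S : Set ℕ) →
      ((B.mulP hqp).T0 s ℓ).compLeft (Finset (Fin m)) = Tl' ℓ) :
    ((botN (B.mulP hqp) hρ hocc m s).congrTl h).TypeMod j (𝓢.type (Lord p) ∅) :=
  typeMod_botN B hqp hpN hρ hocc s hNsq hSg hord j hj

end Fermat.Agent.Sides

end
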