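import Fermat.Agent.HSide.ActT

/-!
# Levels and actions for the bases of the Hecke side
-/

set_option autoImplicit false
set_option linter.style.haveILetI false

noncomputable section

namespace Fermat.Agent.HSide

open IsLocalRing Fermat.Agent.TwHecke Fermat.Agent.TwExact Fermat.Agent.HeckeRep
  Fermat.Agent.RTE Fermat.Agent.RTD Fermat.Agent.GalRep CuspForm

section Ctx

variable {𝒪 : Type} [CommRing 𝒪] [IsLocalRing 𝒪] {p : ℕ} {ι : Type} {qT : ι → ℕ} {S : Finset ℕ}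
  (B : Base 𝒪 p qT S)

instance Base.neZero_N : NeZero B.N := ⟨B.N_ne⟩

/-- The residual system occurs at all higher levels. -/
theorem Base.occ (hocc : Occ B.N (↑S : Set ℕ) (thOf B.a (↑S : Set ℕ))) {M : ℕ} [NeZero M]
    (hM : B.N ∣ M) {S' : Finset ℕ} (hS : S ⊆ S')
    (hMS : ∀ ℓ : ℕ, ℓ.Prime → ℓ ∣ M → ℓ ∈ (↑S' : Set ℕ)) :
    Occ M (↑S' : Set ℕ) (thOf B.a (↑S' : Set ℕ)) :=
  (hocc.incl (Finset.coe_subset.mpr hS)).up hM hMS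

/-- the primes dividing the level of the Hecke algebra of the top modules -/
theorem Base.levq_mem {m : ℕ} {qv : Fin m → ℕ} (A : Auxs B qv) (s : Finset ι) :
    ∀ ℓ : ℕ, ℓ.Prime → ℓ ∣ B.lev qv s * ∏ i, qv i → ℓ ∈ (↑(B.Sn qv) : Set ℕ) := by
  intro ℓ hℓ h
  rcases hℓ.dvd_mul.mp h with h | h
  · exact B.lev_mem A s ℓ hℓ h
  · exact B.lev_mem A s ℓ hℓ (h.trans (Dvd.intro_left _ rfl))

theorem Base.levq_ne {m : ℕ} {qv : Fin m → ℕ} (A : Auxs B qv) (s : Finset ι) :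
    B.lev qv s * ∏ i, qv i ≠ 0 :=
  mul_ne_zero (B.lev_ne A s) (Finset.prod_ne_zero_iff.mpr fun i _ => (A.prime i).ne_zero)

/-- The residual system occurs at the levels of the Hecke algebras of the top modules. -/
theorem Base.occ_lev (hocc : Occ B.N (↑S : Set ℕ) (thOf B.a (↑S : Set ℕ))) {m : ℕ}
    {qv : Fin m → ℕ} (A : Auxs B qv) (s : Finset ι) [NeZero (B.lev qv s * ∏ i, qv i)] :
    Occ (B.lev qv s * ∏ i, qv i) (↑(B.Sn qv) : Set ℕ) (thOf B.a (↑(B.Sn qv) : Set ℕ)) :=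
  B.occ hocc ((B.N_dvd_NS s).trans ((B.NS_dvd_lev s).trans (Dvd.intro _ rfl))) B.S_sub
    (B.levq_mem A s)

end Ctx

section ActEq

variable {𝒪 : Type} [CommRing 𝒪] [IsDomain 𝒪] [IsDiscreteValuationRing 𝒪]
  [IsAdicComplete (maximalIdeal 𝒪) 𝒪] [Finite (ResidueField 𝒪)] [CharZero 𝒪]
  {Δ : Type} [CommGroup Δ] [Finite Δ] [IsLocalRing (MonoidAlgebra 𝒪 Δ)]

theorem exists_act_eq {M Q₀ L : ℕ} [NeZero M] [NeZero Q₀] [NeZero L]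
    (hQM : Q₀ ∣ M) (hL : M * Q₀ ∣ L) {S : Set ℕ}
    (hS : ∀ ℓ : ℕ, ℓ.Prime → ℓ ∣ L → ℓ ∈ S) (τ₀ : (ZMod Q₀)ˣ →* Δ)
    {θ₀ : PIdx S → ResidueField 𝒪} (h : Occ L S θ₀) (hne : S41hm.StrongNonEis S θ₀)
    {η : (ZMod M)ˣ →* (MonoidAlgebra 𝒪 Δ)ˣ} (heta : η = taut 𝒪 (τ₀.comp (ZMod.unitsMap hQM)))
    (hη : ∀ u, residue (MonoidAlgebra 𝒪 Δ) (η u : MonoidAlgebra 𝒪 Δ) = 1)
    (hG : Good M (η ^ 2) S (thMap (MonoidAlgebra 𝒪 Δ) θ₀)) :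
    ∃ act : heckeLocal L S 𝒪 (sysHom h) →+*
        Module.End (MonoidAlgebra 𝒪 Δ) (Hm M (η ^ 2)
          (MonoidAlgebra 𝒪 Δ) S (thMap (MonoidAlgebra 𝒪 Δ) θ₀)),
      (∀ (a : 𝒪) (x : Hm M (η ^ 2) (MonoidAlgebra 𝒪 Δ) S (thMap (MonoidAlgebra 𝒪 Δ) θ₀)),
        act (algebraMap 𝒪 _ a) x = algebraMap 𝒪 (MonoidAlgebra 𝒪 Δ) a • x) ∧
      ∀ ℓ, act (heckeLocal.π L S 𝒪 (sysHom h) (genS L S ℓ)) =
        hT η (η ^ 2) S (thMap (MonoidAlgebra 𝒪 Δ) θ₀) ℓ := by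
  subst heta
  obtain ⟨act, h1, h2⟩ := exists_act (𝒪 := 𝒪) (Δ := Δ) hQM hL hS τ₀ h hne hη hG
  exact ⟨act, fun a x => by rw [h1]; rfl, h2⟩

end ActEq

section Act

variable {𝒪 : Type} [CommRing 𝒪] [IsDomain 𝒪] [IsDiscreteValuationRing 𝒪]
  [IsAdicComplete (maximalIdeal 𝒪) 𝒪] [Finite (ResidueField 𝒪)] [CharZero 𝒪]
  {p : ℕ} [Fact p.Prime] {ι : Type} {qT : ι → ℕ} {S : Finset ℕ} (B : Base 𝒪 p qT S)

/-- **The action of the Hecke algebra of level `L` on the bottom modules.** -/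
theorem Base.exists_act_M0 {L : ℕ} [NeZero L] (s : Finset ι) (hL : B.NS s ∣ L) {S' : Finset ℕ}
    (hS' : S ⊆ S') (hLS : ∀ ℓ : ℕ, ℓ.Prime → ℓ ∣ L → ℓ ∈ (↑S' : Set ℕ))
    (h : Occ L (↑S' : Set ℕ) (thOf B.a (↑S' : Set ℕ))) :
    ∃ act : heckeLocal L (↑S' : Set ℕ) 𝒪 (sysHom h) →+*
        Module.End 𝒪 (Hm (B.NS s) ((1 : (ZMod (B.NS s))ˣ →* 𝒪ˣ) ^ 2) 𝒪 (↑S' : Set ℕ)
          (thOf B.a (↑S' : Set ℕ))),
      (∀ (a : 𝒪) (x : Hm (B.NS s) ((1 : (ZMod (B.NS s))ˣ →* 𝒪ˣ) ^ 2) 𝒪 (↑S' : Set ℕ)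
          (thOf B.a (↑S' : Set ℕ))), act (algebraMap 𝒪 _ a) x = a • x) ∧
      ∀ ℓ, act (heckeLocal.π L (↑S' : Set ℕ) 𝒪 (sysHom h) (genS L (↑S' : Set ℕ) ℓ)) =
        hT 1 ((1 : (ZMod (B.NS s))ˣ →* 𝒪ˣ) ^ 2) (↑S' : Set ℕ) (thOf B.a (↑S' : Set ℕ)) ℓ := by
  obtain ⟨act, h1, h2⟩ := exists_act_triv hL hLS one_sq_eq h (B.ne S' hS')
    (B.good_bot (B.N_dvd_NS s) hS' fun ℓ hℓ hd => hLS ℓ hℓ (hd.trans hL))
  exact ⟨act, fun a x => by rw [h1]; rfl, h2⟩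

variable {m : ℕ} {qv : Fin m → ℕ} (A : Auxs B qv)

include A in
/-- **The action of the Hecke algebra of level `L` on the modules of the Hecke side.** -/
theorem Base.exists_act_MM [IsLocalRing (Lam 𝒪 p qv)] {L : ℕ} [NeZero L] (s : Finset ι)
    (hL : B.lev qv s * ∏ i, qv i ∣ L)
    (hLS : ∀ ℓ : ℕ, ℓ.Prime → ℓ ∣ L → ℓ ∈ (↑(B.Sn qv) : Set ℕ))
    (h : Occ L (↑(B.Sn qv) : Set ℕ) (thOf B.a (↑(B.Sn qv) : Set ℕ))) :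
    ∃ act : heckeLocal L (↑(B.Sn qv) : Set ℕ) 𝒪 (sysHom h) →+*
        Module.End (Lam 𝒪 p qv) (B.MM qv s),
      (∀ (a : 𝒪) (x : B.MM qv s), act (algebraMap 𝒪 _ a) x = algebraMap 𝒪 (Lam 𝒪 p qv) a • x) ∧
      ∀ ℓ, act (heckeLocal.π L (↑(B.Sn qv) : Set ℕ) 𝒪 (sysHom h)
          (genS L (↑(B.Sn qv) : Set ℕ) ℓ)) =
        hT (B.eta qv s) (B.eta qv s ^ 2) (↑(B.Sn qv) : Set ℕ) (B.th qv) ℓ := by
  have hNZ : NeZero (B.lev qv s) := ⟨B.lev_ne A s⟩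
  have hNZ' : NeZero (∏ i, qv i) := ⟨Finset.prod_ne_zero_iff.mpr fun i _ => (A.prime i).ne_zero⟩
  have hp0 : NeZero p := ⟨(Fact.out : p.Prime).ne_zero⟩
  have hQM : ∏ i, qv i ∣ B.lev qv s := Dvd.intro_left _ rfl
  have hq : ∀ i, qv i ∣ ∏ i, qv i := fun i => Finset.dvd_prod_of_mem qv (Finset.mem_univ i)
  refine exists_act_eq (𝒪 := 𝒪) (Δ := Dia p qv) hQM hL hLS (tauM p qv (∏ i, qv i) hq) h
    (B.ne _ B.S_sub) ?_ (B.residue_eta s) (B.good_lev A s)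
  rw [← tauM_comp hq (B.qv_dvd s) hQM]

end Act

end Fermat.Agent.HSide
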