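import Fermat.Agent.S59.TInstBot
import Fermat.Agent.HSide.ActV
import Fermat.Agent.RTE.NewBase

/-!
# The Hecke algebras acting on the modules of the Hecke side: properties at the primes `qT v`

* `TLev.top_act_v` (`[g1]`), `TLev.top_new` (`[g2]`), `TLev.top_unr`.
-/

set_option autoImplicit false
set_option linter.style.haveILetI false
set_option synthInstance.maxHeartbeats 400000
set_option maxHeartbeats 1000000

noncomputable section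

namespace Fermat.Agent.Sides

open IsLocalRing Fermat.Agent.TwHecke Fermat.Agent.TwExact Fermat.Agent.HeckeRep
  Fermat.Agent.RTE Fermat.Agent.RTD Fermat.Agent.GalRep Fermat.Agent.HSide CuspForm

variable {𝒪 : Type} [CommRing 𝒪] [IsDomain 𝒪] [IsDiscreteValuationRing 𝒪]
  [IsAdicComplete (maximalIdeal 𝒪) 𝒪] [Finite (ResidueField 𝒪)] [CharZero 𝒪]
  {p : ℕ} [Fact p.Prime] {ι : Type} {qT : ι → ℕ} {S : Finset ℕ} (B : Base 𝒪 p qT S)
  {m : ℕ} {qv : Fin m → ℕ} (A : Auxs B qv) [IsLocalRing (Lam 𝒪 p qv)] (s : Finset ι)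
  [NeZero (B.lev2 qv s)]
  (h : Occ (B.lev2 qv s) (↑(B.Sn qv) : Set ℕ) (thOf B.a (↑(B.Sn qv) : Set ℕ)))
  {ρbar : ResidualGaloisRep (ResidueField 𝒪)}
  (ctx : HCtx p ρbar (B.Sn qv) (thOf B.a (↑(B.Sn qv) : Set ℕ)))

theorem actTop_hT (ℓ : PIdx (↑(B.Sn qv) : Set ℕ)) :
    actTop B A s h (heckeLocal.π (B.lev2 qv s) (↑(B.Sn qv) : Set ℕ) 𝒪 (sysHom h)
      (genS (B.lev2 qv s) (↑(B.Sn qv) : Set ℕ) ℓ)) =
      hT (B.eta qv s) (B.eta qv s ^ 2) (↑(B.Sn qv) : Set ℕ) (B.th qv) ℓ :=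
  (actTop_genS B A s h ℓ).trans (tvo_hT _ _ _ ℓ)

theorem actTop_trace (ℓ : PIdx (↑(B.Sn qv) : Set ℕ))
    {P : ValuationSubring (AlgebraicClosure ℚ)} (hP : P.LiesOverPrime (ℓ.1 : ℕ))
    {σ : AlgebraicClosure ℚ ≃ₐ[ℚ] AlgebraicClosure ℚ} (hσ : P.IsFrobeniusAt σ (ℓ.1 : ℕ)) :
    actTop B A s h ((heckeDatum ctx (B.lev2_mem A s) h).ρ.trace σ) =
      hT (B.eta qv s) (B.eta qv s ^ 2) (↑(B.Sn qv) : Set ℕ) (B.th qv) ℓ :=
  (congrArg (actTop B A s h) (heckeDatum_trace ctx (B.lev2_mem A s) h ℓ hP hσ)).trans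
    (actTop_hT B A s h ℓ)

/-- unramified at `qT v` for `v ∉ s`. -/
theorem TLev.top_unr {v : ι} (hv : v ∉ s) (hvp : qT v ≠ p) :
    (TLev.top B A s h ctx).ρ.IsUnramifiedAt (qT v) :=
  TLev.top_unramified B A s h ctx (B.qT_prime v) (B.qT_not_dvd_lev2 A hv) hvp

/-- **[g1]** -/
theorem TLev.top_act_v {v : ι} (hv : v ∉ s) (hvp : qT v ≠ p)
    {P : ValuationSubring (AlgebraicClosure ℚ)} (hP : P.LiesOverPrime (qT v))
    {σ : AlgebraicClosure ℚ ≃ₐ[ℚ] AlgebraicClosure ℚ} (hσ : P.IsFrobeniusAt σ (qT v)) :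
    (TLev.top B A s h ctx).act ((TLev.top B A s h ctx).ρ.trace σ) = B.T qv s (qT v) := by
  haveI : Fact (qT v).Prime := ⟨B.qT_prime v⟩
  exact (B.act_v A hv hvp (heckeDatum ctx (B.lev2_mem A s) h).ρ
    (heckeDatum_det ctx (B.lev2_mem A s) h) (actTop B A s h)
    (fun ℓ Q hQ τ hτ => actTop_trace B A s h ctx ℓ hQ hτ) hP hσ).trans
    (tvo_eq (B.eta qv s) (B.eta qv s ^ 2) (B.th qv)).symm

omit [NeZero (B.lev2 qv s)] in
/-- **[g2]** -/
theorem TLev.top_new [DecidableEq ι] {v : ι} (hv : v ∉ s) (hvp : qT v ≠ p)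
    [NeZero (B.lev2 qv (insert v s))]
    (h : Occ (B.lev2 qv (insert v s)) (↑(B.Sn qv) : Set ℕ) (thOf B.a (↑(B.Sn qv) : Set ℕ)))
    {P : ValuationSubring (AlgebraicClosure ℚ)} (hP : P.LiesOverPrime (qT v))
    {σ : AlgebraicClosure ℚ ≃ₐ[ℚ] AlgebraicClosure ℚ} (hσ : P.IsFrobeniusAt σ (qT v)) :
    ∃ k : ℕ, ∀ z : B.MM qv (insert v s), B.mj1 hv A z = 0 → B.mj2 hv A z = 0 →
      (TLev.top B A (insert v s) h ctx).act
        (((TLev.top B A (insert v s) h ctx).ρ.trace σ ^ 2 -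
          ((qT v + 1 : ℕ) : (TLev.top B A (insert v s) h ctx).T) ^ 2) ^ k) z = 0 :=
  new_hecke B A hv hvp ctx (B.lev2_mem A (insert v s)) h (actTop B A (insert v s) h)
    (B.exists_actT A (insert v s) h).choose_spec.1
    (B.exists_actT A (insert v s) h).choose_spec.2 hP hσ

end Fermat.Agent.Sides
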