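import Fermat.Agent.S59.Sides

set_option autoImplicit false

/-!
# Hecke algebras acting on the Hecke side, and actions of the deformation rings on sub-modules

* `TLev` : a complete local noetherian `𝒪`-algebra `T` with a Galois representation, generated by
  the traces of Frobenius elements, acting on a module `M`.
* `TLev.exists_act` : if `X` is a sub-module of `M` (stable by the Hecke operators) and the
  representation modulo the annihilator of `X` is of type `𝒟`, the deformation ring acts on `X`.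
-/

noncomputable section

namespace Fermat.Agent.Sides

open IsLocalRing GaloisRep
open Fermat.Agent.RT (gr aug nOp nrm TM toTM)
open Fermat.Agent.RTD
open Fermat.Agent.S53norm (GQ M2 HasMat)
open Fermat.Agent.TW

/-- The trace is compatible with base change and equivalence. -/
theorem trace_push {R B : Type} [CommRing R] [IsLocalRing R] [CommRing B] [IsLocalRing B]
    {ρ : GaloisRepAdic R} {x : GaloisRepAdic B} (f : R →+* B) (hf : IsLocalHom f)
    (he : (ρ.baseChangeAlong f hf).IsEquiv x) (σ : GQ) :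
    f (ρ.trace σ) = x.trace σ := by
  obtain ⟨r, hr⟩ := Fermat.Agent.S53norm.exists_hasMat_adic ρ
  have h1 := (hr.baseChangeAlong f hf).of_isEquiv he
  have e1 : ρ.trace σ = (r σ).trace := trace_of_hasMat hr σ
  have e2 : x.trace σ = ((r σ).map f).trace := trace_of_hasMat h1 σ
  rw [e1, e2]
  simp [Matrix.trace_fin_two]

/-- A Hecke algebra with its Galois representation, acting on the `Λ`-module `M`. `B` is the set of
bad primes, `Tl ℓ` the Hecke operators on `M`. -/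
structure TLev {𝒪 : Type} [CommRing 𝒪] [IsLocalRing 𝒪] (ρbar : ResidualGaloisRep (ResidueField 𝒪))
    (Λ : Type) [CommRing Λ] [Algebra 𝒪 Λ] (M : Type) [AddCommGroup M] [Module Λ M]
    (B : Set ℕ) (Tl : ℕ → Module.End Λ M) where
  T : Type
  [cr : CommRing T]
  [lr : IsLocalRing T]
  [nr : IsNoetherianRing T]
  [ac : IsAdicComplete (maximalIdeal T) T]
  [al : Algebra 𝒪 T]
  [lh : IsLocalHom (algebraMap 𝒪 T)]
  res_surj : Function.Surjective (residue T ∘ algebraMap 𝒪 T)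
  ρ : GaloisRepAdic T
  res_equiv : ρ.residual.IsEquiv (ρbar.baseChangeAlong (ResidueField.map (algebraMap 𝒪 T)))
  /-- `T` is generated by the traces of the Frobenius elements outside `B`. -/
  gen : ∀ P : T → Prop, (∀ a : 𝒪, P (algebraMap 𝒪 T a)) →
    (∀ ℓ : ℕ, ℓ.Prime → ℓ ∉ B → ∀ A : ValuationSubring (AlgebraicClosure ℚ),
      A.LiesOverPrime ℓ → ∀ σ : GQ, A.IsFrobeniusAt σ ℓ → P (ρ.trace σ)) →
    (∀ a b, P a → P b → P (a + b)) → (∀ a b, P a → P b → P (a * b)) → ∀ t, P t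
  act : T →+* Module.End Λ M
  act_C : ∀ (a : 𝒪) (x : M), act (algebraMap 𝒪 T a) x = algebraMap 𝒪 Λ a • x
  act_frob : ∀ ℓ : ℕ, ℓ.Prime → ℓ ∉ B → ∀ A : ValuationSubring (AlgebraicClosure ℚ),
    A.LiesOverPrime ℓ → ∀ σ : GQ, A.IsFrobeniusAt σ ℓ → act (ρ.trace σ) = Tl ℓ

attribute [instance] TLev.cr TLev.lr TLev.nr TLev.ac TLev.al TLev.lh

namespace TLev

section Basic

variable {𝒪 : Type} [CommRing 𝒪] [IsLocalRing 𝒪] {ρbar : ResidualGaloisRep (ResidueField 𝒪)}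
  {Λ : Type} [CommRing Λ] [Algebra 𝒪 Λ] {M : Type} [AddCommGroup M] [Module Λ M]
  {B : Set ℕ} {Tl : ℕ → Module.End Λ M} (W : TLev ρbar Λ M B Tl)
  {X : Type} [AddCommGroup X] [Module Λ X] (ι : X →ₗ[Λ] M) (hι : Function.Injective ι)
  (Tx : ℕ → Module.End Λ X)

/-- The annihilator of `X`. -/
def ann (ι : X →ₗ[Λ] M) : Ideal W.T where
  carrier := {t | ∀ x : X, W.act t (ι x) = 0}
  add_mem' := fun {a b} ha hb x => by
    rw [map_add, LinearMap.add_apply, ha x, hb x, add_zero]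
  zero_mem' := fun x => by rw [map_zero, LinearMap.zero_apply]
  smul_mem' := fun a b hb x => by
    rw [smul_eq_mul, map_mul, Module.End.mul_apply, hb x, map_zero]

lemma mem_ann {t : W.T} : t ∈ W.ann ι ↔ ∀ x : X, W.act t (ι x) = 0 := Iff.rfl

/-- `X` is stable by the Hecke algebra. -/
theorem stable (hT : ∀ ℓ : ℕ, ℓ.Prime → ℓ ∉ B → ∀ x, ι (Tx ℓ x) = Tl ℓ (ι x)) (t : W.T) (x : X) :
    ∃ y, ι y = W.act t (ι x) := by
  revert x
  refine W.gen (fun t => ∀ x, ∃ y, ι y = W.act t (ι x)) (fun a x => ?_)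
    (fun ℓ hℓ hB A hA σ hσ x => ?_) (fun a b ha hb x => ?_) (fun a b ha hb x => ?_) t
  · exact ⟨algebraMap 𝒪 Λ a • x, by rw [map_smul, W.act_C]⟩
  · exact ⟨Tx ℓ x, by rw [W.act_frob ℓ hℓ hB A hA σ hσ, hT ℓ hℓ hB]⟩
  · obtain ⟨y, hy⟩ := ha x
    obtain ⟨z, hz⟩ := hb x
    exact ⟨y + z, by rw [map_add, hy, hz, map_add, LinearMap.add_apply]⟩
  · obtain ⟨y, hy⟩ := hb x
    obtain ⟨z, hz⟩ := ha y
    exact ⟨z, by rw [hz, hy, map_mul, Module.End.mul_apply]⟩

include hι in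
/-- The action of the Hecke algebra on `X`. -/
theorem exists_actX (hT : ∀ ℓ : ℕ, ℓ.Prime → ℓ ∉ B → ∀ x, ι (Tx ℓ x) = Tl ℓ (ι x)) :
    ∃ aX : W.T →+* Module.End Λ X, ∀ t x, ι (aX t x) = W.act t (ι x) := by
  choose f hf using W.stable ι Tx hT
  refine ⟨{
    toFun := fun t =>
      { toFun := f t
        map_add' := fun x y => hι (by rw [hf, map_add, map_add, map_add, hf, hf])
        map_smul' := fun c x => hι (by
          rw [hf, map_smul, map_smul, RingHom.id_apply, map_smul, hf]) }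
    map_one' := LinearMap.ext fun x => hι (by
      show ι (f 1 x) = ι x
      rw [hf, map_one, Module.End.one_apply])
    map_mul' := fun a b => LinearMap.ext fun x => hι (by
      show ι (f (a * b) x) = ι (f a (f b x))
      rw [hf, hf, hf, map_mul, Module.End.mul_apply])
    map_zero' := LinearMap.ext fun x => hι (by
      show ι (f 0 x) = ι 0
      rw [hf, map_zero, map_zero, LinearMap.zero_apply])
    map_add' := fun a b => LinearMap.ext fun x => hι (by
      show ι (f (a + b) x) = ι (f a x + f b x)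
      rw [hf, map_add, map_add, hf, hf, LinearMap.add_apply]) }, hf⟩

end Basic

section Galois

variable {𝒪 : Type} [CommRing 𝒪] [IsDomain 𝒪] [IsDiscreteValuationRing 𝒪]
  [IsAdicComplete (maximalIdeal 𝒪) 𝒪] {ρbar : ResidualGaloisRep (ResidueField 𝒪)}
  {Λ : Type} [CommRing Λ] [Algebra 𝒪 Λ] {M : Type} [AddCommGroup M] [Module Λ M]
  {B : Set ℕ} {Tl : ℕ → Module.End Λ M} (W : TLev ρbar Λ M B Tl)
  {X : Type} [AddCommGroup X] [Module Λ X] (ι : X →ₗ[Λ] M) (hι : Function.Injective ι)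
  (Tx : ℕ → Module.End Λ X)
  (𝒟 : ∀ ⦃A : Type⦄ [CommRing A] [IsLocalRing A] [Algebra 𝒪 A], GaloisRepAdic A → Prop)

/-- The representation is of type `𝒟` modulo the annihilator of `X`. -/
def TypeMod : Prop :=
  ∀ (B' : Type) [CommRing B'] [IsLocalRing B'] [IsNoetherianRing B'] [Algebra 𝒪 B']
    [IsLocalHom (algebraMap 𝒪 B')] (f : W.T →ₐ[𝒪] B') (hf : IsLocalHom (f : W.T →+* B')),
    Function.Surjective f → (∀ t ∈ W.ann ι, f t = 0) →
      𝒟 (W.ρ.baseChangeAlong (f : W.T →+* B') hf)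

variable {𝒟} (D : DeformationRingData 𝒪 ρbar 𝒟)

include hι in
theorem ann_ne_top [Nontrivial X] : W.ann ι ≠ ⊤ := by
  intro h
  obtain ⟨x, hx⟩ := exists_ne (0 : X)
  have h1 : (1 : W.T) ∈ W.ann ι := h ▸ Submodule.mem_top
  have h2 := (W.mem_ann ι).mp h1 x
  rw [map_one, Module.End.one_apply] at h2
  exact hx (hι (h2.trans (map_zero ι).symm))

/-- The action of a deformation ring on `X`, with the homomorphism to the Hecke algebra of `X`. -/
structure Gal where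
  /-- the Hecke algebra of `X` -/
  Q : Type
  [cr : CommRing Q]
  [lr : IsLocalRing Q]
  [nr : IsNoetherianRing Q]
  [al : Algebra 𝒪 Q]
  [lh : IsLocalHom (algebraMap 𝒪 Q)]
  mkQ : W.T →ₐ[𝒪] Q
  mk_local : IsLocalHom (mkQ : W.T →+* Q)
  mk_surj : Function.Surjective mkQ
  mk_eq_zero : ∀ t, mkQ t = 0 ↔ t ∈ W.ann ι
  φ : D.R →ₐ[𝒪] Q
  φ_local : IsLocalHom (φ : D.R →+* Q)
  φ_surj : Function.Surjective φ
  equiv : (D.ρ.baseChangeAlong (φ : D.R →+* Q) φ_local).IsEquiv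
    (W.ρ.baseChangeAlong (mkQ : W.T →+* Q) mk_local)
  φ_trace : ∀ g, φ (D.ρ.trace g) = mkQ (W.ρ.trace g)
  act : D.R →+* Module.End Λ X
  act_eq : ∀ (f : D.R) (t : W.T), φ f = mkQ t → ∀ x, ι (act f x) = W.act t (ι x)

attribute [instance] Gal.cr Gal.lr Gal.nr Gal.al Gal.lh

include hι in
/-- **Existence of the action.** -/
theorem nonempty_gal [Nontrivial X]
    (hT : ∀ ℓ : ℕ, ℓ.Prime → ℓ ∉ B → ∀ x, ι (Tx ℓ x) = Tl ℓ (ι x)) (h𝒟 : W.TypeMod ι 𝒟) :
    Nonempty (W.Gal ι D) := by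
  obtain ⟨aX, haX⟩ := W.exists_actX ι hι Tx hT
  have hnt : Nontrivial (W.T ⧸ W.ann ι) := Ideal.Quotient.nontrivial_iff.mpr (W.ann_ne_top ι hι)
  have hmks : Function.Surjective (Ideal.Quotient.mkₐ 𝒪 (W.ann ι)) :=
    Ideal.Quotient.mkₐ_surjective 𝒪 _
  have hlr : IsLocalRing (W.T ⧸ W.ann ι) :=
    IsLocalRing.of_surjective' (Ideal.Quotient.mk (W.ann ι)) Ideal.Quotient.mk_surjective
  have hmkl : IsLocalHom (Ideal.Quotient.mkₐ 𝒪 (W.ann ι) : W.T →+* W.T ⧸ W.ann ι) :=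
    IsLocalHom.of_surjective _ hmks
  have hal : IsLocalHom (algebraMap W.T (W.T ⧸ W.ann ι)) :=
    IsLocalHom.of_surjective _ Ideal.Quotient.mk_surjective
  have hac : IsAdicComplete (maximalIdeal (W.T ⧸ W.ann ι)) (W.T ⧸ W.ann ι) :=
    IsLocalRing.isAdicComplete_of_module_finite (𝒪 := W.T)
  have hlh : IsLocalHom (algebraMap 𝒪 (W.T ⧸ W.ann ι)) := by
    rw [IsScalarTower.algebraMap_eq 𝒪 W.T (W.T ⧸ W.ann ι)]
    exact RingHom.isLocalHom_comp _ _
  have hres : Function.Surjective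
      (residue (W.T ⧸ W.ann ι) ∘ algebraMap 𝒪 (W.T ⧸ W.ann ι)) := by
    intro z
    obtain ⟨b, rfl⟩ := IsLocalRing.residue_surjective z
    obtain ⟨t, rfl⟩ := hmks b
    obtain ⟨a, ha⟩ := W.res_surj (residue _ t)
    refine ⟨a, ?_⟩
    have h1 := congrArg (ResidueField.map
      (Ideal.Quotient.mkₐ 𝒪 (W.ann ι) : W.T →+* W.T ⧸ W.ann ι)) ha
    rw [Function.comp_apply, ResidueField.map_residue, ResidueField.map_residue] at h1
    rw [Function.comp_apply, ← AlgHom.commutes (Ideal.Quotient.mkₐ 𝒪 (W.ann ι))]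
    exact h1
  obtain ⟨φ, ⟨hφ, he⟩, -⟩ := D.universal (W.T ⧸ W.ann ι) hres _
    (h𝒟 (W.T ⧸ W.ann ι) (Ideal.Quotient.mkₐ 𝒪 (W.ann ι)) hmkl hmks
      (fun t ht => Ideal.Quotient.eq_zero_iff_mem.mpr ht))
    (RTD.residual_baseChangeAlong_isEquiv W.res_equiv (Ideal.Quotient.mkₐ 𝒪 (W.ann ι)) hmkl)
  have htr : ∀ g, φ (D.ρ.trace g) = Ideal.Quotient.mkₐ 𝒪 (W.ann ι) (W.ρ.trace g) := fun g =>
    (trace_push (φ : D.R →+* W.T ⧸ W.ann ι) hφ he g).trans
      (trace_push (Ideal.Quotient.mkₐ 𝒪 (W.ann ι) : W.T →+* W.T ⧸ W.ann ι) hmkl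
        ⟨GaloisRepAdic.Equiv.refl _⟩ g).symm
  have hsurj : Function.Surjective φ := by
    intro b
    obtain ⟨t, rfl⟩ := hmks b
    refine W.gen (fun t => ∃ a, φ a = Ideal.Quotient.mkₐ 𝒪 (W.ann ι) t) (fun a => ?_)
      (fun ℓ hℓ hB A hA σ hσ => ⟨_, htr σ⟩) (fun a b ha hb => ?_) (fun a b ha hb => ?_) t
    · exact ⟨algebraMap 𝒪 D.R a, by rw [AlgHom.commutes, AlgHom.commutes]⟩
    · obtain ⟨x, hx⟩ := ha
      obtain ⟨y, hy⟩ := hb
      exact ⟨x + y, by rw [map_add, map_add, hx, hy]⟩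
    · obtain ⟨x, hx⟩ := ha
      obtain ⟨y, hy⟩ := hb
      exact ⟨x * y, by rw [map_mul, map_mul, hx, hy]⟩
  have hker : ∀ t ∈ W.ann ι, aX t = 0 := fun t ht => LinearMap.ext fun x => hι (by
    rw [haX, LinearMap.zero_apply, map_zero]
    exact ht x)
  refine ⟨{ Q := W.T ⧸ W.ann ι, mkQ := Ideal.Quotient.mkₐ 𝒪 (W.ann ι), mk_local := hmkl,
            mk_surj := hmks, mk_eq_zero := fun t => Ideal.Quotient.eq_zero_iff_mem, φ := φ,
            φ_local := hφ, φ_surj := hsurj, equiv := he, φ_trace := htr,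
            act := (Ideal.Quotient.lift (W.ann ι) aX hker).comp (φ : D.R →+* W.T ⧸ W.ann ι),
            act_eq := fun f t hft x => ?_ }⟩
  have h1 : (Ideal.Quotient.lift (W.ann ι) aX hker) (φ f) = aX t := by
    rw [hft]
    exact Ideal.Quotient.lift_mk _ _ _
  rw [RingHom.comp_apply]
  change ι ((Ideal.Quotient.lift (W.ann ι) aX hker) (φ f) x) = _
  rw [h1, haX]

variable {W ι D}

theorem Gal.act_trace (G : W.Gal ι D) (g : GQ) (x : X) :
    ι (G.act (D.ρ.trace g) x) = W.act (W.ρ.trace g) (ι x) :=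
  G.act_eq _ _ (G.φ_trace g) x

theorem Gal.act_C (G : W.Gal ι D) (hι : Function.Injective ι) (c : 𝒪) (x : X) :
    G.act (algebraMap 𝒪 D.R c) x = algebraMap 𝒪 Λ c • x := by
  apply hι
  rw [G.act_eq _ (algebraMap 𝒪 W.T c) (by rw [AlgHom.commutes, AlgHom.commutes]), W.act_C,
    map_smul]

theorem Gal.act_of_φ (G : W.Gal ι D) (hι : Function.Injective ι) {f : D.R} (h : G.φ f = 0) :
    G.act f = 0 := by
  refine LinearMap.ext fun x => hι ?_
  rw [G.act_eq f 0 (by rw [h, map_zero]), map_zero, LinearMap.zero_apply, LinearMap.zero_apply,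
    map_zero]

theorem Gal.isUnramifiedAt (G : W.Gal ι D) {q : ℕ} (h : W.ρ.IsUnramifiedAt q) :
    (D.ρ.baseChangeAlong (G.φ : D.R →+* G.Q) G.φ_local).IsUnramifiedAt q := by
  obtain ⟨e⟩ := G.equiv
  exact isUnramifiedAt_of_isEquiv ⟨e.symm⟩ (isUnramifiedAt_baseChange _ G.mk_local h)

end Galois

end TLev

end Fermat.Agent.Sides

end
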