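import Fermat.Agent.S59.TBase
import Fermat.Agent.S59.TSide
import Fermat.Agent.HSide.Top

/-!
# The Hecke algebras acting on the Hecke side: general constructor and the bottom levels
-/

set_option autoImplicit false
set_option linter.style.haveILetI false
set_option synthInstance.maxHeartbeats 400000
set_option maxHeartbeats 1000000

noncomputable section

namespace Fermat.Agent.Sides

open IsLocalRing Fermat.Agent.TwHecke Fermat.Agent.TwExact Fermat.Agent.HeckeRep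
  Fermat.Agent.RTE Fermat.Agent.RTD Fermat.Agent.GalRep Fermat.Agent.HSide CuspForm

section General

variable {p : ℕ} [Fact p.Prime] {𝒪 : Type} [CommRing 𝒪] [IsDomain 𝒪] [IsDiscreteValuationRing 𝒪]
  [IsAdicComplete (maximalIdeal 𝒪) 𝒪] {ρbar : ResidualGaloisRep (ResidueField 𝒪)}
  {S : Finset ℕ} {θ₀ : PIdx (↑S : Set ℕ) → ResidueField 𝒪} {L : ℕ} [NeZero L]

/-- **The Hecke algebra of level `L` with its representation**, from an action on a module. -/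
def TLev.ofHecke (ctx : HCtx p ρbar S θ₀) (hLS : ∀ q : ℕ, q.Prime → q ∣ L → q ∈ S)
    (h : Occ L (↑S : Set ℕ) θ₀) {Λ : Type} [CommRing Λ] [Algebra 𝒪 Λ] {M : Type} [AddCommGroup M]
    [Module Λ M] (Tl : ℕ → Module.End Λ M)
    (act : heckeLocal L (↑S : Set ℕ) 𝒪 (sysHom h) →+* Module.End Λ M)
    (h1 : ∀ (a : 𝒪) x, act (algebraMap 𝒪 _ a) x = algebraMap 𝒪 Λ a • x)
    (h2 : ∀ ℓ : PIdx (↑S : Set ℕ),
      act (heckeLocal.π L (↑S : Set ℕ) 𝒪 (sysHom h) (genS L (↑S : Set ℕ) ℓ)) = Tl ℓ.1) :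
    TLev ρbar Λ M (↑S : Set ℕ) Tl where
  T := heckeLocal L (↑S : Set ℕ) 𝒪 (sysHom h)
  res_surj := residue_surjective L (↑S : Set ℕ) 𝒪 (sysHom h)
  ρ := (heckeDatum ctx hLS h).ρ
  res_equiv := heckeDatum_residual ctx hLS h
  gen P halg hfrob hadd hmul t := by
    refine heckeLocal_induction (sysHom h) halg (fun ℓ => ?_) hadd hmul t
    obtain ⟨A, hA⟩ := Frob.exists_liesOverPrime _ ℓ.1.2
    obtain ⟨σ, hσ⟩ := Frob.exists_isFrobeniusAt ℓ.1.2 hA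
    rw [← heckeDatum_trace ctx hLS h ℓ hA hσ]
    exact hfrob _ ℓ.1.2 ℓ.2 A hA σ hσ
  act := act
  act_C := h1
  act_frob ℓ hℓ hℓS A hA σ hσ := by
    rw [heckeDatum_trace ctx hLS h ⟨⟨ℓ, hℓ⟩, hℓS⟩ hA hσ, h2]

variable (ctx : HCtx p ρbar S θ₀) (hLS : ∀ q : ℕ, q.Prime → q ∣ L → q ∈ S)
    (h : Occ L (↑S : Set ℕ) θ₀) {Λ : Type} [CommRing Λ] [Algebra 𝒪 Λ] {M : Type} [AddCommGroup M]
    [Module Λ M] (Tl : ℕ → Module.End Λ M)
    (act : heckeLocal L (↑S : Set ℕ) 𝒪 (sysHom h) →+* Module.End Λ M)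
    (h1 : ∀ (a : 𝒪) x, act (algebraMap 𝒪 _ a) x = algebraMap 𝒪 Λ a • x)
    (h2 : ∀ ℓ : PIdx (↑S : Set ℕ),
      act (heckeLocal.π L (↑S : Set ℕ) 𝒪 (sysHom h) (genS L (↑S : Set ℕ) ℓ)) = Tl ℓ.1)

theorem TLev.ofHecke_unramified {q : ℕ} (hq : q.Prime) (hqL : ¬ q ∣ L) (hqp : q ≠ p) :
    (TLev.ofHecke ctx hLS h Tl act h1 h2).ρ.IsUnramifiedAt q :=
  heckeDatum_unramified ctx hLS h hq hqL hqp

theorem TLev.ofHecke_det : (TLev.ofHecke ctx hLS h Tl act h1 h2).ρ.DetIsCyclotomic p :=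
  heckeDatum_det ctx hLS h

/-- The same for a power of a module. -/
def TLev.ofHeckePi (I : Type) (Tl : ℕ → Module.End Λ (I → M))
    (act : heckeLocal L (↑S : Set ℕ) 𝒪 (sysHom h) →+* Module.End Λ M)
    (h1 : ∀ (a : 𝒪) x, act (algebraMap 𝒪 _ a) x = algebraMap 𝒪 Λ a • x)
    (h2 : ∀ (ℓ : PIdx (↑S : Set ℕ)) (x : I → M) (i : I), Tl ℓ.1 x i =
      act (heckeLocal.π L (↑S : Set ℕ) 𝒪 (sysHom h) (genS L (↑S : Set ℕ) ℓ)) (x i)) :
    TLev ρbar Λ (I → M) (↑S : Set ℕ) Tl :=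
  TLev.ofHecke ctx hLS h Tl ((piAct I).comp act)
    (fun a x => by
      refine funext fun i => ?_
      rw [RingHom.comp_apply, piAct_apply, h1]
      rfl)
    (fun ℓ => by
      refine LinearMap.ext fun x => funext fun i => ?_
      rw [RingHom.comp_apply, piAct_apply, h2])

end General

section Bot

variable {𝒪 : Type} [CommRing 𝒪] [IsDomain 𝒪] [IsDiscreteValuationRing 𝒪]
  [IsAdicComplete (maximalIdeal 𝒪) 𝒪] [Finite (ResidueField 𝒪)] [CharZero 𝒪]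
  {p : ℕ} [Fact p.Prime] {ι : Type} {qT : ι → ℕ} {S : Finset ℕ} (B : Base 𝒪 p qT S)
  (s : Finset ι) (h : Occ (B.NS s) (↑S : Set ℕ) (thOf B.a (↑S : Set ℕ)))

/-- the action of the Hecke algebra of level `NS s` on the bottom modules -/
def actBot : heckeLocal (B.NS s) (↑S : Set ℕ) 𝒪 (sysHom h) →+* Module.End 𝒪 (B.M0 s) :=
  (B.exists_actT₀ s h).choose

theorem actBot_C (a : 𝒪) (x : B.M0 s) :
    actBot B s h (algebraMap 𝒪 _ a) x = algebraMap 𝒪 𝒪 a • x :=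
  LinearMap.congr_fun ((B.exists_actT₀ s h).choose_spec.1 a) x

theorem actBot_genS (ℓ : PIdx (↑S : Set ℕ)) :
    actBot B s h (heckeLocal.π (B.NS s) (↑S : Set ℕ) 𝒪 (sysHom h)
      (genS (B.NS s) (↑S : Set ℕ) ℓ)) = B.T0 s ℓ.1 :=
  ((B.exists_actT₀ s h).choose_spec.2 ℓ).trans (tvo_hT _ _ _ ℓ).symm

variable {ρbar : ResidualGaloisRep (ResidueField 𝒪)}
  (ctx : HCtx p ρbar S (thOf B.a (↑S : Set ℕ))) (I : Type)

/-- **The bottom levels** `(T2)`: the Hecke algebra of level `NS s` acts on `(B.M0 s)^I`. -/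
def TLev.bot : TLev ρbar 𝒪 (I → B.M0 s) (↑S : Set ℕ) (fun ℓ => (B.T0 s ℓ).compLeft I) :=
  TLev.ofHeckePi ctx (B.NS_mem s) h I _ (actBot B s h) (actBot_C B s h)
    (fun ℓ x i => (LinearMap.congr_fun (actBot_genS B s h ℓ) (x i)).symm)

theorem TLev.bot_unramified {q : ℕ} (hq : q.Prime) (hqN : ¬ q ∣ B.NS s) (hqp : q ≠ p) :
    (TLev.bot B s h ctx I).ρ.IsUnramifiedAt q :=
  heckeDatum_unramified ctx (B.NS_mem s) h hq hqN hqp

theorem TLev.bot_det : (TLev.bot B s h ctx I).ρ.DetIsCyclotomic p :=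
  heckeDatum_det ctx (B.NS_mem s) h

theorem TLev.bot_ρ : (TLev.bot B s h ctx I).ρ = (heckeDatum ctx (B.NS_mem s) h).ρ := rfl

/-- the action, componentwise -/
theorem TLev.bot_act (t : heckeLocal (B.NS s) (↑S : Set ℕ) 𝒪 (sysHom h))
    (x : I → B.M0 s) (i : I) :
    (TLev.bot B s h ctx I).act t x i = actBot B s h t (x i) := rfl

end Bot

section Top

variable {𝒪 : Type} [CommRing 𝒪] [IsDomain 𝒪] [IsDiscreteValuationRing 𝒪]
  [IsAdicComplete (maximalIdeal 𝒪) 𝒪] [Finite (ResidueField 𝒪)] [CharZero 𝒪]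
  {p : ℕ} [Fact p.Prime] {ι : Type} {qT : ι → ℕ} {S : Finset ℕ} (B : Base 𝒪 p qT S)
  {m : ℕ} {qv : Fin m → ℕ} (A : Auxs B qv) [IsLocalRing (Lam 𝒪 p qv)] (s : Finset ι)
  [NeZero (B.lev2 qv s)]
  (h : Occ (B.lev2 qv s) (↑(B.Sn qv) : Set ℕ) (thOf B.a (↑(B.Sn qv) : Set ℕ)))

/-- the action of the Hecke algebra of level `lev2 s` on the top modules -/
def actTop : B.TT s h →+* Module.End (Lam 𝒪 p qv) (B.MM qv s) :=
  (B.exists_actT A s h).choose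

theorem actTop_C (a : 𝒪) (x : B.MM qv s) :
    actTop B A s h (algebraMap 𝒪 _ a) x = algebraMap 𝒪 (Lam 𝒪 p qv) a • x :=
  LinearMap.congr_fun ((B.exists_actT A s h).choose_spec.1 a) x

theorem actTop_genS (ℓ : PIdx (↑(B.Sn qv) : Set ℕ)) :
    actTop B A s h (heckeLocal.π (B.lev2 qv s) (↑(B.Sn qv) : Set ℕ) 𝒪 (sysHom h)
      (genS (B.lev2 qv s) (↑(B.Sn qv) : Set ℕ) ℓ)) = B.T qv s ℓ.1 :=
  ((B.exists_actT A s h).choose_spec.2 ℓ).trans (tvo_hT _ _ _ ℓ).symm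

variable {ρbar : ResidualGaloisRep (ResidueField 𝒪)}
  (ctx : HCtx p ρbar (B.Sn qv) (thOf B.a (↑(B.Sn qv) : Set ℕ)))

/-- **The top levels** `(T1)`: the Hecke algebra of level `lev2 s` acts on `B.MM qv s`. -/
def TLev.top : TLev ρbar (Lam 𝒪 p qv) (B.MM qv s) (↑(B.Sn qv) : Set ℕ) (B.T qv s) :=
  TLev.ofHecke ctx (B.lev2_mem A s) h (B.T qv s) (actTop B A s h) (actTop_C B A s h)
    (actTop_genS B A s h)

theorem TLev.top_unramified {q : ℕ} (hq : q.Prime) (hqN : ¬ q ∣ B.lev2 qv s) (hqp : q ≠ p) :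
    (TLev.top B A s h ctx).ρ.IsUnramifiedAt q :=
  heckeDatum_unramified ctx (B.lev2_mem A s) h hq hqN hqp

theorem TLev.top_det : (TLev.top B A s h ctx).ρ.DetIsCyclotomic p :=
  heckeDatum_det ctx (B.lev2_mem A s) h

theorem TLev.top_ρ : (TLev.top B A s h ctx).ρ = (heckeDatum ctx (B.lev2_mem A s) h).ρ := rfl

theorem TLev.top_act : (TLev.top B A s h ctx).act = actTop B A s h := rfl

end Top

end Fermat.Agent.Sides
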